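/-
Functions of level `Γ₀(q) ∩ Γ(m)` inside the field of level `Γ(M)`, by the constants of their
series; change of constants and coordinates over a Galois extension of constants.
-/
import Fermat.Agent.Models.Field.Conj
import Fermat.Agent.GalRep.Level.Galois
import Fermat.Agent.GalRep.KummerIntegral
import Fermat.Agent.Moduli.FieldGen

set_option autoImplicit false
set_option linter.style.haveILetI false
set_option linter.unusedSectionVars false

noncomputable section

namespace Fermat.Agent.ModField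

open UpperHalfPlane CongruenceSubgroup Polynomial
open Fermat.Agent.GalRep
open Fermat.Agent.GalRep.Level
open scoped MatrixGroups

/-- The group `Γ₀(q) ∩ Γ(m)`. -/
def levelG (q m : ℕ) : Subgroup SL(2, ℤ) := Gamma0 q ⊓ Gamma m

theorem mem_levelG {q m : ℕ} {g : SL(2, ℤ)} : g ∈ levelG q m ↔ g ∈ Gamma0 q ∧ g ∈ Gamma m :=
  Iff.rfl

theorem conjEq_of_dvd {M M' : ℕ} (hd : M' ∣ M) {a : (ZMod M)ˣ} {g g' : SL(2, ℤ)}
    (h : ConjEq M a g g') :
    ConjEq M' (Units.map (ZMod.castHom hd (ZMod M')).toMonoidHom a) g g' := by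
  rw [conjEq_iff] at h ⊢
  obtain ⟨h1, h2, h3, h4⟩ := h
  have e1 := congrArg (ZMod.castHom hd (ZMod M')) h1
  have e2 := congrArg (ZMod.castHom hd (ZMod M')) h2
  have e3 := congrArg (ZMod.castHom hd (ZMod M')) h3
  have e4 := congrArg (ZMod.castHom hd (ZMod M')) h4
  simp only [map_intCast, map_mul] at e1 e2 e3 e4
  exact ⟨e1, e2, e3, e4⟩

theorem levelG_conj {q m M : ℕ} (hq : q ∣ M) (hm : m ∣ M) {a : (ZMod M)ˣ} {g g' : SL(2, ℤ)}
    (h : ConjEq M a g g') (hg : g ∈ levelG q m) : g' ∈ levelG q m :=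
  ⟨(isLevel_gamma0 q).conj_mem _ g g' (conjEq_of_dvd hq h) hg.1,
    (isLevel_gamma m).conj_mem _ g g' (conjEq_of_dvd hm h) hg.2⟩

theorem gamma_le_levelG {q m M : ℕ} (hq : q ∣ M) (hm : m ∣ M) : Gamma M ≤ levelG q m := by
  intro g hg
  obtain ⟨h1, h2, h3, h4⟩ := Gamma_mem.mp hg
  have e : ∀ {d : ℕ} (_ : d ∣ M) {x y : ℤ}, (x : ZMod M) = y → (x : ZMod d) = y := fun {d} hd {x y} h => by
    have := congrArg (ZMod.castHom hd (ZMod d)) h
    simpa using this
  refine ⟨Gamma0_mem.mpr ?_, Gamma_mem.mpr ⟨?_, ?_, ?_, ?_⟩⟩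
  · simpa using e hq (y := 0) (by simpa using h3)
  · simpa using e hm (y := 1) (by simpa using h1)
  · simpa using e hm (y := 0) (by simpa using h2)
  · simpa using e hm (y := 0) (by simpa using h3)
  · simpa using e hm (y := 1) (by simpa using h4)

variable {O : Type} [CommRing O] [IsDomain O] {M : ℕ} [NeZero M] (E : Emb O M) (q m : ℕ)

/-- Elements invariant under `Γ₀(q) ∩ Γ(m)` with series over `K`. -/
def levelFld (K : Subfield ℂ) : Subfield (Fld E) where
  carrier := {x | (∀ g ∈ levelG q m, fShift E g x = x) ∧ toLS E x ∈ kSer K}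
  one_mem' := ⟨fun g _ => map_one _, by rw [map_one]; exact one_mem _⟩
  zero_mem' := ⟨fun g _ => map_zero _, by rw [map_zero]; exact zero_mem _⟩
  add_mem' ha hb := ⟨fun g hg => by rw [map_add, ha.1 g hg, hb.1 g hg],
    by rw [map_add]; exact add_mem ha.2 hb.2⟩
  mul_mem' ha hb := ⟨fun g hg => by rw [map_mul, ha.1 g hg, hb.1 g hg],
    by rw [map_mul]; exact mul_mem ha.2 hb.2⟩
  neg_mem' ha := ⟨fun g hg => by rw [map_neg, ha.1 g hg], by rw [map_neg]; exact neg_mem ha.2⟩
  inv_mem' x ha := ⟨fun g hg => by rw [map_inv₀, ha.1 g hg],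
    by rw [map_inv₀]; exact inv_mem ha.2⟩

variable {E q m}

theorem mem_levelFld {K : Subfield ℂ} {x : Fld E} :
    x ∈ levelFld E q m K ↔ (∀ g ∈ levelG q m, fShift E g x = x) ∧ toLS E x ∈ kSer K := Iff.rfl

theorem kSer_mono {K K' : Subfield ℂ} (h : K ≤ K') : kSer K ≤ kSer K' := fun _ hf =>
  mem_kSer.mpr fun i => h (mem_kSer.mp hf i)

theorem levelFld_mono {K K' : Subfield ℂ} (h : K ≤ K') : levelFld E q m K ≤ levelFld E q m K' :=
  fun _ hx => ⟨hx.1, kSer_mono h hx.2⟩

theorem jF_mem_levelFld (K : Subfield ℂ) : jF E ∈ levelFld E q m K := by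
  refine ⟨fun g _ => fShift_jF E g, ?_⟩
  rw [toLS_jF, jqN_eq, jq_eq_jqModC, ← lmap_jqModC K.subtype, ← lmap_expand]
  exact ⟨_, rfl⟩

/-- The series of `j` is transcendental. -/
theorem aeval_jqN_injective' {M : ℕ} [NeZero M] {P : ℂ[X]}
    (h : aeval (serAlg M (jMF (Gamma M))) P = 0) : P = 0 := by
  rw [aeval_algHom_apply] at h
  have h0 : aeval (jMF (Gamma M)) P = 0 := serAlg_injective M (h.trans (map_zero _).symm)
  refine eq_zero_of_eval_jFun fun τ => ?_
  have h2 : (modFuns (Gamma M)).val (aeval (jMF (Gamma M)) P) τ = 0 := by rw [h0]; rfl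
  rw [← aeval_algHom_apply (modFuns (Gamma M)).val] at h2
  simpa [Polynomial.aeval_fn_apply, jMF] using h2

theorem cstK_mem_levelFld {K : Subfield ℂ} (c : E.K) (hc : (c : ℂ) ∈ K) :
    cstK E c ∈ levelFld E q m K := by
  refine ⟨fun g _ => fShift_cstK E g c, mem_kSer.mpr fun i => ?_⟩
  rw [cstK, RingHom.comp_apply, toLS_toFld]
  show ((serAlg M) (algebraMap ℂ (MF M) (c : ℂ))).coeff i ∈ K
  have e : algebraMap ℂ (LaurentSeries ℂ) (c : ℂ) = HahnSeries.C (c : ℂ) := by
    simp [HahnSeries.algebraMap_apply']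
  rw [AlgHom.commutes, e, HahnSeries.C_apply, HahnSeries.coeff_single]
  split_ifs
  · exact hc
  · exact zero_mem K

theorem fConj_mem_levelFld (hq : q ∣ M) (hm : m ∣ M) (σ : stabK E) {K : Subfield ℂ}
    (hσ : ∀ c ∈ K, σ.1 c ∈ K) {x : Fld E} (hx : x ∈ levelFld E q m K) :
    fConj E σ x ∈ levelFld E q m K := by
  refine ⟨fun g hg => ?_, mem_kSer.mpr fun i => ?_⟩
  · obtain ⟨g₀, hg₀⟩ := exists_conjEq_symm (cycC M σ.1) g
    have h₀ : g₀ ∈ levelG q m := levelG_conj hq hm (by
      have := hg₀.symm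
      exact this) hg
    rw [← fConj_fShift E σ hg₀, hx.1 g₀ h₀]
  · rw [toLS_fConj, lmap_coeff]
    exact hσ _ (mem_kSer.mp hx.2 i)

theorem fConj_eq_self (σ : stabK E) {K : Subfield ℂ} (hσ : ∀ c ∈ K, σ.1 c = c) {x : Fld E}
    (hx : x ∈ levelFld E q m K) : fConj E σ x = x := by
  refine toLS_injective E ?_
  rw [toLS_fConj]
  ext i
  rw [lmap_coeff]
  exact hσ _ (mem_kSer.mp hx.2 i)

/-! ## Change of constants -/

section Incl

variable {O' : Type} [CommRing O'] [IsDomain O'] {E' : Emb O' M} (h : E.K ≤ E'.K)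

include h in
theorem bddMF_mono : bddMF E ≤ bddMF E' := fun _ hφ =>
  bdd_of_kSer E' (kSer_mono h (kSer_of_bdd E hφ))

/-- The inclusion for larger constants. -/
def inclFld : Fld E →+* Fld E' :=
  IsFractionRing.lift (A := bddMF E) (K := FractionRing (bddMF E))
    (g := (toFld E').comp (Subring.inclusion (bddMF_mono h)))
    ((toFld_injective E').comp (Subring.inclusion_injective (bddMF_mono h)))

theorem inclFld_toFld (a : bddMF E) :
    inclFld h (toFld E a) = toFld E' ⟨a, bddMF_mono h a.2⟩ :=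
  IsFractionRing.lift_algebraMap (A := bddMF E) (K := FractionRing (bddMF E))
    ((toFld_injective E').comp (Subring.inclusion_injective (bddMF_mono h))) a

theorem toLS_inclFld (x : Fld E) : toLS E' (inclFld h x) = toLS E x := by
  obtain ⟨a, b, -, rfl⟩ := exists_eq_div E x
  simp only [map_div₀, inclFld_toFld, toLS_toFld]

theorem inclFld_fShift (g : SL(2, ℤ)) (x : Fld E) :
    inclFld h (fShift E g x) = fShift E' g (inclFld h x) := by
  obtain ⟨a, b, -, rfl⟩ := exists_eq_div E x
  simp only [map_div₀, fShift_toFld, inclFld_toFld]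

theorem inclFld_jF : inclFld h (jF E) = jF E' := toLS_injective E' (by
  rw [toLS_inclFld, toLS_jF, toLS_jF])

theorem inclFld_mem {K : Subfield ℂ} {x : Fld E} :
    inclFld h x ∈ levelFld E' q m K ↔ x ∈ levelFld E q m K := by
  simp only [mem_levelFld, toLS_inclFld, ← inclFld_fShift, (inclFld h).injective.eq_iff]

/-- An element over smaller constants comes from the smaller field. -/
theorem exists_incl_eq {K : Subfield ℂ} (hK : K ≤ E.K) (hK' : ∀ c ∈ E'.K, IsAlgebraic K c)
    {z : Fld E'} (hz : z ∈ levelFld E' q m K) : ∃ x ∈ levelFld E q m K, inclFld h x = z := by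
  classical
  obtain ⟨a, b, hb, rfl⟩ := exists_eq_div E' z
  haveI : Fintype SL(2, ZMod M) := Fintype.ofFinite _
  let c₀ : bddMF E' :=
    ∏ y ∈ (Finset.univ : Finset SL(2, ZMod M)).erase 1, shiftB E' (Level.lift y) b
  have hinv : ∀ g, shift M g ((b * c₀ : bddMF E') : MF M) = (b * c₀ : bddMF E') := by
    have e0 : (b * c₀ : bddMF E') = ∏ y : SL(2, ZMod M), shiftB E' (Level.lift y) b := by
      rw [← Finset.mul_prod_erase Finset.univ _ (Finset.mem_univ (1 : SL(2, ZMod M)))]
      congr 1
      refine Subtype.ext ?_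
      show (b : MF M) = shift M (Level.lift (1 : SL(2, ZMod M))) b
      rw [shift_eq_of_red_eq (g := Level.lift (1 : SL(2, ZMod M))) (h := 1)
        (by rw [red_lift, map_one]), shift_one]
    intro g
    have e : ∀ y, shift M g ((shiftB E' (Level.lift y) b : bddMF E') : MF M) =
        ((shiftB E' (Level.lift (y * red M g)) b : bddMF E') : MF M) := fun y => by
      show shift M g (shift M (Level.lift y) (b : MF M)) = shift M (Level.lift (y * red M g)) b
      rw [shift_shift]
      exact shift_eq_of_red_eq (by rw [map_mul, red_lift, red_lift]) _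
    rw [e0]
    simp only [SubmonoidClass.coe_finsetProd, map_prod, e]
    exact Fintype.prod_equiv (Equiv.mulRight (red M g)) _ _ fun y => rfl
  obtain ⟨P, hP⟩ := exists_eval_of_invariant E' (b * c₀).2 hinv
  -- a multiple of `P` with coefficients in `K`
  set K'' : Subfield ℂ := E'.K ⊔ K
  let incK : E'.K →+* K'' := Subfield.inclusion le_sup_left
  let algK : K →+* K'' := Subfield.inclusion le_sup_right
  letI : Algebra K K'' := algK.toAlgebra
  haveI : IsScalarTower K K'' ℂ := IsScalarTower.of_algebraMap_eq fun _ => rfl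
  letI : Algebra K[X] K''[X] := (Polynomial.mapRingHom algK).toAlgebra
  have hPint : IsIntegral K[X] (P.map incK) := by
    rw [Polynomial.as_sum_range_C_mul_X_pow (P.map incK)]
    refine IsIntegral.sum _ fun i _ => IsIntegral.mul ?_ (IsIntegral.pow ?_ _)
    · have hi : IsIntegral K ((P.map incK).coeff i) := by
        rw [coeff_map]
        have h1 := (hK' _ (P.coeff i).2).isIntegral
        exact (isIntegral_algHom_iff (IsScalarTower.toAlgHom K K'' ℂ) (x := incK (P.coeff i))
          Subtype.val_injective).mp h1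
      exact hi.map_of_comp_eq (φ := (C : K →+* K[X])) (ψ := (C : K'' →+* K''[X]))
        (RingHom.ext fun r => by simp [RingHom.algebraMap_toAlgebra])
    · have : (X : K''[X]) = algebraMap K[X] K''[X] X := by simp
      rw [this]
      exact isIntegral_algebraMap
  have hb0 : (b : MF M) ≠ 0 := fun h0 => hb (Subtype.ext h0)
  have hP0 : P ≠ 0 := by
    rintro rfl
    rw [Polynomial.map_zero, map_zero] at hP
    have : ∀ y : SL(2, ZMod M), shiftB E' (Level.lift y) b ≠ 0 := fun y h0 =>
      hb ((shiftB E' (Level.lift y)).injective (h0.trans (map_zero _).symm))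
    have h0 : b * c₀ = 0 := Subtype.ext hP
    exact mul_ne_zero hb (Finset.prod_ne_zero_iff.mpr fun y _ => this y) h0
  obtain ⟨R, hR0, hR⟩ := hPint.isAlgebraic.exists_nonzero_dvd
    (mem_nonZeroDivisors_of_ne_zero ((Polynomial.map_ne_zero_iff incK.injective).mpr hP0))
  obtain ⟨T, hT⟩ := hR
  -- the new denominator
  let inC : K''[X] →+* MF M :=
    ((aeval (jMF (Gamma M))).toRingHom).comp (Polynomial.mapRingHom K''.subtype)
  set bK : MF M := aeval (jMF (Gamma M)) (R.map K.subtype) with hbK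
  have hbK_eq : bK = (b : MF M) * ((c₀ : MF M) * inC T) := by
    have h1 := congrArg inC hT
    rw [map_mul] at h1
    have e1 : inC (algebraMap K[X] K''[X] R) = bK := by
      simp only [inC, RingHom.comp_apply, Polynomial.coe_mapRingHom]
      rw [show algebraMap K[X] K''[X] R = R.map algK from rfl, Polynomial.map_map]
      rfl
    have e2 : inC (P.map incK) = (b : MF M) * c₀ := by
      simp only [inC, RingHom.comp_apply, Polynomial.coe_mapRingHom, Polynomial.map_map]
      exact hP.symm.trans (Subring.coe_mul _ b c₀)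
    rw [← e1, h1, e2, mul_assoc]
  set aK : MF M := (a : MF M) * ((c₀ : MF M) * inC T) with haK
  have hjK : serAlg M (jMF (Gamma M)) ∈ kSer K := by
    have := (jF_mem_levelFld (E := E) (q := q) (m := m) K).2
    rwa [toLS_jF] at this
  have hbser : serAlg M bK ∈ kSer K := by
    rw [hbK, ← aeval_algHom_apply, aeval_eq_sum_range]
    refine sum_mem fun i _ => ?_
    rw [coeff_map, Algebra.smul_def]
    refine mul_mem (mem_kSer.mpr fun k => ?_) (pow_mem hjK i)
    have e : algebraMap ℂ (LaurentSeries ℂ) ((R.coeff i : K) : ℂ) = HahnSeries.C ((R.coeff i : K) : ℂ) := by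
      simp [HahnSeries.algebraMap_apply']
    rw [show K.subtype (R.coeff i) = ((R.coeff i : K) : ℂ) from rfl, e, HahnSeries.C_apply,
      HahnSeries.coeff_single]
    split_ifs
    · exact (R.coeff i).2
    · exact zero_mem K
  have hbK0 : bK ≠ 0 := by
    intro h0
    rw [hbK, ← map_eq_zero_iff _ (serAlg_injective M), ← aeval_algHom_apply] at h0
    exact hR0 ((Polynomial.map_eq_zero_iff K.subtype.injective).mp (aeval_jqN_injective' h0))
  have haser : serAlg M aK ∈ kSer K := by
    have e : serAlg M aK = toLS E' (toFld E' a / toFld E' b) * serAlg M bK := by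
      have hsb : serAlg M (b : MF M) ≠ 0 := (map_ne_zero_iff _ (serAlg_injective M)).mpr hb0
      rw [map_div₀, toLS_toFld, toLS_toFld, haK, hbK_eq]
      simp only [map_mul]
      field_simp
    rw [e]
    exact mul_mem hz.2 hbser
  have hkey : serAlg M aK * serAlg M (b : MF M) = serAlg M (a : MF M) * serAlg M bK := by
    rw [haK, hbK_eq]
    simp only [map_mul]
    ring
  refine ⟨toFld E ⟨aK, bdd_of_kSer E (kSer_mono hK haser)⟩ /
    toFld E ⟨bK, bdd_of_kSer E (kSer_mono hK hbser)⟩, ?_, ?_⟩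
  swap
  · refine toLS_injective E' ?_
    rw [toLS_inclFld, map_div₀, map_div₀, toLS_toFld, toLS_toFld, toLS_toFld, toLS_toFld]
    have hsb : serAlg M (b : MF M) ≠ 0 := (map_ne_zero_iff _ (serAlg_injective M)).mpr hb0
    have hsb' : serAlg M bK ≠ 0 := (map_ne_zero_iff _ (serAlg_injective M)).mpr hbK0
    rw [div_eq_div_iff hsb' hsb]
    exact hkey
  · rw [← inclFld_mem h]
    convert hz using 1
    refine toLS_injective E' ?_
    rw [toLS_inclFld, map_div₀, map_div₀, toLS_toFld, toLS_toFld, toLS_toFld, toLS_toFld]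
    have hsb : serAlg M (b : MF M) ≠ 0 := (map_ne_zero_iff _ (serAlg_injective M)).mpr hb0
    have hsb' : serAlg M bK ≠ 0 := (map_ne_zero_iff _ (serAlg_injective M)).mpr hbK0
    rw [div_eq_div_iff hsb' hsb]
    exact hkey

end Incl

/-! ## Coordinates -/

/-- Over a Galois extension of constants, elements have coordinates over the smaller constants. -/
theorem exists_coords (hq : q ∣ M) (hm : m ∣ M) {K : Subfield ℂ} (L : IntermediateField K ℂ)
    [FiniteDimensional K L] [IsGalois K L] (hEK : E.K = Subfield.closure ((L : Set ℂ) ∪ {Model.zetaC M}))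
    {ι : Type} [Fintype ι] [DecidableEq ι] (bL : Module.Basis ι K L) {z : Fld E}
    (hz : z ∈ levelFld E q m L.toSubfield) :
    ∃ f : ι → Fld E, (∀ i, f i ∈ levelFld E q m K) ∧
      z = ∑ i, f i * cstK E ⟨(bL i : ℂ), hEK ▸ Subfield.subset_closure (Or.inl (bL i).2)⟩ := by
  classical
  have hmem : ∀ x : L, (x : ℂ) ∈ E.K := fun x => hEK ▸ Subfield.subset_closure (Or.inl x.2)
  have hKmem : ∀ c ∈ K, c ∈ L := fun c hc => L.algebraMap_mem ⟨c, hc⟩
  choose σ hσ using fun s : L ≃ₐ[K] L => Moduli.exists_complexAut_extend L.toSubfield s.toRingEquiv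
  have hσL : ∀ (s : L ≃ₐ[K] L) (x : L), σ s x = s x := fun s x => hσ s ⟨x, x.2⟩
  have hσK : ∀ (s : L ≃ₐ[K] L) c, c ∈ K → σ s c = c := fun s c hc => by
    rw [hσL s ⟨c, hKmem c hc⟩]
    exact congrArg Subtype.val (s.commutes ⟨c, hc⟩)
  have hstab : ∀ s, σ s ∈ stabK E := by
    intro s
    have key : ∀ τ : ℂ ≃+* ℂ, (∀ x ∈ L, τ x ∈ L) → ∀ c ∈ E.K, τ c ∈ E.K := by
      intro τ hτ c hc
      rw [hEK] at hc ⊢
      induction hc using Subfield.closure_induction with
      | mem x hx =>
        rcases hx with hx | hx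
        · exact Subfield.subset_closure (Or.inl (hτ x hx))
        · rw [Set.mem_singleton_iff] at hx
          subst hx
          rw [cycC_spec τ (zetaC_pow M)]
          exact pow_mem (Subfield.subset_closure (s := (L : Set ℂ) ∪ {Model.zetaC M}) (Or.inr rfl)) _
      | one => rw [map_one]; exact one_mem _
      | add x y _ _ hx hy => rw [map_add]; exact add_mem hx hy
      | neg x _ hx => rw [map_neg]; exact neg_mem hx
      | inv x _ hx => rw [map_inv₀]; exact inv_mem hx
      | mul x y _ _ hx hy => rw [map_mul]; exact mul_mem hx hy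
    refine fun c => ⟨fun hc => ?_, key (σ s) (fun x hx => by
      rw [hσL s ⟨x, hx⟩]; exact SetLike.coe_mem _) c⟩
    have := key (σ s).symm (fun x hx => by
      rw [show (σ s).symm x = ((s.symm ⟨x, hx⟩ : L) : ℂ) from (σ s).injective (by
        rw [RingEquiv.apply_symm_apply, hσL, AlgEquiv.apply_symm_apply])]
      exact SetLike.coe_mem _) _ hc
    rwa [RingEquiv.symm_apply_apply] at this
  let σ' : (L ≃ₐ[K] L) → stabK E := fun s => ⟨σ s, hstab s⟩
  let c := (Algebra.traceForm K L).dualBasis (traceForm_nondegenerate K L) bL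
  let cL : L →+* Fld E := (cstK E).comp (L.val.toRingHom.codRestrict E.K hmem)
  -- the sums
  have hS : ∀ s : L ≃ₐ[K] L, ∑ i, bL i * s (c i) = if s = 1 then 1 else 0 := by
    have hx : ∀ x : L, ∑ s : L ≃ₐ[K] L, (∑ i, bL i * s (c i)) * s x = x := by
      intro x
      conv_rhs => rw [← bL.sum_repr x]
      simp only [Finset.sum_mul]
      rw [Finset.sum_comm]
      refine Finset.sum_congr rfl fun i _ => ?_
      simp only [mul_assoc, ← map_mul]
      rw [← Finset.mul_sum, ← trace_eq_sum_automorphisms, Algebra.smul_def, mul_comm]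
      congr 2
      rw [← Algebra.traceForm_apply]
      have e1 := congrArg (Algebra.traceForm K L (c i)) (bL.sum_repr x)
      simp only [map_sum, map_smul, c, LinearMap.BilinForm.apply_dualBasis_left, smul_eq_mul,
        mul_ite, mul_one, mul_zero, Finset.sum_ite_eq', Finset.mem_univ, if_true] at e1
      rw [← e1]
    have hli := linearIndependent_monoidHom L L |>.comp
      (fun s : L ≃ₐ[K] L => (s.toAlgHom.toRingHom.toMonoidHom : L →* L))
      (fun s t h => AlgEquiv.ext fun x => DFunLike.congr_fun h x)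
    have h0 := Fintype.linearIndependent_iff.mp hli
      (fun s => (∑ i, bL i * s (c i)) - if s = 1 then 1 else 0) (funext fun x => by
        simp only [Finset.sum_apply, Pi.smul_apply, smul_eq_mul, Function.comp_apply,
          Pi.zero_apply, sub_mul, Finset.sum_sub_distrib, ite_mul, one_mul, zero_mul,
          Finset.sum_ite_eq', Finset.mem_univ, if_true]
        show ∑ s : L ≃ₐ[K] L, (∑ i, bL i * s (c i)) * s x - x = 0
        rw [hx, sub_self])
    exact fun s => sub_eq_zero.mp (h0 s)
  refine ⟨fun i => ∑ s : L ≃ₐ[K] L, fConj E (σ' s) (z * cL (c i)), fun i => ?_, ?_⟩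
  · have hcz : z * cL (c i) ∈ levelFld E q m L.toSubfield :=
      mul_mem hz (cstK_mem_levelFld _ (c i).2)
    have hsum : ∑ s : L ≃ₐ[K] L, fConj E (σ' s) (z * cL (c i)) ∈ levelFld E q m L.toSubfield :=
      sum_mem fun s _ => fConj_mem_levelFld hq hm (σ' s)
        (fun x hx => by rw [hσL s ⟨x, hx⟩]; exact SetLike.coe_mem _) hcz
    refine ⟨hsum.1, mem_kSer.mpr fun k => ?_⟩
    -- the coefficients are traces
    set y : L := ⟨(toLS E (z * cL (c i))).coeff k, mem_kSer.mp hcz.2 k⟩
    have : (toLS E (∑ s : L ≃ₐ[K] L, fConj E (σ' s) (z * cL (c i)))).coeff k =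
        ((algebraMap K L (Algebra.trace K L y) : L) : ℂ) := by
      rw [map_sum, HahnSeries.coeff_sum, trace_eq_sum_automorphisms]
      simp only [AddSubmonoidClass.coe_finsetSum, toLS_fConj, lmap_coeff]
      exact Finset.sum_congr rfl fun s _ => hσL s y
    rw [this]
    exact (Algebra.trace K L y).2
  · have hf : ∀ i s, fConj E (σ' s) (z * cL (c i)) = fConj E (σ' s) z * cL (s (c i)) := fun i s => by
      rw [map_mul]
      congr 1
      simp only [cL, RingHom.comp_apply, fConj_cstK]
      congr 1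
      exact Subtype.ext (hσL s (c i))
    simp only [Finset.sum_mul, hf]
    rw [Finset.sum_comm]
    have e1 : ∀ s, ∑ i, fConj E (σ' s) z * cL (s (c i)) *
        cstK E ⟨(bL i : ℂ), hEK ▸ Subfield.subset_closure (Or.inl (bL i).2)⟩ =
        fConj E (σ' s) z * cL (if s = 1 then 1 else 0) := fun s => by
      rw [← hS s, map_sum, Finset.mul_sum]
      refine Finset.sum_congr rfl fun i _ => ?_
      rw [mul_assoc]
      congr 1
      rw [map_mul, mul_comm]
      rfl
    simp only [e1]
    rw [Finset.sum_eq_single (1 : L ≃ₐ[K] L) (fun s _ hs => by rw [if_neg hs, map_zero, mul_zero])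
      (fun h1 => absurd (Finset.mem_univ _) h1), if_pos rfl, map_one, mul_one]
    refine (fConj_eq_self (q := q) (m := m) (σ' 1) (K := L.toSubfield) ?_ hz).symm
    intro x hx
    rw [show (σ' 1).1 x = ((1 : L ≃ₐ[K] L) ⟨x, hx⟩ : L) from hσL 1 ⟨x, hx⟩]
    rfl

end Fermat.Agent.ModField
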