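/-
The field of level `Γ₀(q) ∩ Γ(m)` over an unramified base `W` inside the field of level `Γ(M)` over
`O = W[ζ]`: the algebra structure, integrality over `W[w]`, finiteness of charts and of the
extension.
-/
import Fermat.Agent.Models.Gamma0.Field
import Fermat.Agent.Models.Field.Charts

set_option autoImplicit false
set_option linter.style.haveILetI false
set_option linter.unusedSectionVars false

noncomputable section

namespace Fermat.Agent.ModField

open Polynomial CongruenceSubgroup
open Fermat.Agent.GalRep
open Fermat.Agent.GalRep.Level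
open Fermat.Agent.GalRep.Model (chartRing)
open scoped MatrixGroups

theorem mem_chart_iff {R F : Type} [CommRing R] [Field F] [Algebra R F] {w x : F} :
    x ∈ chartRing R w ↔ IsIntegral (Algebra.adjoin R ({w} : Set F)) x := Iff.rfl

theorem self_mem_chart {R F : Type} [CommRing R] [Field F] [Algebra R F] (w : F) :
    w ∈ chartRing R w :=
  mem_chart_iff.2 (isIntegral_algebraMap
    (x := (⟨w, Algebra.self_mem_adjoin_singleton R w⟩ : Algebra.adjoin R ({w} : Set F))))

theorem isIntegral_adjoin_iff' {R F : Type} [CommRing R] [Field F] [Algebra R F] (w x : F) :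
    IsIntegral (Algebra.adjoin R ({w} : Set F)) x ↔
      ∃ P : R[X][X], P.Monic ∧ P.eval₂ (aeval w).toRingHom x = 0 := by
  let φ : R[X] →+* Algebra.adjoin R ({w} : Set F) :=
    (aeval (⟨w, Algebra.self_mem_adjoin_singleton R w⟩ : Algebra.adjoin R ({w} : Set F))).toRingHom
  have hcomp : (algebraMap (Algebra.adjoin R ({w} : Set F)) F).comp φ = (aeval w).toRingHom := by
    refine Polynomial.ringHom_ext (fun a => ?_) ?_ <;> simp [φ]
  constructor
  · rintro ⟨P, hP, hPx⟩
    have hφ : Function.Surjective φ := by
      rintro ⟨a, ha⟩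
      rw [Algebra.adjoin_singleton_eq_range_aeval] at ha
      obtain ⟨Q, rfl⟩ := ha
      exact ⟨Q, Subtype.ext (RingHom.congr_fun hcomp Q)⟩
    obtain ⟨Q, hQ, -, hQm⟩ := Polynomial.lifts_and_natDegree_eq_and_monic
      ((Polynomial.mem_lifts P).mpr (Polynomial.map_surjective φ hφ P)) hP
    refine ⟨Q, hQm, ?_⟩
    rwa [← hQ, eval₂_map, hcomp] at hPx
  · rintro ⟨P, hP, hPx⟩
    exact ⟨P.map φ, hP.map φ, by rw [eval₂_map, hcomp]; exact hPx⟩

variable (W : Type) [CommRing W] {O : Type} [CommRing O] [IsDomain O] [Algebra W O]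
  {M : ℕ} [NeZero M] (E : Emb O M) (q m : ℕ)

/-- The unramified constants. -/
def baseK : Subfield ℂ := Subfield.closure (Set.range (E.φ.comp (algebraMap W O)))

theorem baseK_le : baseK W E ≤ E.K :=
  Subfield.closure_le.mpr fun _ ⟨a, ha⟩ => ha ▸ E.φ_mem _

theorem φ_mem_baseK (a : W) : E.φ (algebraMap W O a) ∈ baseK W E :=
  Subfield.subset_closure ⟨a, rfl⟩

/-- The field of level `Γ₀(q) ∩ Γ(m)` over the unramified constants. -/
abbrev Fld₀ : Subfield (Fld E) := levelFld E q m (baseK W E)

/-- `j` in the descended field. -/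
def jF₀ : Fld₀ W E q m := ⟨jF E, jF_mem_levelFld _⟩

theorem coe_jF₀ : ((jF₀ W E q m : Fld₀ W E q m) : Fld E) = jF E := rfl

theorem coe_inv_jF₀ : (((jF₀ W E q m)⁻¹ : Fld₀ W E q m) : Fld E) = (jF E)⁻¹ := rfl

theorem jF₀_ne_zero : jF₀ W E q m ≠ 0 := fun h => jF_ne_zero E (congrArg Subtype.val h)

variable [Algebra W (Fld E)] [IsScalarTower W O (Fld E)]

theorem algebraMap_mem_fld₀ (a : W) : algebraMap W (Fld E) a ∈ Fld₀ W E q m := by
  rw [IsScalarTower.algebraMap_apply W O (Fld E), ← cstK_φ]
  exact cstK_mem_levelFld _ (φ_mem_baseK W E a)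

instance instAlgebraFld₀ : Algebra W (Fld₀ W E q m) :=
  ((algebraMap W (Fld E)).codRestrict (Fld₀ W E q m) (algebraMap_mem_fld₀ W E q m)).toAlgebra

theorem coe_algebraMap_fld₀ (a : W) :
    ((algebraMap W (Fld₀ W E q m) a : Fld₀ W E q m) : Fld E) = algebraMap W (Fld E) a := rfl

instance instTowerFld₀ : IsScalarTower W (Fld₀ W E q m) (Fld E) :=
  IsScalarTower.of_algebraMap_eq fun _ => rfl

variable {W E q m} [IsDomain W]

/-- Integrality in the descended field is integrality upstairs. -/
theorem mem_chart₀_iff {w x : Fld₀ W E q m} :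
    x ∈ chartRing W w ↔ (x : Fld E) ∈ chartRing W (w : Fld E) := by
  rw [mem_chart_iff, mem_chart_iff, isIntegral_adjoin_iff', isIntegral_adjoin_iff']
  let i : Fld₀ W E q m →+* Fld E := (Fld₀ W E q m).subtype
  have e : i.comp (aeval (R := W) w).toRingHom = (aeval (R := W) (w : Fld E)).toRingHom := by
    refine Polynomial.ringHom_ext (fun a => ?_) ?_ <;> simp [i, coe_algebraMap_fld₀]
  refine exists_congr fun P => and_congr_right fun _ => ?_
  show _ ↔ P.eval₂ _ (i x) = 0
  rw [← e, ← Polynomial.hom_eval₂, map_eq_zero_iff i i.injective]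

/-- Over `W` and over the integral extension `O` the charts agree. -/
theorem mem_chartRing_restrict [Algebra.IsIntegral W O] {w x : Fld E} :
    x ∈ chartRing W w ↔ x ∈ chartRing O w := by
  rw [mem_chart_iff, mem_chart_iff]
  constructor
  · intro hx
    have hA : ∀ y ∈ Algebra.adjoin W ({w} : Set (Fld E)),
        y ∈ Algebra.adjoin O ({w} : Set (Fld E)) := by
      intro y hy
      induction hy using Algebra.adjoin_induction with
      | mem y hy => exact Algebra.subset_adjoin hy
      | algebraMap a =>
        rw [IsScalarTower.algebraMap_apply W O (Fld E)]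
        exact (Algebra.adjoin O ({w} : Set (Fld E))).algebraMap_mem _
      | add _ _ _ _ ha hb => exact add_mem ha hb
      | mul _ _ _ _ ha hb => exact mul_mem ha hb
    let i : Algebra.adjoin W ({w} : Set (Fld E)) →+* Algebra.adjoin O ({w} : Set (Fld E)) :=
      (algebraMap (Algebra.adjoin W ({w} : Set (Fld E))) (Fld E)).codRestrict _ fun y => hA y y.2
    obtain ⟨P, hP, hPx⟩ := hx
    refine ⟨P.map i, hP.map _, ?_⟩
    rw [eval₂_map]
    exact hPx
  · intro hx
    set C := integralClosure (Algebra.adjoin W ({w} : Set (Fld E))) (Fld E)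
    have hC : ∀ y ∈ Algebra.adjoin O ({w} : Set (Fld E)), y ∈ C := by
      intro y hy
      induction hy using Algebra.adjoin_induction with
      | mem y hy =>
        rw [Set.mem_singleton_iff.1 hy]
        exact isIntegral_algebraMap
          (x := (⟨w, Algebra.self_mem_adjoin_singleton W w⟩ : Algebra.adjoin W ({w} : Set (Fld E))))
      | algebraMap o =>
        exact ((Algebra.IsIntegral.isIntegral (R := W) o).map
          (IsScalarTower.toAlgHom W O (Fld E))).tower_top
      | add _ _ _ _ ha hb => exact add_mem ha hb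
      | mul _ _ _ _ ha hb => exact mul_mem ha hb
    have : _root_.IsIntegral C x := by
      obtain ⟨P, hP, hPx⟩ := hx
      let i : Algebra.adjoin O ({w} : Set (Fld E)) →+* C :=
        (algebraMap _ (Fld E)).codRestrict C fun y => hC y y.2
      refine ⟨P.map i, hP.map _, ?_⟩
      rw [eval₂_map]
      exact hPx
    exact isIntegral_trans x this

/-- The descended chart is the part of the level chart in the descended field. -/
theorem mem_chart₀_iff' [Algebra.IsIntegral W O] {w x : Fld₀ W E q m} :
    x ∈ chartRing W w ↔ (x : Fld E) ∈ chartRing O (w : Fld E) :=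
  mem_chart₀_iff.trans mem_chartRing_restrict

section Finite

variable [IsDiscreteValuationRing O] [Algebra.IsIntegral W O] [Module.Finite W O]
  {G : Type} [Group G] [Finite G] [MulSemiringAction G (Fld E)] [FaithfulSMul G (Fld E)]

/-- Every element has a multiple by a polynomial in `w` integral over `W[w]`. -/
theorem exists_mul_mem_chart {w : Fld E} (htr : Function.Injective (aeval (R := O) w))
    (hfix : Model.FixedRational O G w) (x : Fld E) :
    ∃ P : W[X], aeval w P ≠ 0 ∧ aeval w P * x ∈ chartRing W w := by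
  classical
  set A := Algebra.adjoin O ({w} : Set (Fld E))
  set A₁ := Algebra.adjoin W ({w} : Set (Fld E))
  set n := Nat.card G + 1
  obtain ⟨P, hP, hsum⟩ := Model.exists_dependence hfix (ι := Fin n) (by simp [n]) fun i => x ^ (i : ℕ)
  have halg : IsAlgebraic A x := by
    let ψ : O[X] →+* A := (aeval (⟨w, Algebra.self_mem_adjoin_singleton O w⟩ : A)).toRingHom
    have hψ : ∀ R : O[X], ((ψ R : A) : Fld E) = aeval w R := fun R =>
      (aeval_algHom_apply A.val _ R).symm
    refine ⟨∑ i : Fin n, C (ψ (P i)) * X ^ (i : ℕ), fun h0 => ?_, ?_⟩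
    · refine hP (funext fun i => htr ?_)
      have := congrArg (fun R : A[X] => R.coeff (i : ℕ)) h0
      simp only [finsetSum_coeff, coeff_C_mul_X_pow, coeff_zero, Fin.val_inj,
        Finset.sum_ite_eq, Finset.mem_univ, if_true] at this
      rw [Pi.zero_apply, map_zero, ← hψ, this, ZeroMemClass.coe_zero]
    · simp only [map_sum, map_mul, aeval_C, aeval_X_pow]
      rw [← hsum]
      exact Finset.sum_congr rfl fun i _ => congrArg (· * _) (hψ _)
  obtain ⟨y, hy0, hy⟩ := halg.exists_integral_multiple
  have hyF : (y : Fld E) ∈ chartRing W w := mem_chartRing_restrict.2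
    (mem_chart_iff.2 (isIntegral_algebraMap (x := y)))
  have hyx : (y : Fld E) * x ∈ chartRing W w := mem_chartRing_restrict.2
    (mem_chart_iff.2 (by simpa [Algebra.smul_def] using hy))
  have hy0' : (y : Fld E) ≠ 0 := fun h => hy0 (Subtype.ext h)
  obtain ⟨a, ha0, r, har⟩ := (show IsIntegral A₁ (⟨(y : Fld E), hyF⟩ : integralClosure A₁ (Fld E))
    from (integralClosure.isIntegral _)).isAlgebraic.exists_nonzero_dvd
      (mem_nonZeroDivisors_of_ne_zero fun h => hy0' (congrArg Subtype.val h))
  obtain ⟨R, hR⟩ : ∃ R : W[X], aeval w R = (a : Fld E) :=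
    (Algebra.adjoin_singleton_eq_range_aeval W w).le a.2
  refine ⟨R, fun h => ha0 (Subtype.ext (hR.symm.trans h)), ?_⟩
  rw [hR, show (a : Fld E) = (y : Fld E) * (r : Fld E) from congrArg Subtype.val har,
    mul_right_comm]
  exact mul_mem hyx (show (r : Fld E) ∈ chartRing W w from r.2)

/-- The descended chart has the descended field as fraction field. -/
theorem isFractionRing_chart₀ {w : Fld₀ W E q m}
    (htr : Function.Injective (aeval (R := O) (w : Fld E)))
    (hfix : Model.FixedRational O G (w : Fld E)) : IsFractionRing (chartRing W w) (Fld₀ W E q m) := by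
  haveI : FaithfulSMul (chartRing W w) (Fld₀ W E q m) :=
    (faithfulSMul_iff_algebraMap_injective _ _).mpr Subtype.val_injective
  refine IsFractionRing.of_field _ _ fun x => ?_
  obtain ⟨P, hP0, hP⟩ := exists_mul_mem_chart (W := W) htr hfix (x : Fld E)
  have e : ((aeval w P : Fld₀ W E q m) : Fld E) = aeval (w : Fld E) P :=
    (aeval_algHom_apply (IsScalarTower.toAlgHom W (Fld₀ W E q m) (Fld E)) w P).symm
  have hPw : aeval w P ∈ chartRing W w := mem_chart_iff.2 (isIntegral_algebraMap
    (x := (⟨_, Algebra.adjoin_singleton_eq_range_aeval W w ▸ ⟨P, rfl⟩⟩ :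
      Algebra.adjoin W ({w} : Set (Fld₀ W E q m)))))
  refine ⟨⟨aeval w P * x, mem_chart₀_iff.2 (by rw [MulMemClass.coe_mul, e]; exact hP)⟩,
    ⟨_, hPw⟩, ?_⟩
  show x = aeval w P * x / aeval w P
  rw [mul_div_cancel_left₀ _ fun h => hP0 (e ▸ congrArg Subtype.val h)]

/-- The polynomials in `w` make the descended chart a module. -/
def polyHom₀ (w : Fld₀ W E q m) : W[X] →+* chartRing W w :=
  (aeval (⟨w, self_mem_chart w⟩ : chartRing W w)).toRingHom

theorem coe_polyHom₀ (w : Fld₀ W E q m) (P : W[X]) :
    ((polyHom₀ w P : chartRing W w) : Fld₀ W E q m) = aeval w P :=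
  (aeval_algHom_apply (chartRing W w).val _ P).symm

variable [IsNoetherianRing W]

omit [IsDiscreteValuationRing O] in
theorem finite_chart₀ [IsDiscreteValuationRing O] {w : Fld₀ W E q m}
    (htr : Function.Injective (aeval (R := O) (w : Fld E)))
    (hfix : Model.FixedRational O G (w : Fld E)) :
    letI := (polyHom₀ w).toAlgebra; Module.Finite W[X] (chartRing W w) := by
  classical
  letI := (polyHom₀ w).toAlgebra
  letI : Algebra W[X] (Fld E) := (aeval (R := W) (w : Fld E)).toRingHom.toAlgebra
  obtain ⟨n, h, hh⟩ := Model.fg_chartRing (G := G) (w : Fld E) htr hfix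
  obtain ⟨s, hs⟩ := Module.Finite.fg_top (R := W) (M := O)
  let gens : Finset (Fld E) :=
    (s ×ˢ (Finset.univ : Finset (Fin n))).image fun p =>
      algebraMap O (Fld E) p.1 * (h p.2 : Fld E)
  set S := Submodule.span W[X] (gens : Set (Fld E))
  have hsm : ∀ (R : W[X]) (z : Fld E), R • z = aeval (w : Fld E) R * z := fun R z => rfl
  have hOh : ∀ (o : O) (i : Fin n), algebraMap O (Fld E) o * (h i : Fld E) ∈ S := by
    intro o i
    have ho : o ∈ Submodule.span W (s : Set O) := hs ▸ Submodule.mem_top
    induction ho using Submodule.span_induction with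
    | mem x hx =>
      exact Submodule.subset_span (Finset.mem_image.2
        ⟨(x, i), Finset.mem_product.2 ⟨hx, Finset.mem_univ _⟩, rfl⟩)
    | zero => simp
    | add x y _ _ hx hy => rw [map_add, add_mul]; exact add_mem hx hy
    | smul a x _ hx =>
      rw [Algebra.smul_def, map_mul, mul_assoc, ← IsScalarTower.algebraMap_apply,
        show algebraMap W (Fld E) a = aeval (w : Fld E) (C a) from (aeval_C _ _).symm, ← hsm]
      exact S.smul_mem _ hx
  have hall : ∀ x ∈ chartRing O (w : Fld E), x ∈ S := by
    intro x hx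
    obtain ⟨Q, hQ⟩ := hh ⟨x, hx⟩
    rw [show x = ((∑ i, Model.polyVal (w : Fld E) (Q i) * h i : chartRing O (w : Fld E)) : Fld E)
      from congrArg Subtype.val hQ, AddSubmonoidClass.coe_finsetSum]
    refine sum_mem fun i _ => ?_
    rw [MulMemClass.coe_mul, Model.coe_polyVal]
    induction Q i using Polynomial.induction_on' with
    | add a b ha hb => rw [map_add, add_mul]; exact add_mem ha hb
    | monomial k a =>
      rw [aeval_monomial, mul_right_comm, mul_comm, ← aeval_X_pow (R := W), ← hsm]
      exact S.smul_mem _ (hOh a i)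
  haveI : Module.Finite W[X] S := Module.Finite.iff_fg.2 ⟨gens, rfl⟩
  let j : chartRing W w →ₗ[W[X]] S :=
    LinearMap.codRestrict S
      { toFun := fun b => ((b : Fld₀ W E q m) : Fld E)
        map_add' := fun _ _ => rfl
        map_smul' := fun R b => by
          rw [RingHom.id_apply, Algebra.smul_def, MulMemClass.coe_mul, MulMemClass.coe_mul, hsm,
            RingHom.algebraMap_toAlgebra, coe_polyHom₀]
          congr 1
          exact (aeval_algHom_apply (IsScalarTower.toAlgHom W (Fld₀ W E q m) (Fld E)) w R).symm }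
      fun b => hall _ (mem_chart₀_iff'.1 b.2)
  haveI : IsNoetherian W[X] S := isNoetherian_of_isNoetherianRing_of_finite W[X] S
  have hj : Function.Injective j := fun x y e => by
    have e' : ((x : Fld₀ W E q m) : Fld E) = ((y : Fld₀ W E q m) : Fld E) :=
      congrArg (fun z : S => (z : Fld E)) e
    exact Subtype.ext (Subtype.ext e')
  haveI : IsNoetherian W[X] (chartRing W w) := isNoetherian_of_injective j hj
  exact ⟨IsNoetherian.noetherian _⟩

theorem isNoetherianRing_chart₀ {w : Fld₀ W E q m}
    (htr : Function.Injective (aeval (R := O) (w : Fld E)))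
    (hfix : Model.FixedRational O G (w : Fld E)) : IsNoetherianRing (chartRing W w) := by
  letI := (polyHom₀ w).toAlgebra
  haveI := finite_chart₀ (W := W) htr hfix
  exact IsNoetherianRing.of_finite W[X] (chartRing W w)

end Finite

omit [IsDomain W] in
theorem chart_closed {R F : Type} [CommRing R] [Field F] [Algebra R F] {w x : F}
    (hx : IsIntegral (chartRing R w) x) : x ∈ chartRing R w := by
  rw [mem_chart_iff]
  have hx' : IsIntegral (integralClosure (Algebra.adjoin R ({w} : Set F)) F) x := hx
  exact isIntegral_trans x hx'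

end Fermat.Agent.ModField
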