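/-
The special fibre of the descended charts: components from the Gauss places upstairs.
-/
import Fermat.Agent.Models.Gamma0.Chart
import Fermat.Agent.Models.SemiBranch

set_option autoImplicit false
set_option linter.style.haveILetI false
set_option linter.unusedSectionVars false

noncomputable section

namespace Fermat.Agent.ModField

open Polynomial IsLocalRing CongruenceSubgroup
open Fermat.Agent.GalRep
open Fermat.Agent.GalRep.Level
open Fermat.Agent.GalRep.Model (chartRing self_mem_chartRing)
open Fermat.Agent.Models (ChartFibre SemiPoints center mem_center center_isPrime IsU rs)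
open scoped MatrixGroups

/-- Nonunits of a valuation ring pulled back to a subfield. -/
theorem mem_nonunits_comap {K L : Type} [Field K] [Field L] (V : ValuationSubring L) (f : K →+* L)
    {x : K} : x ∈ (V.comap f).nonunits ↔ f x ∈ V.nonunits := by
  have key : ∀ {K : Type} [Field K] (V : ValuationSubring K) (y : K),
      y ∈ V.nonunits ↔ y = 0 ∨ y⁻¹ ∉ V := fun {K} _ V y => by
    rw [ValuationSubring.mem_nonunits_iff, ← V.valuation_le_one_iff, not_le, map_inv₀]
    rcases eq_or_ne y 0 with rfl | hy
    · simp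
    · rw [one_lt_inv₀ (zero_lt_iff.mpr (V.valuation.ne_zero_iff.mpr hy))]
      simp [hy]
  rw [key, key, ValuationSubring.mem_comap, map_inv₀, map_eq_zero]

/-- Residues in a subfield agree exactly when they agree upstairs. -/
theorem rs_comap_eq_iff {K L : Type} [Field K] [Field L] (V : ValuationSubring L) (f : K →+* L)
    {x y : K} (hx : f x ∈ V) (hy : f y ∈ V) :
    rs (V.comap f) x = rs (V.comap f) y ↔ rs V (f x) = rs V (f y) := by
  rw [Models.rs_eq_iff (A := V.comap f) hx hy, Models.rs_eq_iff hx hy, mem_nonunits_comap, map_sub]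

theorem isU_comap_iff {K L : Type} [Field K] [Field L] (V : ValuationSubring L) (f : K →+* L)
    {x : K} : IsU (V.comap f) x ↔ IsU V (f x) := by
  rw [Models.isU_iff, Models.isU_iff, ValuationSubring.mem_comap, ValuationSubring.mem_comap,
    map_inv₀, _root_.map_ne_zero]

variable {W : Type} [CommRing W] [IsDomain W] [IsDiscreteValuationRing W]
  {O : Type} [CommRing O] [IsDomain O] [IsDiscreteValuationRing O] [Algebra W O] [Module.Finite W O]
  [FaithfulSMul W O]
  {M : ℕ} [NeZero M] {E : Emb O M} {q m : ℕ} [Algebra W (Fld E)] [IsScalarTower W O (Fld E)]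
  {π : O}

theorem algebraMap_mem_maximal_iff (a : W) :
    algebraMap W O a ∈ maximalIdeal O ↔ a ∈ maximalIdeal W := by
  haveI : ((maximalIdeal O).comap (algebraMap W O)).IsMaximal :=
    Ideal.isMaximal_comap_of_isIntegral_of_isMaximal (maximalIdeal O)
  rw [← Ideal.mem_comap, IsLocalRing.eq_maximalIdeal this]

theorem algebraMap_fld₀_injective :
    Function.Injective (algebraMap W (Fld₀ W E q m)) := fun a b h => by
  have h1 := congrArg (fun z : Fld₀ W E q m => (z : Fld E)) h
  simp only [coe_algebraMap_fld₀] at h1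
  rw [IsScalarTower.algebraMap_apply W O (Fld E), IsScalarTower.algebraMap_apply W O (Fld E)] at h1
  exact FaithfulSMul.algebraMap_injective W O (algebraMap_injective E h1)

/-- A component of the descended special fibre. -/
def comp (hπ : Irreducible π) (δ : SL(2, ℤ)) : ValuationSubring (Fld₀ W E q m) :=
  (gaussP E hπ δ).comap (Fld₀ W E q m).subtype

theorem comp_congr (hπ : Irreducible π) {δ δ' : SL(2, ℤ)} (h : red M δ = red M δ') :
    comp (W := W) (E := E) (q := q) (m := m) hπ δ = comp hπ δ' := by
  ext x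
  show serAt E δ _ ∈ gaussRing hπ ↔ serAt E δ' _ ∈ gaussRing hπ
  simp only [serAt, RingHom.comp_apply, RingEquiv.toRingHom_eq_coe, RingEquiv.coe_toRingHom,
    fShift_congr E h]

variable (W E q m) in
/-- The components. -/
abbrev Comps (hπ : Irreducible π) : Type :=
  ↥(Set.range (comp (W := W) (E := E) (q := q) (m := m) hπ))

variable (W E q m) in
/-- The valuation ring of a component. -/
def compP (hπ : Irreducible π) : Comps W E q m hπ → ValuationSubring (Fld₀ W E q m) := Subtype.val

theorem compP_injective (hπ : Irreducible π) : Function.Injective (compP W E q m hπ) :=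
  Subtype.val_injective

theorem exists_compP_eq (hπ : Irreducible π) (i : Comps W E q m hπ) :
    ∃ δ, compP W E q m hπ i = comp hπ δ := by
  obtain ⟨δ, hδ⟩ := i.2
  exact ⟨δ, hδ.symm⟩

instance instFiniteComps (hπ : Irreducible π) : Finite (Comps W E q m hπ) := by
  refine Finite.of_surjective (fun x : SL(2, ZMod M) => (⟨_, Level.lift x, rfl⟩ : Comps W E q m hπ)) ?_
  rintro ⟨_, δ, rfl⟩
  exact ⟨red M δ, Subtype.ext (comp_congr hπ (red_lift _))⟩

instance instNonemptyComps (hπ : Irreducible π) : Nonempty (Comps W E q m hπ) := ⟨⟨_, 1, rfl⟩⟩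

/-- What the Gauss places know about a coordinate. -/
structure Coord (hπ : Irreducible π) (w : Fld₀ W E q m) : Prop where
  mem : ∀ (δ : SL(2, ℤ)), ∀ x ∈ chartRing O (w : Fld E), x ∈ gaussP E hπ δ
  centre : ∀ P : O[X], serF E (aeval (w : Fld E) P) ∈ (gaussRing hπ).nonunits → C π ∣ P
  fixed : ∀ g, fShift E g (w : Fld E) = (w : Fld E)
  red : ∀ x : Fld E, (∀ g : SL(2, ℤ), x ∈ (gaussP E hπ g).nonunits) → x ∈ chartRing O (w : Fld E) →
    ∃ e ∈ chartRing O (w : Fld E), x = π • e
  tr : Function.Injective (aeval (R := O) (w : Fld E))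
  rat : Model.FixedRational O (transG E) (w : Fld E)

theorem coord_jF (hπ : Irreducible π) : Coord hπ (jF₀ W E q m) where
  mem δ := (chart_le_gaussP E hπ δ).1
  centre := centre_jF E hπ
  fixed := fShift_jF E
  red _ h := (reduced_model E hπ h).1
  tr := aeval_jF_injective E
  rat := fixedRational_jF E

theorem coord_inv_jF (hπ : Irreducible π) : Coord hπ (jF₀ W E q m)⁻¹ where
  mem δ := (chart_le_gaussP E hπ δ).2
  centre := centre_inv_jF E hπ
  fixed g := by rw [coe_inv_jF₀, map_inv₀, fShift_jF]
  red _ h := (reduced_model E hπ h).2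
  tr := aeval_inv_jF_injective E
  rat := fixedRational_inv_jF E

variable {hπ : Irreducible π} {w : Fld₀ W E q m} (hw : Coord hπ w)

include hw

theorem Coord.le (i : Comps W E q m hπ) : ∀ b ∈ chartRing W w, b ∈ compP W E q m hπ i := fun b hb => by
  obtain ⟨δ, hδ⟩ := exists_compP_eq hπ i
  rw [hδ]
  exact hw.mem δ _ (mem_chart₀_iff'.1 hb)

theorem Coord.isFractionRing : IsFractionRing (chartRing W w) (Fld₀ W E q m) :=
  isFractionRing_chart₀ (G := transG E) hw.tr hw.rat

variable (hq : maximalIdeal W = Ideal.span {(q : W)})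

include hq

omit hw in
theorem dvd_natCast (hπ : Irreducible π) : ∃ r : O, (q : O) = π * r := by
  have h : algebraMap W O (q : W) ∈ maximalIdeal O :=
    (algebraMap_mem_maximal_iff _).mpr (hq ▸ Ideal.mem_span_singleton_self _)
  rw [map_natCast, hπ.maximalIdeal_eq, Ideal.mem_span_singleton] at h
  exact h

omit hw in
theorem natCast_mem_gauss (δ : SL(2, ℤ)) :
    algebraMap W (Fld E) (q : W) ∈ (gaussP E hπ δ).nonunits := by
  obtain ⟨r, hr⟩ := dvd_natCast hq hπ
  rw [map_natCast, ← map_natCast (algebraMap O (Fld E)), hr, map_mul]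
  have h := uniformizer_gaussP E hπ δ
  refine (Models.rs_eq_zero ((gaussP E hπ δ).mul_mem _ _ ((gaussP E hπ δ).nonunits_subset h.1)
    ?_)).mp ?_
  · rw [mem_gaussP, serAt_algebraMap]; exact algebraMap_mem_gaussRing hπ _
  · rw [Models.rs_mul ((gaussP E hπ δ).nonunits_subset h.1)
      (by rw [mem_gaussP, serAt_algebraMap]; exact algebraMap_mem_gaussRing hπ _),
      Models.rs_eq_zero_of_nonunit h.1, zero_mul]

omit hw in
theorem natCast_mem_comp (i : Comps W E q m hπ) :
    algebraMap W (Fld₀ W E q m) (q : W) ∈ (compP W E q m hπ i).nonunits := by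
  obtain ⟨δ, hδ⟩ := exists_compP_eq hπ i
  rw [hδ, comp, mem_nonunits_comap]
  exact natCast_mem_gauss hq δ

theorem Coord.noetherian : IsNoetherianRing (chartRing W w) :=
  isNoetherianRing_chart₀ (G := transG E) hw.tr hw.rat

theorem Coord.reduced (hpts : SemiPoints (chartRing W w) (q : W)) :
    ∀ b ∈ chartRing W w, (∀ i, b ∈ (compP W E q m hπ i).nonunits) →
      ∃ e ∈ chartRing W w, b = (q : W) • e := by
  intro b hb hall
  haveI := hw.noetherian hq
  have hbO : (b : Fld E) ∈ chartRing O (w : Fld E) := mem_chart₀_iff'.1 hb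
  obtain ⟨e, he, hbe⟩ := hw.red (b : Fld E) (fun g => by
    have := hall ⟨_, g, rfl⟩
    exact (mem_nonunits_comap _ _).mp this) hbO
  let incl : chartRing W w →+* chartRing O (w : Fld E) :=
    ((Fld₀ W E q m).subtype.comp (chartRing W w).val.toRingHom).codRestrict _ fun x =>
      mem_chart₀_iff'.1 x.2
  have hint : incl.IsIntegral := by
    intro z
    obtain ⟨P, hP, hPz⟩ := (isIntegral_adjoin_iff' _ _).mp
      (mem_chart_iff.mp ((mem_chartRing_restrict (W := W)).mpr z.2))
    refine ⟨P.map (polyHom (O := W) w), hP.map _, Subtype.val_injective ?_⟩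
    rw [Polynomial.eval₂_map]
    have h2 := Polynomial.hom_eval₂ P (incl.comp (polyHom (O := W) w))
      (chartRing O (w : Fld E)).val.toRingHom z
    have e : (chartRing O (w : Fld E)).val.toRingHom.comp (incl.comp (polyHom (O := W) w)) =
        (aeval (R := W) (w : Fld E)).toRingHom := by
      refine RingHom.ext fun R => ?_
      show ((polyHom (O := W) w R : Fld₀ W E q m) : Fld E) = aeval (w : Fld E) R
      rw [coe_polyHom]
      exact (aeval_algHom_apply (IsScalarTower.toAlgHom W (Fld₀ W E q m) (Fld E)) w R).symm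
    rw [e] at h2
    exact h2.trans hPz
  have hrad : (⟨b, hb⟩ : chartRing W w) ∈
      (Ideal.span {algebraMap W (chartRing W w) (q : W)}).radical := by
    rw [Ideal.radical_eq_sInf, Submodule.mem_sInf]
    rintro p ⟨hp, hpp⟩
    letI := incl.toAlgebra
    haveI : Algebra.IsIntegral (chartRing W w) (chartRing O (w : Fld E)) := ⟨hint⟩
    have hinj : Function.Injective incl := fun x y h => Subtype.ext (Subtype.ext
      (congrArg (fun z : chartRing O (w : Fld E) => (z : Fld E)) h))
    obtain ⟨p', -, hp', hpc⟩ := Ideal.exists_ideal_over_prime_of_isIntegral p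
      (⊥ : Ideal (chartRing O (w : Fld E))) (fun z hz => by
        rw [Ideal.mem_comap, Ideal.mem_bot] at hz
        rw [show z = 0 from hinj (hz.trans (map_zero _).symm)]
        exact zero_mem p)
    have hqp : algebraMap O (chartRing O (w : Fld E)) (q : O) ∈ p' := by
      have h1 : algebraMap W (chartRing W w) (q : W) ∈ p := hp (Ideal.mem_span_singleton_self _)
      rw [← hpc, Ideal.mem_comap] at h1
      rw [map_natCast]
      simpa [RingHom.algebraMap_toAlgebra] using h1
    have hπp : algebraMap O (chartRing O (w : Fld E)) π ∈ p' := by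
      have hq0 : (q : O) ≠ 0 := by
        rw [← map_natCast (algebraMap W O), Ne, map_eq_zero_iff _ (FaithfulSMul.algebraMap_injective W O)]
        exact fun h0 => IsDiscreteValuationRing.not_a_field W (by rw [hq, h0, Ideal.span_singleton_eq_bot])
      obtain ⟨k, u, hu⟩ := IsDiscreteValuationRing.eq_unit_mul_pow_irreducible hq0 hπ
      rw [hu, map_mul, Ideal.unit_mul_mem_iff_mem _ (u.isUnit.map _), map_pow] at hqp
      exact hp'.mem_of_pow_mem k hqp
    rw [← hpc, Ideal.mem_comap]
    have : incl ⟨b, hb⟩ = algebraMap O (chartRing O (w : Fld E)) π * ⟨e, he⟩ :=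
      Subtype.ext (hbe.trans (Algebra.smul_def _ _))
    rw [show algebraMap (chartRing W w) (chartRing O (w : Fld E)) ⟨b, hb⟩ = incl ⟨b, hb⟩ from rfl, this]
    exact Ideal.mul_mem_right _ _ hπp
  obtain ⟨k, hk⟩ := hrad
  obtain ⟨c, hc⟩ := Ideal.mem_span_singleton.mp hk
  have hq0' : algebraMap W (Fld₀ W E q m) (q : W) ≠ 0 := fun h0 =>
    IsDiscreteValuationRing.not_a_field W (by
      rw [hq, Ideal.span_singleton_eq_bot]
      exact algebraMap_fld₀_injective (h0.trans (map_zero _).symm))
  obtain ⟨d, hd, hbd⟩ := Models.reduced_of_semiPoints hpts hq0' hb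
    ⟨c, c.2, congrArg Subtype.val hc⟩
  exact ⟨d, hd, hbd.trans (Algebra.smul_def _ _).symm⟩

variable (hpts : SemiPoints (chartRing W w) (q : W))

omit hpts in
/-- The trace of a Gauss centre on the polynomials. -/
theorem Coord.comap_center (i : Comps W E q m hπ) (P : W[X]) :
    ((polyHom (O := W) w P : chartRing W w) : Fld₀ W E q m) ∈ (compP W E q m hπ i).nonunits ↔
      C (q : W) ∣ P := by
  obtain ⟨δ, hδ⟩ := exists_compP_eq hπ i
  have key : ((polyHom (O := W) w P : chartRing W w) : Fld₀ W E q m) ∈ (compP W E q m hπ i).nonunits ↔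
      C π ∣ P.map (algebraMap W O) := by
    rw [hδ, comp, mem_nonunits_comap, coe_polyHom]
    have e : (Fld₀ W E q m).subtype (aeval w P) = aeval (w : Fld E) (P.map (algebraMap W O)) := by
      rw [aeval_map_algebraMap]
      exact (aeval_algHom_apply (IsScalarTower.toAlgHom W (Fld₀ W E q m) (Fld E)) w P).symm
    rw [e, ← coe_polyHom (O := O) (w : Fld E), ← mem_gaussIdeal E hπ δ _ (hw.mem δ),
      ← Ideal.mem_span_singleton, ← comap_gaussIdeal E hπ δ _ (hw.mem δ) hw.fixed hw.centre,
      Ideal.mem_comap]
  rw [key, C_dvd_iff_dvd_coeff, C_dvd_iff_dvd_coeff]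
  refine forall_congr' fun k => ?_
  rw [coeff_map, ← Ideal.mem_span_singleton, ← Ideal.mem_span_singleton, ← hπ.maximalIdeal_eq,
    algebraMap_mem_maximal_iff, hq]

variable [IsAlgClosed (ResidueField W)]

include hpts

/-- The special fibre of a descended chart. -/
theorem Coord.chartFibre : ChartFibre (chartRing W w) (q : W) (compP W E q m hπ) where
  le := hw.le
  noetherian := hw.noetherian hq
  reduced := hw.reduced hq hpts
  maximal_above i mm hmp hle hex := by
    have hirr : Irreducible (q : W) :=
      (IsDiscreteValuationRing.irreducible_iff_uniformizer _).mpr hq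
    obtain ⟨b, hb, hbu⟩ := hex
    let P₀ : Ideal (chartRing W w) := (maximalIdeal (compP W E q m hπ i)).comap
      ((chartRing W w).val.toRingHom.codRestrict (compP W E q m hπ i) fun x => hw.le i _ x.2)
    haveI : P₀.IsPrime := Ideal.IsPrime.comap _
    haveI := hmp
    have hmem : ∀ x : chartRing W w, x ∈ P₀ ↔ (x : Fld₀ W E q m) ∈ (compP W E q m hπ i).nonunits :=
      fun x => by
        simp only [P₀, Ideal.mem_comap]
        rw [← (compP W E q m hπ i).coe_mem_nonunits_iff]
        exact Iff.rfl
    refine isMaximal_above hirr w P₀ mm ?_ (fun x hx => hle x ((hmem x).mp hx)) hb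
      fun h => hbu ((hmem b).mp h)
    ext P
    rw [Ideal.mem_comap, hmem, hw.comap_center hq, Ideal.mem_span_singleton]
  residue mm hmm hqm b := by
    haveI := hmm
    exact residue_chartRing ((IsDiscreteValuationRing.irreducible_iff_uniformizer _).mpr hq) w mm
      hqm b

theorem Coord.not_isMaximal_center (i : Comps W E q m hπ) :
    ¬ (center (hw.chartFibre hq hpts) i).IsMaximal := by
  intro h
  haveI := h
  have hirr : Irreducible (q : W) :=
    (IsDiscreteValuationRing.irreducible_iff_uniformizer _).mpr hq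
  haveI hm := Ideal.isMaximal_comap_of_isIntegral_of_isMaximal' (polyHom (O := W) w)
    (polyHom_isIntegral w) (center (hw.chartFibre hq hpts) i)
  have hX : (X : W[X]) ∉ (center (hw.chartFibre hq hpts) i).comap (polyHom (O := W) w) := fun hX => by
    rw [Ideal.mem_comap, mem_center, hw.comap_center hq, C_dvd_iff_dvd_coeff] at hX
    have := hX 1
    rw [coeff_X_one] at this
    exact hirr.not_isUnit (isUnit_of_dvd_one this)
  obtain ⟨y, z, hz, he⟩ := hm.exists_inv hX
  rw [Ideal.mem_comap, mem_center, hw.comap_center hq, C_dvd_iff_dvd_coeff] at hz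
  have := congrArg (fun R : W[X] => R.coeff 0) he
  simp only [coeff_add, mul_coeff_zero, coeff_X_zero, mul_zero, zero_add, coeff_one_zero] at this
  exact hirr.not_isUnit (isUnit_of_dvd_one (this ▸ hz 0))

end Fermat.Agent.ModField
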