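/-
Semilinear automorphisms of the descended field inducing a power of Frobenius on the base and fixing
every component.
-/
import Fermat.Agent.Models.Gamma0.Fibre

set_option autoImplicit false
set_option linter.style.haveILetI false
set_option linter.unusedSectionVars false

noncomputable section

namespace Fermat.Agent.ModField

open Polynomial IsLocalRing CongruenceSubgroup
open Fermat.Agent.GalRep
open Fermat.Agent.GalRep.Level
open Fermat.Agent.GalRep.Model (chartRing self_mem_chartRing SeriesField)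
open scoped MatrixGroups

variable {W : Type} [CommRing W] [IsDomain W] [IsDiscreteValuationRing W]
  {O : Type} [CommRing O] [IsDomain O] [IsDiscreteValuationRing O] [Algebra W O] [Module.Finite W O]
  [FaithfulSMul W O]
  {M : ℕ} [NeZero M] {E : Emb O M} {q m : ℕ} [Algebra W (Fld E)] [IsScalarTower W O (Fld E)]

variable (W) in
/-- An automorphism of the constants inducing the `Q`-th power on the residues of the base. -/
structure ConstFrob (σ : stabK E) (Q : ℕ) : Prop where
  pos : 0 < Q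
  base : ∀ a : W, ∃ a' : W, σ.1 (E.φ (algebraMap W O a)) = E.φ (algebraMap W O a') ∧
    residue W a' = residue W a ^ Q
  base_symm : ∀ a : W, ∃ a' : W, σ.1 (E.φ (algebraMap W O a')) = E.φ (algebraMap W O a)
  int : ∀ o : O, ∃ o' : O, σ.1 (E.φ o) = E.φ o'
  int_symm : ∀ o : O, ∃ o' : O, σ.1 (E.φ o') = E.φ o

theorem ConstFrob.pow {σ : stabK E} {Q : ℕ} (h : ConstFrob W σ Q) (k : ℕ) :
    ConstFrob W (σ ^ k) (Q ^ k) := by
  have hpow : ∀ (k : ℕ) (c : ℂ), (σ ^ (k + 1)).1 c = (σ ^ k).1 (σ.1 c) := fun k c => by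
    rw [pow_succ]; rfl
  induction k with
  | zero =>
    refine ⟨by simp, fun a => ⟨a, by simp, by simp⟩, fun a => ⟨a, by simp⟩, fun o => ⟨o, by simp⟩,
      fun o => ⟨o, by simp⟩⟩
  | succ k ih =>
    refine ⟨pow_pos h.pos _, fun a => ?_, fun a => ?_, fun o => ?_, fun o => ?_⟩
    · obtain ⟨a', h1, h2⟩ := h.base a
      obtain ⟨a'', h3, h4⟩ := ih.base a'
      exact ⟨a'', by rw [hpow, h1, h3], by rw [h4, h2, ← pow_mul, ← pow_succ']⟩
    · obtain ⟨a', h1⟩ := ih.base_symm a
      obtain ⟨a'', h2⟩ := h.base_symm a'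
      exact ⟨a'', by rw [hpow, h2, h1]⟩
    · obtain ⟨a', h1⟩ := h.int o
      obtain ⟨a'', h3⟩ := ih.int a'
      exact ⟨a'', by rw [hpow, h1, h3]⟩
    · obtain ⟨a', h1⟩ := ih.int_symm o
      obtain ⟨a'', h2⟩ := h.int_symm a'
      exact ⟨a'', by rw [hpow, h2, h1]⟩

variable {σ : stabK E} {Q : ℕ} (h : ConstFrob W σ Q)

include h

theorem ConstFrob.mem_baseK {c : ℂ} (hc : c ∈ baseK W E) : σ.1 c ∈ baseK W E := by
  induction hc using Subfield.closure_induction with
  | mem x hx =>
    obtain ⟨a, rfl⟩ := hx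
    obtain ⟨a', h1, -⟩ := h.base a
    exact Subfield.subset_closure ⟨a', h1.symm⟩
  | one => rw [map_one]; exact one_mem _
  | add x y _ _ hx hy => rw [map_add]; exact add_mem hx hy
  | neg x _ hx => rw [map_neg]; exact neg_mem hx
  | inv x _ hx => rw [map_inv₀]; exact inv_mem hx
  | mul x y _ _ hx hy => rw [map_mul]; exact mul_mem hx hy

theorem ConstFrob.symm_mem_baseK {c : ℂ} (hc : c ∈ baseK W E) : (σ⁻¹).1 c ∈ baseK W E := by
  induction hc using Subfield.closure_induction with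
  | mem x hx =>
    obtain ⟨a, rfl⟩ := hx
    obtain ⟨a', h1⟩ := h.base_symm a
    refine Subfield.subset_closure ⟨a', ?_⟩
    show _ = σ.1.symm (E.φ (algebraMap W O a))
    rw [← h1, RingEquiv.symm_apply_apply]
    rfl
  | one => rw [map_one]; exact one_mem _
  | add x y _ _ hx hy => rw [map_add]; exact add_mem hx hy
  | neg x _ hx => rw [map_neg]; exact neg_mem hx
  | inv x _ hx => rw [map_inv₀]; exact inv_mem hx
  | mul x y _ _ hx hy => rw [map_mul]; exact mul_mem hx hy

variable (hqM : q ∣ M) (hmM : m ∣ M)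

/-- The automorphism of the descended field. -/
def conj₀ : Fld₀ W E q m ≃+* Fld₀ W E q m where
  toFun x := ⟨fConj E σ x, fConj_mem_levelFld hqM hmM σ (fun _ hc => h.mem_baseK hc) x.2⟩
  invFun x := ⟨fConj E σ⁻¹ x, fConj_mem_levelFld hqM hmM σ⁻¹ (fun _ hc => h.symm_mem_baseK hc) x.2⟩
  left_inv x := Subtype.ext (by
    show fConj E σ⁻¹ (fConj E σ (x : Fld E)) = x
    rw [fConj_fConj, inv_mul_cancel, fConj_one])
  right_inv x := Subtype.ext (by
    show fConj E σ (fConj E σ⁻¹ (x : Fld E)) = x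
    rw [fConj_fConj, mul_inv_cancel, fConj_one])
  map_mul' x y := Subtype.ext (map_mul (fConj E σ) _ _)
  map_add' x y := Subtype.ext (map_add (fConj E σ) _ _)

theorem coe_conj₀ (x : Fld₀ W E q m) : ((conj₀ h hqM hmM x : Fld₀ W E q m) : Fld E) = fConj E σ x :=
  rfl

theorem conj₀_jF₀ : conj₀ h hqM hmM (jF₀ W E q m) = jF₀ W E q m :=
  Subtype.ext (fConj_jF E σ)

theorem coe_conj₀_pow : ∀ (k : ℕ) (x : Fld₀ W E q m),
    (((conj₀ h hqM hmM ^ k : RingAut (Fld₀ W E q m)) x : Fld₀ W E q m) : Fld E) = fConj E (σ ^ k) x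
  | 0, x => by rw [pow_zero, pow_zero, fConj_one]; rfl
  | k + 1, x => by
    rw [pow_succ, pow_succ]
    show (((conj₀ h hqM hmM ^ k : RingAut (Fld₀ W E q m)) (conj₀ h hqM hmM x) : Fld₀ W E q m) :
      Fld E) = _
    rw [coe_conj₀_pow k, coe_conj₀, fConj_fConj]

theorem conj₀_algebraMap (a : W) : ∃ a' : W,
    conj₀ h hqM hmM (algebraMap W (Fld₀ W E q m) a) = algebraMap W (Fld₀ W E q m) a' ∧
      residue W a' = residue W a ^ Q := by
  obtain ⟨a', h1, h2⟩ := h.base a
  refine ⟨a', Subtype.ext (toLS_injective E ?_), h2⟩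
  rw [coe_conj₀, toLS_fConj, coe_algebraMap_fld₀, coe_algebraMap_fld₀,
    IsScalarTower.algebraMap_apply W O (Fld E), IsScalarTower.algebraMap_apply W O (Fld E),
    toLS_algebraMap, toLS_algebraMap, lmap_C, ← h1]
  rfl

/-- Charts of a fixed coordinate are stable. -/
theorem conj₀_mem_chart {w : Fld₀ W E q m} (hw : conj₀ h hqM hmM w = w) :
    (∀ b ∈ chartRing W w, conj₀ h hqM hmM b ∈ chartRing W w) ∧
      ∀ b ∈ chartRing W w, (conj₀ h hqM hmM).symm b ∈ chartRing W w := by
  have key : ∀ s : Fld₀ W E q m ≃+* Fld₀ W E q m, s w = w →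
      (∀ a : W, ∃ a', s (algebraMap W (Fld₀ W E q m) a) = algebraMap W (Fld₀ W E q m) a') →
      ∀ b ∈ chartRing W w, s b ∈ chartRing W w := by
    intro s hsw hsW b hb
    rw [mem_chart_iff, isIntegral_adjoin_iff'] at hb ⊢
    obtain ⟨P, hP, hPb⟩ := hb
    choose a ha using hsW
    let ψ : W →+* W :=
      { toFun := a
        map_one' := algebraMap_fld₀_injective (by rw [← ha, map_one, map_one])
        map_mul' := fun x y => algebraMap_fld₀_injective (by
          rw [← ha, map_mul, map_mul, map_mul, ha, ha])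
        map_zero' := algebraMap_fld₀_injective (by rw [← ha, map_zero, map_zero])
        map_add' := fun x y => algebraMap_fld₀_injective (by
          rw [← ha, map_add, map_add, map_add, ha, ha]) }
    refine ⟨P.map (mapRingHom ψ), hP.map _, ?_⟩
    rw [eval₂_map]
    have e : (aeval w).toRingHom.comp (mapRingHom ψ) =
        (s : Fld₀ W E q m →+* Fld₀ W E q m).comp (aeval w).toRingHom := by
      refine Polynomial.ringHom_ext (fun x => ?_) ?_
      · simp [ψ, ha]
      · simp [hsw]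
    rw [e]
    have := congrArg s hPb
    rw [map_zero] at this
    exact (Polynomial.hom_eval₂ P (aeval w).toRingHom (s : Fld₀ W E q m →+* Fld₀ W E q m) b).symm.trans this
  refine ⟨key _ hw fun a => ?_, key _ ?_ fun a => ?_⟩
  · obtain ⟨a', h1, -⟩ := conj₀_algebraMap h hqM hmM a
    exact ⟨a', h1⟩
  · conv_lhs => rw [← hw]
    exact RingEquiv.symm_apply_apply _ _
  · obtain ⟨a', h1⟩ := h.base_symm a
    refine ⟨a', ?_⟩
    rw [RingEquiv.symm_apply_eq]
    refine Subtype.ext (toLS_injective E ?_)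
    rw [coe_conj₀, toLS_fConj, coe_algebraMap_fld₀, coe_algebraMap_fld₀,
      IsScalarTower.algebraMap_apply W O (Fld E), IsScalarTower.algebraMap_apply W O (Fld E),
      toLS_algebraMap, toLS_algebraMap, lmap_C, ← h1]
    rfl

variable {π : O} (hπ : Irreducible π)

omit h in
theorem mem_gaussP_fConj (hint : ∀ o : O, ∃ o' : O, σ.1 (E.φ o) = E.φ o')
    (hcyc : cycC M σ.1 = 1) (δ : SL(2, ℤ))
    {x : Fld E} (hx : x ∈ gaussP E hπ δ) : fConj E σ x ∈ gaussP E hπ δ := by
  choose f hf using hint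
  let ρ : O →+* O :=
    { toFun := f
      map_one' := E.inj (by rw [← hf, map_one, map_one])
      map_mul' := fun x y => E.inj (by rw [← hf, map_mul, map_mul, map_mul, hf, hf])
      map_zero' := E.inj (by rw [← hf, map_zero, map_zero])
      map_add' := fun x y => E.inj (by rw [← hf, map_add, map_add, map_add, hf, hf]) }
  have hρπ : ∀ o, π ∣ ρ o → π ∣ o := fun o ho => by
    rw [← Ideal.mem_span_singleton, ← hπ.maximalIdeal_eq] at ho ⊢
    by_contra hu
    rw [IsLocalRing.notMem_maximalIdeal] at hu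
    exact ho (hu.map ρ)
  rw [mem_gaussP] at hx ⊢
  obtain ⟨a, b, hb, e⟩ := (mem_gaussRing hπ).mp hx
  refine (mem_gaussRing hπ).mpr ⟨PowerSeries.map ρ a, PowerSeries.map ρ b, fun hd => hb ?_, ?_⟩
  · obtain ⟨c, hc⟩ := hd
    have hdv : ∀ i, π ∣ PowerSeries.coeff i b := fun i => hρπ _ ⟨PowerSeries.coeff i c, by
      have := congrArg (PowerSeries.coeff i) hc
      rwa [PowerSeries.coeff_map, PowerSeries.coeff_C_mul] at this⟩
    choose d hd using hdv
    exact ⟨PowerSeries.mk d, PowerSeries.ext fun i => by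
      rw [PowerSeries.coeff_C_mul, PowerSeries.coeff_mk, ← hd]⟩
  have hgO : ∀ g : PowerSeries O, E.gO (PowerSeries.map ρ g) = lmap σ.1.toRingHom (E.gO g) := fun g => by
    ext k
    rw [lmap_coeff, Emb.gO, RingHom.comp_apply, RingHom.comp_apply]
    by_cases hk : ∃ i : ℕ, (i : ℤ) = k
    · obtain ⟨i, rfl⟩ := hk
      rw [HahnSeries.ofPowerSeries_apply_coeff, HahnSeries.ofPowerSeries_apply_coeff,
        PowerSeries.coeff_map, PowerSeries.coeff_map, PowerSeries.coeff_map]
      exact (hf _).symm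
    · rw [HahnSeries.ofPowerSeries_apply, HahnSeries.ofPowerSeries_apply,
        HahnSeries.embDomain_of_notMem_range, HahnSeries.embDomain_of_notMem_range, map_zero]
      all_goals rintro ⟨i, hi⟩; exact hk ⟨i, hi⟩
  refine E.toC_injective ?_
  rw [map_mul, E.toC_algebraMap, E.toC_algebraMap, hgO, hgO, ← E.toC_algebraMap a, ← e, map_mul,
    E.toC_algebraMap, map_mul]
  congr 1
  simp only [serAt, RingHom.comp_apply, RingEquiv.toRingHom_eq_coe, RingEquiv.coe_toRingHom]
  rw [toC_serF, toC_serF, ← fConj_fShift E σ (g := δ) (g' := δ) (by rw [hcyc, conjEq_iff]; simp),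
    toLS_fConj]
  rfl

theorem conj₀_perm (hcyc : cycC M σ.1 = 1) (i : Comps W E q m hπ) (x : Fld₀ W E q m) :
    conj₀ h hqM hmM x ∈ compP W E q m hπ i ↔ x ∈ compP W E q m hπ i := by
  obtain ⟨δ, hδ⟩ := exists_compP_eq hπ i
  rw [hδ]
  show fConj E σ x ∈ gaussP E hπ δ ↔ (x : Fld E) ∈ gaussP E hπ δ
  refine ⟨fun hx => ?_, mem_gaussP_fConj hπ h.int hcyc δ⟩
  have h' := mem_gaussP_fConj (σ := σ⁻¹) hπ (fun o => ?_) ?_ δ hx
  · rwa [fConj_fConj, inv_mul_cancel, fConj_one] at h'
  · obtain ⟨o', h1⟩ := h.int_symm o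
    exact ⟨o', by rw [← h1]; exact σ.1.symm_apply_apply _⟩
  · rw [InvMemClass.coe_inv, map_inv, hcyc, inv_one]

/-- Frobenius data on the descended field. -/
theorem frobData₀ (hcyc : cycC M σ.1 = 1) :
    Models.FrobData W (compP W E q m hπ) (conj₀ h hqM hmM) Q :=
  ⟨h.pos, conj₀_algebraMap h hqM hmM, conj₀_perm h hqM hmM hπ hcyc⟩

end Fermat.Agent.ModField
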