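/-
The two descended charts as a model: constants, overlap.
-/
import Fermat.Agent.Models.Gamma0.Fibre

set_option autoImplicit false
set_option linter.style.haveILetI false
set_option linter.unusedSectionVars false

noncomputable section

namespace Fermat.Agent.ModField

open Polynomial IsLocalRing CongruenceSubgroup
open Fermat.Agent.GalRep
open Fermat.Agent.GalRep.Level
open Fermat.Agent.GalRep.Model (chartRing self_mem_chartRing)
open scoped MatrixGroups

variable {W : Type} [CommRing W] [IsDomain W] [IsDiscreteValuationRing W]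
  {O : Type} [CommRing O] [IsDomain O] [IsDiscreteValuationRing O] [Algebra W O] [Module.Finite W O]
  [FaithfulSMul W O]
  {M : ℕ} [NeZero M] {E : Emb O M} {q m : ℕ} [Algebra W (Fld E)] [IsScalarTower W O (Fld E)]

/-- A constant of `O` in the field of fractions of the base is a constant of the base. -/
theorem mem_range_of_mem_baseK {c : O} (hc : E.φ c ∈ baseK W E) :
    ∃ a : W, algebraMap W O a = c := by
  have hinj := FaithfulSMul.algebraMap_injective W O
  obtain ⟨x, hx, y, hy, h⟩ := Subfield.mem_closure_iff.mp hc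
  rw [← RingHom.coe_range, Subring.closure_eq] at hx hy
  obtain ⟨a, rfl⟩ := hx
  obtain ⟨b, rfl⟩ := hy
  rcases eq_or_ne b 0 with rfl | hb
  · exact ⟨0, E.inj (by rw [map_zero, map_zero, ← h, map_zero, div_zero])⟩
  simp only [RingHom.comp_apply] at h
  have hφb : E.φ (algebraMap W O b) ≠ 0 :=
    (map_ne_zero_iff _ E.inj).mpr ((map_ne_zero_iff _ hinj).mpr hb)
  have hcb : c * algebraMap W O b = algebraMap W O a := E.inj (by
    rw [map_mul, ← h, div_mul_cancel₀ _ hφb])
  rcases ValuationRing.dvd_total b a with ⟨r, hr⟩ | ⟨r, hr⟩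
  · exact ⟨r, mul_right_cancel₀ ((map_ne_zero_iff _ hinj).mpr hb)
      (by rw [hcb, hr, map_mul, mul_comm])⟩
  rcases eq_or_ne a 0 with ha | ha
  · exact absurd (by rw [hr, ha, zero_mul]) hb
  have h1 : c * algebraMap W O r = 1 := mul_left_cancel₀ ((map_ne_zero_iff _ hinj).mpr ha)
    (by rw [mul_one, ← mul_assoc, mul_comm _ c, mul_assoc, ← map_mul, ← hr]; exact hcb)
  have hru : IsUnit r := by
    by_contra hnu
    exact (IsLocalRing.notMem_maximalIdeal.mpr (IsUnit.of_mul_eq_one _ ((mul_comm _ _).trans h1)))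
      ((algebraMap_mem_maximal_iff (O := O) r).mpr hnu)
  obtain ⟨s, hs⟩ := hru.exists_right_inv
  refine ⟨s, ?_⟩
  calc algebraMap W O s = c * algebraMap W O r * algebraMap W O s := by rw [h1, one_mul]
    _ = c := by rw [mul_assoc, ← map_mul, hs, map_one, mul_one]

/-- The constants of the descended model. -/
theorem exists_const₀ {x : Fld₀ W E q m} (h0 : x ∈ chartRing W (jF₀ W E q m))
    (h1 : x ∈ chartRing W (jF₀ W E q m)⁻¹) :
    ∃ a : W, algebraMap W (Fld₀ W E q m) a = x := by
  have h0' : (x : Fld E) ∈ chartRing O (jF E) := (mem_chart₀_iff' (W := W) (w := jF₀ W E q m)).1 h0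
  have h1' : (x : Fld E) ∈ chartRing O (jF E)⁻¹ :=
    (mem_chart₀_iff' (W := W) (w := (jF₀ W E q m)⁻¹)).1 h1
  obtain ⟨c, hc⟩ := exists_const_of_mem_both E h0' h1'
  obtain ⟨a, ha⟩ := mem_range_of_mem_baseK (W := W) (E := E) (c := c) (by
    have := mem_kSer.mp (mem_levelFld.mp x.2).2 0
    rw [← hc, toLS_algebraMap] at this
    simpa using this)
  exact ⟨a, Subtype.ext (by
    rw [coe_algebraMap_fld₀, IsScalarTower.algebraMap_apply W O (Fld E), ha, hc])⟩

variable (W E q m) in
/-- The model of the descended field. -/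
def model₀ : Models.Model W (Fld₀ W E q m) where
  w := jF₀ W E q m
  w_ne := jF₀_ne_zero W E q m
  B₀ := chartRing W (jF₀ W E q m)
  B₁ := chartRing W (jF₀ W E q m)⁻¹
  B₀₁ := overlapRing W (jF₀ W E q m)
  le₀ := chartRing_le_overlap _
  le₁ := (chartRing_le_overlap _).trans (overlapRing_inv _).le
  w_mem := self_mem_chartRing _
  w_inv_mem := self_mem_chartRing _
  loc₀ b hb := overlap_loc _ (jF₀_ne_zero W E q m) hb
  loc₁ b hb := overlap_loc (O := W) (jF₀ W E q m)⁻¹ (inv_ne_zero (jF₀_ne_zero W E q m))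
    ((overlapRing_inv (O := W) (jF₀ W E q m)).symm ▸ hb)
  fg₀ := by
    letI := (polyHom₀ (jF₀ W E q m)).toAlgebra
    haveI := finite_chart₀ (W := W) (w := jF₀ W E q m) (G := transG E) (aeval_jF_injective E)
      (fixedRational_jF E)
    obtain ⟨k, g, hg⟩ := Module.Finite.exists_fin (R := W[X])
      (M := chartRing W (jF₀ W E q m))
    refine ⟨k, fun i => (g i : Fld₀ W E q m), fun i => (g i).2, fun b hb => ?_⟩
    obtain ⟨c, hc⟩ := (Submodule.mem_span_range_iff_exists_fun W[X]).mp
      (hg ▸ Submodule.mem_top : (⟨b, hb⟩ : chartRing W (jF₀ W E q m)) ∈ _)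
    refine ⟨c, ?_⟩
    have := congrArg Subtype.val hc
    rw [AddSubmonoidClass.coe_finsetSum] at this
    refine this.symm.trans ?_
    refine Finset.sum_congr rfl fun i _ => ?_
    rw [Algebra.smul_def, MulMemClass.coe_mul, RingHom.algebraMap_toAlgebra, coe_polyHom₀]
  closed₀ x hx := chartRing_closed _ hx
  closed₁ x hx := chartRing_closed _ hx
  closed₀₁ x hx := overlapRing_closed _ hx
  constants x h0 h1 := exists_const₀ h0 h1

end Fermat.Agent.ModField
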