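/-
On the descended model: a function which is a power on every component and on the generic fibre has
its Frobenius defect a power up to a bounded exponent.
-/
import Fermat.Agent.Models.Gamma0.TwoCharts
import Fermat.Agent.Models.Gamma0.FrobConj
import Fermat.Agent.Models.CrossFixed

set_option autoImplicit false
set_option linter.style.haveILetI false
set_option linter.unusedSectionVars false

noncomputable section

namespace Fermat.Agent.ModField

open Polynomial IsLocalRing CongruenceSubgroup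
open Fermat.Agent.GalRep
open Fermat.Agent.GalRep.Level
open Fermat.Agent.GalRep.Model (chartRing)
open Fermat.Agent.Models (SemiPoints HasRootAt IsU rs ChartFibre center frobRestr)
open scoped MatrixGroups

variable {W : Type} [CommRing W] [IsDomain W] [IsDiscreteValuationRing W]
  [IsAlgClosed (ResidueField W)]
  {O : Type} [CommRing O] [IsDomain O] [IsDiscreteValuationRing O] [Algebra W O] [Module.Finite W O]
  [FaithfulSMul W O]
  {M : ℕ} [NeZero M] {E : Emb O M} {q m : ℕ} [Algebra W (Fld E)] [IsScalarTower W O (Fld E)]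

set_option maxHeartbeats 800000 in
/-- The Frobenius defect of a function which is a power everywhere is a global power. -/
theorem exists_frob_root₀ (hqp : q.Prime) (hq : maximalIdeal W = Ideal.span {(q : W)})
    {π : O} (hπ : Irreducible π)
    (hpts₀ : SemiPoints (chartRing W (jF₀ W E q m)) (q : W))
    (hpts₁ : SemiPoints (chartRing W (jF₀ W E q m)⁻¹) (q : W))
    {σ : stabK E} {Q : ℕ} (hσ : ConstFrob W σ Q) (hcyc : cycC M σ.1 = 1)
    (hqM : q ∣ M) (hmM : m ∣ M) :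
    ∃ K : ℕ, 0 < K ∧ ∀ k : ℕ, K ∣ k → ∃ D : ℕ, 0 < D ∧ ∀ n : ℕ, 0 < n → IsUnit (n : W) →
      ∀ f : Fld₀ W E q m, f ≠ 0 →
      (∀ P : Ideal (chartRing W (jF₀ W E q m)), P.IsPrime → P ≠ ⊥ →
        algebraMap W (chartRing W (jF₀ W E q m)) (q : W) ∉ P → HasRootAt _ n f P) →
      (∀ P : Ideal (chartRing W (jF₀ W E q m)⁻¹), P.IsPrime → P ≠ ⊥ →
        algebraMap W (chartRing W (jF₀ W E q m)⁻¹) (q : W) ∉ P → HasRootAt _ n f P) →
      (∀ δ : SL(2, ℤ), ∃ T : Fld₀ W E q m,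
        IsU (comp hπ δ) (T ^ n / f) ∧ rs (comp hπ δ) (T ^ n / f) = 1) →
      ∃ (c : W) (h : Fld₀ W E q m), c ≠ 0 ∧ h ≠ 0 ∧
        (h : Fld E) ^ n = algebraMap W (Fld E) c *
          (fConj E (σ ^ k) (f : Fld E) / (f : Fld E) ^ (Q ^ k)) ^ D := by
  classical
  haveI : Fintype (Comps W E q m hπ) := Fintype.ofFinite _
  have hirr : Irreducible (q : W) :=
    (IsDiscreteValuationRing.irreducible_iff_uniformizer _).mpr hq
  have hw₀ := coord_jF (W := W) (E := E) (q := q) (m := m) hπ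
  have hw₁ := coord_inv_jF (W := W) (E := E) (q := q) (m := m) hπ
  have hf₀ := hw₀.chartFibre hq hpts₀
  have hf₁ := hw₁.chartFibre hq hpts₁
  have hu : ∀ i, algebraMap W (Fld₀ W E q m) (q : W) ∈ (compP W E q m hπ i).nonunits :=
    fun i => natCast_mem_comp hq i
  have hm₀ := hw₀.not_isMaximal_center hq hpts₀
  have hm₁ := hw₁.not_isMaximal_center hq hpts₁
  haveI := hw₀.isFractionRing
  haveI := hw₁.isFractionRing
  have hq0 : algebraMap W (Fld₀ W E q m) (q : W) ≠ 0 :=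
    (map_ne_zero_iff _ algebraMap_fld₀_injective).mpr hirr.ne_zero
  have hs := frobData₀ hσ hqM hmM hπ hcyc
  have hj := conj₀_jF₀ hσ hqM hmM
  have hj' : conj₀ hσ hqM hmM (jF₀ W E q m)⁻¹ = (jF₀ W E q m)⁻¹ := by rw [map_inv₀, hj]
  have hc₀ := Models.center_injective hf₀ hpts₀ hu hm₀ hq0 (compP_injective hπ)
  have hc₁ := Models.center_injective hf₁ hpts₁ hu hm₁ hq0 (compP_injective hπ)
  obtain ⟨K₀, hK₀, hX₀⟩ := Models.exists_fixing_power hirr hf₀ hm₀ hc₀ hs
    (conj₀_mem_chart hσ hqM hmM hj).1 (conj₀_mem_chart hσ hqM hmM hj).2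
  obtain ⟨K₁, hK₁, hX₁⟩ := Models.exists_fixing_power hirr hf₁ hm₁ hc₁ hs
    (conj₀_mem_chart hσ hqM hmM hj').1 (conj₀_mem_chart hσ hqM hmM hj').2
  refine ⟨K₀ * K₁, Nat.mul_pos hK₀ hK₁, fun k hk => ?_⟩
  obtain ⟨D, hD, hroot⟩ := Models.exists_frob_root (model₀ W E q m) hirr algebraMap_fld₀_injective
    q hqp (hq ▸ Ideal.mem_span_singleton_self _) hf₀ hf₁ hu
    (Models.branchNormal hf₀ hpts₀ hu hm₀ hq0) (Models.branchNormal hf₁ hpts₁ hu hm₁ hq0)
    hc₀ hc₁ (hs.pow' k)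
    (Models.pow_mem_of_mem (conj₀_mem_chart hσ hqM hmM hj).1 k)
    (Models.pow_symm_mem_of_mem (conj₀_mem_chart hσ hqM hmM hj).2 k)
    (Models.pow_mem_of_mem (conj₀_mem_chart hσ hqM hmM hj').1 k)
    (Models.pow_symm_mem_of_mem (conj₀_mem_chart hσ hqM hmM hj').2 k)
    (hX₀ k ((dvd_mul_right _ _).trans hk)) (hX₁ k ((dvd_mul_left _ _).trans hk))
  refine ⟨D, hD, fun n hn hnW f hf hr₀ hr₁ hT => ?_⟩
  have hT' : ∀ i, ∃ T : Fld₀ W E q m, IsU (compP W E q m hπ i) (T ^ n / f) ∧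
      rs (compP W E q m hπ i) (T ^ n / f) = 1 := fun i => by
    obtain ⟨δ, hδ⟩ := exists_compP_eq hπ i
    rw [hδ]
    exact hT δ
  obtain ⟨c, h, hc, hh, he⟩ := hroot n hn hnW f hf
    (Models.hasRootAt_all hf₀ hpts₀ hu hm₀ hq0 hn hf (fun i => (hT' i).imp fun _ h => h.1) hr₀)
    (Models.hasRootAt_all hf₁ hpts₁ hu hm₁ hq0 hn hf (fun i => (hT' i).imp fun _ h => h.1) hr₁)
    hT'
  refine ⟨c, h, fun h0 => hc (by rw [h0, map_zero]), hh, ?_⟩
  have e := congrArg (Fld₀ W E q m).subtype he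
  rw [map_pow, map_mul, map_pow, map_div₀, map_pow] at e
  simp only [Subfield.subtype_apply, coe_algebraMap_fld₀, coe_conj₀_pow] at e
  exact e

end Fermat.Agent.ModField
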