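/-
Roots along horizontal primes from orders of series: primes of the polynomial ring avoiding the
constants, centres of embeddings in Laurent series, divisibility of orders.
-/
import Fermat.Agent.Models.Gamma0.Chart
import Fermat.Agent.Models.CoreExtend

set_option autoImplicit false
set_option linter.style.haveILetI false
set_option linter.unusedSectionVars false

noncomputable section

namespace Fermat.Agent.ModField

open Polynomial IsLocalRing
open Fermat.Agent.GalRep
open Fermat.Agent.GalRep.Level
open Fermat.Agent.GalRep.Model (chartRing self_mem_chartRing)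
open Fermat.Agent.Models (HasRootAt)

/-- Laurent series without polar part. -/
def serInt (k : Type) [Field k] : ValuationSubring (LaurentSeries k) :=
  { toSubring := (HahnSeries.ofPowerSeries ℤ k).range
    mem_or_inv_mem' := fun f => by
      have key : ∀ g : LaurentSeries k, 0 ≤ g.order → g ∈ (HahnSeries.ofPowerSeries ℤ k).range :=
        fun g hg => by
        refine ⟨PowerSeries.mk fun i => g.coeff i, HahnSeries.ext (funext fun z => ?_)⟩
        rcases le_or_gt 0 z with hz | hz
        · lift z to ℕ using hz
          rw [HahnSeries.ofPowerSeries_apply_coeff, PowerSeries.coeff_mk]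
        · rw [HahnSeries.ofPowerSeries_apply, HahnSeries.embDomain_of_notMem_range,
            HahnSeries.coeff_eq_zero_of_lt_order (hz.trans_le hg)]
          rintro ⟨i, hi⟩
          simp at hi
          omega
      rcases le_or_gt 0 f.order with h | h
      · exact Or.inl (key f h)
      · refine Or.inr (key _ ?_)
        have hf0 : f ≠ 0 := by rintro rfl; simp at h
        have := HahnSeries.order_mul hf0 (inv_ne_zero hf0)
        rw [mul_inv_cancel₀ hf0, HahnSeries.order_one] at this
        omega }

theorem coe_mem_serInt {k : Type} [Field k] (f : PowerSeries k) :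
    HahnSeries.ofPowerSeries ℤ k f ∈ serInt k := ⟨f, rfl⟩

theorem mem_serInt_iff {k : Type} [Field k] {f : LaurentSeries k} (hf : f ≠ 0) :
    f ∈ serInt k ↔ 0 ≤ f.order := by
  have key : ∀ g : PowerSeries k, HahnSeries.ofPowerSeries ℤ k g ≠ 0 →
      0 ≤ (HahnSeries.ofPowerSeries ℤ k g).order := fun g hg => by
    by_contra hneg
    refine hg (HahnSeries.ext (funext fun z => ?_))
    have h0 := HahnSeries.coeff_order_eq_zero.not.mpr hg
    rw [HahnSeries.ofPowerSeries_apply, HahnSeries.embDomain_of_notMem_range] at h0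
    · exact absurd rfl h0
    · rintro ⟨i, hi⟩
      simp at hi
      rw [HahnSeries.ofPowerSeries_apply] at hneg
      omega
  constructor
  · rintro ⟨g, rfl⟩
    exact key g hf
  · intro h
    refine ((serInt k).mem_or_inv_mem f).elim id fun hi => ?_
    obtain ⟨g, hg⟩ := hi
    have hinv : (f⁻¹).order = -f.order := by
      have := HahnSeries.order_mul hf (inv_ne_zero hf)
      rw [mul_inv_cancel₀ hf, HahnSeries.order_one] at this
      omega
    have h0 : 0 ≤ (f⁻¹).order := by rw [← hg]; exact key g (hg ▸ inv_ne_zero hf)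
    have hf0 : f.order = 0 := by omega
    refine ⟨PowerSeries.mk fun i => f.coeff i, HahnSeries.ext (funext fun z => ?_)⟩
    rcases le_or_gt 0 z with hz | hz
    · lift z to ℕ using hz
      rw [HahnSeries.ofPowerSeries_apply_coeff, PowerSeries.coeff_mk]
    · rw [HahnSeries.ofPowerSeries_apply, HahnSeries.embDomain_of_notMem_range,
        HahnSeries.coeff_eq_zero_of_lt_order (by omega)]
      rintro ⟨i, hi⟩
      simp at hi
      omega

/-- Primes of the polynomial ring avoiding the constants are incomparable. -/
theorem prime_eq_of_le {R : Type} [CommRing R] [IsDomain R] {p P : Ideal R[X]} [p.IsPrime]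
    [P.IsPrime] (hp : ∀ a : R, C a ∈ p → a = 0) (hP0 : P ≠ ⊥) (hle : P ≤ p) : P = p := by
  set K := FractionRing R
  letI : Algebra R[X] K[X] := (mapRingHom (algebraMap R K)).toAlgebra
  haveI : IsLocalization ((nonZeroDivisors R).map C) K[X] := Polynomial.isLocalization _ _
  set M := (nonZeroDivisors R).map (C : R →+* R[X])
  have hd : ∀ {I : Ideal R[X]}, I ≤ p → Disjoint (M : Set R[X]) (I : Set R[X]) := fun {I} hI =>
    Set.disjoint_left.mpr fun z hz hzI => by
      obtain ⟨a, ha, rfl⟩ := hz
      exact nonZeroDivisors.ne_zero ha (hp a (hI hzI))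
  haveI hP' := IsLocalization.isPrime_of_isPrime_disjoint M K[X] P ‹_› (hd hle)
  haveI hp' := IsLocalization.isPrime_of_isPrime_disjoint M K[X] p ‹_› (hd le_rfl)
  have hne : P.map (algebraMap R[X] K[X]) ≠ ⊥ := fun h => hP0 (by
    rw [← IsLocalization.under_map_of_isPrime_disjoint M K[X] ‹P.IsPrime› (hd hle), h, Ideal.under_def,
      Ideal.comap_bot_of_injective _
        (Polynomial.map_injective _ (IsFractionRing.injective R K))])
  haveI := hP'.isMaximal hne
  have he := Ideal.IsMaximal.eq_of_le ‹(P.map (algebraMap R[X] K[X])).IsMaximal› hp'.ne_top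
    (Ideal.map_mono hle)
  rw [← IsLocalization.under_map_of_isPrime_disjoint M K[X] ‹P.IsPrime› (hd hle), he,
    IsLocalization.under_map_of_isPrime_disjoint M K[X] ‹p.IsPrime› (hd le_rfl)]

set_option maxHeartbeats 1000000 in
/-- A nonzero prime avoiding the constants is the vanishing ideal of a number, which is a simple
root of one of its members, with only simple roots. -/
theorem exists_root_prime {R : Type} [CommRing R] [IsDomain R] [CharZero R] {φ : R →+* ℂ}
    (hφ : Function.Injective φ) {p : Ideal R[X]} [p.IsPrime] (hp : ∀ a : R, C a ∈ p → a = 0)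
    (hp0 : p ≠ ⊥) :
    ∃ c : ℂ, (∀ P : R[X], P ∈ p ↔ P.eval₂ φ c = 0) ∧
      ∃ P ∈ p, ∀ z, P.eval₂ φ z = 0 → (P.map φ).rootMultiplicity z = 1 := by
  classical
  set K := FractionRing R
  haveI : CharZero K :=
    charZero_of_injective_algebraMap (IsFractionRing.injective R K)
  letI : Algebra R[X] K[X] := (mapRingHom (algebraMap R K)).toAlgebra
  set M := (nonZeroDivisors R).map (C : R →+* R[X])
  haveI : IsLocalization M K[X] := Polynomial.isLocalization _ _
  have hd : Disjoint (M : Set R[X]) (p : Set R[X]) := Set.disjoint_left.mpr fun z hz hzp => by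
    obtain ⟨a, ha, rfl⟩ := hz
    exact nonZeroDivisors.ne_zero ha (hp a hzp)
  set I := p.map (algebraMap R[X] K[X])
  haveI hI : I.IsPrime := IsLocalization.isPrime_of_isPrime_disjoint M K[X] p ‹_› hd
  obtain ⟨f, hf⟩ := (IsPrincipalIdealRing.principal I).principal
  replace hf : I = Ideal.span {f} := hf
  have hI0 : I ≠ ⊥ := fun h => hp0 (by
    rw [← IsLocalization.under_map_of_isPrime_disjoint M K[X] ‹p.IsPrime› hd, Ideal.under_def]
    exact (congrArg (Ideal.comap (algebraMap R[X] K[X])) h).trans (Ideal.comap_bot_of_injective _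
      (Polynomial.map_injective _ (IsFractionRing.injective R K))))
  have hf0 : f ≠ 0 := fun h => hI0 (by rw [hf, h]; exact Ideal.span_singleton_eq_bot.mpr rfl)
  have hfp : Prime f := (Ideal.span_singleton_prime hf0).mp (by
    have h := hI; rw [hf] at h; exact h)
  let φK : K →+* ℂ := IsFractionRing.lift hφ
  have hφK : φK.comp (algebraMap R K) = φ :=
    RingHom.ext fun r => IsFractionRing.lift_algebraMap hφ r
  obtain ⟨c, hc⟩ := IsAlgClosed.exists_root (f.map φK) (by
    rw [degree_map]
    exact (Polynomial.degree_pos_of_irreducible hfp.irreducible).ne')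
  have hmult : ∀ z, (f.map φK).IsRoot z → (f.map φK).rootMultiplicity z = 1 := fun z hz =>
    le_antisymm (rootMultiplicity_le_one_of_separable hfp.irreducible.separable.map z)
      ((rootMultiplicity_pos ((Polynomial.map_ne_zero_iff φK.injective).mpr hf0)).mpr hz)
  have hev : ∀ P : R[X], P.eval₂ φ c = (P.map (algebraMap R K)).eval₂ φK c := fun P => by
    rw [eval₂_map, hφK]
  have hvan : ∀ P ∈ p, P.eval₂ φ c = 0 := fun P hP => by
    have h1 : P.map (algebraMap R K) ∈ I := Ideal.mem_map_of_mem (algebraMap R[X] K[X]) hP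
    rw [hf] at h1
    obtain ⟨g, hg⟩ := Ideal.mem_span_singleton.mp h1
    rw [hev, hg, eval₂_mul, ← eval_map, hc.eq_zero, zero_mul]
  let q : Ideal R[X] := RingHom.ker (eval₂RingHom φ c)
  haveI : q.IsPrime := RingHom.ker_isPrime _
  have hq : ∀ a : R, C a ∈ q → a = 0 := fun a ha => hφ (by
    simpa [q, RingHom.mem_ker] using ha)
  have hpq : p = q := prime_eq_of_le hq hp0 fun P hP => hvan P hP
  obtain ⟨⟨P, ⟨_, d, hd0, rfl⟩⟩, hPd⟩ := IsLocalization.surj M f
  have hd' : C d ∈ M := ⟨d, hd0, rfl⟩
  refine ⟨c, fun P => by rw [hpq]; exact Iff.rfl, P, ?_, fun z hz => ?_⟩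
  · rw [hpq]
    show P.eval₂ φ c = 0
    rw [hev, show P.map (algebraMap R K) = algebraMap R[X] K[X] P from rfl, ← hPd, eval₂_mul,
      ← eval_map, hc.eq_zero, zero_mul]
  · have e : P.map φ = C (φ d) * f.map φK := by
      have h1 := congrArg (Polynomial.map φK) hPd
      simp only [Polynomial.map_mul] at h1
      rw [show algebraMap R[X] K[X] P = P.map (algebraMap R K) from rfl,
        show algebraMap R[X] K[X] (C d) = (C d).map (algebraMap R K) from rfl, Polynomial.map_map,
        Polynomial.map_map, hφK, Polynomial.map_C, mul_comm] at h1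
      exact h1.symm
    have hd1 : φ d ≠ 0 := (map_ne_zero_iff _ hφ).mpr (nonZeroDivisors.ne_zero hd0)
    rw [← eval_map, e, eval_mul, eval_C] at hz
    rw [e, rootMultiplicity_mul (mul_ne_zero (C_ne_zero.mpr hd1)
      ((Polynomial.map_ne_zero_iff φK.injective).mpr hf0)), rootMultiplicity_C, zero_add,
      hmult z ((mul_eq_zero.mp hz).resolve_left hd1)]

end Fermat.Agent.ModField
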