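/-
Roots along the horizontal primes of the descended charts, from the orders of series at interior
points and at cusps.
-/
import Fermat.Agent.Models.Gamma0.Orders
import Fermat.Agent.Models.Field.Charts
import Fermat.Agent.GalRep.Embeddings

set_option autoImplicit false
set_option linter.style.haveILetI false
set_option linter.unusedSectionVars false

noncomputable section

namespace Fermat.Agent.ModField

open Polynomial IsLocalRing UpperHalfPlane CongruenceSubgroup
open Fermat.Agent.GalRep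
open Fermat.Agent.GalRep.Level
open Fermat.Agent.GalRep.Model (chartRing self_mem_chartRing)
open Fermat.Agent.Models (HasRootAt)
open Fermat.Agent.Period (jFun)
open scoped MatrixGroups Manifold

local notation "ι" => HahnSeries.ofPowerSeries ℤ ℂ

/-- The power series of a Laurent series without polar part. -/
def psOf : serInt ℂ →+* PowerSeries ℂ :=
  (RingEquiv.ofBijective (ι).rangeRestrict
    ⟨fun _ _ h => HahnSeries.ofPowerSeries_injective (congrArg Subtype.val h),
      (ι).rangeRestrict_surjective⟩).symm.toRingHom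

theorem coe_psOf (f : serInt ℂ) : ι (psOf f) = f :=
  congrArg Subtype.val (RingEquiv.apply_symm_apply (RingEquiv.ofBijective (ι).rangeRestrict
    ⟨fun _ _ h => HahnSeries.ofPowerSeries_injective (congrArg Subtype.val h),
      (ι).rangeRestrict_surjective⟩) f)

theorem order_ofPS_X_pow_mul {v : PowerSeries ℂ} (hv : PowerSeries.constantCoeff v ≠ 0) (k : ℕ) :
    (ι (PowerSeries.X ^ k * v)).order = k := by
  have hv0 : ι v ≠ 0 := (map_ne_zero_iff _ HahnSeries.ofPowerSeries_injective).mpr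
    fun h => hv (by rw [h, map_zero])
  have h1 : (ι v).order ≤ 0 := by
    refine HahnSeries.order_le_of_coeff_ne_zero ?_
    rw [show (0 : ℤ) = ((0 : ℕ) : ℤ) from rfl, HahnSeries.ofPowerSeries_apply_coeff,
      PowerSeries.coeff_zero_eq_constantCoeff_apply]
    exact hv
  have h2 := (mem_serInt_iff hv0).mp (coe_mem_serInt v)
  rw [map_mul, HahnSeries.ofPowerSeries_X_pow,
    HahnSeries.order_mul (HahnSeries.single_ne_zero one_ne_zero) hv0,
    HahnSeries.order_single one_ne_zero]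
  omega

theorem order_ofPS {v : PowerSeries ℂ} (hv : PowerSeries.constantCoeff v ≠ 0) : (ι v).order = 0 := by
  simpa using order_ofPS_X_pow_mul hv 0

variable {O : Type} [CommRing O] [IsDomain O] {M : ℕ} [NeZero M] {E : Emb O M}

/-- An embedding in Laurent series centred over the value `c` of the coordinate, with index
dividing `D`. -/
def Centred (E : Emb O M) (L : Fld E →+* LaurentSeries ℂ) (w : Fld E) (c : ℂ) (D : ℕ) : Prop :=
  (∀ a, L (algebraMap O (Fld E) a) = HahnSeries.C (E.φ a)) ∧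
    ∃ (e : ℕ) (u v : PowerSeries ℂ), 0 < e ∧ e ∣ D ∧ L w = ι u ∧
      u - PowerSeries.C c = PowerSeries.X ^ e * v ∧ PowerSeries.constantCoeff v ≠ 0

theorem Centred.shift {L : Fld E →+* LaurentSeries ℂ} {w : Fld E} {c : ℂ} {D : ℕ}
    (h : Centred E L w c D) (g : SL(2, ℤ)) (hw : fShift E g w = w) :
    Centred E (L.comp (fShift E g).toRingHom) w c D := by
  refine ⟨fun a => ?_, ?_⟩
  · show L (fShift E g (algebraMap O (Fld E) a)) = _
    rw [fShift_algebraMap, h.1]
  · obtain ⟨e, u, v, he, hD, hu, hv⟩ := h.2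
    exact ⟨e, u, v, he, hD, by show L (fShift E g w) = _; rw [hw, hu], hv⟩

theorem Centred.aeval {L : Fld E →+* LaurentSeries ℂ} {w : Fld E} {c : ℂ} {D : ℕ}
    (h : Centred E L w c D) {u : PowerSeries ℂ} (hu : L w = ι u) (P : O[X]) :
    L (aeval w P) = ι ((P.map E.φ).eval₂ PowerSeries.C u) := by
  rw [Polynomial.aeval_def, Polynomial.hom_eval₂, Polynomial.hom_eval₂, eval₂_map, hu]
  congr 1
  exact RingHom.ext fun a => (h.1 a).trans (HahnSeries.ofPowerSeries_C _).symm

theorem constantCoeff_eval₂ (u : PowerSeries ℂ) (P : ℂ[X]) :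
    PowerSeries.constantCoeff (P.eval₂ PowerSeries.C u) = P.eval (PowerSeries.constantCoeff u) := by
  rw [Polynomial.hom_eval₂, PowerSeries.constantCoeff_comp_C, Polynomial.eval₂_id]

variable [IsDiscreteValuationRing O]

/-- Some translate of a centred embedding is centred at a given prime over the same value. -/
theorem exists_centred_shift {w : Fld E} (hwf : ∀ g, fShift E g w = w)
    (htr : Function.Injective (aeval (R := O) w)) (hrat : Model.FixedRational O (transG E) w)
    {c : ℂ} {D : ℕ} {L : Fld E →+* LaurentSeries ℂ} (hL : Centred E L w c D)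
    (Q : Ideal (chartRing O w)) [Q.IsPrime]
    (hQ : ∀ P : O[X], polyHom w P ∈ Q ↔ P.eval₂ E.φ c = 0) :
    ∃ g : SL(2, ℤ), ∀ x : chartRing O w, ∃ f : PowerSeries ℂ,
      L (fShift E g (x : Fld E)) = ι f ∧ (x ∈ Q ↔ PowerSeries.constantCoeff f = 0) := by
  obtain ⟨e, u, v, he, -, hu, huv, -⟩ := hL.2
  have hcu : PowerSeries.constantCoeff u = c := by
    have := congrArg PowerSeries.constantCoeff huv
    rw [map_sub, PowerSeries.constantCoeff_C, map_mul, map_pow, PowerSeries.constantCoeff_X,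
      zero_pow he.ne', zero_mul, sub_eq_zero] at this
    exact this
  have hle : ∀ x ∈ chartRing O w, L x ∈ serInt ℂ := fun x hx =>
    chartRing_le_valuationSubring ((serInt ℂ).comap L)
      (fun a => by
        rw [ValuationSubring.mem_comap, hL.1, ← HahnSeries.ofPowerSeries_C]
        exact coe_mem_serInt _)
      (by rw [ValuationSubring.mem_comap, hu]; exact coe_mem_serInt _) hx
  let i : chartRing O w →+* serInt ℂ :=
    (L.comp (chartRing O w).val.toRingHom).codRestrict (serInt ℂ).toSubring fun x => hle _ x.2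
  let ev : chartRing O w →+* ℂ := PowerSeries.constantCoeff.comp (psOf.comp i)
  have hev : ∀ x : chartRing O w, ι (psOf (i x)) = L (x : Fld E) := fun x => coe_psOf (i x)
  haveI : (RingHom.ker ev).IsPrime := RingHom.ker_isPrime _
  have hw' : ∀ σ : transG E, σ • w = w := fun σ => by
    obtain ⟨g, hg⟩ := (mem_transG E).mp σ.2
    rw [transG_smul_def, hg, hwf]
  obtain ⟨σ, hσ⟩ := exists_smul_prime hw' htr hrat (RingHom.ker ev) Q (by
    ext P
    rw [Ideal.mem_comap, Ideal.mem_comap, hQ, RingHom.mem_ker]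
    have e1 : psOf (i (polyHom w P)) = (P.map E.φ).eval₂ PowerSeries.C u :=
      HahnSeries.ofPowerSeries_injective (by rw [hev, coe_polyHom, hL.aeval hu])
    show PowerSeries.constantCoeff (psOf (i (polyHom w P))) = 0 ↔ _
    rw [e1, constantCoeff_eval₂, hcu, eval_map])
  obtain ⟨g, hg⟩ := (mem_transG E).mp σ.2
  refine ⟨g, fun x => ⟨psOf (i ⟨σ • (x : Fld E), smul_mem_chart hw' σ x.2⟩), ?_, ?_⟩⟩
  · rw [hev]
    show L (fShift E g (x : Fld E)) = L (σ • (x : Fld E))
    rw [transG_smul_def, hg]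
  · rw [hσ x, RingHom.mem_ker]
    rfl

variable {W : Type} [CommRing W] [IsDomain W] [IsNoetherianRing W] [Algebra W O]
  [Module.Finite W O] [FaithfulSMul W O] {q m : ℕ}
  [Algebra W (Fld E)] [IsScalarTower W O (Fld E)]

variable (W) in
/-- The chart of the descended coordinate inside the chart upstairs. -/
def chartIncl (w : Fld₀ W E q m) : chartRing W w →+* chartRing O (w : Fld E) :=
  ((Fld₀ W E q m).subtype.comp (chartRing W w).val.toRingHom).codRestrict _ fun x =>
    mem_chart₀_iff'.1 x.2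

theorem chartIncl_isIntegral (w : Fld₀ W E q m) : (chartIncl W w).IsIntegral := by
  intro z
  obtain ⟨P, hP, hPz⟩ := (isIntegral_adjoin_iff' _ _).mp
    (mem_chart_iff.mp ((mem_chartRing_restrict (W := W)).mpr z.2))
  refine ⟨P.map (polyHom₀ w), hP.map _, Subtype.val_injective ?_⟩
  rw [Polynomial.eval₂_map]
  have h2 := Polynomial.hom_eval₂ P ((chartIncl W w).comp (polyHom₀ w))
    (chartRing O (w : Fld E)).val.toRingHom z
  have e : (chartRing O (w : Fld E)).val.toRingHom.comp
      ((chartIncl W w).comp (polyHom₀ w)) = (Polynomial.aeval (R := W) (w : Fld E)).toRingHom := by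
    refine RingHom.ext fun R => ?_
    show ((polyHom₀ w R : Fld₀ W E q m) : Fld E) = Polynomial.aeval (w : Fld E) R
    rw [coe_polyHom₀]
    exact (aeval_algHom_apply (IsScalarTower.toAlgHom W (Fld₀ W E q m) (Fld E)) w R).symm
  rw [e] at h2
  exact h2.trans hPz

theorem coe_polyHom_map (w : Fld₀ W E q m) (P : W[X]) :
    chartIncl W w (polyHom₀ w P) = polyHom (w : Fld E) (P.map (algebraMap W O)) := by
  refine Subtype.ext ?_
  show ((polyHom₀ w P : Fld₀ W E q m) : Fld E) = _
  rw [coe_polyHom₀, coe_polyHom, aeval_map_algebraMap]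
  exact (aeval_algHom_apply (IsScalarTower.toAlgHom W (Fld₀ W E q m) (Fld E)) w P).symm

/-- Unique factorisation at a horizontal prime. -/
theorem exists_factor {w : Fld₀ W E q m} (htr : Function.Injective (aeval (R := O) (w : Fld E)))
    (hrat : Model.FixedRational O (transG E) (w : Fld E)) (Q : Ideal (chartRing W w)) [Q.IsPrime]
    (hQ0 : Q ≠ ⊥) (hQ : ∀ a : W, polyHom₀ w (C a) ∈ Q → a = 0) :
    ∃ t : chartRing W w, t ≠ 0 ∧ ∀ z : chartRing W w, z ≠ 0 →
      ∃ (s r : chartRing W w) (i : ℕ), s ∉ Q ∧ r ∉ Q ∧ s * z = r * t ^ i := by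
  haveI : IsFractionRing (chartRing W w) (Fld₀ W E q m) :=
    isFractionRing_chart₀ (G := transG E) htr hrat
  haveI : IsNoetherianRing (chartRing W w) := isNoetherianRing_chart₀ (G := transG E) htr hrat
  haveI : IsIntegrallyClosed (chartRing W w) :=
    (isIntegrallyClosed_iff (Fld₀ W E q m)).mpr fun {x} hx => ⟨⟨x, chart_closed hx⟩, rfl⟩
  set R := Localization.AtPrime Q
  haveI : IsNoetherianRing R := IsLocalization.isNoetherianRing Q.primeCompl R inferInstance
  haveI : IsIntegrallyClosed R :=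
    isIntegrallyClosed_of_isLocalization R Q.primeCompl Q.primeCompl_le_nonZeroDivisors
  have hinj : Function.Injective (algebraMap (chartRing W w) R) :=
    IsLocalization.injective R Q.primeCompl_le_nonZeroDivisors
  letI : Algebra W[X] (chartRing W w) := (polyHom₀ w).toAlgebra
  haveI : Module.Finite W[X] (chartRing W w) := finite_chart₀ (G := transG E) htr hrat
  haveI : Algebra.IsIntegral W[X] (chartRing W w) := Algebra.IsIntegral.of_finite _ _
  have huniq : ∀ P : Ideal R, P ≠ ⊥ → P.IsPrime → P = maximalIdeal R := by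
    intro P hP0 hP
    haveI := hP
    set P₁ := P.comap (algebraMap (chartRing W w) R)
    haveI : P₁.IsPrime := hP.comap _
    have hback : P₁.map (algebraMap (chartRing W w) R) = P :=
      IsLocalization.map_under Q.primeCompl R P
    have hle : P₁ ≤ Q := fun r hr => by
      by_contra hrQ
      exact hP.ne_top (Ideal.eq_top_of_isUnit_mem _ hr
        (IsLocalization.map_units R (⟨r, hrQ⟩ : Q.primeCompl)))
    have hP₁0 : P₁.comap (polyHom₀ w) ≠ ⊥ := fun h =>
      hP0 (by rw [← hback, Ideal.eq_bot_of_comap_eq_bot (R := W[X]) h, Ideal.map_bot])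
    have htr' : P₁.comap (polyHom₀ w) = Q.comap (polyHom₀ w) :=
      prime_eq_of_le (fun a ha => hQ a ha) hP₁0 (Ideal.comap_mono hle)
    have hPQ : P₁ = Q := by
      by_contra hne
      exact (Ideal.IsIntegral.comap_lt_comap (R := W[X]) (lt_of_le_of_ne hle hne)).ne htr'
    rw [← hback, hPQ]
    exact Localization.AtPrime.map_eq_maximalIdeal
  have hm0 : maximalIdeal R ≠ ⊥ := by
    rw [← Localization.AtPrime.map_eq_maximalIdeal, Ne, Ideal.map_eq_bot_iff_le_ker,
      (RingHom.injective_iff_ker_eq_bot _).mp hinj, le_bot_iff]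
    exact hQ0
  have hnf : ¬ IsField R := fun h => hm0 (isField_iff_maximalIdeal_eq.mp h)
  haveI : IsDiscreteValuationRing R := ((IsDiscreteValuationRing.TFAE R hnf).out 0 3).mpr
    (show IsIntegrallyClosed R ∧ ∃! P : Ideal R, P ≠ ⊥ ∧ P.IsPrime from
      ⟨inferInstance, maximalIdeal R, ⟨hm0, inferInstance⟩, fun P hP => huniq P hP.1 hP.2⟩)
  obtain ⟨ϖ, hϖ⟩ := IsDiscreteValuationRing.exists_irreducible R
  obtain ⟨t, ⟨s₀, hs₀⟩, rfl⟩ := IsLocalization.exists_mk'_eq Q.primeCompl ϖ
  have hirr : Irreducible (algebraMap (chartRing W w) R t) := by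
    rw [← IsLocalization.mk'_spec R t (⟨s₀, hs₀⟩ : Q.primeCompl)]
    exact (irreducible_mul_units (IsLocalization.map_units R (⟨s₀, hs₀⟩ : Q.primeCompl)).unit).mpr hϖ
  refine ⟨t, fun h => hirr.ne_zero (by rw [h, map_zero]), fun z hz => ?_⟩
  obtain ⟨i, u, hu⟩ := IsDiscreteValuationRing.eq_unit_mul_pow_irreducible
    ((map_ne_zero_iff _ hinj).mpr hz) hirr
  obtain ⟨r, ⟨s, hs⟩, hrs⟩ := IsLocalization.exists_mk'_eq Q.primeCompl (u : R)
  refine ⟨s, r, i, hs, fun hr => ?_, hinj ?_⟩
  · have : (u : R) ∈ maximalIdeal R := by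
      rw [← hrs, ← Localization.AtPrime.map_eq_maximalIdeal,
        IsLocalization.mk'_mem_map_algebraMap_iff Q.primeCompl]
      exact ⟨1, one_mem _, by rwa [one_mul]⟩
    exact this u.isUnit
  · have h1 := IsLocalization.mk'_spec R r (⟨s, hs⟩ : Q.primeCompl)
    rw [map_mul, map_mul, map_pow, hu, ← h1, ← hrs]
    ring

/-- Roots at a horizontal prime: `k` runs through the possible orders of a uniformiser there along
a centred embedding, and `i` is the valuation of `x`. -/
theorem hasRootAt_of_valuation {w : Fld₀ W E q m} (hwf : ∀ g, fShift E g (w : Fld E) = w)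
    (htr : Function.Injective (aeval (R := O) (w : Fld E)))
    (hrat : Model.FixedRational O (transG E) (w : Fld E)) (hq : (q : O) ∈ maximalIdeal O)
    (Q : Ideal (chartRing W w)) [Q.IsPrime] (hQ0 : Q ≠ ⊥)
    (hQq : algebraMap W (chartRing W w) (q : W) ∉ Q) {n : ℕ} {x : Fld₀ W E q m} (hx : x ≠ 0)
    (hL : ∀ c : ℂ, ∃ (L : Fld E →+* LaurentSeries ℂ) (D : ℕ), Centred E L (w : Fld E) c D ∧
      ∀ g (k : ℤ), k ≠ 0 → k ∣ (D : ℤ) →
        (∀ y : Fld₀ W E q m, k ∣ (L (fShift E g (y : Fld E))).order) →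
        ∀ i : ℤ, (L (fShift E g (x : Fld E))).order = i * k → (n : ℤ) ∣ i) :
    HasRootAt (chartRing W w) n x Q := by
  classical
  letI := (chartIncl W w).toAlgebra
  haveI : Algebra.IsIntegral (chartRing W w) (chartRing O (w : Fld E)) :=
    ⟨chartIncl_isIntegral w⟩
  have hinjI : Function.Injective (chartIncl W w) := fun a b h => Subtype.ext (Subtype.ext
    (congrArg (fun z : chartRing O (w : Fld E) => (z : Fld E)) h))
  obtain ⟨Q', -, hQ'p, hQ'⟩ := Ideal.exists_ideal_over_prime_of_isIntegral Q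
    (⊥ : Ideal (chartRing O (w : Fld E))) (fun z hz => by
      rw [Ideal.mem_comap, Ideal.mem_bot] at hz
      rw [show z = 0 from hinjI (hz.trans (map_zero _).symm)]
      exact zero_mem Q)
  haveI := hQ'p
  have hQ'mem : ∀ z : chartRing W w, chartIncl W w z ∈ Q' ↔ z ∈ Q := fun z => by
    conv_rhs => rw [← hQ']
    rfl
  -- traces avoid the constants
  have hO : ∀ a : O, polyHom (w : Fld E) (C a) ∈ Q' → a = 0 := by
    intro a ha
    by_contra ha0
    let I : Ideal O := (Q'.comap (polyHom (w : Fld E))).comap C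
    haveI : I.IsPrime := (hQ'p.comap _).comap _
    have hmax : I = maximalIdeal O :=
      IsLocalRing.eq_maximalIdeal (Ideal.IsPrime.isMaximal ‹I.IsPrime› fun h => ha0 (by
        have : a ∈ I := ha
        rwa [h, Ideal.mem_bot] at this))
    have h1 : (q : O) ∈ I := hmax ▸ hq
    refine hQq ((hQ'mem _).mp ?_)
    rw [map_natCast, map_natCast]
    rwa [Ideal.mem_comap, Ideal.mem_comap, map_natCast, map_natCast] at h1
  have hWtr : ∀ P : W[X], polyHom₀ w P ∈ Q ↔
      polyHom (w : Fld E) (P.map (algebraMap W O)) ∈ Q' := fun P => by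
    rw [← coe_polyHom_map, hQ'mem]
  have hW : ∀ a : W, polyHom₀ w (C a) ∈ Q → a = 0 := fun a ha =>
    FaithfulSMul.algebraMap_injective W O ((hO _ (by
      rw [hWtr, Polynomial.map_C] at ha; exact ha)).trans (map_zero _).symm)
  -- the value and the equation
  haveI : CharZero O := E.φ.charZero
  haveI : CharZero W := (E.φ.comp (algebraMap W O)).charZero
  letI : Algebra W[X] (chartRing W w) := (polyHom₀ w).toAlgebra
  haveI : Module.Finite W[X] (chartRing W w) := finite_chart₀ (G := transG E) htr hrat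
  haveI : Algebra.IsIntegral W[X] (chartRing W w) := Algebra.IsIntegral.of_finite _ _
  letI : Algebra O[X] (chartRing O (w : Fld E)) := (polyHom (w : Fld E)).toAlgebra
  haveI : Algebra.IsIntegral O[X] (chartRing O (w : Fld E)) := ⟨polyHom_isIntegral _⟩
  have hQ'0 : Q' ≠ ⊥ := fun h => hQ0 (by
    rw [← hQ', h]
    exact Ideal.comap_bot_of_injective _ hinjI)
  haveI : (Q'.comap (polyHom (w : Fld E))).IsPrime := hQ'p.comap _
  haveI : (Q.comap (polyHom₀ w)).IsPrime := ‹Q.IsPrime›.comap _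
  obtain ⟨c, hc, -⟩ := exists_root_prime (p := Q'.comap (polyHom (w : Fld E))) E.inj
    (fun a ha => hO a ha) (fun h => hQ'0 (Ideal.eq_bot_of_comap_eq_bot (R := O[X]) h))
  obtain ⟨-, -, P, hPQ, hsimple⟩ := exists_root_prime (p := Q.comap (polyHom₀ w))
    (φ := E.φ.comp (algebraMap W O)) (E.inj.comp (FaithfulSMul.algebraMap_injective W O))
    (fun a ha => hW a ha) (fun h => hQ0 (Ideal.eq_bot_of_comap_eq_bot (R := W[X]) h))
  have hPQ' : polyHom (w : Fld E) (P.map (algebraMap W O)) ∈ Q' := (hWtr P).mp hPQ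
  have hPc : P.eval₂ (E.φ.comp (algebraMap W O)) c = 0 := by
    have := (hc _).mp hPQ'
    rwa [eval₂_map] at this
  obtain ⟨L₀, D, hL₀, hdiv⟩ := hL c
  obtain ⟨g, hg⟩ := exists_centred_shift hwf htr hrat hL₀ Q' fun R => hc R
  set L : Fld E →+* LaurentSeries ℂ := L₀.comp (fShift E g).toRingHom
  have hLc : Centred E L (w : Fld E) c D := hL₀.shift g (hwf g)
  obtain ⟨e, u, v, he, heD, hu, huv, hv⟩ := hLc.2
  obtain ⟨t, ht0, hfac⟩ := exists_factor htr hrat Q hQ0 hW
  let val : chartRing W w →+* LaurentSeries ℂ :=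
    L.comp ((Fld₀ W E q m).subtype.comp (chartRing W w).val.toRingHom)
  have hvinj : Function.Injective val :=
    L.injective.comp (Subtype.val_injective.comp Subtype.val_injective)
  have hord0 : ∀ s, s ∉ Q → (val s).order = 0 := fun s hs => by
    obtain ⟨f, hf, hiff⟩ := hg (chartIncl W w s)
    have h0 : PowerSeries.constantCoeff f ≠ 0 := fun h => hs ((hQ'mem s).mp (hiff.mpr h))
    show (L₀ (fShift E g ((chartIncl W w s : chartRing O (w : Fld E)) : Fld E))).order = 0
    rw [hf]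
    exact order_ofPS h0
  have hval : ∀ {z s r : chartRing W w} {i : ℕ}, z ≠ 0 → s ∉ Q → r ∉ Q → s * z = r * t ^ i →
      (val z).order = i * (val t).order := by
    intro z s r i hz hs hr h
    have hne : ∀ {y : chartRing W w}, y ≠ 0 → val y ≠ 0 := fun hy =>
      (map_ne_zero_iff _ hvinj).mpr hy
    have hs0 : s ≠ 0 := fun h => hs (h ▸ zero_mem _)
    have hr0 : r ≠ 0 := fun h => hr (h ▸ zero_mem _)
    have := congrArg (fun y => (val y).order) h
    simp only [map_mul, map_pow] at this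
    rw [HahnSeries.order_mul (hne hs0) (hne hz), HahnSeries.order_mul (hne hr0)
      (pow_ne_zero _ (hne ht0)), hord0 s hs, hord0 r hr, zero_add, zero_add,
      HahnSeries.order_pow, nsmul_eq_mul] at this
    exact this
  -- the equation has order `e`
  obtain ⟨G, hG, hGc⟩ : ∃ G : ℂ[X], P.map (E.φ.comp (algebraMap W O)) = (X - C c) * G ∧
      G.eval c ≠ 0 := by
    have h1 := hsimple c hPc
    have hne : P.map (E.φ.comp (algebraMap W O)) ≠ 0 := fun h => by
      rw [h, rootMultiplicity_zero] at h1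
      exact zero_ne_one h1
    obtain ⟨G, hG, hG'⟩ := exists_eq_pow_rootMultiplicity_mul_and_not_dvd _ hne c
    rw [h1, pow_one] at hG
    exact ⟨G, hG, fun h => hG' (dvd_iff_isRoot.mpr h)⟩
  have hcu : PowerSeries.constantCoeff u = c := by
    have := congrArg PowerSeries.constantCoeff huv
    rw [map_sub, PowerSeries.constantCoeff_C, map_mul, map_pow, PowerSeries.constantCoeff_X,
      zero_pow he.ne', zero_mul, sub_eq_zero] at this
    exact this
  have hord : (val (polyHom₀ w P)).order = e := by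
    show (L ((chartIncl W w (polyHom₀ w P) : chartRing O (w : Fld E)) : Fld E)).order = e
    rw [coe_polyHom_map, coe_polyHom, hLc.aeval hu, Polynomial.map_map, hG, eval₂_mul, eval₂_sub,
      eval₂_X, eval₂_C, huv, mul_assoc]
    refine order_ofPS_X_pow_mul ?_ e
    rw [map_mul, constantCoeff_eval₂, hcu]
    exact mul_ne_zero hv hGc
  have hP0 : polyHom₀ w P ≠ 0 := fun h => by
    rw [h, map_zero, HahnSeries.order_zero] at hord
    omega
  obtain ⟨s₀, r₀, i₀, hs₀, hr₀, heq₀⟩ := hfac _ hP0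
  have hke : (val t).order ∣ (e : ℤ) := ⟨i₀, by rw [← hord, hval hP0 hs₀ hr₀ heq₀, mul_comm]⟩
  haveI : IsFractionRing (chartRing W w) (Fld₀ W E q m) :=
    isFractionRing_chart₀ (G := transG E) htr hrat
  set k := (val t).order with hk
  set tF : Fld₀ W E q m := (t : Fld₀ W E q m)
  have htF : tF ≠ 0 := fun h => ht0 (Subtype.ext h)
  have hrep : ∀ y : Fld₀ W E q m, y ≠ 0 → ∃ (s r : chartRing W w) (i : ℤ), s ∉ Q ∧ r ∉ Q ∧
      (L (y : Fld E)).order = i * k ∧
        (s : Fld₀ W E q m) * y = (r : Fld₀ W E q m) * tF ^ i := by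
    intro y hy
    obtain ⟨a, b, hb, hab⟩ := IsFractionRing.div_surjective (A := chartRing W w) y
    have hb0 : b ≠ 0 := nonZeroDivisors.ne_zero hb
    have ha0 : a ≠ 0 := fun h => hy (by rw [← hab, h, map_zero, zero_div])
    obtain ⟨s, r, i, hs, hr, hsr⟩ := hfac a ha0
    obtain ⟨s', r', j, hs', hr', hsr'⟩ := hfac b hb0
    refine ⟨s * r', r * s', (i : ℤ) - j, ‹Q.IsPrime›.mul_notMem hs hr',
      ‹Q.IsPrime›.mul_notMem hr hs', ?_, ?_⟩
    · have h1 : val a = L (y : Fld E) * val b := by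
        show L ((algebraMap (chartRing W w) (Fld₀ W E q m) a : Fld₀ W E q m) : Fld E) = _ *
          L ((algebraMap (chartRing W w) (Fld₀ W E q m) b : Fld₀ W E q m) : Fld E)
        rw [← map_mul, ← MulMemClass.coe_mul, ← hab, div_mul_cancel₀]
        exact (map_ne_zero_iff _ (IsFractionRing.injective _ _)).mpr hb0
      have h2 := congrArg HahnSeries.order h1
      rw [HahnSeries.order_mul ((map_ne_zero_iff _ L.injective).mpr (by simpa using hy))
        ((map_ne_zero_iff _ hvinj).mpr hb0), hval ha0 hs hr hsr, hval hb0 hs' hr' hsr'] at h2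
      linear_combination -h2
    · have hbF : (b : Fld₀ W E q m) ≠ 0 := fun h => hb0 (Subtype.ext h)
      have e1 : (s : Fld₀ W E q m) * a = r * tF ^ i := congrArg Subtype.val hsr
      have e2 : (s' : Fld₀ W E q m) * b = r' * tF ^ j := congrArg Subtype.val hsr'
      have hye : y = (a : Fld₀ W E q m) / b := hab.symm
      push_cast
      rw [zpow_sub₀ htF, zpow_natCast, zpow_natCast, hye, eq_comm]
      field_simp
      linear_combination (r : Fld₀ W E q m) * tF ^ i * e2 - (r' : Fld₀ W E q m) * tF ^ j * e1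
  obtain ⟨s, r, i, hs, hr, hxo, hxe⟩ := hrep x hx
  have hk0 : k ≠ 0 := fun h => by
    rw [h] at hke
    exact he.ne' (by exact_mod_cast zero_dvd_iff.mp hke)
  obtain ⟨z, hz⟩ := hdiv g k hk0 (hke.trans (Int.natCast_dvd_natCast.mpr heD)) (fun y => by
    rcases eq_or_ne y 0 with rfl | hy
    · simp
    · obtain ⟨-, -, j, -, -, hj, -⟩ := hrep y hy
      exact ⟨j, hj.trans (mul_comm _ _)⟩) i hxo
  refine ⟨tF ^ z, s, r, hs, hr, ?_⟩
  show (r : Fld₀ W E q m) * (tF ^ z) ^ n = (s : Fld₀ W E q m) * x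
  rw [← zpow_natCast (tF ^ z) n, ← zpow_mul, mul_comm z (n : ℤ), ← hz, hxe]

/-- Roots at a horizontal prime from divisibility of orders along centred embeddings. -/
theorem hasRootAt_of_orders {w : Fld₀ W E q m} (hwf : ∀ g, fShift E g (w : Fld E) = w)
    (htr : Function.Injective (aeval (R := O) (w : Fld E)))
    (hrat : Model.FixedRational O (transG E) (w : Fld E)) (hq : (q : O) ∈ maximalIdeal O)
    (Q : Ideal (chartRing W w)) [Q.IsPrime] (hQ0 : Q ≠ ⊥)
    (hQq : algebraMap W (chartRing W w) (q : W) ∉ Q) {n D : ℕ} {x : Fld₀ W E q m} (hx : x ≠ 0)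
    (hL : ∀ c : ℂ, ∃ L : Fld E →+* LaurentSeries ℂ, Centred E L (w : Fld E) c D ∧
      ∀ g, (n : ℤ) ∣ (L (fShift E g (x : Fld E))).order) :
    HasRootAt (chartRing W w) n (x ^ D) Q := by
  refine hasRootAt_of_valuation hwf htr hrat hq Q hQ0 hQq (pow_ne_zero D hx) fun c => ?_
  obtain ⟨L, hC, hdiv⟩ := hL c
  refine ⟨L, D, hC, fun g k hk hkD _ i hi => ?_⟩
  obtain ⟨l, hl⟩ := hkD
  obtain ⟨o, ho⟩ := hdiv g
  rw [SubmonoidClass.coe_pow, map_pow, map_pow, HahnSeries.order_pow, nsmul_eq_mul] at hi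
  refine ⟨l * o, mul_right_cancel₀ hk ?_⟩
  rw [← hi, ho, hl]
  ring

/-! ## The embeddings -/

section Local

variable {ψ : ℂ → ℂ} (hψ : AnalyticAt ℂ ψ 0) (h0 : ψ 0 ∈ upperHalfPlaneSet)
  (hd : deriv ψ 0 ≠ 0)

/-- The series in a local coordinate. -/
def locEmb (E : Emb O M) : Fld E →+* LaurentSeries ℂ :=
  IsFractionRing.lift (A := bddMF E) (K := FractionRing (bddMF E))
    (g := (HahnSeries.ofPowerSeries ℤ ℂ).comp
      ((localAlg M hψ h0).toRingHom.comp (bddMF E).subtype))
    fun _ _ h => Subtype.ext (localAlg_injective hψ h0 hd (HahnSeries.ofPowerSeries_injective h))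

theorem locEmb_toFld (a : bddMF E) :
    locEmb hψ h0 hd E (toFld E a) = ι (localAlg M hψ h0 (a : MF M)) :=
  IsFractionRing.lift_algebraMap (A := bddMF E) (K := FractionRing (bddMF E))
    (g := (HahnSeries.ofPowerSeries ℤ ℂ).comp
      ((localAlg M hψ h0).toRingHom.comp (bddMF E).subtype))
    (fun _ _ h => Subtype.ext (localAlg_injective hψ h0 hd (HahnSeries.ofPowerSeries_injective h)))
    a

theorem locEmb_algebraMap (a : O) :
    locEmb hψ h0 hd E (algebraMap O (Fld E) a) = HahnSeries.C (E.φ a) := by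
  rw [algebraMap_eq, locEmb_toFld]
  show ι (localAlg M hψ h0 (algebraMap ℂ (MF M) (E.φ a))) = _
  rw [AlgHom.commutes, ← PowerSeries.C_eq_algebraMap, HahnSeries.ofPowerSeries_C]

end Local

/-- A holomorphic `n`-th power with series of width `M` at all cusps. -/
def IsPowFun (n : ℕ) (φ : MF M) : Prop :=
  ∃ F : ℍ → ℂ, MDifferentiable 𝓘(ℂ) 𝓘(ℂ) F ∧ (φ : ℍ → ℂ) = F ^ n ∧
    ∀ δ : SL(2, ℤ), ∃ h, HasQSeries M (fun τ => F (δ • τ)) h

theorem dvd_order_toLS {n : ℕ} {a : bddMF E} (ha : IsPowFun n (a : MF M)) (g : SL(2, ℤ)) :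
    (n : ℤ) ∣ (toLS E (fShift E g (toFld E a))).order := by
  obtain ⟨F, -, hF, hser⟩ := ha
  obtain ⟨h, hh⟩ := hser g
  have hh' : HasQSeries M (fun τ => ((a : MF M) : ℍ → ℂ) (g • τ)) (h ^ n) := by
    rw [hF]; exact hh.pow n
  rw [fShift_toFld, toLS_toFld, show serAlg M (shift M g (a : MF M)) = h ^ n from
    serAlg_shift_eq hh', HahnSeries.order_pow, nsmul_eq_mul]
  exact dvd_mul_right _ _

theorem dvd_order_locEmb {ψ : ℂ → ℂ} (hψ : AnalyticAt ℂ ψ 0) (h0 : ψ 0 ∈ upperHalfPlaneSet)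
    (hd : deriv ψ 0 ≠ 0) {n : ℕ} {a : bddMF E} (ha : IsPowFun n (a : MF M)) (g : SL(2, ℤ)) :
    (n : ℤ) ∣ (locEmb hψ h0 hd E (fShift E g (toFld E a))).order := by
  obtain ⟨F, hFd, hF, -⟩ := ha
  rw [fShift_toFld, locEmb_toFld]
  set φg : MF M := shift M g (a : MF M)
  set f := localAlg M hψ h0 φg
  rcases eq_or_ne f 0 with hf | hf
  · rw [hf, map_zero, HahnSeries.order_zero]; exact dvd_zero _
  set G : ℂ → ℂ := (fun τ => F (g • τ)) ∘ ofComplex
  have hG : AnalyticAt ℂ G (ψ 0) :=
    ((UpperHalfPlane.mdifferentiable_iff.mp (mdifferentiable_comp_smul hFd g)).analyticOnNhd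
      isOpen_upperHalfPlaneSet) _ h0
  have e : ((φg : MF M) : ℍ → ℂ) ∘ ofComplex = G ^ n := by
    funext z
    show ((a : MF M) : ℍ → ℂ) (g • ofComplex z) = _
    rw [hF]
    rfl
  obtain ⟨k, v, hv, hfv⟩ : ∃ (k : ℕ) (v : PowerSeries ℂ), PowerSeries.constantCoeff v ≠ 0 ∧
      f = PowerSeries.X ^ k * v := by
    refine ⟨f.order.toNat, PowerSeries.divXPowOrder f, ?_,
      (PowerSeries.X_pow_order_mul_divXPowOrder).symm⟩
    rw [PowerSeries.constantCoeff_divXPowOrder]
    exact PowerSeries.coeff_order hf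
  have hord : f.order = (k : ℕ∞) := by
    rw [hfv, PowerSeries.order_mul, PowerSeries.order_X_pow, PowerSeries.order_zero_of_unit
      (PowerSeries.isUnit_iff_constantCoeff.mpr (isUnit_iff_ne_zero.mpr hv)), add_zero]
  have h1 := order_localAlg hψ h0 hd φg
  rw [hord, e, analyticOrderAt_pow hG] at h1
  rw [hfv, order_ofPS_X_pow_mul hv]
  rcases eq_or_ne n 0 with rfl | hn
  · simp only [zero_smul, Nat.cast_eq_zero] at h1
    simp [h1]
  cases ho : analyticOrderAt G (ψ 0) with
  | top => rw [ho] at h1; simp [hn] at h1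
  | coe l =>
    rw [ho, nsmul_eq_mul] at h1
    exact Int.natCast_dvd_natCast.mpr ⟨l, by exact_mod_cast h1⟩

theorem centred_jF (c : ℂ) {D : ℕ} (hD : 6 ∣ D) :
    ∃ (ψ : ℂ → ℂ) (hψ : AnalyticAt ℂ ψ 0) (h0 : ψ 0 ∈ upperHalfPlaneSet) (hd : deriv ψ 0 ≠ 0),
      Centred E (locEmb hψ h0 hd E) (jF E) c D := by
  obtain ⟨τ, rfl⟩ := jFun_surjective c
  obtain ⟨ψ, hψ, h0, -, hd, he⟩ := exists_jCoord M τ
  refine ⟨ψ, hψ, h0, hd, locEmb_algebraMap hψ h0 hd, eOf (jFun τ),
    PowerSeries.C (jFun τ) + PowerSeries.X ^ eOf (jFun τ), 1, eOf_pos _, ?_, ?_, ?_, by simp⟩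
  · refine dvd_trans ?_ hD
    unfold eOf; split_ifs <;> norm_num
  · rw [jF, locEmb_toFld]; exact congrArg _ he
  · rw [add_sub_cancel_left, mul_one]

theorem centred_inv_jF {c : ℂ} (hc : c ≠ 0) {D : ℕ} (hD : 6 ∣ D) :
    ∃ (ψ : ℂ → ℂ) (hψ : AnalyticAt ℂ ψ 0) (h0 : ψ 0 ∈ upperHalfPlaneSet) (hd : deriv ψ 0 ≠ 0),
      Centred E (locEmb hψ h0 hd E) (jF E)⁻¹ c D := by
  obtain ⟨ψ, hψ, h0, hd, hC, e, u, v, he, heD, hu, huv, hv⟩ := centred_jF (E := E) c⁻¹ hD
  have hcu : PowerSeries.constantCoeff u = c⁻¹ := by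
    have := congrArg PowerSeries.constantCoeff huv
    rw [map_sub, PowerSeries.constantCoeff_C, map_mul, map_pow, PowerSeries.constantCoeff_X,
      zero_pow he.ne', zero_mul, sub_eq_zero] at this
    exact this
  have huu : u⁻¹ * u = 1 := PowerSeries.inv_mul_cancel u (hcu ▸ inv_ne_zero hc)
  refine ⟨ψ, hψ, h0, hd, hC, e, u⁻¹, -(PowerSeries.C c * u⁻¹ * v), he, heD, ?_, ?_, ?_⟩
  · rw [map_inv₀, hu]
    exact (eq_inv_of_mul_eq_one_left (by rw [← map_mul, huu, map_one])).symm
  · have hcc : PowerSeries.C c * PowerSeries.C c⁻¹ = 1 := by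
      rw [← map_mul, mul_inv_cancel₀ hc, map_one]
    linear_combination (-(PowerSeries.C c * u⁻¹)) * huv + PowerSeries.C c * huu - u⁻¹ * hcc
  · rw [map_neg, neg_ne_zero, map_mul, map_mul, PowerSeries.constantCoeff_C,
      PowerSeries.constantCoeff_inv, hcu, inv_inv]
    exact mul_ne_zero (mul_ne_zero hc hc) hv

theorem centred_toLS {D : ℕ} (hD : M ∣ D) : Centred E (toLS E) (jF E)⁻¹ 0 D := by
  set U : PowerSeries ℂ := PowerSeries.map E.φ (jUnit (O := O) (M := M))
  have hU : PowerSeries.constantCoeff U = 1 := by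
    rw [← PowerSeries.coeff_zero_eq_constantCoeff_apply, PowerSeries.coeff_map,
      PowerSeries.coeff_zero_eq_constantCoeff_apply, constantCoeff_jUnit, map_one]
  refine ⟨toLS_algebraMap E, M, PowerSeries.X ^ M * U⁻¹, U⁻¹, NeZero.pos M, hD, ?_,
    by rw [map_zero, sub_zero], by rw [PowerSeries.constantCoeff_inv, hU, inv_one]; exact one_ne_zero⟩
  have h := congrArg E.toC (serF_inv_jF E)
  rw [map_mul, toC_serF, E.toC_algebraMap, E.toC_algebraMap] at h
  simp only [Emb.gO, RingHom.comp_apply, map_pow, PowerSeries.map_X] at h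
  have hUi : ι U * ι U⁻¹ = 1 := by
    rw [← map_mul, PowerSeries.mul_inv_cancel U (by rw [hU]; exact one_ne_zero), map_one]
  rw [map_mul, map_pow, ← h, mul_assoc, hUi, mul_one]

/-- Horizontal roots on both descended charts. -/
theorem hasRootAt_horizontal (hq : (q : O) ∈ maximalIdeal O) {w : Fld₀ W E q m}
    (hw : w = jF₀ W E q m ∨ w = (jF₀ W E q m)⁻¹) (Q : Ideal (chartRing W w)) [Q.IsPrime]
    (hQ0 : Q ≠ ⊥) (hQq : algebraMap W (chartRing W w) (q : W) ∉ Q) {n : ℕ}
    {x : Fld₀ W E q m} (hx : x ≠ 0) {a b : bddMF E} (ha : IsPowFun n (a : MF M))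
    (hb : IsPowFun n (b : MF M)) (hab : (x : Fld E) = toFld E a / toFld E b) :
    HasRootAt (chartRing W w) n (x ^ (6 * M)) Q := by
  have key : ∀ L : Fld E →+* LaurentSeries ℂ,
      (∀ {a : bddMF E}, IsPowFun n (a : MF M) → ∀ g,
        (n : ℤ) ∣ (L (fShift E g (toFld E a))).order) →
      ∀ g, (n : ℤ) ∣ (L (fShift E g (x : Fld E))).order := by
    intro L h g
    have hx0 : (x : Fld E) ≠ 0 := fun h => hx (Subtype.ext h)
    have hb0 : toFld E b ≠ 0 := fun h0 => hx0 (by rw [hab, h0, div_zero])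
    have e : L (fShift E g (toFld E a)) =
        L (fShift E g (x : Fld E)) * L (fShift E g (toFld E b)) := by
      rw [← map_mul, ← map_mul, hab, div_mul_cancel₀ _ hb0]
    have := congrArg HahnSeries.order e
    rw [HahnSeries.order_mul
      ((map_ne_zero_iff L L.injective).mpr ((map_ne_zero_iff _ (fShift E g).injective).mpr hx0))
      ((map_ne_zero_iff L L.injective).mpr ((map_ne_zero_iff _ (fShift E g).injective).mpr hb0))]
      at this
    rw [show (L (fShift E g (x : Fld E))).order =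
      (L (fShift E g (toFld E a))).order - (L (fShift E g (toFld E b))).order by omega]
    exact dvd_sub (h ha g) (h hb g)
  have h6 : 6 ∣ 6 * M := dvd_mul_right 6 M
  rcases hw with rfl | rfl
  · refine hasRootAt_of_orders (w := jF₀ W E q m) (fun g => by rw [coe_jF₀, fShift_jF])
      (by rw [coe_jF₀]; exact aeval_jF_injective E)
      (by rw [coe_jF₀]; exact fixedRational_jF E) hq Q hQ0 hQq hx fun c => ?_
    rw [coe_jF₀]
    obtain ⟨ψ, hψ, h0, hd, hC⟩ := centred_jF (E := E) c h6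
    exact ⟨_, hC, key _ fun ha => dvd_order_locEmb hψ h0 hd ha⟩
  · refine hasRootAt_of_orders (w := (jF₀ W E q m)⁻¹)
      (fun g => by rw [coe_inv_jF₀, map_inv₀, fShift_jF])
      (by rw [coe_inv_jF₀]; exact aeval_inv_jF_injective E)
      (by rw [coe_inv_jF₀]; exact fixedRational_inv_jF E) hq Q hQ0 hQq hx fun c => ?_
    rw [coe_inv_jF₀]
    rcases eq_or_ne c 0 with rfl | hc
    · exact ⟨_, centred_toLS (dvd_mul_left M 6), key _ fun ha => dvd_order_toLS ha⟩
    · obtain ⟨ψ, hψ, h0, hd, hC⟩ := centred_inv_jF (E := E) hc h6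
      exact ⟨_, hC, key _ fun ha => dvd_order_locEmb hψ h0 hd ha⟩

/-- Powers of representatives on congruence subgroups. -/
theorem isPowFun_of_rep {G : Subgroup SL(2, ℤ)} {n : ℕ} [NeZero n] {χ : ParG G (ZMod n)}
    {F : ℍ → ℂ} (hF : IsRepG G n χ F) (hG : IsLevel M G) {φ : MF M} (hφ : (φ : ℍ → ℂ) = F ^ n) :
    IsPowFun n φ :=
  ⟨F, hF.holo, hφ, fun δ => (hF.exists_series hG δ).imp fun _ h => h.1⟩

theorem IsPowFun.mul {n : ℕ} {φ ψ : MF M} (h : IsPowFun n φ) (h' : IsPowFun n ψ) :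
    IsPowFun n (φ * ψ) := by
  obtain ⟨F, hF, e, hs⟩ := h
  obtain ⟨F', hF', e', hs'⟩ := h'
  refine ⟨F * F', hF.mul hF', ?_, fun δ => ?_⟩
  · rw [mul_pow, ← e, ← e']; rfl
  · obtain ⟨a, ha⟩ := hs δ
    obtain ⟨b, hb⟩ := hs' δ
    exact ⟨a * b, ha.mul hb⟩

end Fermat.Agent.ModField
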