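/-
Two inertia automorphisms on the descended model over a totally ramified base: the double
difference of a function which is a power along the horizontal primes is a power.
-/
import Fermat.Agent.Models.Gamma0.Horizontal
import Fermat.Agent.Models.Gamma0.TwoCharts
import Fermat.Agent.Models.SemiPoint

set_option autoImplicit false
set_option linter.style.haveILetI false
set_option linter.unusedSectionVars false

noncomputable section

namespace Fermat.Agent.ModField

open Polynomial IsLocalRing CongruenceSubgroup UpperHalfPlane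
open Fermat.Agent.GalRep
open Fermat.Agent.GalRep.Level
open Fermat.Agent.GalRep.Model (chartRing self_mem_chartRing)
open Fermat.Agent.Models (SemiPoints HasRootAt TotRam Charts TrivialMod HasForms)
open scoped MatrixGroups

variable {W : Type} [CommRing W] [IsDomain W] [IsDiscreteValuationRing W]
  {O : Type} [CommRing O] [IsDomain O] [IsDiscreteValuationRing O] [Algebra W O] [Module.Finite W O]
  [FaithfulSMul W O]
  {M : ℕ} [NeZero M] {E : Emb O M} {q m : ℕ} [Algebra W (Fld E)] [IsScalarTower W O (Fld E)]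
  {O' : Type} [CommRing O'] [IsDomain O'] [IsDiscreteValuationRing O'] {E' : Emb O' M}
  [Algebra W O'] [Algebra (Fld₀ W E q m) (Fld₀ O' E' q m)] [Algebra W (Fld₀ O' E' q m)]
  [IsScalarTower W (Fld₀ W E q m) (Fld₀ O' E' q m)] [IsScalarTower W O' (Fld₀ O' E' q m)]

local notation "F₀" => Fld₀ W E q m
local notation "F₁" => Fld₀ O' E' q m

/-! ## The base ring is not enlarged on a chart -/

theorem no_inverse_mem_chart {R F : Type} [CommRing R] [IsDomain R] [IsDiscreteValuationRing R]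
    [Field F] [Algebra R F] {w : F} (htr : Function.Injective (aeval (R := R) w)) {π : R}
    (hπ : ¬ IsUnit π) {b : F} (hb : b ∈ chartRing R w) (h : algebraMap R F π * b = 1) : False := by
  obtain ⟨P, hP, hPb⟩ := (isIntegral_adjoin_iff' w b).mp hb
  set φ := (aeval (R := R) w).toRingHom
  set d := P.natDegree
  have h1 : P.eval₂ φ b * algebraMap R F π ^ d = 0 := by rw [hPb, zero_mul]
  rw [eval₂_eq_sum_range, Finset.sum_range_succ, add_mul, Finset.sum_mul,
    show P.coeff P.natDegree = 1 from hP, map_one, one_mul, ← mul_pow, mul_comm b, h, one_pow] at h1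
  have h2 : φ ((∑ i ∈ Finset.range d, P.coeff i * C (π ^ (d - 1 - i))) * C π + 1) = 0 := by
    rw [map_add, map_one, map_mul, map_sum, ← h1, Finset.sum_mul]
    congr 1
    refine Finset.sum_congr rfl fun i hi => ?_
    have hi' := Finset.mem_range.mp hi
    simp only [map_mul, φ, AlgHom.toRingHom_eq_coe, RingHom.coe_coe, aeval_C, map_pow]
    have e : algebraMap R F π ^ d =
        algebraMap R F π ^ i * (algebraMap R F π ^ (d - 1 - i) * algebraMap R F π) := by
      rw [← pow_succ, ← pow_add]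
      congr 1
      omega
    rw [e]
    have hbi : b ^ i * algebraMap R F π ^ i = 1 := by rw [← mul_pow, mul_comm, h, one_pow]
    linear_combination -(aeval w (P.coeff i) * algebraMap R F π ^ (d - 1 - i) * algebraMap R F π) *
      hbi
  have h3 : (∑ i ∈ Finset.range d, P.coeff i * C (π ^ (d - 1 - i))) * C π + 1 = 0 :=
    htr (h2.trans (map_zero (aeval (R := R) w)).symm)
  have h4 := congrArg (fun Q : R[X] => Q.coeff 0) h3
  simp only [coeff_add, coeff_mul_C, coeff_one_zero, coeff_zero] at h4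
  exact hπ (IsUnit.of_mul_eq_one (-(∑ i ∈ Finset.range d, P.coeff i * C (π ^ (d - 1 - i))).coeff 0)
    (by linear_combination -h4))

theorem isFractionRing_of_le {R F : Type} [CommRing R] [Field F] [Algebra R F]
    {B B' : Subalgebra R F} (hle : B ≤ B') [IsFractionRing B F] : IsFractionRing B' F := by
  haveI : FaithfulSMul B' F :=
    (faithfulSMul_iff_algebraMap_injective _ _).mpr Subtype.val_injective
  refine IsFractionRing.of_field _ _ fun x => ?_
  obtain ⟨a, b, -, hab⟩ := IsFractionRing.div_surjective (A := B) x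
  exact ⟨⟨a, hle a.2⟩, ⟨b, hle b.2⟩, hab.symm⟩

/-! ## The charts over the extension -/

section Charts

theorem algebraMap_jF₀
    (hcompat : ∀ x : F₀, toLS E' ((algebraMap F₀ F₁ x : F₁) : Fld E') = toLS E (x : Fld E)) :
    algebraMap F₀ F₁ (jF₀ W E q m) = jF₀ O' E' q m :=
  Subtype.ext (toLS_injective E' (by rw [hcompat, coe_jF₀, coe_jF₀, toLS_jF, toLS_jF]))

/-- The extended chart is the chart over the extension. -/
theorem extend_chart (X : TotRam W O' F₀ F₁) {w : F₀} (htr : Function.Injective (aeval (R := O) (w : Fld E)))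
    (hrat : Model.FixedRational O (transG E) (w : Fld E)) (hpts : SemiPoints (chartRing W w) X.π) :
    X.extend (chartRing W w) = chartRing O' (algebraMap F₀ F₁ w) := by
  haveI := isFractionRing_chart₀ (W := W) (G := transG E) htr hrat
  haveI := isNoetherianRing_chart₀ (W := W) (G := transG E) htr hrat
  haveI : CharZero F₀ := (Subfield.subtype _).charZero
  set B := chartRing W w
  set w' := algebraMap F₀ F₁ w
  let A₁ := Algebra.adjoin O' ({w'} : Set F₁)
  refine le_antisymm ?_ fun z hz => ?_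
  · rintro _ ⟨b, hb, rfl⟩
    refine Subalgebra.sum_mem _ fun i _ => mul_mem ?_ (pow_mem ((chartRing O' w').algebraMap_mem _) _)
    obtain ⟨P, hP, hPb⟩ := (isIntegral_adjoin_iff' w (b i)).mp (hb i)
    refine (mem_chart_iff (w := w')).mpr ((isIntegral_adjoin_iff' w' _).mpr
      ⟨P.map (mapRingHom (algebraMap W O')), hP.map _, ?_⟩)
    have h2 := congrArg (algebraMap F₀ F₁) hPb
    rw [map_zero, hom_eval₂] at h2
    rw [eval₂_map]
    refine Eq.trans ?_ h2
    congr 1
    refine Polynomial.ringHom_ext (fun a => ?_) ?_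
    · simp only [RingHom.comp_apply, AlgHom.toRingHom_eq_coe, RingHom.coe_coe, coe_mapRingHom,
        Polynomial.map_C, aeval_C]
      rw [← IsScalarTower.algebraMap_apply W O' F₁, ← IsScalarTower.algebraMap_apply W F₀ F₁]
    · simp [w']
  · refine X.mem_extend_of_isIntegral algebraMap_fld₀_injective (fun x hx => chart_closed hx)
      (fun b hb k hbk => Models.reduced_of_semiPoints hpts X.π_ne hb hbk) ?_
    have hle : A₁ ≤ X.extend B := Algebra.adjoin_le
      (Set.singleton_subset_iff.mpr (X.map_mem_extend B (self_mem_chartRing w)))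
    obtain ⟨P, hP, hPz⟩ : IsIntegral A₁ z := hz
    refine ⟨P.map (Subalgebra.inclusion hle).toRingHom, hP.map _, ?_⟩
    rw [eval₂_map]
    exact hPz

end Charts

/-- An automorphism of `ℂ` acting on the constants as an element of inertia. -/
structure InertAct (W : Type) [CommRing W] {O : Type} [CommRing O] [IsDomain O] [Algebra W O]
    {M : ℕ} (E : Emb O M) {O' : Type} [CommRing O'] [IsDomain O'] (E' : Emb O' M) (ϖ : O')
    (s : ℂ ≃+* ℂ) : Prop where
  stab : s ∈ stabK E'
  fix : ∀ c ∈ baseK W E, s c = c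
  res : ∀ a : O', ∃ a', s (E'.φ a) = E'.φ (a + ϖ * a')
  unif : ∃ v : O'ˣ, s (E'.φ ϖ) = E'.φ (ϖ * v)

section Act

variable {ϖ : O'} {s : ℂ ≃+* ℂ} (hs : InertAct W E E' ϖ s) (hqM : q ∣ M) (hmM : m ∣ M)

include hs in
theorem InertAct.baseK_mem {c : ℂ} (hc : c ∈ baseK O' E') : s c ∈ baseK O' E' := by
  refine (Subfield.closure_le (t := (baseK O' E').comap (s : ℂ →+* ℂ))).mpr ?_ hc
  rintro _ ⟨a, rfl⟩
  obtain ⟨a', ha'⟩ := hs.res a
  show s (E'.φ a) ∈ baseK O' E'
  rw [ha']
  exact φ_mem_baseK O' E' (a + ϖ * a')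

/-- The automorphism of the extended field. -/
def InertAct.act : F₁ →+* F₁ :=
  ((fConj E' ⟨s, hs.stab⟩).toRingHom.comp (Fld₀ O' E' q m).subtype).codRestrict (Fld₀ O' E' q m)
    fun x => fConj_mem_levelFld hqM hmM ⟨s, hs.stab⟩ (fun _ hc => hs.baseK_mem hc) x.2

theorem InertAct.coe_act (x : F₁) :
    ((hs.act hqM hmM x : F₁) : Fld E') = fConj E' ⟨s, hs.stab⟩ (x : Fld E') := rfl

theorem InertAct.act_algebraMap (a : O') (b : O') (h : s (E'.φ a) = E'.φ b) :
    hs.act hqM hmM (algebraMap O' F₁ a) = algebraMap O' F₁ b := by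
  refine Subtype.ext (toLS_injective E' ?_)
  rw [InertAct.coe_act, toLS_fConj, coe_algebraMap_fld₀, coe_algebraMap_fld₀, toLS_algebraMap,
    toLS_algebraMap]
  ext i
  rw [lmap_coeff, HahnSeries.C_apply, HahnSeries.C_apply, HahnSeries.coeff_single,
    HahnSeries.coeff_single]
  split_ifs
  · exact h
  · exact map_zero _

theorem InertAct.act_base
    (hcompat : ∀ x : F₀, toLS E' ((algebraMap F₀ F₁ x : F₁) : Fld E') = toLS E (x : Fld E))
    (x : F₀) : hs.act hqM hmM (algebraMap F₀ F₁ x) = algebraMap F₀ F₁ x := by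
  refine Subtype.ext (toLS_injective E' ?_)
  rw [InertAct.coe_act, toLS_fConj, hcompat]
  ext i
  rw [lmap_coeff]
  exact hs.fix _ (mem_kSer.mp (mem_levelFld.mp x.2).2 i)

end Act

set_option maxHeartbeats 800000 in
/-- The double difference of a function which is a power along the horizontal primes is a power up
to the exponent `6 M`. -/
theorem exists_double_root
    (hcompat : ∀ x : F₀, toLS E' ((algebraMap F₀ F₁ x : F₁) : Fld E') = toLS E (x : Fld E))
    (X : TotRam W O' F₀ F₁) (hπ : X.π = (q : W)) (hqM : q ∣ M) (hmM : m ∣ M)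
    (hqO : (q : O') ∈ maximalIdeal O')
    (hpts₀ : SemiPoints (chartRing W (jF₀ W E q m)) (q : W))
    (hpts₁ : SemiPoints (chartRing W (jF₀ W E q m)⁻¹) (q : W))
    {e' Q : ℕ} (heQ : X.e = e' * Q) {ζ : O'} (hζ : IsPrimitiveRoot ζ e') (he' : IsUnit (e' : O'))
    {n : ℕ} (hn : 0 < n) (hQn : Q.Coprime n) {ν : O'} (hν : (n : O') * ν = 1)
    {σ τ : ℂ ≃+* ℂ} (hσ : InertAct W E E' X.ϖ σ) (hτ : InertAct W E E' X.ϖ τ)
    {f : F₁} (hf : f ≠ 0) {a b : bddMF E'} (ha : IsPowFun n (a : MF M))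
    (hb : IsPowFun n (b : MF M)) (hab : (f : Fld E') = toFld E' a / toFld E' b) :
    ∃ (c : O') (h : F₁), c ≠ 0 ∧ h ≠ 0 ∧ (h : Fld E') ^ n = algebraMap O' (Fld E') c *
      ((fConj E' ⟨σ, hσ.stab⟩ (fConj E' ⟨τ, hτ.stab⟩ (f : Fld E')) /
          fConj E' ⟨σ, hσ.stab⟩ (f : Fld E')) /
        (fConj E' ⟨τ, hτ.stab⟩ (f : Fld E') / (f : Fld E'))) ^ (6 * M) := by
  classical
  have hw : algebraMap F₀ F₁ (jF₀ W E q m) = jF₀ O' E' q m := algebraMap_jF₀ hcompat
  have hw' : algebraMap F₀ F₁ (jF₀ W E q m)⁻¹ = (jF₀ O' E' q m)⁻¹ := by rw [map_inv₀, hw]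
  have htr₀ : Function.Injective (aeval (R := O) ((jF₀ W E q m : F₀) : Fld E)) := by
    rw [coe_jF₀]; exact aeval_jF_injective E
  have hrat₀ : Model.FixedRational O (transG E) ((jF₀ W E q m : F₀) : Fld E) := by
    rw [coe_jF₀]; exact fixedRational_jF E
  have htr₁ : Function.Injective (aeval (R := O) (((jF₀ W E q m)⁻¹ : F₀) : Fld E)) := by
    rw [coe_inv_jF₀]; exact aeval_inv_jF_injective E
  have hrat₁ : Model.FixedRational O (transG E) (((jF₀ W E q m)⁻¹ : F₀) : Fld E) := by
    rw [coe_inv_jF₀]; exact fixedRational_inv_jF E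
  rw [← hπ] at hpts₀ hpts₁
  have he₀ := (extend_chart X htr₀ hrat₀ hpts₀).trans (congrArg _ hw)
  have he₁ := (extend_chart X htr₁ hrat₁ hpts₁).trans (congrArg _ hw')
  haveI : CharZero F₀ := (Subfield.subtype _).charZero
  set Mod := (model₀ W E q m).toCharts hn
  haveI hfr₀ : IsFractionRing Mod.B₀ F₀ := isFractionRing_chart₀ (W := W) (G := transG E) htr₀ hrat₀
  haveI hfr₁ : IsFractionRing Mod.B₁ F₀ := isFractionRing_chart₀ (W := W) (G := transG E) htr₁ hrat₁
  haveI : IsFractionRing Mod.B₀₁ F₀ := isFractionRing_of_le Mod.le₀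
  haveI : IsNoetherianRing Mod.B₀ := isNoetherianRing_chart₀ (W := W) (G := transG E) htr₀ hrat₀
  haveI : IsNoetherianRing Mod.B₁ := isNoetherianRing_chart₀ (W := W) (G := transG E) htr₁ hrat₁
  haveI : IsNoetherianRing (chartRing W (jF₀ W E q m)) :=
    isNoetherianRing_chart₀ (W := W) (G := transG E) htr₀ hrat₀
  haveI : IsNoetherianRing (chartRing W (jF₀ W E q m)⁻¹) :=
    isNoetherianRing_chart₀ (W := W) (G := transG E) htr₁ hrat₁
  haveI : IsFractionRing (model₀ W E q m).B₀ F₀ := hfr₀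
  haveI : IsFractionRing (model₀ W E q m).B₁ F₀ := hfr₁
  have hr₀ : X.Reduced Mod.B₀ := fun b hb k hbk =>
    Models.reduced_of_semiPoints hpts₀ X.π_ne hb hbk
  have hr₁ : X.Reduced Mod.B₁ := fun b hb k hbk =>
    Models.reduced_of_semiPoints hpts₁ X.π_ne hb hbk
  set Y := X.charts algebraMap_fld₀_injective hn Mod (model₀ W E q m).closed₀
    (model₀ W E q m).closed₁ (model₀ W E q m).closed₀₁ hr₀ hr₁
  have hY₀ : Y.B₀ = chartRing O' (jF₀ O' E' q m) := he₀
  have hY₁ : Y.B₁ = chartRing O' (jF₀ O' E' q m)⁻¹ := he₁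
  haveI hN₀ : IsNoetherianRing Y.B₀ := by
    rw [hY₀]
    exact isNoetherianRing_chart₀ (W := O') (G := transG E')
      (by rw [coe_jF₀]; exact aeval_jF_injective E') (by rw [coe_jF₀]; exact fixedRational_jF E')
  haveI hN₁ : IsNoetherianRing Y.B₁ := by
    rw [hY₁]
    exact isNoetherianRing_chart₀ (W := O') (G := transG E')
      (by rw [coe_inv_jF₀]; exact aeval_inv_jF_injective E')
      (by rw [coe_inv_jF₀]; exact fixedRational_inv_jF E')
  have hinj' : Function.Injective (algebraMap O' F₁) := algebraMap_fld₀_injective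
  have hϖ0 : algebraMap O' F₁ X.ϖ ≠ 0 := X.gen_ne
  have hϖu : ¬ IsUnit X.ϖ := fun hu => by
    have h1 : IsUnit (algebraMap W O' X.π * (X.unit : O')) := X.pow_eq ▸ hu.pow X.e
    rw [hπ, map_natCast] at h1
    exact (IsLocalRing.mem_maximalIdeal _).mp hqO (isUnit_of_mul_isUnit_left h1)
  have hϖB : ¬ ∃ z ∈ Y.B₀, X.ϖ • z = 1 := by
    rintro ⟨z, hz, he⟩
    rw [hY₀] at hz
    rw [Algebra.smul_def] at he
    refine no_inverse_mem_chart (fun P P' h => ?_) hϖu hz he
    refine aeval_jF_injective E' ?_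
    have h1 := congrArg (IsScalarTower.toAlgHom O' F₁ (Fld E')) h
    rw [← aeval_algHom_apply, ← aeval_algHom_apply] at h1
    exact h1
  haveI : IsNoetherianRing (X.extend Mod.B₀) := hN₀
  haveI : IsNoetherianRing (X.extend Mod.B₁) := hN₁
  set σ' := hσ.act (q := q) (m := m) hqM hmM
  set τ' := hτ.act (q := q) (m := m) hqM hmM
  have hres : ∀ {s : ℂ ≃+* ℂ} (hs : InertAct W E E' X.ϖ s) (a : O'), ∃ a',
      hs.act (q := q) (m := m) hqM hmM (algebraMap O' F₁ a) - algebraMap O' F₁ a =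
        algebraMap O' F₁ (X.ϖ * a') := fun hs a => by
    obtain ⟨a', ha'⟩ := hs.res a
    exact ⟨a', by rw [hs.act_algebraMap hqM hmM a _ ha', map_add, add_sub_cancel_left]⟩
  have htriv : ∀ (B : Subalgebra W F₀) {s : ℂ ≃+* ℂ} (hs : InertAct W E E' X.ϖ s),
      TrivialMod (X.extend B) X.ϖ (hs.act (q := q) (m := m) hqM hmM) := fun B _ hs =>
    X.trivialMod_extend B (fun b _ => hs.act_base hqM hmM hcompat b) (hres hs)
  have hforms : ∀ (B : Subalgebra W F₀) [IsFractionRing B F₀] [IsNoetherianRing (X.extend B)]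
      (_ : SemiPoints B X.π) (_ : ∀ z : F₁, IsIntegral (X.extend B) z → z ∈ X.extend B)
      (w : F₁) (_ : w = jF₀ O' E' q m ∨ w = (jF₀ O' E' q m)⁻¹)
      (_ : X.extend B = chartRing O' w),
      HasForms (X.extend B) X.ϖ n τ' (f ^ (6 * M)) := by
    intro B _ _ hpts hclosed w hwv hB
    refine X.hasForms hpts hclosed heQ hζ hinj' he' hQn hn τ'
      (fun b _ => hτ.act_base hqM hmM hcompat b) (pow_ne_zero _ hf) ?_
    rw [hB]
    intro P hP hP0 hPϖ
    haveI := hP
    refine hasRootAt_horizontal hqO hwv P hP0 (fun hq' => hPϖ ?_) hf ha hb hab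
    refine Ideal.IsPrime.mem_of_pow_mem hP X.e ?_
    rw [← map_pow, X.pow_eq, hπ, map_natCast, map_mul]
    exact P.mul_mem_right _ hq'
  have hclosed₀ : ∀ z : F₁, IsIntegral Y.B₀ z → z ∈ Y.B₀ := fun z hz =>
    X.mem_extend_of_isIntegral algebraMap_fld₀_injective (model₀ W E q m).closed₀ hr₀ hz
  have hclosed₁ : ∀ z : F₁, IsIntegral Y.B₁ z → z ∈ Y.B₁ := fun z hz =>
    X.mem_extend_of_isIntegral algebraMap_fld₀_injective (model₀ W E q m).closed₁ hr₁ hz
  obtain ⟨c, h, hc, hh, he⟩ := Y.exists_root_double hn X.ϖ ν hν hϖ0 hϖB σ' τ'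
    (hσ.act_base hqM hmM hcompat _) (htriv _ hσ) (htriv _ hσ) (htriv _ hτ) (htriv _ hτ)
    (by
      obtain ⟨v, hv⟩ := hτ.unif
      exact ⟨v, (hτ.act_algebraMap hqM hmM _ _ hv).trans (map_mul _ _ _)⟩)
    (pow_ne_zero _ hf)
    (hforms Mod.B₀ hpts₀ hclosed₀ _ (Or.inl rfl) he₀)
    (hforms Mod.B₁ hpts₁ hclosed₁ _ (Or.inr rfl) he₁)
  refine ⟨c, h, fun h0 => hc (by rw [h0, map_zero]), hh, ?_⟩
  have e := congrArg (Fld₀ O' E' q m).subtype he
  simp only [map_div₀, map_pow, map_mul, ← div_pow, Subfield.subtype_apply, coe_algebraMap_fld₀,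
    σ', τ', InertAct.coe_act] at e
  exact e

end Fermat.Agent.ModField
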