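/-
Automorphisms of the constants of level `q * m` over an unramified base: any residue modulo `q * m`
congruent to one modulo `m` occurs, and their fixed constants are those of the base.
-/
import Fermat.Agent.Models.Gamma0.Chart
import Mathlib.RingTheory.Polynomial.Eisenstein.IsIntegral
import Mathlib.NumberTheory.Cyclotomic.Gal

set_option autoImplicit false
set_option linter.style.haveILetI false
set_option linter.unusedSectionVars false

noncomputable section

namespace Fermat.Agent.ModField

open Polynomial CongruenceSubgroup IsLocalRing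
open Fermat.Agent.GalRep
open Fermat.Agent.GalRep.Level
open scoped MatrixGroups

variable {W : Type} [CommRing W] [IsDomain W] [IsDiscreteValuationRing W] {O : Type} [CommRing O]
  [IsDomain O] [Algebra W O] {M : ℕ} [NeZero M] {E : Emb O M} {q m : ℕ} [hq : Fact q.Prime]
  (hmax : maximalIdeal W = Ideal.span {(q : W)}) (hWO : Function.Injective (algebraMap W O))
  (hgen : Algebra.adjoin W {E.ζ} = ⊤) (hζ : ∃ c : W, algebraMap W O c = E.ζ ^ q)
  (hM : M = q * m) (hqm : ¬ q ∣ m)

include hmax hWO in
/-- The cyclotomic polynomial of order `q` is irreducible over the unramified constants. -/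
theorem irreducible_cyclotomic_baseK : Irreducible (cyclotomic q (baseK W E)) := by
  let φ : W →+* baseK W E := ((E.φ).comp (algebraMap W O)).codRestrict _ fun a => φ_mem_baseK W E a
  letI : Algebra W (baseK W E) := φ.toAlgebra
  have hφ : Function.Injective φ := fun a b h => hWO (E.inj (congrArg Subtype.val h))
  haveI : FaithfulSMul W (baseK W E) := (faithfulSMul_iff_algebraMap_injective _ _).2 hφ
  haveI : IsFractionRing W (baseK W E) := IsFractionRing.of_field _ _ fun x => by
    obtain ⟨a, ha, b, hb, h⟩ := Subfield.mem_closure_iff.mp x.2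
    rw [← RingHom.coe_range, Subring.closure_eq] at ha hb
    obtain ⟨a, rfl⟩ := ha
    obtain ⟨b, rfl⟩ := hb
    exact ⟨a, b, Subtype.ext h.symm⟩
  rw [← map_cyclotomic q (algebraMap W (baseK W E)),
    ← Monic.irreducible_iff_irreducible_map_fraction_map (cyclotomic.monic q W)]
  have hq0 : (q : W) ≠ 0 := fun h => by
    have := congrArg ((E.φ).comp (algebraMap W O)) h
    rw [map_natCast, map_zero] at this
    exact hq.out.ne_zero (Nat.cast_eq_zero.1 this)
  have hprime : (Ideal.span {(q : W)}).IsPrime := hmax ▸ (maximalIdeal.isMaximal W).isPrime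
  have hE := cyclotomic_comp_X_add_one_isEisensteinAt q (hp := hq)
  have hmap : (cyclotomic q W).comp (X + C 1) =
      ((cyclotomic q ℤ).comp (X + 1)).map (Int.castRingHom W) := by
    rw [Polynomial.map_comp, map_cyclotomic, Polynomial.map_add, Polynomial.map_one, map_X, map_one]
  have hmon : ((cyclotomic q W).comp (X + C 1)).Monic := (cyclotomic.monic q W).comp_X_add_C 1
  have hei : ((cyclotomic q W).comp (X + C 1)).IsEisensteinAt (Ideal.span {(q : W)}) := by
    refine Monic.isEisensteinAt_of_mem_of_notMem hmon (Ideal.IsPrime.ne_top hprime) (fun {i} hi => ?_) ?_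
    · rw [hmap, natDegree_map_eq_of_injective (f := Int.castRingHom W)] at hi
      · rw [hmap, coeff_map]
        obtain ⟨c, hc⟩ := Ideal.mem_span_singleton.1 (hE.mem hi)
        rw [hc, map_mul, map_natCast]
        exact Ideal.mul_mem_right _ _ (Ideal.mem_span_singleton_self _)
      · intro a b hab
        have := congrArg ((E.φ).comp (algebraMap W O)) hab
        simpa using this
    · have hc0 : ((cyclotomic q W).comp (X + C 1)).coeff 0 = (q : W) := by
        rw [coeff_zero_eq_eval_zero, eval_comp]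
        simp [eval_one_cyclotomic_prime]
      rw [hc0, Ideal.span_singleton_pow, Ideal.mem_span_singleton]
      intro hd
      rw [pow_two] at hd
      have h1 : (q : W) ∣ 1 := (mul_dvd_mul_iff_left hq0).1 (by rwa [mul_one])
      exact hprime.ne_top ((Ideal.eq_top_iff_one _).2 (Ideal.mem_span_singleton.2 h1))
  have hirr : Irreducible ((cyclotomic q W).comp (X + C 1)) :=
    hei.irreducible hprime hmon.isPrimitive (by
      rw [natDegree_comp, natDegree_X_add_C, mul_one, natDegree_cyclotomic, Nat.totient_prime hq.out]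
      have := hq.out.two_le
      omega)
  have he : algEquivAevalXAddC (1 : W) (cyclotomic q W) = (cyclotomic q W).comp (X + C 1) := rfl
  exact (MulEquiv.irreducible_iff (algEquivAevalXAddC (1 : W))).1 (he ▸ hirr)

include hgen hM hqm hζ in
/-- The constants are generated by a root of unity of order `q`. -/
theorem constants_eq_adjoin :
    E.K = (IntermediateField.adjoin (baseK W E) {Model.zetaC M ^ m}).toSubfield := by
  have hζq : Model.zetaC M ^ q ∈ baseK W E := by
    obtain ⟨c, hc⟩ := hζ
    rw [← E.map_ζ, ← map_pow, ← hc]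
    exact φ_mem_baseK W E c
  have hle : ∀ c ∈ baseK W E, c ∈ IntermediateField.adjoin (baseK W E) {Model.zetaC M ^ m} :=
    fun c hc => IntermediateField.algebraMap_mem _ (⟨c, hc⟩ : baseK W E)
  have hm : Model.zetaC M ^ m ∈ IntermediateField.adjoin (baseK W E) {Model.zetaC M ^ m} :=
    IntermediateField.subset_adjoin _ _ rfl
  have hzeta : Model.zetaC M ∈ IntermediateField.adjoin (baseK W E) {Model.zetaC M ^ m} := by
    obtain ⟨u, v, huv⟩ : ∃ u v : ℤ, u * q + v * m = 1 := by
      have := (hq.out.coprime_iff_not_dvd.2 hqm).isCoprime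
      exact this
    have h0 : Model.zetaC M ≠ 0 :=
      (Complex.isPrimitiveRoot_exp M (NeZero.ne M)).ne_zero (NeZero.ne M)
    have e : (Model.zetaC M ^ q) ^ u * (Model.zetaC M ^ m) ^ v = Model.zetaC M := by
      rw [← zpow_natCast _ q, ← zpow_natCast _ m, ← zpow_mul, ← zpow_mul, ← zpow_add₀ h0]
      rw [show (q : ℤ) * u + m * v = 1 by linear_combination huv, zpow_one]
    have := mul_mem (zpow_mem (hle _ hζq) u) (zpow_mem hm v)
    rwa [e] at this
  apply le_antisymm
  · refine Subfield.closure_le.2 ?_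
    rintro _ ⟨o, rfl⟩
    obtain ⟨P, rfl⟩ : ∃ P : W[X], aeval E.ζ P = o :=
      (Algebra.adjoin_singleton_eq_range_aeval W E.ζ).le
        (hgen ▸ Algebra.mem_top : o ∈ Algebra.adjoin W {E.ζ})
    rw [aeval_eq_sum_range, map_sum]
    refine sum_mem fun i _ => ?_
    rw [Algebra.smul_def, map_mul, map_pow, E.map_ζ]
    exact mul_mem (hle _ (φ_mem_baseK W E _)) (pow_mem hzeta i)
  · intro c hc
    induction hc using IntermediateField.adjoin_induction with
    | mem x hx => rw [Set.mem_singleton_iff.1 hx]; exact pow_mem E.zetaC_mem m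
    | algebraMap x => exact baseK_le W E x.2
    | add x y _ _ hx hy => exact add_mem hx hy
    | inv x _ hx => exact inv_mem hx
    | mul x y _ _ hx hy => exact mul_mem hx hy

include hM in
theorem isPrimitiveRoot_zetaC_pow : IsPrimitiveRoot (Model.zetaC M ^ m) q :=
  (Complex.isPrimitiveRoot_exp M (NeZero.ne M)).pow (NeZero.pos M) (by rw [hM, mul_comm])

include hgen hM hqm hζ in
/-- A field automorphism over the base gives one of the constants. -/
theorem exists_stab_extend
    (s : (IntermediateField.adjoin (baseK W E) {Model.zetaC M ^ m}) ≃ₐ[baseK W E]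
      (IntermediateField.adjoin (baseK W E) {Model.zetaC M ^ m})) :
    ∃ σ : stabK E, (∀ c ∈ baseK W E, σ.1 c = c) ∧
      ∀ x : IntermediateField.adjoin (baseK W E) {Model.zetaC M ^ m}, σ.1 x = s x := by
  obtain ⟨σ, hσ⟩ := Moduli.exists_complexAut_extend
    (IntermediateField.adjoin (baseK W E) {Model.zetaC M ^ m}).toSubfield s.toRingEquiv
  have hE := constants_eq_adjoin hgen hζ hM hqm
  refine ⟨⟨σ, fun c => ⟨fun hc => ?_, fun hc => ?_⟩⟩, fun c hc => ?_, fun x => hσ ⟨x, x.2⟩⟩
  · rw [hE] at hc ⊢
    obtain ⟨x, hx⟩ := s.surjective ⟨σ c, hc⟩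
    have : σ (x : ℂ) = σ c := (hσ ⟨x, x.2⟩).trans (congrArg Subtype.val hx)
    rw [← σ.injective this]
    exact x.2
  · rw [hE] at hc ⊢
    rw [show σ c = _ from hσ ⟨c, hc⟩]
    exact SetLike.coe_mem _
  · show σ c = c
    rw [show σ c = _ from hσ ⟨c, IntermediateField.algebraMap_mem _ (⟨c, hc⟩ : baseK W E)⟩]
    exact congrArg Subtype.val (s.commutes ⟨c, hc⟩)

include hmax hWO hgen hM hqm hζ in
/-- Every residue congruent to one modulo `m` is realised. -/
theorem exists_stab_of_unit (d : (ZMod M)ˣ)
    (hd : ZMod.castHom (Dvd.intro_left q hM.symm) (ZMod m) (d : ZMod M) = 1) :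
    ∃ σ : stabK E, (∀ c ∈ baseK W E, σ.1 c = c) ∧ cycC M σ.1 = d := by
  have hp := isPrimitiveRoot_zetaC_pow (M := M) (m := m) hM
  haveI : NeZero q := ⟨hq.out.ne_zero⟩
  set A := IntermediateField.adjoin (baseK W E) {Model.zetaC M ^ m}
  have hint : IsIntegral (baseK W E) (Model.zetaC M ^ m) := (hp.isIntegral hq.out.pos).tower_top
  have hdq : (d : ZMod M).val.Coprime q :=
    (ZMod.val_coe_unit_coprime d).coprime_dvd_right ⟨m, hM⟩
  have hroot : Polynomial.eval₂ (algebraMap (baseK W E) ℂ)
      ((Model.zetaC M ^ m) ^ (d : ZMod M).val) (minpoly (baseK W E) (Model.zetaC M ^ m)) = 0 := by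
    have hmin : minpoly (baseK W E) (Model.zetaC M ^ m) = cyclotomic q (baseK W E) :=
      (minpoly.eq_of_irreducible_of_monic (irreducible_cyclotomic_baseK hmax hWO) (by
        rw [aeval_def, eval₂_eq_eval_map, map_cyclotomic]
        exact hp.isRoot_cyclotomic hq.out.pos) (cyclotomic.monic _ _)).symm
    rw [hmin, eval₂_eq_eval_map, map_cyclotomic]
    exact (hp.pow_of_coprime _ hdq).isRoot_cyclotomic hq.out.pos
  haveI : IsCyclotomicExtension {q} (baseK W E) A := by
    show IsCyclotomicExtension {q} (baseK W E) A.toSubalgebra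
    rw [IntermediateField.adjoin_simple_toSubalgebra_of_isAlgebraic hint.isAlgebraic]
    exact hp.adjoin_isCyclotomicExtension _
  haveI : FiniteDimensional (baseK W E) A := IntermediateField.adjoin.finiteDimensional hint
  haveI : IsGalois (baseK W E) A := IsCyclotomicExtension.isGalois (S := {q}) (K := baseK W E) (L := A)
  let f : A →ₐ[baseK W E] ℂ := (IntermediateField.adjoin.powerBasis hint).lift
    ((Model.zetaC M ^ m) ^ (d : ZMod M).val) (by
      rw [IntermediateField.adjoin.powerBasis_gen, IntermediateField.minpoly_gen, aeval_def]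
      exact hroot)
  let s : A ≃ₐ[baseK W E] A := f.restrictNormal' A
  obtain ⟨σ, hσK, hσ⟩ := exists_stab_extend hgen hζ hM hqm s
  refine ⟨σ, hσK, ?_⟩
  set a := cycC M σ.1
  have hmod : ∀ i j : ℕ, Model.zetaC M ^ i = Model.zetaC M ^ j → (i : ZMod M) = (j : ZMod M) := by
    intro i j h
    rw [ZMod.natCast_eq_natCast_iff']
    refine (Complex.isPrimitiveRoot_exp M (NeZero.ne M)).pow_inj (Nat.mod_lt _ (NeZero.pos M))
      (Nat.mod_lt _ (NeZero.pos M)) ?_
    show Model.zetaC M ^ (i % M) = Model.zetaC M ^ (j % M)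
    rwa [← pow_eq_pow_mod i (zetaC_pow M), ← pow_eq_pow_mod j (zetaC_pow M)]
  have hMp := Complex.isPrimitiveRoot_exp M (NeZero.ne M)
  have hspec : σ.1 (Model.zetaC M) = Model.zetaC M ^ (a : ZMod M).val :=
    cycC_spec σ.1 (zetaC_pow M)
  have e1 : ((((a : ZMod M).val * q : ℕ)) : ZMod M) = ((q : ℕ) : ZMod M) := by
    have h1 : σ.1 (Model.zetaC M ^ q) = Model.zetaC M ^ q := by
      obtain ⟨c, hc⟩ := hζ
      rw [← E.map_ζ, ← map_pow E.φ, ← hc]
      exact hσK _ (φ_mem_baseK W E c)
    rw [map_pow, hspec, ← pow_mul] at h1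
    exact hmod _ _ h1
  have e2 : ((((a : ZMod M).val * m : ℕ)) : ZMod M) = (((d : ZMod M).val * m : ℕ) : ZMod M) := by
    have hgen' : Model.zetaC M ^ m ∈ A := IntermediateField.subset_adjoin _ _ rfl
    have h1 := hσ ⟨_, hgen'⟩
    have h2 : (s ⟨_, hgen'⟩ : ℂ) = (Model.zetaC M ^ m) ^ (d : ZMod M).val := by
      refine (AlgHom.restrictNormal_commutes f A ⟨_, hgen'⟩).trans ?_
      exact (IntermediateField.adjoin.powerBasis hint).lift_gen _ _
    rw [h2] at h1
    rw [show σ.1 _ = σ.1 (Model.zetaC M ^ m) from rfl, map_pow, hspec, ← pow_mul, ← pow_mul,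
      mul_comm m] at h1
    exact hmod _ _ h1
  push_cast [ZMod.natCast_zmod_val] at e1 e2
  refine Units.ext ?_
  have e3 : ((d : ZMod M) - 1) * q = 0 := by
    obtain ⟨c, hc⟩ : ∃ c : ZMod M, (d : ZMod M) - 1 = m * c := by
      have h : (((d : ZMod M).val : ℕ) : ZMod m) = ((1 : ℕ) : ZMod m) := by
        rw [Nat.cast_one, ← hd, ZMod.castHom_apply, ZMod.natCast_val]
      obtain ⟨z, hz⟩ := (Nat.modEq_iff_dvd.1 ((ZMod.natCast_eq_natCast_iff _ _ _).1 h.symm))
      refine ⟨(z : ZMod M), ?_⟩
      have := congrArg (Int.cast : ℤ → ZMod M) hz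
      push_cast [ZMod.natCast_zmod_val] at this
      exact this
    rw [hc, mul_comm, ← mul_assoc, ← Nat.cast_mul, ← hM, ZMod.natCast_self, zero_mul]
  obtain ⟨u, v, huv⟩ : ∃ u v : ℤ, u * q + v * m = 1 := by
    have := (hq.out.coprime_iff_not_dvd.2 hqm).isCoprime
    exact this
  have e4 := congrArg (Int.cast : ℤ → ZMod M) huv
  push_cast at e4
  linear_combination (u : ZMod M) * (e1 - e3) + (v : ZMod M) * e2 -
    ((a : ZMod M) - (d : ZMod M)) * e4

include hmax hWO hgen hM hqm hζ in
/-- The constants fixed by these automorphisms are those of the base. -/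
theorem mem_baseK_of_fixed {c : ℂ} (hc : c ∈ E.K)
    (h : ∀ σ : stabK E, (∀ c ∈ baseK W E, σ.1 c = c) → σ.1 c = c) : c ∈ baseK W E := by
  have hp := isPrimitiveRoot_zetaC_pow (M := M) (m := m) hM
  haveI : NeZero q := ⟨hq.out.ne_zero⟩
  set A := IntermediateField.adjoin (baseK W E) {Model.zetaC M ^ m}
  have hint : IsIntegral (baseK W E) (Model.zetaC M ^ m) := (hp.isIntegral hq.out.pos).tower_top
  haveI : IsCyclotomicExtension {q} (baseK W E) A := by
    show IsCyclotomicExtension {q} (baseK W E) A.toSubalgebra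
    rw [IntermediateField.adjoin_simple_toSubalgebra_of_isAlgebraic hint.isAlgebraic]
    exact hp.adjoin_isCyclotomicExtension _
  haveI : FiniteDimensional (baseK W E) A := IntermediateField.adjoin.finiteDimensional hint
  haveI : IsGalois (baseK W E) A := IsCyclotomicExtension.isGalois (S := {q}) (K := baseK W E) (L := A)
  rw [constants_eq_adjoin hgen hζ hM hqm] at hc
  obtain ⟨y, hy⟩ := IntermediateField.mem_bot.1 ((IsGalois.mem_bot_iff_fixed (⟨c, hc⟩ : A)).2
    fun s => by
      obtain ⟨σ, hσK, hσ⟩ := exists_stab_extend hgen hζ hM hqm s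
      exact Subtype.ext ((hσ ⟨c, hc⟩).symm.trans (h σ hσK)))
  exact (show (y : ℂ) = c from congrArg Subtype.val hy) ▸ y.2

variable [Algebra W (Fld E)] [IsScalarTower W O (Fld E)]

include hmax hWO hgen hM hqm hζ in
/-- An element of the descended field is detected by translations and conjugations. -/
theorem mem_fld₀_of_fixed {x : Fld E} (h₁ : ∀ g ∈ levelG q m, fShift E g x = x)
    (h₂ : ∀ σ : stabK E, (∀ c ∈ baseK W E, σ.1 c = c) → fConj E σ x = x) :
    x ∈ Fld₀ W E q m := by
  refine ⟨h₁, mem_kSer.mpr fun i => mem_baseK_of_fixed hmax hWO hgen hζ hM hqm ?_ fun σ hσ => ?_⟩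
  · exact mem_kSer.mp (E.sFld_le (toLS_mem E x)) i
  · have := congrArg (fun f => f.coeff i) (congrArg (toLS E) (h₂ σ hσ))
    simpa [toLS_fConj, lmap_coeff] using this

end Fermat.Agent.ModField
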