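/-
The automorphisms of the field of level `Γ(qm)` over the field of level `Γ₀(q) ∩ Γ(m)` over an
unramified base, acting on the chart of `1/j`, and their effect on expansions at the cusps modulo the
maximal ideal.
-/
import Fermat.Agent.Models.Gamma0.Constants
import Fermat.Agent.Moduli.CuspPoint
import Fermat.Agent.NewVec.SeriesAct

set_option autoImplicit false
set_option linter.style.haveILetI false
set_option linter.unusedSectionVars false

noncomputable section

namespace Fermat.Agent.ModField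

open Polynomial CongruenceSubgroup IsLocalRing
open Fermat.Agent.GalRep Fermat.Agent.GalRep.Level
open Fermat.Agent.GalRep.Model (chartRing zetaC)
open Fermat.Agent.CuspPt (zO map_zO cB serB evc wF)
open scoped MatrixGroups

variable (W : Type) [CommRing W] {O : Type} [CommRing O] [IsDomain O] [Algebra W O]
  {M : ℕ} [NeZero M] (E : Emb O M) (q m : ℕ)

/-- The automorphisms over the descended field. -/
def cuspH : Subgroup (RingAut (Fld E)) :=
  Subgroup.closure {φ | ∃ g ∈ levelG q m, ∃ σ : stabK E, (∀ c ∈ baseK W E, σ.1 c = c) ∧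
    ∀ x, φ x = fShift E g (fConj E σ x)}

variable {W E q m}

theorem cuspH_smul_def (h : cuspH W E q m) (x : Fld E) : h • x = (h : RingAut (Fld E)) x := rfl

variable [Algebra W (Fld E)] [IsScalarTower W O (Fld E)]

theorem smul_of_mem_fld₀ (h : cuspH W E q m) {x : Fld E} (hx : x ∈ Fld₀ W E q m) : h • x = x := by
  obtain ⟨φ, hφ⟩ := h
  show φ x = x
  induction hφ using Subgroup.closure_induction with
  | mem φ hφ =>
    obtain ⟨g, hg, σ, hσ, e⟩ := hφ
    rw [e, fConj_eq_self σ hσ hx, hx.1 g hg]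
  | one => rfl
  | mul φ ψ _ _ hφ hψ =>
    show φ (ψ x) = x
    rw [hψ, hφ]
  | inv φ _ hφ =>
    refine φ.injective ?_
    rw [hφ]
    exact φ.apply_symm_apply _

theorem smul_algebraMap_base (h : cuspH W E q m) (a : W) :
    h • algebraMap W (Fld E) a = algebraMap W (Fld E) a :=
  smul_of_mem_fld₀ h (algebraMap_mem_fld₀ W E q m a)

theorem smul_wF' (h : cuspH W E q m) : h • wF E = wF E :=
  smul_of_mem_fld₀ h ((jF₀ W E q m)⁻¹).2

theorem cuspH_smul_mem_chart (h : cuspH W E q m) {x : Fld E} (hx : x ∈ chartRing W (wF E)) :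
    h • x ∈ chartRing W (wF E) := by
  rw [mem_chart_iff, isIntegral_adjoin_iff'] at hx ⊢
  obtain ⟨P, hP, hPx⟩ := hx
  refine ⟨P, hP, ?_⟩
  have h2 := congrArg (MulSemiringAction.toRingHom (cuspH W E q m) (Fld E) h) hPx
  rw [Polynomial.hom_eval₂, map_zero] at h2
  rw [show (MulSemiringAction.toRingHom (cuspH W E q m) (Fld E) h).comp
      (aeval (R := W) (wF E)).toRingHom = (aeval (R := W) (wF E)).toRingHom from
    Polynomial.ringHom_ext
      (fun a => by
        show h • aeval (wF E) (C a) = aeval (wF E) (C a)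
        rw [aeval_C, smul_algebraMap_base])
      (by
        show h • aeval (R := W) (wF E) X = aeval (R := W) (wF E) X
        rw [aeval_X, smul_wF'])] at h2
  exact h2

/-! ## On the chart -/

section Chart

variable [IsDomain W] [IsDiscreteValuationRing O] [Algebra.IsIntegral W O]

instance instSMulCuspH : SMul (cuspH W E q m) (cB E) :=
  ⟨fun h b => ⟨h • (b : Fld E), mem_chartRing_restrict.1 (cuspH_smul_mem_chart h (mem_chartRing_restrict.2 b.2))⟩⟩

theorem coe_smul_cuspH (h : cuspH W E q m) (b : cB E) :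
    ((h • b : cB E) : Fld E) = h • (b : Fld E) := rfl

instance instActionCuspH : MulSemiringAction (cuspH W E q m) (cB E) where
  one_smul b := Subtype.ext (one_smul _ (b : Fld E))
  mul_smul σ τ b := Subtype.ext (mul_smul σ τ (b : Fld E))
  smul_zero σ := Subtype.ext (smul_zero σ)
  smul_add σ a b := Subtype.ext (smul_add σ (a : Fld E) (b : Fld E))
  smul_one σ := Subtype.ext (smul_one σ)
  smul_mul σ a b := Subtype.ext (smul_mul' σ (a : Fld E) (b : Fld E))

variable (W E q m)

theorem coe_mem_cB {x : Fld₀ W E q m} (hx : x ∈ chartRing W (jF₀ W E q m)⁻¹) :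
    (x : Fld E) ∈ cB E := by
  have h := (mem_chart₀_iff' (w := (jF₀ W E q m)⁻¹) (x := x)).1 hx
  rw [coe_inv_jF₀] at h
  exact h

/-- The descended chart inside the chart of the level. -/
def toB : chartRing W (jF₀ W E q m)⁻¹ →+* cB E where
  toFun a := ⟨((a : Fld₀ W E q m) : Fld E), coe_mem_cB W E q m a.2⟩
  map_one' := Subtype.ext rfl
  map_mul' _ _ := Subtype.ext rfl
  map_zero' := Subtype.ext rfl
  map_add' _ _ := Subtype.ext rfl

theorem coe_toB (a : chartRing W (jF₀ W E q m)⁻¹) :
    ((toB W E q m a : cB E) : Fld E) = ((a : Fld₀ W E q m) : Fld E) := rfl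

theorem toB_injective : Function.Injective (toB W E q m) := fun a b h =>
  Subtype.ext (Subtype.ext (congrArg (fun z : cB E => (z : Fld E)) h))

theorem toB_algebraMap (a : W) :
    toB W E q m (algebraMap W _ a) = algebraMap O (cB E) (algebraMap W O a) :=
  Subtype.ext (by
    rw [coe_toB, Subalgebra.coe_algebraMap, Subalgebra.coe_algebraMap, coe_algebraMap_fld₀,
      ← IsScalarTower.algebraMap_apply])

theorem toB_self : toB W E q m ⟨_, self_mem_chart _⟩ = CuspPt.wB E :=
  Subtype.ext (by rw [CuspPt.coe_wB]; rfl)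

variable {W E q m}

theorem smul_toB (h : cuspH W E q m) (a : chartRing W (jF₀ W E q m)⁻¹) :
    h • toB W E q m a = toB W E q m a :=
  Subtype.ext (smul_of_mem_fld₀ h (a : Fld₀ W E q m).2)

/-- The chart of the level is finite over the descended chart. -/
theorem finite_toB [Module.Finite W O] :
    letI := (toB W E q m).toAlgebra; Module.Finite (chartRing W (jF₀ W E q m)⁻¹) (cB E) := by
  classical
  letI := (toB W E q m).toAlgebra
  obtain ⟨n, h, hh⟩ := Model.fg_chartRing (G := transG E) (wF E) (aeval_inv_jF_injective E)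
    (fixedRational_inv_jF E)
  obtain ⟨s, hs⟩ := Module.Finite.fg_top (R := W) (M := O)
  let gens : Finset (cB E) :=
    (s ×ˢ (Finset.univ : Finset (Fin n))).image fun p => algebraMap O (cB E) p.1 * h p.2
  refine ⟨gens, eq_top_iff.2 fun x _ => ?_⟩
  set S := Submodule.span (chartRing W (jF₀ W E q m)⁻¹) (gens : Set (cB E))
  have hsm : ∀ (a : chartRing W (jF₀ W E q m)⁻¹) (z : cB E), a • z = toB W E q m a * z :=
    fun a z => rfl
  have hOh : ∀ (o : O) (i : Fin n), algebraMap O (cB E) o * h i ∈ S := by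
    intro o i
    have ho : o ∈ Submodule.span W (s : Set O) := hs ▸ Submodule.mem_top
    induction ho using Submodule.span_induction with
    | mem x hx =>
      exact Submodule.subset_span (Finset.mem_image.2
        ⟨(x, i), Finset.mem_product.2 ⟨hx, Finset.mem_univ _⟩, rfl⟩)
    | zero => simp
    | add x y _ _ hx hy => rw [map_add, add_mul]; exact add_mem hx hy
    | smul a x _ hx =>
      rw [Algebra.smul_def, map_mul, mul_assoc, ← toB_algebraMap W E q m, ← hsm]
      exact S.smul_mem _ hx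
  obtain ⟨Q, hQ⟩ := hh x
  rw [hQ]
  refine sum_mem fun i _ => ?_
  induction Q i using Polynomial.induction_on' with
  | add a b ha hb => rw [Model.polyVal_add, add_mul]; exact add_mem ha hb
  | monomial k a =>
    have e : Model.polyVal (wF E) (monomial k a) =
        algebraMap O (cB E) a * toB W E q m (⟨_, self_mem_chart _⟩ ^ k) := Subtype.ext (by
      rw [Model.coe_polyVal, aeval_monomial, map_pow, toB_self, MulMemClass.coe_mul,
        Subalgebra.coe_algebraMap, SubmonoidClass.coe_pow, CuspPt.coe_wB])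
    rw [e, mul_comm (algebraMap O (cB E) a), mul_assoc, ← hsm]
    exact S.smul_mem _ (hOh a i)

end Chart

/-! ## Shape of the elements -/

variable (hM : M = q * m)

include hM in
theorem exists_of_mem_cuspH (h : cuspH W E q m) : ∃ g ∈ levelG q m, ∃ σ : stabK E,
    (∀ c ∈ baseK W E, σ.1 c = c) ∧ ∀ x, h • x = fShift E g (fConj E σ x) := by
  have hqM : q ∣ M := ⟨m, hM⟩
  have hmM : m ∣ M := ⟨q, by rw [hM, mul_comm]⟩
  obtain ⟨φ, hφ⟩ := h
  show ∃ g ∈ levelG q m, ∃ σ : stabK E, (∀ c ∈ baseK W E, σ.1 c = c) ∧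
    ∀ x, φ x = fShift E g (fConj E σ x)
  induction hφ using Subgroup.closure_induction with
  | mem φ hφ => exact hφ
  | one =>
    exact ⟨1, one_mem _, 1, fun c _ => rfl, fun x => by rw [fConj_one, fShift_one]; rfl⟩
  | mul φ ψ _ _ hφ hψ =>
    obtain ⟨g, hg, σ, hσ, e⟩ := hφ
    obtain ⟨g', hg', σ', hσ', e'⟩ := hψ
    obtain ⟨g'', hg''⟩ := exists_conjEq (cycC M σ.1) g'
    refine ⟨g'' * g, mul_mem (levelG_conj hqM hmM hg'' hg') hg, σ * σ', fun c hc => ?_, fun x => ?_⟩
    · show σ.1 (σ'.1 c) = c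
      rw [hσ' c hc, hσ c hc]
    · show φ (ψ x) = _
      rw [e', e, fConj_fShift E σ hg'', fConj_fConj, fShift_fShift]
  | inv φ _ hφ =>
    obtain ⟨g, hg, σ, hσ, e⟩ := hφ
    obtain ⟨g'', hg''⟩ := exists_conjEq (cycC M (σ⁻¹ : stabK E).1) g⁻¹
    refine ⟨g'', levelG_conj hqM hmM hg'' (inv_mem hg), σ⁻¹, fun c hc => ?_, fun x => ?_⟩
    · refine σ.1.injective ?_
      rw [hσ c hc]
      exact σ.1.apply_symm_apply c
    · refine φ.injective ?_
      rw [show φ ((φ⁻¹ : RingAut (Fld E)) x) = x from φ.apply_symm_apply x, e,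
        ← fConj_fShift E σ⁻¹ hg'', fConj_fConj, mul_inv_cancel, fConj_one, fShift_fShift,
        inv_mul_cancel, fShift_one]

variable (hgen : Algebra.adjoin W {E.ζ} = ⊤)

include hgen in
/-- Automorphisms of the constants are determined by the character. -/
theorem fConj_congr_of_cycC {σ σ' : stabK E} (hσ : ∀ c ∈ baseK W E, σ.1 c = c)
    (hσ' : ∀ c ∈ baseK W E, σ'.1 c = c) (h : cycC M σ.1 = cycC M σ'.1) (x : Fld E) :
    fConj E σ x = fConj E σ' x := by
  have hK : E.K ≤ RingHom.eqLocusField σ.1.toRingHom σ'.1.toRingHom := by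
    refine Subfield.closure_le.2 ?_
    rintro _ ⟨o, rfl⟩
    show σ.1 (E.φ o) = σ'.1 (E.φ o)
    have ho : o ∈ Algebra.adjoin W ({E.ζ} : Set O) := hgen ▸ Algebra.mem_top
    induction ho using Algebra.adjoin_induction with
    | mem y hy =>
      rw [Set.mem_singleton_iff.1 hy, E.map_ζ, cycC_spec σ.1 (zetaC_pow M),
        cycC_spec σ'.1 (zetaC_pow M), h]
    | algebraMap a => rw [hσ _ (φ_mem_baseK W E a), hσ' _ (φ_mem_baseK W E a)]
    | add _ _ _ _ ha hb => rw [map_add, map_add, map_add, ha, hb]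
    | mul _ _ _ _ ha hb => rw [map_mul, map_mul, map_mul, ha, hb]
  refine toLS_injective E ?_
  rw [toLS_fConj, toLS_fConj]
  ext i
  rw [lmap_coeff, lmap_coeff]
  exact hK (mem_kSer.mp (E.sFld_le (toLS_mem E x)) i)

include hM hgen in
theorem finite_cuspH : Finite (cuspH W E q m) := by
  choose g hg σ hσ e using fun h : cuspH W E q m => exists_of_mem_cuspH hM h
  refine Finite.of_injective (fun h => (red M (g h), cycC M (σ h).1)) fun h h' hh => ?_
  obtain ⟨h1, h2⟩ := Prod.ext_iff.1 hh
  refine Subtype.ext (RingEquiv.ext fun x => ?_)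
  rw [← cuspH_smul_def, ← cuspH_smul_def, e, e, fConj_congr_of_cycC hgen (hσ h) (hσ h') h2,
    fShift_congr E h1]

/-! ## Constants -/

variable [IsDomain W] [IsDiscreteValuationRing W] [IsDiscreteValuationRing O] [hq : Fact q.Prime]
  (hmax : maximalIdeal W = Ideal.span {(q : W)}) (hζ : ∃ c : W, algebraMap W O c = E.ζ ^ q)
  (hs : CuspPt.Setup O M q m)

include hM hζ in
theorem cast_cycC {σ : stabK E} (hσ : ∀ c ∈ baseK W E, σ.1 c = c) :
    (m : ℤ) ∣ ((cycC M σ.1 : ZMod M).val : ℤ) - 1 := by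
  set a := cycC M σ.1
  have hspec : σ.1 (zetaC M) = zetaC M ^ (a : ZMod M).val := cycC_spec σ.1 (zetaC_pow M)
  have h1 : σ.1 (zetaC M ^ q) = zetaC M ^ q := by
    obtain ⟨c, hc⟩ := hζ
    rw [← E.map_ζ, ← map_pow E.φ, ← hc]
    exact hσ _ (φ_mem_baseK W E c)
  rw [map_pow, hspec, ← pow_mul] at h1
  have hp := Complex.isPrimitiveRoot_exp M (NeZero.ne M)
  have h2 : zetaC M ^ ((((a : ZMod M).val * q : ℕ) : ℤ) - (q : ℤ)) = 1 := by
    rw [zpow_sub₀ (show zetaC M ≠ 0 from Complex.exp_ne_zero _), zpow_natCast, zpow_natCast, h1,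
      div_self (pow_ne_zero _ (show zetaC M ≠ 0 from Complex.exp_ne_zero _))]
  have h3 : (M : ℤ) ∣ (((a : ZMod M).val * q : ℕ) : ℤ) - (q : ℤ) :=
    (hp.zpow_eq_one_iff_dvd _).1 h2
  have eM : (M : ℤ) = (q : ℤ) * m := by exact_mod_cast hM
  rw [eM] at h3
  push_cast at h3
  exact (mul_dvd_mul_iff_left (Int.natCast_ne_zero.2 hq.out.ne_zero)).1
    (h3.trans (dvd_of_eq (by ring)))

theorem zO_natCast (n : ℕ) : zO E (n : ℤ) = E.ζ ^ n :=
  E.inj (by rw [map_zO, map_pow, E.map_ζ, zpow_natCast])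

include hM hgen hζ hs in
/-- Automorphisms over the base are trivial on residues of constants. -/
theorem exists_conj_const {σ : stabK E} (hσ : ∀ c ∈ baseK W E, σ.1 c = c) (o : O) :
    ∃ o', σ.1 (E.φ o) = E.φ o' ∧ residue O o' = residue O o := by
  have ho : o ∈ Algebra.adjoin W ({E.ζ} : Set O) := hgen ▸ Algebra.mem_top
  induction ho using Algebra.adjoin_induction with
  | mem y hy =>
    rw [Set.mem_singleton_iff.1 hy]
    refine ⟨E.ζ ^ (cycC M σ.1 : ZMod M).val, ?_, ?_⟩
    · rw [map_pow, E.map_ζ]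
      exact cycC_spec σ.1 (zetaC_pow M)
    · rw [← zO_natCast, show E.ζ = zO E ((1 : ℕ) : ℤ) by rw [zO_natCast, pow_one]]
      exact (CuspPt.rz_eq_iff hs E).2 (by exact_mod_cast cast_cycC hM hζ hσ)
  | algebraMap a => exact ⟨_, hσ _ (φ_mem_baseK W E a), rfl⟩
  | add _ _ _ _ ha hb =>
    obtain ⟨a, ha, ha'⟩ := ha
    obtain ⟨b, hb, hb'⟩ := hb
    exact ⟨a + b, by rw [map_add, map_add, map_add, ha, hb], by rw [map_add, map_add, ha', hb']⟩
  | mul _ _ _ _ ha hb =>
    obtain ⟨a, ha, ha'⟩ := ha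
    obtain ⟨b, hb, hb'⟩ := hb
    exact ⟨a * b, by rw [map_mul, map_mul, map_mul, ha, hb], by rw [map_mul, map_mul, ha', hb']⟩

include hmax hs in
theorem algebraMap_mem_max {a : W} (ha : a ∈ maximalIdeal W) :
    algebraMap W O a ∈ maximalIdeal O := by
  rw [hmax, Ideal.mem_span_singleton] at ha
  obtain ⟨b, rfl⟩ := ha
  rw [map_mul, map_natCast]
  exact Ideal.mul_mem_right _ _ hs.mem

include hmax hgen hζ hs in
/-- The residue field does not grow. -/
theorem exists_residue_eq [IsAlgClosed (ResidueField W)] (o : O) :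
    ∃ a : W, residue O (algebraMap W O a) = residue O o := by
  have ho : o ∈ Algebra.adjoin W ({E.ζ} : Set O) := hgen ▸ Algebra.mem_top
  induction ho using Algebra.adjoin_induction with
  | mem y hy =>
    rw [Set.mem_singleton_iff.1 hy]
    obtain ⟨c, hc⟩ := hζ
    obtain ⟨d₀, hd₀⟩ := IsAlgClosed.exists_pow_nat_eq (residue W c) hq.out.pos
    obtain ⟨d, rfl⟩ := residue_surjective d₀
    refine ⟨d, ?_⟩
    rw [← map_pow, ← sub_eq_zero, ← map_sub, residue_eq_zero_iff] at hd₀
    have h1 := (residue_eq_zero_iff _).2 (algebraMap_mem_max hmax hs hd₀)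
    rw [map_sub, map_sub, sub_eq_zero, map_pow, map_pow, hc, map_pow] at h1
    haveI : CharP (ResidueField O) q :=
      (CharP.charP_iff_prime_eq_zero hq.out).mpr (CuspPt.natCast_residue hs)
    exact frobenius_inj (ResidueField O) q (by rw [frobenius_def, frobenius_def]; exact h1)
  | algebraMap a => exact ⟨a, rfl⟩
  | add _ _ _ _ ha hb =>
    obtain ⟨a, ha⟩ := ha
    obtain ⟨b, hb⟩ := hb
    exact ⟨a + b, by rw [map_add, map_add, map_add, ha, hb]⟩
  | mul _ _ _ _ ha hb =>
    obtain ⟨a, ha⟩ := ha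
    obtain ⟨b, hb⟩ := hb
    exact ⟨a * b, by rw [map_mul, map_mul, map_mul, ha, hb]⟩

include hM in
theorem isPrimitiveRoot_zO : IsPrimitiveRoot (zO E (m : ℤ)) q := by
  refine IsPrimitiveRoot.of_map_of_injective (f := E.φ) ?_ E.inj
  rw [map_zO, zpow_natCast]
  exact isPrimitiveRoot_zetaC_pow hM

include hM in
/-- `q` is a power of `ζ_q - 1`. -/
theorem associated_natCast : Associated (q : O) ((zO E (m : ℤ) - 1) ^ (q - 1)) := by
  haveI : NeZero q := ⟨hq.out.ne_zero⟩
  have hp := isPrimitiveRoot_zO (E := E) hM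
  have e : (q : O) = ∏ μ ∈ primitiveRoots q O, (1 - μ) := by
    rw [← eval_one_cyclotomic_prime (R := O) (p := q), cyclotomic_eq_prod_X_sub_primitiveRoots hp,
      eval_prod]
    simp
  rw [e, show (zO E (m : ℤ) - 1) ^ (q - 1) = ∏ _μ ∈ primitiveRoots q O, (zO E (m : ℤ) - 1) by
    rw [Finset.prod_const, hp.card_primitiveRoots, Nat.totient_prime hq.out]]
  refine Associated.prod _ _ _ fun μ hμ => ?_
  rw [mem_primitiveRoots hq.out.pos] at hμ
  obtain ⟨i, -, hic, rfl⟩ := hp.isPrimitiveRoot_iff.1 hμ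
  rw [← neg_sub]
  exact (hp.associated_sub_one_pow_sub_one_of_coprime hic).symm.neg_left

include hmax hM hgen hζ hs in
/-- `ζ_q - 1` generates the maximal ideal. -/
theorem maximalIdeal_eq_lam : maximalIdeal O = Ideal.span {zO E (m : ℤ) - 1} := by
  set lam := zO E (m : ℤ) - 1
  have hq0 : (lam : O) ∣ (q : O) := ((dvd_pow_self lam (by
    have := hq.out.two_le; omega)).trans (associated_natCast (E := E) hM).symm.dvd)
  have key : ∀ o : O, ∃ a : W, lam ∣ o - algebraMap W O a := by
    intro o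
    have ho : o ∈ Algebra.adjoin W ({E.ζ} : Set O) := hgen ▸ Algebra.mem_top
    induction ho using Algebra.adjoin_induction with
    | mem y hy =>
      rw [Set.mem_singleton_iff.1 hy]
      obtain ⟨c, hc⟩ := hζ
      obtain ⟨u, v, huv⟩ := CuspPt.coprime_qm hs
      refine ⟨c ^ (u % (M : ℤ)).toNat, ?_⟩
      have e1 : algebraMap W O (c ^ (u % (M : ℤ)).toNat) = zO E ((q : ℤ) * u) := by
        refine E.inj ?_
        rw [map_pow, hc, map_pow, map_pow, E.map_ζ, map_zO, ← pow_mul, ← zpow_natCast]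
        push_cast
        rw [Int.toNat_of_nonneg (Int.emod_nonneg _ (Int.natCast_ne_zero.2 (NeZero.ne M)))]
        conv_rhs => rw [← Int.emod_add_mul_ediv u M, mul_add, zpow_add₀
          (show zetaC M ≠ 0 from Complex.exp_ne_zero _), ← mul_assoc, mul_comm (q : ℤ) (M : ℤ),
          mul_assoc, zpow_mul _ (M : ℤ), zpow_natCast, zetaC_pow, one_zpow, mul_one]
      rw [e1, show E.ζ = zO E (((1 : ℕ) : ℤ)) by rw [zO_natCast, pow_one]]
      exact CuspPt.lam_dvd_sub E hs ⟨v, by push_cast; linear_combination -huv⟩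
    | algebraMap a => exact ⟨a, by rw [sub_self]; exact dvd_zero _⟩
    | add x y _ _ ha hb =>
      obtain ⟨a, ha⟩ := ha
      obtain ⟨b, hb⟩ := hb
      exact ⟨a + b, by rw [map_add]; exact (dvd_add ha hb).trans (dvd_of_eq (by ring))⟩
    | mul x y _ _ ha hb =>
      obtain ⟨a, ha⟩ := ha
      obtain ⟨b, hb⟩ := hb
      refine ⟨a * b, ?_⟩
      rw [map_mul]
      exact (dvd_add (ha.mul_right y) (hb.mul_left (algebraMap W O a))).trans (dvd_of_eq (by ring))
  have hmem : lam ∈ maximalIdeal O := by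
    rw [← residue_eq_zero_iff, map_sub, map_one, sub_eq_zero]
    exact (CuspPt.rz_eq_one_iff hs E).2 dvd_rfl
  refine le_antisymm (fun o ho => Ideal.mem_span_singleton.2 ?_)
    ((Ideal.span_singleton_le_iff_mem _).2 hmem)
  obtain ⟨a, ha⟩ := key o
  have ha' : a ∈ maximalIdeal W := by
    by_contra hu
    rw [mem_maximalIdeal, mem_nonunits_iff, not_not] at hu
    refine (mem_maximalIdeal _).1 ?_ (hu.map (algebraMap W O))
    obtain ⟨r, hr⟩ := ha
    rw [show algebraMap W O a = o - lam * r by rw [← hr, sub_sub_cancel]]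
    exact sub_mem ho (Ideal.mul_mem_right _ _ hmem)
  rw [hmax, Ideal.mem_span_singleton] at ha'
  obtain ⟨b, rfl⟩ := ha'
  rw [map_mul, map_natCast] at ha
  exact (dvd_add ha (hq0.mul_right (algebraMap W O b))).trans (dvd_of_eq (by ring))

include hmax hM hgen hζ hs in
theorem irreducible_lam : Irreducible (zO E (m : ℤ) - 1) :=
  (IsDiscreteValuationRing.irreducible_iff_uniformizer _).2 (maximalIdeal_eq_lam hM hgen hmax hζ hs)

/-! ## Expansions modulo the maximal ideal -/

variable (E) in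
/-- The expansion at `g ∞` modulo the maximal ideal. -/
def resB (g : SL(2, ℤ)) : cB E →+* PowerSeries (ResidueField O) :=
  (PowerSeries.map (residue O)).comp (serB E g)

theorem constantCoeff_resB (g : SL(2, ℤ)) (b : cB E) :
    PowerSeries.constantCoeff (resB E g b) = evc E g b := by
  rw [resB, RingHom.comp_apply, ← PowerSeries.coeff_zero_eq_constantCoeff_apply,
    PowerSeries.coeff_map, PowerSeries.coeff_zero_eq_constantCoeff_apply]
  rfl

theorem evc_mul_T (g : SL(2, ℤ)) (k : ℤ) : evc E (g * ModularGroup.T ^ k) = evc E g := by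
  refine RingHom.ext fun b => ?_
  set f := serB E g b
  have hf : E.gO f = toLS E (fShift E g (b : Fld E)) := by
    rw [← E.toC_algebraMap, CuspPt.algebraMap_serB, CuspPt.serAt_def, toC_serF]
  let f' : PowerSeries O := PowerSeries.mk fun i => zO E (k * i) * PowerSeries.coeff i f
  have hb : serB E (g * ModularGroup.T ^ k) b = f' := by
    refine CuspPt.serB_eq E ?_
    rw [CuspPt.serAt_def]
    refine CuspPt.serF_eq E ?_
    rw [← fShift_fShift, NewVec.toLS_fShift_T, ← hf]
    ext i
    rw [NewVec.twistHom, twist_coeff]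
    simp only [Emb.gO, RingHom.comp_apply]
    by_cases hi : 0 ≤ i
    · lift i to ℕ using hi
      rw [HahnSeries.ofPowerSeries_apply_coeff, HahnSeries.ofPowerSeries_apply_coeff,
        PowerSeries.coeff_map, PowerSeries.coeff_map, PowerSeries.coeff_mk, map_mul, map_zO,
        zpow_natCast, Units.val_pow_eq_pow_val, Units.val_zpow_eq_zpow_val, zpow_mul, zpow_natCast,
        mul_comm]
      rfl
    · have hi' : i ∉ Set.range ((↑) : ℕ → ℤ) := fun ⟨l, hl⟩ => hi (hl ▸ Int.natCast_nonneg l)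
      have h1 : ∀ f : PowerSeries ℂ, (HahnSeries.ofPowerSeries ℤ ℂ f).coeff i = 0 := fun f => by
        rw [HahnSeries.ofPowerSeries_apply]
        exact HahnSeries.embDomain_of_notMem_range hi'
      rw [h1, h1, zero_mul]
  simp only [evc, RingHom.comp_apply, hb]
  rw [← PowerSeries.coeff_zero_eq_constantCoeff_apply, PowerSeries.coeff_mk, Nat.cast_zero, mul_zero,
    CuspPt.zO_zero, one_mul, PowerSeries.coeff_zero_eq_constantCoeff_apply]

include hM hgen hζ hs in
/-- An automorphism moves the expansions modulo the maximal ideal as it moves the cusps. -/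
theorem resB_smul [Algebra.IsIntegral W O] (h : cuspH W E q m) {g : SL(2, ℤ)} {σ : stabK E}
    (hσ : ∀ c ∈ baseK W E, σ.1 c = c) (e : ∀ x, h • x = fShift E g (fConj E σ x))
    {g₀ g₁ : SL(2, ℤ)} (hg₁ : ConjEq M (cycC M σ.1) g₁ (g * g₀)) (b : cB E) :
    resB E g₀ (h • b) = resB E g₁ b := by
  choose θ hθ hθ' using exists_conj_const hM hgen hζ hs hσ
  set f := serB E g₁ b
  have hf : E.gO f = toLS E (fShift E g₁ (b : Fld E)) := by
    rw [← E.toC_algebraMap, CuspPt.algebraMap_serB, CuspPt.serAt_def, toC_serF]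
  let f' : PowerSeries O := PowerSeries.mk fun i => θ (PowerSeries.coeff i f)
  have hb : serB E g₀ (h • b) = f' := by
    refine CuspPt.serB_eq E ?_
    rw [CuspPt.serAt_def]
    refine CuspPt.serF_eq E ?_
    rw [coe_smul_cuspH, e, fShift_fShift, ← fConj_fShift E σ hg₁, toLS_fConj, ← hf]
    ext i
    rw [lmap_coeff]
    simp only [Emb.gO, RingHom.comp_apply]
    by_cases hi : 0 ≤ i
    · lift i to ℕ using hi
      rw [HahnSeries.ofPowerSeries_apply_coeff, HahnSeries.ofPowerSeries_apply_coeff,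
        PowerSeries.coeff_map, PowerSeries.coeff_map, PowerSeries.coeff_mk, ← hθ]
      rfl
    · have hi' : i ∉ Set.range ((↑) : ℕ → ℤ) := fun ⟨l, hl⟩ => hi (hl ▸ Int.natCast_nonneg l)
      have h1 : ∀ f : PowerSeries ℂ, (HahnSeries.ofPowerSeries ℤ ℂ f).coeff i = 0 := fun f => by
        rw [HahnSeries.ofPowerSeries_apply]
        exact HahnSeries.embDomain_of_notMem_range hi'
      rw [h1, h1, map_zero]
  ext i
  rw [resB, resB, RingHom.comp_apply, RingHom.comp_apply, hb, PowerSeries.coeff_map,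
    PowerSeries.coeff_map, PowerSeries.coeff_mk, hθ']

end Fermat.Agent.ModField
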