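/-
Lengths of fibres cut out by monomials in two parameters, primes avoiding a regular element, and
smooth points or nodes on invariants from parameters upstairs.
-/
import Fermat.Agent.Models.SemiPoint
import Fermat.Agent.Models.NodeDescent
import Fermat.Agent.Moduli.Family

set_option autoImplicit false
set_option linter.style.haveILetI false
set_option linter.unusedSectionVars false

noncomputable section

namespace Fermat.Agent.Models

open Ideal IsLocalRing Fermat.Agent.Moduli
open scoped Pointwise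

section Local

variable {C : Type} [CommRing C] [IsLocalRing C]

/-- If `t` is regular modulo `a` and lies in `(a, b)`, so is `b`. -/
theorem regular_of_mem_sup {a b t : C} (h : IsRegularMod (span {a}) t)
    (ht : t ∈ span {a} ⊔ span {b}) : IsRegularMod (span {a}) b := by
  intro c hc
  obtain ⟨u, hu, v, hv, rfl⟩ := Submodule.mem_sup.1 ht
  obtain ⟨β, rfl⟩ := mem_span_singleton.1 hv
  refine h c ?_
  rw [add_mul, mul_comm b β, mul_assoc]
  exact add_mem (mul_mem_right _ _ hu) (mul_mem_left _ _ hc)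

theorem qlen_maximalIdeal : qlen (maximalIdeal C) = 1 := by
  haveI : IsSimpleModule C (C ⧸ maximalIdeal C) :=
    isSimpleModule_iff_isCoatom.2 (maximalIdeal.isMaximal C).out
  exact Module.length_eq_one C (C ⧸ maximalIdeal C)

/-- The length of the fibre of `a ^ n` and a product of parameters. -/
theorem qlen_pow_prod [IsDomain C] {ι : Type} (s : Finset ι) (f : ι → C) {a : C} {n : ℕ}
    (ha : a ≠ 0) (hgen : ∀ i ∈ s, maximalIdeal C = span {a} ⊔ span {f i})
    (hreg : ∀ i ∈ s, IsRegularMod (span {a}) (f i)) (hf : ∀ i ∈ s, f i ≠ 0) :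
    qlen (span {a ^ n} ⊔ span {∏ i ∈ s, f i}) = ((n * s.card : ℕ) : ℕ∞) := by
  have hswap : ∀ i ∈ s, IsRegularMod (span {f i}) a := fun i hi =>
    isRegularMod_swap ha (hreg i hi)
  rw [qlen_sup_prod _ _ fun i hi =>
    isRegularMod_swap (hf i hi) ((hswap i hi).pow n)]
  rw [Finset.sum_congr rfl (g := fun _ => ((n : ℕ) : ℕ∞)) fun i hi => ?_, Finset.sum_const,
    nsmul_eq_mul, Nat.cast_mul, mul_comm]
  rw [sup_comm, qlen_sup_pow (hswap i hi), sup_comm, ← hgen i hi, qlen_maximalIdeal, nsmul_one]

/-- A prime containing `a` and avoiding an element regular modulo `a`. -/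
theorem exists_prime_of_regular {a y : C} (ha : a ∈ maximalIdeal C)
    (hy : IsRegularMod (span {a}) y) : ∃ P : Ideal C, P.IsPrime ∧ a ∈ P ∧ y ∉ P := by
  have hd : Disjoint (span {a} : Set C) (Submonoid.powers y : Set C) := by
    rw [Set.disjoint_right]
    rintro _ ⟨n, rfl⟩ hn
    have h1 : (1 : C) ∈ span {a} := hy.pow n 1 (by rwa [mul_one])
    exact (maximalIdeal.isMaximal C).ne_top
      ((Ideal.eq_top_iff_one _).2 ((span_singleton_le_iff_mem _).2 ha h1))
  obtain ⟨P, hP, hle, hdisj⟩ := Ideal.exists_le_prime_disjoint _ _ hd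
  exact ⟨P, hP, hle (mem_span_singleton_self a), fun hyP =>
    Set.disjoint_left.1 hdisj hyP ⟨1, pow_one y⟩⟩

end Local

section Descend

variable {W F : Type} [CommRing W] [Field F] [Algebra W F] (A : Subalgebra W F) {B : Type}
  [CommRing B] [IsDomain B] [Algebra A B] [FaithfulSMul A B] [Module.Finite A B] (H : Type)
  [Group H] [Finite H] [MulSemiringAction H B] [SMulCommClass H A B] [FaithfulSMul H B]
  [Algebra.IsInvariant A B H] (m : Ideal B) [m.IsMaximal] {C : Type} [CommRing C] [IsLocalRing C]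
  [Algebra B C] [IsLocalization.AtPrime C m]

/-- Two invariants with short fibre upstairs generate downstairs. -/
theorem generators_of_qlen_le (hres : ∀ b : B, ∃ a : A, b - algebraMap A B a ∈ m) {x y : A}
    (hx : algebraMap A B x ∈ m) (hy : algebraMap A B y ∈ m)
    (hlen : qlen (span {algebraMap B C (algebraMap A B x)} ⊔
      span {algebraMap B C (algebraMap A B y)}) ≤ Nat.card (MulAction.stabilizer H m)) :
    ∀ z ∈ m.comap (algebraMap A B), ∃ s ∉ m.comap (algebraMap A B), s * z ∈ span {x, y} := by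
  intro z hz
  obtain ⟨s, hs, hsz⟩ := exists_mul_mem_of_qlen_le H m hres (span {x, y}) (fun a ha => by
      obtain ⟨u, v, rfl⟩ := mem_span_pair.1 ha
      rw [map_add, map_mul, map_mul]
      exact add_mem (mul_mem_left _ _ hx) (mul_mem_left _ _ hy)) C
    (by rwa [Ideal.map_span, Set.image_pair, Ideal.map_span, Set.image_pair, Ideal.span_insert])
    (a := z) hz
  exact ⟨s, hs, hsz⟩

/-- A prime of the local ring upstairs gives a prime below the point. -/
theorem exists_prime_below {a b : A} (P : Ideal C) [P.IsPrime]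
    (ha : algebraMap B C (algebraMap A B a) ∈ P) (hb : algebraMap B C (algebraMap A B b) ∉ P) :
    ∃ Q : Ideal A, Q.IsPrime ∧ Q ≤ m.comap (algebraMap A B) ∧ a ∈ Q ∧ b ∉ Q := by
  refine ⟨P.comap ((algebraMap B C).comp (algebraMap A B)), Ideal.IsPrime.comap _, fun z hz => ?_,
    ha, hb⟩
  exact (IsLocalization.AtPrime.to_map_mem_maximal_iff C m _).1
    (IsLocalRing.le_maximalIdeal (Ideal.IsPrime.ne_top ‹_›) hz)

/-- A smooth point. -/
theorem isSmoothPoint_of_upstairs {π : W} (hres : ∀ b : B, ∃ a : A, b - algebraMap A B a ∈ m)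
    {τ : A} (hπ : algebraMap A B (algebraMap W A π) ∈ m) (hτ : algebraMap A B τ ∈ m)
    (hlen : qlen (span {algebraMap B C (algebraMap A B (algebraMap W A π))} ⊔
      span {algebraMap B C (algebraMap A B τ)}) ≤ Nat.card (MulAction.stabilizer H m))
    {a : C} (ha : a ∈ maximalIdeal C)
    (hπa : algebraMap B C (algebraMap A B (algebraMap W A π)) ∈ span {a})
    (hreg : IsRegularMod (span {a}) (algebraMap B C (algebraMap A B τ))) :
    IsSmoothPoint A π (m.comap (algebraMap A B)) := by
  obtain ⟨P, hP, haP, hτP⟩ := exists_prime_of_regular ha hreg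
  obtain ⟨Q, hQ, hQm, hπQ, hτQ⟩ := exists_prime_below A m P (a := algebraMap W A π) (b := τ)
    ((span_singleton_le_iff_mem _).2 haP hπa) hτP
  exact ⟨τ, Q, hQ, hQm, hπQ, hτQ, hτ, generators_of_qlen_le A H m hres hπ hτ hlen⟩

/-- A node. -/
theorem isNodePoint_of_upstairs {π : W} (hres : ∀ b : B, ∃ a : A, b - algebraMap A B a ∈ m)
    {x y u : A} (hxy : x * y = algebraMap W A π * u) (hu : algebraMap A B u ∉ m)
    (hx : algebraMap A B x ∈ m) (hy : algebraMap A B y ∈ m)
    (hlen : qlen (span {algebraMap B C (algebraMap A B x)} ⊔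
      span {algebraMap B C (algebraMap A B y)}) ≤ Nat.card (MulAction.stabilizer H m))
    {a : C} (ha : a ∈ maximalIdeal C) (hxa : algebraMap B C (algebraMap A B x) ∈ span {a})
    (hyreg : IsRegularMod (span {a}) (algebraMap B C (algebraMap A B y)))
    {b : C} (hb : b ∈ maximalIdeal C) (hyb : algebraMap B C (algebraMap A B y) ∈ span {b})
    (hxreg : IsRegularMod (span {b}) (algebraMap B C (algebraMap A B x))) :
    IsNodePoint A π (m.comap (algebraMap A B)) := by
  obtain ⟨P, hP, haP, hyP⟩ := exists_prime_of_regular ha hyreg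
  obtain ⟨P', hP', hbP', hxP'⟩ := exists_prime_of_regular hb hxreg
  refine ⟨x, y, u, hu, hxy, hx, hy, generators_of_qlen_le A H m hres hx hy hlen, ?_, ?_⟩
  · obtain ⟨Q, hQ, hQm, h1, h2⟩ := exists_prime_below A m P (a := x) (b := y)
      ((span_singleton_le_iff_mem _).2 haP hxa) hyP
    exact ⟨Q, hQ, hQm, h1, h2⟩
  · obtain ⟨Q, hQ, hQm, h1, h2⟩ := exists_prime_below A m P' (a := y) (b := x)
      ((span_singleton_le_iff_mem _).2 hbP' hyb) hxP'
    exact ⟨Q, hQ, hQm, h1, h2⟩

end Descend

end Fermat.Agent.Models
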