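/-
Local lemmas for the cusps: sums over cosets, orders of expansions at a point with a parameter, and
the points of the chart of `1/j` over the special point.
-/
import Fermat.Agent.Models.Gamma0.CuspGroup
import Fermat.Agent.Models.Gamma0.PointLemmas
import Fermat.Agent.Models.CoreUFD

set_option autoImplicit false
set_option linter.style.haveILetI false
set_option linter.unusedSectionVars false

noncomputable section

namespace Fermat.Agent.ModField

open IsLocalRing CongruenceSubgroup
open Fermat.Agent.GalRep Fermat.Agent.GalRep.Level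
open Fermat.Agent.Moduli (qlen IsRegularMod qlen_sup_pow sup_span_congr isRegularMod_swap)
open scoped MatrixGroups Pointwise

section Coset

variable {G : Type} [Group G] [Finite G] (S : Subgroup G) {B : Type} [CommRing B]
  [MulSemiringAction G B] {y : B}

/-- The sum of the translates over the cosets of a subgroup fixing the element is invariant. -/
theorem smul_sum_out [Fintype (G ⧸ S)] (hy : ∀ s ∈ S, s • y = y) (h : G) :
    h • ∑ c : G ⧸ S, c.out • y = ∑ c : G ⧸ S, c.out • y := by
  rw [Finset.smul_sum]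
  refine Fintype.sum_equiv (MulAction.toPerm h) _ _ fun c => ?_
  show h • c.out • y = (h • c).out • y
  have e : ((h • c).out⁻¹ * (h * c.out)) ∈ S := by
    refine QuotientGroup.eq.1 ?_
    rw [QuotientGroup.out_eq']
    conv_lhs => rw [← QuotientGroup.out_eq' c]
    rfl
  conv_rhs => rw [← hy _ e]
  rw [← mul_smul, ← mul_smul, mul_inv_cancel_left]

/-- The translate by the representative of a coset only depends on the coset. -/
theorem out_smul_eq (hy : ∀ s ∈ S, s • y = y) (g : G) :
    (QuotientGroup.mk g : G ⧸ S).out • y = g • y := by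
  have e : g⁻¹ * (QuotientGroup.mk g : G ⧸ S).out ∈ S :=
    QuotientGroup.eq.1 (QuotientGroup.out_eq' _).symm
  conv_rhs => rw [← hy _ e]
  rw [← mul_smul, mul_inv_cancel_left]

end Coset

section Order

variable {C : Type} [CommRing C] [IsDomain C] [IsNoetherianRing C] [IsLocalRing C] {k : Type}
  [Field k] (ρ : C →+* PowerSeries k) {π x : C}
  (hm : maximalIdeal C = Ideal.span {π, x}) (hπ : ρ π = 0) {V : (PowerSeries k)ˣ}
  (hx : ρ x = PowerSeries.X * (V : PowerSeries k))

include hm hπ in
/-- If the parameters generate and some element has order one, so does the parameter. -/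
theorem exists_order_one {e : C} (he : e ∈ maximalIdeal C) {U : (PowerSeries k)ˣ}
    (hρe : ρ e = PowerSeries.X * (U : PowerSeries k)) (hx0 : PowerSeries.constantCoeff (ρ x) = 0) :
    ∃ V : (PowerSeries k)ˣ, ρ x = PowerSeries.X * (V : PowerSeries k) := by
  rw [hm, Ideal.mem_span_pair] at he
  obtain ⟨a, b, rfl⟩ := he
  obtain ⟨v, hv⟩ := PowerSeries.X_dvd_iff.2 hx0
  rw [map_add, map_mul, map_mul, hπ, mul_zero, zero_add, hv, mul_left_comm] at hρe
  have h := mul_left_cancel₀ PowerSeries.X_ne_zero hρe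
  have hu : IsUnit v := isUnit_of_mul_isUnit_right (h ▸ U.isUnit)
  exact ⟨hu.unit, hv⟩

include hm hπ hx in
theorem mem_span_of_X_pow_dvd :
    ∀ (i : ℕ) {c : C}, (PowerSeries.X : PowerSeries k) ^ i ∣ ρ c → c ∈ Ideal.span {π, x ^ i} := by
  intro i
  induction i with
  | zero => intro c _; exact Ideal.mem_span_pair.2 ⟨0, c, by simp⟩
  | succ i ih =>
    intro c hc
    obtain ⟨a, b, rfl⟩ := Ideal.mem_span_pair.1 (ih ((pow_dvd_pow _ i.le_succ).trans hc))
    rw [map_add, map_mul, map_mul, map_pow, hπ, mul_zero, zero_add, hx, mul_pow, mul_left_comm,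
      pow_succ, mul_dvd_mul_iff_left (pow_ne_zero _ PowerSeries.X_ne_zero), ← Units.val_pow_eq_pow_val,
      Units.dvd_mul_right, PowerSeries.X_dvd_iff] at hc
    have hb : b ∈ maximalIdeal C := fun hu =>
      ((PowerSeries.isUnit_constantCoeff _ (hu.map ρ)).ne_zero) hc
    rw [hm, Ideal.mem_span_pair] at hb
    obtain ⟨a', b', rfl⟩ := hb
    exact Ideal.mem_span_pair.2 ⟨a + a' * x ^ i, b', by rw [pow_succ]; ring⟩

include hm hπ hx in
/-- The fibre of a power of the first parameter and an element of a given order. -/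
theorem fibre_of_order (hπ0 : π ≠ 0) (e s : ℕ) {τ : C} {w : PowerSeries k}
    (hτ : ρ τ = PowerSeries.X ^ s * w) (hw : IsUnit w) :
    qlen (Ideal.span {π ^ e} ⊔ Ideal.span {τ}) = ((e * s : ℕ) : ℕ∞) ∧
      IsRegularMod (Ideal.span {π}) τ := by
  haveI : (RingHom.ker ρ).IsPrime := RingHom.ker_isPrime ρ
  have hx0 : ρ x ≠ 0 := by
    rw [hx]; exact mul_ne_zero PowerSeries.X_ne_zero V.ne_zero
  have hprime : Prime π := Models.prime_of_two_generated hm hπ0 (RingHom.ker ρ) hπ hx0
  have hker : ∀ {z : C}, π ∣ z → ρ z = 0 := fun ⟨c, hc⟩ => by rw [hc, map_mul, hπ, zero_mul]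
  have hτ0 : ρ τ ≠ 0 := by
    rw [hτ]; exact mul_ne_zero (pow_ne_zero _ PowerSeries.X_ne_zero) hw.ne_zero
  have hregx : IsRegularMod (Ideal.span {π}) x := fun c hc => Ideal.mem_span_singleton.2
    ((hprime.dvd_or_dvd (Ideal.mem_span_singleton.1 hc)).resolve_left fun h => hx0 (hker h))
  have hregτ : IsRegularMod (Ideal.span {π}) τ := fun c hc => Ideal.mem_span_singleton.2
    ((hprime.dvd_or_dvd (Ideal.mem_span_singleton.1 hc)).resolve_left fun h => hτ0 (hker h))
  refine ⟨?_, hregτ⟩
  obtain ⟨a, b, hab⟩ := Ideal.mem_span_pair.1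
    (mem_span_of_X_pow_dvd ρ hm hπ hx s ⟨w, hτ⟩)
  have hb : IsUnit b := by
    by_contra hb
    have hb' : b ∈ maximalIdeal C := hb
    rw [hm, Ideal.mem_span_pair] at hb'
    obtain ⟨a', b', rfl⟩ := hb'
    rw [← hab, map_add, map_mul, map_mul, map_pow, map_add, map_mul, map_mul, hπ, mul_zero,
      mul_zero, zero_add, zero_add, hx, mul_pow, mul_left_comm _ (PowerSeries.X ^ s)] at hτ
    have h := mul_left_cancel₀ (pow_ne_zero _ PowerSeries.X_ne_zero) hτ
    have h1 := (PowerSeries.isUnit_constantCoeff _ hw).ne_zero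
    rw [← h, map_mul, map_mul, map_mul, PowerSeries.constantCoeff_X] at h1
    simp at h1
  have e1 : Ideal.span {π} ⊔ Ideal.span {τ} = Ideal.span {π} ⊔ Ideal.span {x ^ s} :=
    sup_span_congr hb (Ideal.mem_span_singleton.2 ⟨a, by linear_combination -hab⟩)
  rw [sup_comm, qlen_sup_pow (isRegularMod_swap hπ0 hregτ), sup_comm, e1, qlen_sup_pow hregx,
    show Ideal.span {π} ⊔ Ideal.span {x} = maximalIdeal C by
      rw [hm, Ideal.span_insert],
    Models.qlen_maximalIdeal]
  simp

end Order

section Translate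

open Fermat.Agent.CuspPt

variable {O : Type} [CommRing O] [IsDomain O] [IsDiscreteValuationRing O] {M q m : ℕ} [NeZero M]
  (E : Emb O M)

/-- The points over the special point are the cusps, with two local parameters. -/
theorem exists_cusp_of_point (h : Setup O M q m) {π : O} (hπ : Irreducible π) (n : Ideal (cB E))
    [hn : n.IsMaximal] (hπn : algebraMap O (cB E) π ∈ n) (hwn : wB E ∈ n) :
    ∃ g : SL(2, ℤ), (∀ z, z ∈ n ↔ evc E g z = 0) ∧ ∃ y ∈ n,
      ∀ z ∈ n, ∃ s ∉ n, s * z ∈ Ideal.span {algebraMap O (cB E) π, y} := by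
  classical
  haveI := Fintype.ofFinite (transG E)
  have hsub : ∀ z ∈ n, ∃ σ : transG E, σ • z ∈ mInf E := by
    intro z hz
    set N : cB E := ∏ σ : transG E, σ • z with hN
    have hNn : N ∈ n := by
      rw [hN, ← Finset.mul_prod_erase _ _ (Finset.mem_univ (1 : transG E)), one_smul]
      exact Ideal.mul_mem_right _ _ hz
    have hfix : ∀ σ : transG E, σ • (N : Fld E) = (N : Fld E) := fun σ => by
      rw [← CuspPt.coe_smul_cB, hN, Finset.smul_prod']
      exact congrArg Subtype.val (Fintype.prod_equiv (Equiv.mulLeft σ) _ _ fun τ => by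
        simp [mul_smul])
    obtain ⟨P, Q, hQ, hPQ⟩ := fixedRational_inv_jF E (N : Fld E) hfix
    obtain ⟨R, hR⟩ : ∃ R : Polynomial O, (N : Fld E) = Polynomial.aeval (wF E) R := by
      obtain ⟨p, hpm, hp⟩ := (Model.isIntegral_adjoin_iff _ _).mp (Model.mem_chartRing_iff.mp N.2)
      letI : Algebra (Polynomial O) (Fld E) := (Polynomial.aeval (wF E)).toRingHom.toAlgebra
      haveI : FaithfulSMul (Polynomial O) (Fld E) :=
        (faithfulSMul_iff_algebraMap_injective _ _).mpr (aeval_inv_jF_injective E)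
      have hint : IsIntegral (Polynomial O) (N : Fld E) := ⟨p, hpm, hp⟩
      let φ : FractionRing (Polynomial O) →ₐ[Polynomial O] Fld E :=
        IsFractionRing.liftAlgHom (g := Algebra.ofId (Polynomial O) (Fld E))
          (FaithfulSMul.algebraMap_injective _ _)
      have hQ' : algebraMap (Polynomial O) (Fld E) Q ≠ 0 := hQ
      have e : φ (algebraMap _ _ P / algebraMap _ _ Q) = N := by
        rw [map_div₀, AlgHom.commutes, AlgHom.commutes, div_eq_iff hQ']
        exact hPQ.symm
      rw [← e] at hint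
      obtain ⟨R, hR⟩ := IsIntegrallyClosed.isIntegral_iff.mp
        ((isIntegral_algHom_iff φ φ.toRingHom.injective).mp hint)
      refine ⟨R, ?_⟩
      rw [← e, ← hR, AlgHom.commutes]
      rfl
    have hdecomp : CuspPt.polyHom E R = CuspPt.polyHom E R.divX * wB E + algebraMap O (cB E) (R.coeff 0) := by
      conv_lhs => rw [← R.X_mul_divX_add, map_add, map_mul, mul_comm]
      congr 1
      exact Polynomial.aeval_C _ _
    have hNR : N = CuspPt.polyHom E R := Subtype.ext (by rw [CuspPt.coe_polyHom, hR])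
    have h0 : R.coeff 0 ∈ maximalIdeal O := by
      by_contra hu
      rw [mem_maximalIdeal, mem_nonunits_iff, not_not] at hu
      refine hn.ne_top (n.eq_top_of_isUnit_mem ?_ (hu.map (algebraMap O (cB E))))
      have h2 : algebraMap O (cB E) (R.coeff 0) = N - CuspPt.polyHom E R.divX * wB E := by
        rw [hNR, hdecomp]; ring
      rw [h2]
      exact sub_mem hNn (n.mul_mem_left _ hwn)
    have hN0 : evc E 1 N = 0 := by
      have hw0 : evc E 1 (wB E) = 0 := by
        simp only [evc, RingHom.comp_apply]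
        obtain ⟨U, hU⟩ := exists_wS (O := O) (M := M)
        rw [serB_eq E (x := wB E) (f := wS O M) (by rw [coe_wB]; exact serAt_wF E 1), hU, map_mul,
          map_pow, PowerSeries.constantCoeff_X, zero_pow (NeZero.ne M), zero_mul, map_zero]
      rw [hNR, hdecomp, map_add, map_mul, hw0, mul_zero, zero_add, evc_algebraMap,
        residue_eq_zero_iff]
      exact h0
    rw [hN, map_prod, Finset.prod_eq_zero_iff] at hN0
    obtain ⟨σ, -, hσ⟩ := hN0
    exact ⟨σ, (mem_mInf E).mpr hσ⟩
  obtain ⟨σ, -, hσ⟩ := (Ideal.subset_union_prime (R := cB E) (s := (Finset.univ : Finset (transG E)))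
    (f := fun σ => σ⁻¹ • mInf E) (1 : transG E) (1 : transG E)
    (fun τ _ _ _ => (Moduli.isMaximal_smul τ⁻¹ (mInf E)).isPrime)).mp (fun z hz => by
      obtain ⟨τ, hτ⟩ := hsub z hz
      simp only [Finset.coe_univ, Set.mem_iUnion, Set.mem_univ, SetLike.mem_coe]
      exact ⟨τ, trivial, Ideal.mem_inv_pointwise_smul_iff.mpr hτ⟩)
  haveI := Moduli.isMaximal_smul σ⁻¹ (mInf E)
  have heq : n = σ⁻¹ • mInf E := hn.eq_of_le (Ideal.IsMaximal.ne_top inferInstance) hσ
  have hmem : ∀ z, z ∈ n ↔ σ • z ∈ mInf E := fun z => by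
    rw [heq, Ideal.mem_inv_pointwise_smul_iff]
  obtain ⟨g, hg⟩ := (mem_transG E).mp σ.2
  refine ⟨g, fun z => by rw [hmem, mem_mInf, evc_smul E hg], ?_⟩
  obtain ⟨x, hx, hgen⟩ := mem_span_at_infinity E h hπ
  refine ⟨σ⁻¹ • x, (hmem _).2 (by rwa [smul_inv_smul]), fun z hz => ?_⟩
  obtain ⟨s, hs, hsz⟩ := hgen _ ((hmem z).1 hz)
  refine ⟨σ⁻¹ • s, fun hs' => hs ?_, ?_⟩
  · rwa [hmem, smul_inv_smul] at hs'
  obtain ⟨a, b, hab⟩ := Ideal.mem_span_pair.mp hsz
  refine Ideal.mem_span_pair.mpr ⟨σ⁻¹ • a, σ⁻¹ • b, ?_⟩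
  have h1 := congrArg (σ⁻¹ • ·) hab
  simp only [smul_add, smul_mul', smul_algebraMap_cB, inv_smul_smul] at h1
  exact h1

/-- An element of order one at each cusp. -/
theorem exists_order_one_at (h : Setup O M q m) (g : SL(2, ℤ)) :
    ∃ e : cB E, ∃ V : (PowerSeries (ResidueField O))ˣ,
      resB E g e = PowerSeries.X * (V : PowerSeries (ResidueField O)) := by
  obtain ⟨x, V, hx⟩ := exists_parameter E h
  let σ : transG E := ⟨shiftHom E g, ⟨g, rfl⟩⟩
  refine ⟨σ • x, V, ?_⟩
  have e : serB E g (σ • x) = serB E 1 x := serB_eq E (by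
    rw [CuspPt.coe_smul_cB, transG_smul_def]
    show serAt E g (fShift E g⁻¹ (x : Fld E)) = _
    rw [serAt_fShift, inv_mul_cancel, algebraMap_serB])
  rw [resB, RingHom.comp_apply, e, hx]

end Translate

end Fermat.Agent.ModField
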