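/-
Sums over a line of torsion of the shifted abscissae, and the unit `∏ z / q`, in the integral
closure of the base in a field of coordinates.
-/
import Fermat.Agent.Moduli.Galois
import Fermat.Agent.Moduli.LegPoint

set_option autoImplicit false
set_option linter.style.haveILetI false
set_option linter.unusedSectionVars false

noncomputable section

namespace Fermat.Agent.Models

open IsLocalRing Fermat.Agent.Moduli
open scoped Pointwise

variable {R : Type} [CommRing R] [IsDomain R] [IsIntegrallyClosed R] [IsNoetherianRing R]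
  {K : Type} [Field K] [Algebra R K] [IsFractionRing R K] {Ω : Type} [Field Ω] [IsAlgClosed Ω]
  [CharZero Ω] [DecidableEq Ω] [Algebra K Ω] [Algebra.IsAlgebraic K Ω] [Algebra R Ω]
  [IsScalarTower R K Ω] [FaithfulSMul R Ω] {l : R} {k : ℕ} (L : IntermediateField K Ω)
  [FiniteDimensional K L] [IsGalois K L] (H : HasCoords (Ω := Ω) (IntCl R L) k l)

/-- The units `1 - r s_T` in the integral closure. -/
theorem exists_shiftU {r : R} (hr : r = 0 ∨ r = 1 ∨ r = l) (T : LegTorsion Ω l (2 * k + 1)) :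
    ∃ w : (IntCl R L)ˣ, (w : IntCl R L) = 1 - algebraMap R (IntCl R L) r * H.s T := by
  rcases hr with rfl | rfl | rfl
  · exact ⟨1, by rw [Units.val_one, map_zero, zero_mul, sub_zero]⟩
  · exact ⟨H.u T, by rw [H.u_eq, map_one, one_mul]⟩
  · exact ⟨H.v T, H.v_eq T⟩

/-- The abscissa of `T + (r, 0)` in the integral closure. -/
def xShiftB {r : R} (hr : r = 0 ∨ r = 1 ∨ r = l) (T : LegTorsion Ω l (2 * k + 1)) : IntCl R L :=
  algebraMap R (IntCl R L) r + algebraMap R (IntCl R L) (slopeAt l r) * H.s T *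
    (((exists_shiftU L H hr T).choose⁻¹ : (IntCl R L)ˣ) : IntCl R L)

/-- The sum over the multiples of a point. -/
def cosetSumB {r : R} (hr : r = 0 ∨ r = 1 ∨ r = l) (Q : LegTorsion Ω l (2 * k + 1)) : IntCl R L :=
  ∑ j : Fin (2 * k + 1), xShiftB L H hr ((j : ℕ) • Q)

section ToLocal

variable {C : Type} [CommRing C] [IsDomain C] [IsLocalRing C] [Algebra (IntCl R L) C]
  [Algebra C Ω] [FaithfulSMul C Ω] [IsScalarTower (IntCl R L) C Ω] [Algebra R C]
  [IsScalarTower R (IntCl R L) C] [IsScalarTower R C Ω]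
  [Fintype (LegTorsion Ω l (2 * k + 1))] [DecidableEq (LegTorsion Ω l (2 * k + 1))]

theorem algebraMap_xShiftB {r : R} (hr : r = 0 ∨ r = 1 ∨ r = l)
    (T : LegTorsion Ω l (2 * k + 1)) :
    algebraMap (IntCl R L) C (xShiftB L H hr T) = (H.toLocal C).xShift hr T := by
  have hs : algebraMap (IntCl R L) C (H.s T) = (H.toLocal C).s T := rfl
  have hw : Units.map (algebraMap (IntCl R L) C).toMonoidHom (exists_shiftU L H hr T).choose =
      (H.toLocal C).shiftUnit hr T := by
    refine Units.ext ?_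
    show algebraMap (IntCl R L) C ((exists_shiftU L H hr T).choose : IntCl R L) = _
    rw [(exists_shiftU L H hr T).choose_spec, (H.toLocal C).shiftUnit_eq, map_sub, map_one, map_mul,
      hs, ← IsScalarTower.algebraMap_apply]
  simp only [xShiftB, HasCoords.xShift, map_add, map_mul, ← IsScalarTower.algebraMap_apply, hs]
  rw [← hw]
  rfl

theorem algebraMap_cosetSumB {r : R} (hr : r = 0 ∨ r = 1 ∨ r = l)
    (Q : LegTorsion Ω l (2 * k + 1)) :
    algebraMap (IntCl R L) C (cosetSumB L H hr Q) = (H.toLocal C).cosetSum hr Q := by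
  simp only [cosetSumB, HasCoords.cosetSum, map_sum, algebraMap_xShiftB]

end ToLocal

variable {q : ℕ} [Fact q.Prime] (hLq : CoordsIn L l (2 * k + 1))

theorem smul_xShiftB (σ : L ≃ₐ[K] L) {r : R} (hr : r = 0 ∨ r = 1 ∨ r = l)
    (T : LegTorsion Ω l (2 * k + 1)) :
    letI := galAction (n := 2 * k + 1) hLq
    σ • xShiftB L H hr T = xShiftB L H hr (σ • T) := by
  letI := galAction (n := 2 * k + 1) hLq
  have hR : ∀ a : R, σ • algebraMap R (IntCl R L) a = algebraMap R (IntCl R L) a := fun a => by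
    rw [Algebra.algebraMap_eq_smul_one, smul_comm, smul_one]
  have hs : σ • H.s T = H.s (σ • T) := ((coords_smul hLq H σ T).2).symm
  have hww : Units.map (MulSemiringAction.toRingHom (L ≃ₐ[K] L) (IntCl R L) σ).toMonoidHom
      (exists_shiftU L H hr T).choose = (exists_shiftU L H hr (σ • T)).choose := by
    refine Units.ext ?_
    show σ • ((exists_shiftU L H hr T).choose : IntCl R L) = _
    rw [(exists_shiftU L H hr T).choose_spec, (exists_shiftU L H hr (σ • T)).choose_spec, smul_sub,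
      smul_one, smul_mul', hR, hs]
  simp only [xShiftB, smul_add, smul_mul', hR, hs]
  congr 2
  exact congrArg (fun u : (IntCl R L)ˣ => ((u⁻¹ : (IntCl R L)ˣ) : IntCl R L)) hww

/-- The sum is invariant under what preserves the line. -/
theorem smul_cosetSumB (hq : q = 2 * k + 1) (σ : L ≃ₐ[K] L) {r : R} (hr : r = 0 ∨ r = 1 ∨ r = l)
    {Q : LegTorsion Ω l (2 * k + 1)} (hQ : Q ≠ 0)
    (hσ : letI := galAction (n := 2 * k + 1) hLq; σ • Q ∈ AddSubgroup.zmultiples Q) :
    σ • cosetSumB L H hr Q = cosetSumB L H hr Q := by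
  letI := galAction (n := 2 * k + 1) hLq
  have hord : addOrderOf Q = 2 * k + 1 := by
    haveI : Fact (2 * k + 1).Prime := ⟨hq ▸ (Fact.out : q.Prime)⟩
    exact addOrderOf_eq_prime (legTorsion_nsmul' Q) hQ
  obtain ⟨a, ha⟩ : ∃ a : ℕ, σ • Q = a • Q := by
    have hfin : IsOfFinAddOrder Q :=
      isOfFinAddOrder_iff_nsmul_eq_zero.2 ⟨2 * k + 1, by omega, legTorsion_nsmul' Q⟩
    have := (IsOfFinAddOrder.mem_multiples_iff_mem_zmultiples hfin).2 hσ
    obtain ⟨a, ha⟩ := this
    exact ⟨a, ha.symm⟩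
  let f : Fin (2 * k + 1) → Fin (2 * k + 1) := fun j =>
    ⟨(j * a) % (2 * k + 1), Nat.mod_lt _ (by omega)⟩
  have hfj : ∀ j : Fin (2 * k + 1), ((f j : ℕ)) • Q = σ • ((j : ℕ) • Q) := fun j => by
    rw [smul_comm σ (j : ℕ) Q, ha, ← mul_nsmul']
    show ((j : ℕ) * a % (2 * k + 1)) • Q = _
    exact (congrArg (fun n => ((j : ℕ) * a % n) • Q) hord.symm).trans (mod_addOrderOf_nsmul _ _)
  have hinj : Function.Injective f := fun i j hij => by
    have h1 := (hfj i).symm.trans ((congrArg (fun x : Fin _ => (x : ℕ) • Q) hij).trans (hfj j))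
    have h2 := (MulAction.injective σ) h1
    exact Fin.ext (nsmul_injOn_Iio_addOrderOf (Set.mem_Iio.2 (i.2.trans_le hord.ge))
      (Set.mem_Iio.2 (j.2.trans_le hord.ge)) h2)
  simp only [cosetSumB, Finset.smul_sum, smul_xShiftB L H hLq]
  exact Fintype.sum_equiv (Equiv.ofBijective f (Finite.injective_iff_bijective.1 hinj)) _ _
    fun j => by
      show _ = xShiftB L H hr (((f j : ℕ)) • Q)
      rw [hfj]

/-- The product of the parameters over `q` is a unit. -/
theorem exists_prod_eq (C) [CommRing C] [IsDomain C] [IsLocalRing C] [Algebra (IntCl R L) C]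
    [Algebra C Ω] [FaithfulSMul C Ω] [IsScalarTower (IntCl R L) C Ω] [Algebra R C]
    [IsScalarTower R (IntCl R L) C] [IsScalarTower R C Ω]
    [Fintype (LegTorsion Ω l (2 * k + 1))] [DecidableEq (LegTorsion Ω l (2 * k + 1))]
    (hl : IsUnit l) (hl1 : IsUnit (1 - l)) (m : Ideal (IntCl R L)) [m.IsPrime] :
    ∃ u : IntCl R L, u ∉ m ∧
      ∏ T ∈ (Finset.univ : Finset (LegTorsion Ω l (2 * k + 1))).erase 0, H.z T =
        ((2 * k + 1 : ℕ) : IntCl R L) * u := by
  classical
  have hinjC : Function.Injective (algebraMap (IntCl R L) C) := fun a b h => Subtype.ext <|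
    (algebraMap L Ω).injective (show algebraMap (IntCl R L) Ω a = algebraMap (IntCl R L) Ω b by
      rw [IsScalarTower.algebraMap_apply (IntCl R L) C Ω,
        IsScalarTower.algebraMap_apply (IntCl R L) C Ω, h])
  obtain ⟨D⟩ := nonempty_divData (R := R) (Ω := Ω) hl hl1 k
  obtain ⟨b0, hb0⟩ := ((D.isUnit_b0 hl hl1).map (algebraMap R (IntCl R L)) :
    IsUnit (algebraMap R (IntCl R L) (D.b.eval 0)))
  set n : IntCl R L := ((2 * k + 1 : ℕ) : IntCl R L)
  set S := (Finset.univ : Finset (LegTorsion Ω l (2 * k + 1))).erase 0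
  set P := ∏ T ∈ S, H.z T
  obtain ⟨W, hW⟩ : ∃ W : (IntCl R L)ˣ, n ^ 2 = W * P ^ 2 := by
    refine ⟨b0 * ∏ T ∈ S, (-(H.u T * H.v T)), ?_⟩
    apply hinjC
    have h := (H.toLocal C).natCast_sq hl hl1 D
    rw [map_pow, map_natCast, h, map_mul, Units.val_mul, map_mul, hb0,
      ← IsScalarTower.algebraMap_apply, Units.coe_prod, map_prod, map_pow, map_prod,
      ← Finset.prod_pow, mul_assoc, ← Finset.prod_mul_distrib]
    congr 1
    refine Finset.prod_congr rfl fun T _ => ?_
    rw [(H.toLocal C).s_eq, Units.val_neg, map_neg, Units.val_mul, map_mul]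
    simp only [HasCoords.toLocal, Units.coe_map, MonoidHom.coe_coe, RingHom.toMonoidHom_eq_coe]
    ring
  have hn0 : (n : L) ≠ 0 := by
    haveI : CharZero L := (algebraMap L Ω).charZero
    rw [show (n : L) = ((2 * k + 1 : ℕ) : L) from map_natCast (IntCl R L).val _]
    exact Nat.cast_ne_zero.2 (by omega)
  set x : L := (P : L) / n
  have hx2 : x ^ 2 = (((W⁻¹ : (IntCl R L)ˣ) : IntCl R L) : L) := by
    have h1 : ((W : IntCl R L) : L) * (((W⁻¹ : (IntCl R L)ˣ) : IntCl R L) : L) = 1 := by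
      rw [← MulMemClass.coe_mul, Units.mul_inv]; rfl
    have h2 := congrArg (fun z : IntCl R L => (z : L)) hW
    simp only [MulMemClass.coe_mul, SubmonoidClass.coe_pow] at h2
    rw [div_pow, div_eq_iff (pow_ne_zero _ hn0)]
    linear_combination -(((W⁻¹ : (IntCl R L)ˣ) : IntCl R L) : L) * h2 - (P : L) ^ 2 * h1
  have hxi : _root_.IsIntegral R x := .of_pow two_pos (hx2 ▸ ((W⁻¹ : (IntCl R L)ˣ) : IntCl R L).2)
  refine ⟨⟨x, hxi⟩, fun hm => ?_, Subtype.ext ?_⟩
  · refine Ideal.IsPrime.ne_top ‹m.IsPrime› (m.eq_top_of_isUnit_mem ?_ (W⁻¹).isUnit)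
    have := m.mul_mem_left (⟨x, hxi⟩ : IntCl R L) hm
    rwa [show (⟨x, hxi⟩ : IntCl R L) * ⟨x, hxi⟩ = ((W⁻¹ : (IntCl R L)ˣ) : IntCl R L) from
      Subtype.ext ((sq x).symm.trans hx2)] at this
  · show (P : L) = (n : L) * x
    rw [mul_div_cancel₀ _ hn0]

end Fermat.Agent.Models
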