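/-
The points in characteristic `q` of the quotient of the full level `q` model of the Legendre curve
by the group preserving a line: a node at a supersingular point, smooth at an ordinary one.
-/
import Fermat.Agent.Models.Gamma0.PointLemmas
import Fermat.Agent.Models.Gamma0.CoordSums
import Fermat.Agent.Moduli.LegPoint

set_option autoImplicit false
set_option linter.style.haveILetI false
set_option linter.unusedSectionVars false

noncomputable section

namespace Fermat.Agent.Moduli

open Polynomial IsLocalRing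

section Param

variable {R : Type} [CommRing R] [IsDomain R] [IsIntegrallyClosed R] {Ω : Type} [Field Ω]
  [IsAlgClosed Ω] [CharZero Ω] [DecidableEq Ω] [Algebra R Ω] [FaithfulSMul R Ω] {l : R} {k : ℕ}
  {C : Type} [CommRing C] [IsDomain C] [IsLocalRing C] [Algebra C Ω] [FaithfulSMul C Ω]
  [Algebra R C] [IsScalarTower R C Ω] [Fintype (LegTorsion Ω l (2 * k + 1))]
  [DecidableEq (LegTorsion Ω l (2 * k + 1))] {q : ℕ} [hp : Fact q.Prime]

/-- The combination of line sums which is a parameter along a line other than the kernel. -/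
theorem HasCoords.cosetSum_param (H : HasCoords (Ω := Ω) C k l) (hl : IsUnit l)
    (hl1 : IsUnit (1 - l)) (hq : q = 2 * k + 1) (hqR : (Ideal.span {(q : R)}).IsPrime)
    {P Q : LegTorsion Ω l (2 * k + 1)} (hP : P ≠ 0)
    (hQ : Q ∉ AddSubgroup.zmultiples P) (hPm : H.z P ∈ maximalIdeal C)
    (hqP : (q : C) ∈ Ideal.span {H.z P})
    (hker : ∀ T, H.z T ∈ maximalIdeal C → T ∈ AddSubgroup.zmultiples P)
    (hh : IsUnit (algebraMap R C ((hasse R k).eval l))) {t μ₀ : R}
    (ht : t - (l - μ₀ ^ q) ∈ Ideal.span {(q : R)}) :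
    ∃ w : Cˣ, (w : C) * algebraMap R C t -
      ((H.cosetSum (r := l) (Or.inr (Or.inr rfl)) Q - H.cosetSum (r := (0 : R)) (Or.inl rfl) Q) -
        algebraMap R C μ₀ * (H.cosetSum (r := (1 : R)) (Or.inr (Or.inl rfl)) Q -
          H.cosetSum (r := (0 : R)) (Or.inl rfl) Q)) ^ q ∈ Ideal.span {H.z P} := by
  classical
  obtain ⟨D⟩ := nonempty_divData (R := R) (Ω := Ω) hl hl1 k
  set J : Ideal C := Ideal.span {H.z P} with hJ
  have hJm : J ≤ maximalIdeal C := (Ideal.span_singleton_le_iff_mem _).2 hPm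
  set π := Ideal.Quotient.mk J
  haveI : Nontrivial (C ⧸ J) := Ideal.Quotient.nontrivial_iff.2 fun e =>
    (maximalIdeal.isMaximal C).ne_top (top_le_iff.1 (e ▸ hJm))
  haveI : CharP (C ⧸ J) q := (CharP.charP_iff_prime_eq_zero hp.out).2 (by
    rw [← map_natCast π, Ideal.Quotient.eq_zero_iff_mem]; exact hqP)
  haveI : ExpChar (C ⧸ J) q := ExpChar.prime hp.out
  have hzero : ∀ c ∈ Ideal.span {(q : R)}, π (algebraMap R C c) = 0 := by
    intro c hc
    obtain ⟨c', rfl⟩ := Ideal.mem_span_singleton.1 hc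
    rw [map_mul, map_natCast, Ideal.Quotient.eq_zero_iff_mem]
    exact J.mul_mem_right _ hqP
  obtain ⟨w, hw⟩ : IsUnit (algebraMap R C (D.b.coeff (2 * k * q))) := by
    rw [← notMem_maximalIdeal]
    intro hm
    refine notMem_maximalIdeal.2 (hh.pow 2) ?_
    have h := hzero _ (coeff_b_sub_mem (Ω := Ω) hl hl1 hq hqR D)
    rw [Ideal.Quotient.eq_zero_iff_mem, map_sub, map_pow] at h
    have := sub_mem hm (hJm h)
    rwa [sub_sub_cancel] at this
  have hU : ∀ {r : R} (hr : r = 0 ∨ r = 1 ∨ r = l),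
      π (H.cosetSum hr Q) ^ q = π (algebraMap R C r) * π (w : C) -
        π (algebraMap R C (D.a.coeff (2 * k * q))) := by
    intro r hr
    rw [← map_pow, Ideal.Quotient.eq.2 (H.cosetSum_pow hl hl1 hq D hr hP hQ hPm hqP hker), map_sub,
      map_mul, map_sub, map_mul, hw]
  refine ⟨w, Ideal.Quotient.eq.1 ?_⟩
  have ht' := hzero _ ht
  rw [map_sub, map_sub, sub_eq_zero, map_sub, map_sub, map_pow, map_pow] at ht'
  rw [map_mul, map_pow, map_sub, map_sub, map_mul, map_sub, sub_pow_char, sub_pow_char, mul_pow,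
    sub_pow_char, hU, hU, hU, ht', map_zero, map_zero, map_one, map_one]
  ring

end Param

end Fermat.Agent.Moduli

namespace Fermat.Agent.Models

open Ideal IsLocalRing Fermat.Agent.Moduli
open scoped Pointwise

theorem isRegularMod_prod {C : Type} [CommRing C] {ι : Type} {I : Ideal C} (s : Finset ι)
    (f : ι → C) (h : ∀ i ∈ s, IsRegularMod I (f i)) : IsRegularMod I (∏ i ∈ s, f i) := by
  classical
  induction s using Finset.induction_on with
  | empty => rw [Finset.prod_empty]; exact IsRegularMod.of_isUnit isUnit_one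
  | insert i s hi ih =>
    intro b hb
    rw [Finset.prod_insert hi, mul_assoc] at hb
    exact ih (fun j hj => h j (Finset.mem_insert_of_mem hj)) b
      (h i (Finset.mem_insert_self i s) _ hb)

theorem card_le_stabilizer_subgroup {G X M ι : Type} [Group G] [Finite G] [MulAction G X]
    [SMul G M] (S : Subgroup G) (m : X) (P Q : M) (f : ι → M × M) (hf : Function.Injective f)
    (h : ∀ i, ∃ g : G, g • m = m ∧ g ∈ S ∧ g • P = (f i).1 ∧ g • Q = (f i).2) :
    Nat.card ι ≤ Nat.card (MulAction.stabilizer S m) := by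
  choose g hgm hgS hgP hgQ using h
  let Φ : ι → MulAction.stabilizer S m := fun i => ⟨⟨g i, hgS i⟩, hgm i⟩
  refine Nat.card_le_card_of_injective Φ fun i j e => hf (Prod.ext ?_ ?_)
  · rw [← hgP i, ← hgP j, show g i = g j from congrArg (fun s => ((s.1 : S) : G)) e]
  · rw [← hgQ i, ← hgQ j, show g i = g j from congrArg (fun s => ((s.1 : S) : G)) e]

section Line

variable {M : Type} [AddCommGroup M] [Fintype M] [DecidableEq M] {q : ℕ} [hq : Fact q.Prime]
  (hexp : ∀ T : M, q • T = 0)

include hexp in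
theorem card_line {P : M} (hP : P ≠ 0) [DecidablePred (· ∈ AddSubgroup.zmultiples P)] :
    (((Finset.univ : Finset M).erase 0).filter (· ∈ AddSubgroup.zmultiples P)).card = q - 1 := by
  rw [Finset.filter_erase, Finset.card_erase_of_mem
    (Finset.mem_filter.2 ⟨Finset.mem_univ _, zero_mem _⟩), card_filter_zmultiples hexp hP]

include hexp in
theorem card_off_line (hcard : Fintype.card M = q ^ 2) {P : M} (hP : P ≠ 0)
    [DecidablePred (· ∈ AddSubgroup.zmultiples P)] :
    (((Finset.univ : Finset M).erase 0).filter (· ∉ AddSubgroup.zmultiples P)).card =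
      q ^ 2 - q := by
  have h1 := Finset.card_filter_add_card_filter_not (s := (Finset.univ : Finset M).erase 0)
    (· ∈ AddSubgroup.zmultiples P)
  rw [card_line hexp hP, Finset.card_erase_of_mem (Finset.mem_univ _), Finset.card_univ, hcard] at h1
  have := hq.out.one_lt
  have : q ≤ q ^ 2 := Nat.le_self_pow two_ne_zero q
  omega

end Line

section Generic

variable {R : Type} [CommRing R] [IsDomain R] [IsIntegrallyClosed R] [IsNoetherianRing R]
  {Ω : Type} [Field Ω] [IsAlgClosed Ω] [CharZero Ω] [DecidableEq Ω] [Algebra R Ω]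
  [FaithfulSMul R Ω] {l : R} {k q : ℕ} [hp : Fact q.Prime]
  {B G : Type} [CommRing B] [IsDomain B] [IsIntegrallyClosed B] [Algebra R B] [FaithfulSMul R B]
  [Algebra.IsIntegral R B] [Algebra B Ω] [FaithfulSMul B Ω] [IsScalarTower R B Ω] [Group G]
  [Finite G] [MulSemiringAction G B] [SMulCommClass G R B]
  [Fintype (LegTorsion Ω l (2 * k + 1))] [DecidableEq (LegTorsion Ω l (2 * k + 1))]
  [DistribMulAction G (LegTorsion Ω l (2 * k + 1))]
  {H : HasCoords (Ω := Ω) B k l} {t : R}
  {W F : Type} [CommRing W] [Field F] [Algebra W F] {A : Subalgebra W F} [Algebra A B]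
  [FaithfulSMul A B] [Module.Finite A B] {S : Subgroup G} [SMulCommClass S A B] [FaithfulSMul S B]
  [Algebra.IsInvariant A B S]
  {m : Ideal B} [m.IsMaximal]
  {C : Type} [CommRing C] [IsDomain C] [IsLocalRing C] [IsIntegrallyClosed C] [Algebra B C]
  [IsLocalization.AtPrime C m] [Algebra R C] [IsScalarTower R B C] [Algebra C Ω]
  [FaithfulSMul C Ω] [IsScalarTower B C Ω] [IsScalarTower R C Ω]

variable (D : LegSetup H G q t) (hqm : (q : B) ∈ m) (htm : algebraMap R B t ∈ m)
  {P₀ : LegTorsion Ω l (2 * k + 1)}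
  (hfix : ∀ g : G, g • m = m → (∀ T : LegTorsion Ω l (2 * k + 1), g • T = T) → g = 1)
  (hP₀ : P₀ ≠ 0) (hline : ∀ g ∈ S, g • P₀ ∈ AddSubgroup.zmultiples P₀)
  (hS : ∀ g : G, g • m = m → g • P₀ ∈ AddSubgroup.zmultiples P₀ → g ∈ S)
  (hres : ∀ b : B, ∃ a : A, b - algebraMap A B a ∈ m)

include D in
theorem natCast_base_ne_zero : (q : B) ≠ 0 := by
  rw [← map_natCast (algebraMap R B)]
  exact (map_ne_zero_iff _ (FaithfulSMul.algebraMap_injective R B)).2 D.prime_q.ne_zero

theorem algebraMap_natCast (n : ℕ) : algebraMap A B (algebraMap W A (n : W)) = (n : B) := by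
  rw [map_natCast, map_natCast]

variable (S) in
theorem exists_of_invariant {b : B} (hb : ∀ g ∈ S, g • b = b) : ∃ a : A, algebraMap A B a = b :=
  Algebra.IsInvariant.isInvariant b fun g : S => hb g g.2

include D in
theorem algebraMap_base_ne_zero : algebraMap R C t ≠ 0 := fun e => D.not_dvd (by
  have h : algebraMap R Ω t = 0 := by rw [IsScalarTower.algebraMap_apply R C Ω, e, map_zero]
  rw [(map_eq_zero_iff _ (FaithfulSMul.algebraMap_injective R Ω)).1 h]
  exact dvd_zero _)

include D hqm in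
theorem natCast_mem_maximal : (q : C) ∈ maximalIdeal C := by
  rw [← map_natCast (algebraMap B C), IsLocalization.AtPrime.to_map_mem_maximal_iff C m]
  exact hqm

variable (C) in
include C D hqm htm hfix hP₀ hline hS hres in
/-- A node at a supersingular point. -/
theorem isNodePoint_supersingular
    (hh : (hasse R k).eval l ∈ Ideal.span {(q : R), t}) {u : B} (hum : u ∉ m)
    (hu : ∏ T ∈ (Finset.univ : Finset (LegTorsion Ω l (2 * k + 1))).erase 0, H.z T = (q : B) * u) :
    IsNodePoint A (q : W) (m.comap (algebraMap A B)) := by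
  classical
  let H' := H.toLocal C
  let FF := H'.toFamily D.isUnit_l D.isUnit_one_sub D.hq
  have hall := (D.all_mem_iff hqm htm).2 hh
  have hallC : ∀ T, H'.z T ∈ maximalIdeal C := fun T =>
    (IsLocalization.AtPrime.to_map_mem_maximal_iff C m _).2 (hall T)
  set ℓ := AddSubgroup.zmultiples P₀ with hℓ
  set s₁ := ((Finset.univ : Finset (LegTorsion Ω l (2 * k + 1))).erase 0).filter (· ∈ ℓ) with hs₁
  set s₂ := ((Finset.univ : Finset (LegTorsion Ω l (2 * k + 1))).erase 0).filter (· ∉ ℓ) with hs₂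
  have hc₁ : s₁.card = q - 1 := card_line FF.nsmul_eq hP₀
  have hc₂ : s₂.card = q ^ 2 - q := card_off_line FF.nsmul_eq FF.card_eq hP₀
  obtain ⟨Q, hQ⟩ : s₂.Nonempty := by
    rw [← Finset.card_pos, hc₂]
    have : q < q ^ 2 := lt_self_pow₀ hp.out.one_lt one_lt_two
    omega
  have hm₁ : ∀ T ∈ s₁, T ≠ 0 ∧ T ∈ ℓ := fun T hT =>
    ⟨(Finset.mem_erase.1 (Finset.mem_filter.1 hT).1).1, (Finset.mem_filter.1 hT).2⟩
  have hm₂ : ∀ T ∈ s₂, T ≠ 0 ∧ T ∉ ℓ := fun T hT =>
    ⟨(Finset.mem_erase.1 (Finset.mem_filter.1 hT).1).1, (Finset.mem_filter.1 hT).2⟩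
  have hP₁ : P₀ ∈ s₁ := Finset.mem_filter.2
    ⟨Finset.mem_erase.2 ⟨hP₀, Finset.mem_univ _⟩, AddSubgroup.mem_zmultiples P₀⟩
  -- two points on and off the line
  have hpair : ∀ a ∈ s₁, ∀ b ∈ s₂, b ∉ AddSubgroup.zmultiples a := fun a ha b hb h =>
    (hm₂ b hb).2 ((AddSubgroup.zmultiples_le_of_mem (hm₁ a ha).2) h)
  have hgen : ∀ a ∈ s₁, ∀ b ∈ s₂,
      maximalIdeal C = span {H'.z a} ⊔ span {H'.z b} := fun a ha b hb =>
    (D.supersingular hqm htm hfix hh (C := C) (hm₁ a ha).1 (hpair a ha b hb)).1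
  have htC : algebraMap R C t ∈ maximalIdeal C := by
    rw [IsScalarTower.algebraMap_apply R B C, IsLocalization.AtPrime.to_map_mem_maximal_iff C m]
    exact htm
  have ht0 := algebraMap_base_ne_zero D (C := C)
  have hz0 : ∀ T, T ≠ 0 → H'.z T ≠ 0 := fun T hT e => by
    have hqC : (q : C) = 0 := by
      simpa [FF, H', HasCoords.toFamily, e] using FF.natCast_mem hT
    exact (Nat.cast_ne_zero (R := Ω)).2 hp.out.ne_zero (by
      rw [← map_natCast (algebraMap C Ω), hqC, map_zero])
  have hregt : ∀ T, T ≠ 0 → IsRegularMod (span {H'.z T}) (algebraMap R C t) := fun T hT =>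
    isRegularMod_swap ht0 (regular_z (m := m) H.z FF (fun _ => rfl) D.prime_q D.not_dvd hT)
  have hreg₁ : ∀ a ∈ s₁, ∀ b ∈ s₂, IsRegularMod (span {H'.z a}) (H'.z b) := fun a ha b hb =>
    regular_of_mem_sup (hregt a (hm₁ a ha).1) (hgen a ha b hb ▸ htC)
  have hreg₂ : ∀ a ∈ s₁, ∀ b ∈ s₂, IsRegularMod (span {H'.z b}) (H'.z a) := fun a ha b hb =>
    isRegularMod_swap (hz0 a (hm₁ a ha).1) (hreg₁ a ha b hb)
  -- invariance
  have hperm : ∀ g ∈ S, ∀ T, g • T ∈ s₁ ↔ T ∈ s₁ := by
    intro g hg T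
    have key : ∀ g ∈ S, ∀ T, T ∈ s₁ → g • T ∈ s₁ := fun g hg T hT => by
      obtain ⟨hT0, hTl⟩ := hm₁ T hT
      refine Finset.mem_filter.2 ⟨Finset.mem_erase.2
        ⟨fun e => hT0 ((smul_eq_zero_iff_eq g).1 e), Finset.mem_univ _⟩, ?_⟩
      obtain ⟨j, rfl⟩ := AddSubgroup.mem_zmultiples_iff.1 hTl
      rw [smul_comm]
      exact zsmul_mem (hline g hg) j
    refine ⟨fun h => ?_, key g hg T⟩
    have := key _ (S.inv_mem hg) _ h
    rwa [inv_smul_smul] at this
  obtain ⟨x, hx⟩ := exists_of_invariant S (A := A) (b := ∏ T ∈ s₁, H.z T) fun g hg => by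
    rw [Finset.smul_prod']
    exact Finset.prod_equiv (MulAction.toPerm g) (fun T => (hperm g hg T).symm)
      fun T _ => (D.z_smul g T).symm
  obtain ⟨y, hy⟩ := exists_of_invariant S (A := A) (b := ∏ T ∈ s₂, H.z T) fun g hg => by
    rw [Finset.smul_prod']
    refine Finset.prod_equiv (MulAction.toPerm g) (fun T => ?_) fun T _ => (D.z_smul g T).symm
    have h1 := hperm g hg T
    simp only [hs₁, hs₂, Finset.mem_filter, Finset.mem_erase, MulAction.toPerm_apply,
      Finset.mem_univ, and_true, ne_eq, smul_eq_zero_iff_eq] at h1 ⊢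
    tauto
  have hqB := natCast_base_ne_zero D
  obtain ⟨u', hu'⟩ := exists_of_invariant S (A := A) (b := u) fun g hg => by
    refine mul_left_cancel₀ hqB ?_
    have hg' : g • (q : B) = q := map_natCast (MulSemiringAction.toRingHom G B g) q
    rw [← hu]
    conv_lhs => rw [← hg', ← smul_mul', ← hu, Finset.smul_prod']
    exact Finset.prod_equiv (MulAction.toPerm g) (fun T => by
      simp [smul_eq_zero_iff_eq]) fun T _ => (D.z_smul g T).symm
  have hxy : x * y = algebraMap W A (q : W) * u' := by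
    refine FaithfulSMul.algebraMap_injective A B ?_
    rw [map_mul, map_mul, hx, hy, hu', algebraMap_natCast, ← hu]
    exact Finset.prod_filter_mul_prod_filter_not _ _ _
  -- the length
  have hlen : qlen (span {algebraMap B C (algebraMap A B x)} ⊔
      span {algebraMap B C (algebraMap A B y)}) ≤ Nat.card (MulAction.stabilizer S m) := by
    have hcount : (q - 1) * (q ^ 2 - q) ≤ Nat.card (MulAction.stabilizer S m) := by
      obtain ⟨-, -, htr⟩ := D.supersingular hqm htm hfix hh (C := C) hP₀ (hpair P₀ hP₁ Q hQ)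
      have := card_le_stabilizer_subgroup S m P₀ Q (fun i : ↥(s₁ ×ˢ s₂) => i.1)
        Subtype.val_injective fun i => by
          obtain ⟨h1, h2⟩ := Finset.mem_product.1 i.2
          obtain ⟨g, hg, hgP, hgQ⟩ := htr i.1.1 i.1.2 (hm₁ _ h1).1 (hpair _ h1 _ h2)
          exact ⟨g, hg, hS g hg (hgP ▸ (hm₁ _ h1).2), hgP, hgQ⟩
      rwa [Nat.card_eq_fintype_card, Fintype.card_coe, Finset.card_product, hc₁, hc₂] at this
    refine le_trans (le_of_eq ?_) (Nat.cast_le.2 hcount)
    rw [hx, hy, map_prod, map_prod]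
    show qlen (span {∏ i ∈ s₁, H'.z i} ⊔ span {∏ i ∈ s₂, H'.z i}) = _
    rw [qlen_sup_prod _ _ fun b hb =>
      isRegularMod_swap (hz0 b (hm₂ b hb).1) (isRegularMod_prod s₁ _ fun a ha => hreg₂ a ha b hb),
      Finset.sum_congr rfl (g := fun _ => ((q - 1 : ℕ) : ℕ∞)) fun b hb => ?_, Finset.sum_const,
      hc₂, nsmul_eq_mul, ← Nat.cast_mul, mul_comm]
    rw [sup_comm, qlen_sup_prod _ _ fun a ha => hreg₂ a ha b hb,
      Finset.sum_congr rfl (g := fun _ => (1 : ℕ∞)) fun a ha => ?_, Finset.sum_const, hc₁,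
      nsmul_one]
    rw [sup_comm]
    exact (congrArg qlen (hgen a ha b hb)).symm.trans qlen_maximalIdeal
  refine isNodePoint_of_upstairs A S m hres hxy (hu'.symm ▸ hum)
    (hx.symm ▸ Ideal.IsPrime.prod_mem_iff.2 ⟨P₀, hP₁, hall _⟩)
    (hy.symm ▸ Ideal.IsPrime.prod_mem_iff.2 ⟨Q, hQ, hall _⟩) hlen (hallC P₀) ?_ ?_ (hallC Q) ?_ ?_
  · rw [hx, map_prod]
    exact Ideal.mem_span_singleton.2
      (Finset.dvd_prod_of_mem (fun T => algebraMap B C (H.z T)) hP₁)
  · rw [hy, map_prod]
    exact isRegularMod_prod s₂ _ fun b hb => hreg₁ P₀ hP₁ b hb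
  · rw [hy, map_prod]
    exact Ideal.mem_span_singleton.2
      (Finset.dvd_prod_of_mem (fun T => algebraMap B C (H.z T)) hQ)
  · rw [hx, map_prod]
    exact isRegularMod_prod s₁ _ fun a ha => hreg₂ a ha Q hQ

include D in
theorem z_ne_zero {T : LegTorsion Ω l (2 * k + 1)} (hT : T ≠ 0) : (H.toLocal C).z T ≠ 0 := fun e => by
  let FF := (H.toLocal C).toFamily D.isUnit_l D.isUnit_one_sub D.hq
  have hqC : (q : C) = 0 := by
    simpa [FF, HasCoords.toFamily, e] using FF.natCast_mem hT
  exact (Nat.cast_ne_zero (R := Ω)).2 hp.out.ne_zero (by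
    rw [← map_natCast (algebraMap C Ω), hqC, map_zero])

include D hqm in
/-- The parameters along a line in the kernel are associated. -/
theorem span_eq_of_mem_line {P T : LegTorsion Ω l (2 * k + 1)} (hP : P ≠ 0)
    (hPC : (H.toLocal C).z P ∈ maximalIdeal C) (hT : T ∈ AddSubgroup.zmultiples P) (hT0 : T ≠ 0) :
    span {(H.toLocal C).z T} = span {(H.toLocal C).z P} := by
  let FF := (H.toLocal C).toFamily D.isUnit_l D.isUnit_one_sub D.hq
  have hTC : (H.toLocal C).z T ∈ maximalIdeal C :=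
    (span_singleton_le_iff_mem _).2 hPC ((H.toLocal C).z_mem_of_mem_zmultiples hPC hT)
  have hPT : P ∈ AddSubgroup.zmultiples T := by
    have h : AddSubgroup.zmultiples T = AddSubgroup.zmultiples P :=
      AddSubgroup.eq_of_le_of_card_ge (AddSubgroup.zmultiples_le_of_mem hT)
        (by rw [FF.card_zmultiples hT0, FF.card_zmultiples hP])
    exact h ▸ AddSubgroup.mem_zmultiples P
  exact le_antisymm ((span_singleton_le_iff_mem _).2 ((H.toLocal C).z_mem_of_mem_zmultiples hPC hT))
    ((span_singleton_le_iff_mem _).2 ((H.toLocal C).z_mem_of_mem_zmultiples hTC hPT))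

include D hqm htm hfix in
/-- Modulo the parameter of the kernel, the fibre has length at most `q`. -/
theorem qlen_kernel_le (hh : (hasse R k).eval l ∉ Ideal.span {(q : R), t})
    {P Q : LegTorsion Ω l (2 * k + 1)} (hP : P ≠ 0) (hPm : H.z P ∈ m) (hQm : H.z Q ∉ m) :
    qlen (span {(H.toLocal C).z P} ⊔ span {algebraMap R C t}) ≤ (q : ℕ∞) := by
  classical
  let FF := (H.toLocal C).toFamily D.isUnit_l D.isUnit_one_sub D.hq
  obtain ⟨e, -, -, -, hker, hcard, -⟩ := D.ordinary hqm htm hfix hh (C := C) hP hPm hQm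
  have hPC : (H.toLocal C).z P ∈ maximalIdeal C :=
    (IsLocalization.AtPrime.to_map_mem_maximal_iff C m _).2 hPm
  have h := qlen_fibre_le (m := m) (G := G) H.z FF (fun _ => rfl) D.prime_q D.not_dvd D.maximal
    D.rank_le
  rw [hcard, span_singleton_eq_span_singleton.2 FF.prod_eq, qlen_sup_prod _ _ fun T hT =>
      regular_z (m := m) H.z FF (fun _ => rfl) D.prime_q D.not_dvd (Finset.mem_erase.1 hT).1,
    ← Finset.sum_filter_of_ne (p := (· ∈ AddSubgroup.zmultiples P)) (fun T _ hne => ?_),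
    Finset.sum_congr rfl (g := fun _ => qlen (span {algebraMap R C t} ⊔ span {(H.toLocal C).z P}))
      fun T hT => by
        obtain ⟨h1, h2⟩ := Finset.mem_filter.1 hT
        show qlen (_ ⊔ span {(H.toLocal C).z T}) = _
        rw [span_eq_of_mem_line D hqm hP hPC h2 (Finset.mem_erase.1 h1).1],
    Finset.sum_const, card_line FF.nsmul_eq hP, nsmul_eq_mul, Nat.cast_mul, sup_comm] at h
  rcases eq_or_ne (qlen (span {(H.toLocal C).z P} ⊔ span {algebraMap R C t})) ⊤ with h' | h'
  · rw [h', ENat.mul_top (by have := hp.out.two_le; exact_mod_cast (by omega : q - 1 ≠ 0)),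
      top_le_iff, ← Nat.cast_mul] at h
    exact absurd h (ENat.natCast_ne_top _)
  · obtain ⟨n, hn⟩ := ENat.ne_top_iff_exists.1 h'
    rw [← hn] at h ⊢
    norm_cast at h ⊢
    exact Nat.le_of_mul_le_mul_left h (by have := hp.out.two_le; omega)
  · by_contra hT
    exact hne (qlen_sup_of_isUnit (notMem_maximalIdeal.1 fun hm =>
      hT ((hker T).1 ((IsLocalization.AtPrime.to_map_mem_maximal_iff C m _).1 hm))))

variable (C) in
include C D hqm htm hfix hP₀ hline hS hres in
/-- A smooth point at an ordinary point whose kernel is the line. -/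
theorem isSmoothPoint_kernel_line
    (hh : (hasse R k).eval l ∉ Ideal.span {(q : R), t}) (hP₀m : H.z P₀ ∈ m) :
    IsSmoothPoint A (q : W) (m.comap (algebraMap A B)) := by
  classical
  let H' := H.toLocal C
  let FF := H'.toFamily D.isUnit_l D.isUnit_one_sub D.hq
  obtain ⟨Q, hQm⟩ : ∃ Q, H.z Q ∉ m := not_forall.1 fun h => hh ((D.all_mem_iff hqm htm).1 h)
  obtain ⟨e, μ₀, hgen, -, hker, hcard, htr⟩ := D.ordinary hqm htm hfix hh (C := C) hP₀ hP₀m hQm
  have hR : ∀ (g : G) (r : R), g • algebraMap R B r = algebraMap R B r := fun g r => by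
    rw [Algebra.algebraMap_eq_smul_one, smul_comm, smul_one]
  obtain ⟨τ, hτ⟩ := exists_of_invariant S (A := A) (b := algebraMap R B t) fun g _ => hR g t
  have hτC : algebraMap B C (algebraMap A B τ) = algebraMap R C t := by
    rw [hτ, ← IsScalarTower.algebraMap_apply]
  have hqC : algebraMap B C (algebraMap A B (algebraMap W A (q : W))) = (q : C) := by
    rw [algebraMap_natCast, map_natCast]
  have hcount : (q - 1) * q ≤ Nat.card (MulAction.stabilizer S m) := by
    let s₁ := ((Finset.univ : Finset (LegTorsion Ω l (2 * k + 1))).erase 0).filter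
      (· ∈ AddSubgroup.zmultiples P₀)
    have := card_le_stabilizer_subgroup S m P₀ Q
      (fun i : ↥s₁ × AddSubgroup.zmultiples P₀ => ((i.1 : LegTorsion Ω l (2 * k + 1)),
        Q + (i.2 : LegTorsion Ω l (2 * k + 1))))
      (fun i j h => Prod.ext (Subtype.ext (congrArg Prod.fst h))
        (Subtype.ext (add_left_cancel (congrArg Prod.snd h)))) fun i => by
          obtain ⟨h1, h2⟩ := Finset.mem_filter.1 i.1.2
          obtain ⟨g, hg, hgP, hgQ⟩ := htr i.1 (Q + i.2) (Finset.mem_erase.1 h1).1 h2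
            (by rw [add_sub_cancel_left]; exact i.2.2)
          exact ⟨g, hg, hS g hg (hgP ▸ h2), hgP, hgQ⟩
    rwa [Nat.card_prod, Nat.card_eq_fintype_card, Fintype.card_coe, card_line FF.nsmul_eq hP₀,
      FF.card_zmultiples hP₀] at this
  refine isSmoothPoint_of_upstairs A S m hres (τ := τ) (a := H'.z P₀)
    (by rw [algebraMap_natCast]; exact hqm) (hτ.symm ▸ htm) ?_
    ((IsLocalization.AtPrime.to_map_mem_maximal_iff C m _).2 hP₀m) ?_ ?_
  · rw [hqC, hτC, sup_comm]
    refine le_trans (qlen_fibre_le (m := m) (G := G) H.z FF (fun _ => rfl) D.prime_q D.not_dvd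
      D.maximal D.rank_le) ?_
    rw [hcard]
    exact_mod_cast hcount
  · rw [hqC]
    exact FF.natCast_mem hP₀
  · rw [hτC]
    exact isRegularMod_swap (algebraMap_base_ne_zero D)
      (regular_z (m := m) H.z FF (fun _ => rfl) D.prime_q D.not_dvd hP₀)

variable (C) in
include C D hqm htm hfix hP₀ hline hS hres in
/-- A smooth point at an ordinary point whose kernel is another line. -/
theorem isSmoothPoint_other_line
    (hh : (hasse R k).eval l ∉ Ideal.span {(q : R), t}) (hP₀m : H.z P₀ ∉ m)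
    (hlineS : ∀ μ₀ : R, ∃ τ : B, (∀ g ∈ S, g • τ = τ) ∧ algebraMap B C τ =
      ((H.toLocal C).cosetSum (r := l) (Or.inr (Or.inr rfl)) P₀ -
        (H.toLocal C).cosetSum (r := (0 : R)) (Or.inl rfl) P₀) -
      algebraMap R C μ₀ * ((H.toLocal C).cosetSum (r := (1 : R)) (Or.inr (Or.inl rfl)) P₀ -
          (H.toLocal C).cosetSum (r := (0 : R)) (Or.inl rfl) P₀)) :
    IsSmoothPoint A (q : W) (m.comap (algebraMap A B)) := by
  classical
  let H' := H.toLocal C
  let FF := H'.toFamily D.isUnit_l D.isUnit_one_sub D.hq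
  obtain ⟨P, hP, hPm⟩ := D.exists_mem_kernel hqm htm
  obtain ⟨e, -, hgen, -, hker, -, htr⟩ := D.ordinary hqm htm hfix hh (C := C) hP hPm hP₀m
  have hPC : H'.z P ∈ maximalIdeal C := (IsLocalization.AtPrime.to_map_mem_maximal_iff C m _).2 hPm
  have hkerC : ∀ T, H'.z T ∈ maximalIdeal C → T ∈ AddSubgroup.zmultiples P := fun T hT =>
    (hker T).1 ((IsLocalization.AtPrime.to_map_mem_maximal_iff C m _).1 hT)
  have hQP : P₀ ∉ AddSubgroup.zmultiples P := fun h => hP₀m ((hker P₀).2 h)
  obtain ⟨μ₀, hμ₀⟩ := D.root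
  obtain ⟨τB, hτS, hτB⟩ := hlineS μ₀
  obtain ⟨w, hw⟩ := H'.cosetSum_param D.isUnit_l D.isUnit_one_sub D.hq D.isPrime hP hQP hPC
    (FF.natCast_mem hP) hkerC (by
      rw [← notMem_maximalIdeal, IsScalarTower.algebraMap_apply R B C,
        IsLocalization.AtPrime.to_map_mem_maximal_iff C m, D.mem_m_iff hqm htm]
      exact hh) hμ₀
  rw [← hτB] at hw
  obtain ⟨τ, hτ⟩ := exists_of_invariant S (A := A) hτS
  set a := H'.z P
  set c := algebraMap B C τB
  have htC : algebraMap R C t ∈ maximalIdeal C := by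
    rw [IsScalarTower.algebraMap_apply R B C, IsLocalization.AtPrime.to_map_mem_maximal_iff C m]
    exact htm
  have ht0 := algebraMap_base_ne_zero D (C := C)
  have hregt : IsRegularMod (span {a}) (algebraMap R C t) :=
    isRegularMod_swap ht0 (regular_z (m := m) H.z FF (fun _ => rfl) D.prime_q D.not_dvd hP)
  have hcm : c ∈ maximalIdeal C := by
    refine Ideal.IsPrime.mem_of_pow_mem inferInstance q ?_
    rw [show c ^ q = w * algebraMap R C t - (w * algebraMap R C t - c ^ q) by ring]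
    exact sub_mem (mul_mem_left _ _ htC) ((span_singleton_le_iff_mem _).2 hPC hw)
  have hsup : span {a} ⊔ span {algebraMap R C t} = span {a} ⊔ span {c ^ q} :=
    (sup_span_congr w.isUnit (b := algebraMap R C t) (a := c ^ q) (by
      rw [← neg_mem_iff, neg_sub]; exact hw)).symm
  have hregc : IsRegularMod (span {a}) c := by
    refine regular_of_mem_sup hregt ?_
    refine (?_ : span {a} ⊔ span {c ^ q} ≤ span {a} ⊔ span {c})
      (hsup ▸ mem_sup_right (mem_span_singleton_self _))
    refine sup_le le_sup_left ?_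
    rw [span_singleton_le_iff_mem]
    obtain ⟨j, hj⟩ := Nat.exists_eq_add_of_le hp.out.one_le
    rw [hj, pow_add, pow_one]
    exact mem_sup_right (mul_mem_right _ _ (mem_span_singleton_self _))
  have hc0 : c ≠ 0 := fun h0 => by
    have h1 : (1 : C) ∈ span {a} := hregc 1 (by rw [h0, zero_mul]; exact zero_mem _)
    exact one_notMem_nonunits ((span_singleton_le_iff_mem _).2 hPC h1)
  have hgen1 : qlen (span {a} ⊔ span {c}) = 1 := by
    have hle : qlen (span {a} ⊔ span {algebraMap R C t}) ≤ (q : ℕ∞) :=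
      qlen_kernel_le D hqm htm hfix hh hP hPm hP₀m
    rw [hsup, qlen_sup_pow hregc, nsmul_eq_mul] at hle
    refine le_antisymm (enat_le_one_of_mul_le hp.out.pos hle) (qlen_pos fun h => ?_)
    exact (maximalIdeal.isMaximal C).ne_top (top_le_iff.1 (h ▸ sup_le
      ((span_singleton_le_iff_mem _).2 hPC) ((span_singleton_le_iff_mem _).2 hcm)))
  have hτC : algebraMap B C (algebraMap A B τ) = c := by rw [hτ]
  have hqC : algebraMap B C (algebraMap A B (algebraMap W A (q : W))) = (q : C) := by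
    rw [algebraMap_natCast, map_natCast]
  have hcount : q - 1 ≤ Nat.card (MulAction.stabilizer S m) := by
    let s₁ := ((Finset.univ : Finset (LegTorsion Ω l (2 * k + 1))).erase 0).filter
      (· ∈ AddSubgroup.zmultiples P)
    have := card_le_stabilizer_subgroup S m P P₀
      (fun i : ↥s₁ => ((i : LegTorsion Ω l (2 * k + 1)), P₀))
      (fun i j h => Subtype.ext (congrArg Prod.fst h)) fun i => by
          obtain ⟨h1, h2⟩ := Finset.mem_filter.1 i.2
          obtain ⟨g, hg, hgP, hgQ⟩ := htr i P₀ (Finset.mem_erase.1 h1).1 h2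
            (by rw [sub_self]; exact zero_mem _)
          exact ⟨g, hg, hS g hg (hgQ.symm ▸ AddSubgroup.mem_zmultiples P₀), hgP, hgQ⟩
    rwa [Nat.card_eq_fintype_card, Fintype.card_coe, card_line FF.nsmul_eq hP] at this
  refine isSmoothPoint_of_upstairs A S m hres (τ := τ) (a := a)
    (by rw [algebraMap_natCast]; exact hqm) ?_ ?_ hPC ?_ ?_
  · rw [hτ]
    exact (IsLocalization.AtPrime.to_map_mem_maximal_iff C m _).1 hcm
  · rw [hqC, hτC, sup_comm, span_singleton_eq_span_singleton.2 FF.prod_eq,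
      qlen_sup_prod _ _ fun T hT => ?_]
    · rw [← Finset.sum_filter_of_ne (p := (· ∈ AddSubgroup.zmultiples P)) (fun T _ hne => ?_),
        Finset.sum_congr rfl (g := fun _ => (1 : ℕ∞)) fun T hT => ?_, Finset.sum_const,
        card_line FF.nsmul_eq hP, nsmul_one]
      · exact_mod_cast hcount
      · obtain ⟨h1, h2⟩ := Finset.mem_filter.1 hT
        show qlen (span {c} ⊔ span {H'.z T}) = 1
        rw [sup_comm, span_eq_of_mem_line D hqm hP hPC h2 (Finset.mem_erase.1 h1).1]
        exact hgen1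
      · by_contra hT
        exact hne (qlen_sup_of_isUnit (notMem_maximalIdeal.1 fun hm => hT (hkerC T hm)))
    · by_cases hT' : T ∈ AddSubgroup.zmultiples P
      · refine isRegularMod_swap (z_ne_zero D (Finset.mem_erase.1 hT).1) ?_
        have := span_eq_of_mem_line D hqm hP hPC hT' (Finset.mem_erase.1 hT).1
        exact this.symm ▸ hregc
      · exact IsRegularMod.of_isUnit (notMem_maximalIdeal.1 fun hm => hT' (hkerC T hm))
  · rw [hqC]
    exact FF.natCast_mem hP
  · rw [hτC]
    exact hregc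

variable (C) in
include C D hqm htm hfix hP₀ hline hS hres in
/-- The quotient by the group preserving a line has a node or a smooth point. -/
theorem semiPoint_of_line {u : B} (hum : u ∉ m)
    (hu : ∏ T ∈ (Finset.univ : Finset (LegTorsion Ω l (2 * k + 1))).erase 0, H.z T = (q : B) * u)
    (hlineS : ∀ μ₀ : R, ∃ τ : B, (∀ g ∈ S, g • τ = τ) ∧ algebraMap B C τ =
      ((H.toLocal C).cosetSum (r := l) (Or.inr (Or.inr rfl)) P₀ -
        (H.toLocal C).cosetSum (r := (0 : R)) (Or.inl rfl) P₀) -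
      algebraMap R C μ₀ * ((H.toLocal C).cosetSum (r := (1 : R)) (Or.inr (Or.inl rfl)) P₀ -
          (H.toLocal C).cosetSum (r := (0 : R)) (Or.inl rfl) P₀)) :
    IsSmoothPoint A (q : W) (m.comap (algebraMap A B)) ∨
      IsNodePoint A (q : W) (m.comap (algebraMap A B)) := by
  by_cases hh : (hasse R k).eval l ∈ Ideal.span {(q : R), t}
  · exact Or.inr (isNodePoint_supersingular C D hqm htm hfix hP₀ hline hS hres hh hum hu)
  by_cases hP₀m : H.z P₀ ∈ m
  · exact Or.inl (isSmoothPoint_kernel_line C D hqm htm hfix hP₀ hline hS hres hh hP₀m)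
  · exact Or.inl (isSmoothPoint_other_line C D hqm htm hfix hP₀ hline hS hres hh hP₀m hlineS)

end Generic

end Fermat.Agent.Models
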