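/-
The quotient of the field of coordinates by a group preserving a line of order `q` has smooth points
and nodes in characteristic `q`.
-/
import Fermat.Agent.Models.Gamma0.InteriorPoint
import Fermat.Agent.Moduli.Level

set_option autoImplicit false
set_option linter.style.haveILetI false
set_option linter.unusedSectionVars false

noncomputable section

namespace Fermat.Agent.Models

open WeierstrassCurve IsLocalRing Fermat.Agent.EC Fermat.Agent.Moduli
open scoped Pointwise

variable {R : Type} [CommRing R] [IsDomain R] [IsIntegrallyClosed R] [IsNoetherianRing R]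
  {K : Type} [Field K] [Algebra R K] [IsFractionRing R K] {Ω : Type} [Field Ω] [IsAlgClosed Ω]
  [CharZero Ω] [DecidableEq Ω] [Algebra K Ω] [Algebra.IsAlgebraic K Ω] [Algebra R Ω]
  [IsScalarTower R K Ω] [FaithfulSMul R Ω] {l : R}

/-- An element of the integral closure moved by no group element is in the fraction field below. -/
theorem faithfulSMul_subgroup_intCl (L : IntermediateField K Ω) [FiniteDimensional K L]
    [IsGalois K L] (S : Subgroup (L ≃ₐ[K] L)) : FaithfulSMul S (IntCl R L) := ⟨fun {g h} e => by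
  refine Subtype.ext (AlgEquiv.ext fun x => ?_)
  haveI : IsFractionRing (IntCl R L) L :=
    integralClosure.isFractionRing_of_finite_extension K L
  obtain ⟨a, b, -, rfl⟩ := IsFractionRing.div_surjective (A := IntCl R L) x
  have key : ∀ c : IntCl R L, g.1 (c : L) = h.1 (c : L) := fun c => congrArg Subtype.val (e c)
  rw [map_div₀, map_div₀]
  exact congrArg₂ (· / ·) (key a) (key b)⟩

variable {q k j a M : ℕ} [Fact q.Prime] {t : R}

/-- The decomposition group fixes the torsion of order prime to `q`. -/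
theorem mem_fixedPts_of_stabilizer (hB : BasePoint R l k q t) (h2 : IsUnit (2 : R))
    (hqm : ¬ q ∣ 2 * j + 1) (hM : M = 2 ^ a * (q * (2 * j + 1)))
    [FiniteDimensional K (coordField K Ω l M)] [IsGalois K (coordField K Ω l M)]
    {m : Ideal (IntCl R (coordField K Ω l M))} [m.IsMaximal]
    (hqm' : (q : IntCl R (coordField K Ω l M)) ∈ m)
    (hle : ∀ r ∈ Ideal.span {(q : R), t}, algebraMap R (IntCl R (coordField K Ω l M)) r ∈ m)
    {g : coordField K Ω l M ≃ₐ[K] coordField K Ω l M} (hg : g • m = m)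
    {T : (legendreΩ Ω l).toAffine.Point} (hT : (2 ^ a * (2 * j + 1)) • T = 0) :
    T ∈ fixedPts (l := l) (coordField K Ω l M) g := by
  classical
  have hl := hB.isUnit_l
  have hl1 := hB.isUnit_one_sub
  have hqodd : q ≠ 2 := fun e => by have := hB.hq; omega
  haveI := legendreΩ_isElliptic (Ω := Ω) hl hl1
  have hda : 2 ^ a ∣ M := ⟨q * (2 * j + 1), hM⟩
  have hLm : CoordsIn (coordField K Ω l M) l (2 * j + 1) :=
    coordsIn_coordField ⟨2 ^ a * q, by rw [hM]; ring⟩
  obtain ⟨H'⟩ := exists_hasCoords_intCl (k := j) hl hl1 hLm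
  letI := galAction (n := 2 * j + 1) hLm
  haveI := finite_torsionBy (legendreΩ Ω l) (2 * j + 1) (by omega)
  letI : Fintype (LegTorsion Ω l (2 * j + 1)) := Fintype.ofFinite _
  haveI : IsIntegrallyClosed (IntCl R (coordField K Ω l M)) := isIntegrallyClosed_intCl _
  haveI : FaithfulSMul R (IntCl R (coordField K Ω l M)) := faithfulSMul_intCl _
  refine fixedPts_coprime (Nat.Coprime.pow_left a ((Nat.coprime_two_left).2 (odd_two_mul_add_one j)))
    (autPoint_two_power (coordField K Ω l M) hl hl1 h2 hB.splits hle hg a (coordsIn_coordField hda))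
    (fun S hS => ?_) hT
  exact congrArg Subtype.val
    (smul_eq_of_not_dvd (q := q) hqodd hqm hl hl1 H' (fun σ T => (coords_smul hLm H' σ T).1)
      (fun σ T => (coords_smul hLm H' σ T).2) hB.splits hle hqm' hg ⟨S, legTorsion_mem_iff.2 hS⟩)

/-- Fixing all the torsion gives the identity. -/
theorem eq_one_of_fixedPts [FiniteDimensional K (coordField K Ω l M)]
    [IsGalois K (coordField K Ω l M)] {g : coordField K Ω l M ≃ₐ[K] coordField K Ω l M}
    (hall : ∀ T : (legendreΩ Ω l).toAffine.Point, M • T = 0 →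
      T ∈ fixedPts (l := l) (coordField K Ω l M) g) : g = 1 := by
  refine AlgEquiv.ext fun z => Subtype.ext ?_
  rw [← liftAut_coe _ g z]
  show liftAut _ g (z : Ω) = z
  refine IntermediateField.adjoin_induction K (p := fun z _ => liftAut _ g z = z) ?_ ?_ ?_ ?_ ?_
    (z.2 : (z : Ω) ∈ IntermediateField.adjoin K (coordSet Ω l M))
  · rintro _ ⟨x, y, h, hTM, hz⟩
    obtain ⟨h', e⟩ := autPoint_some (l := l) (liftAut _ g) h
    have := hall _ hTM
    rw [mem_fixedPts, e, Affine.Point.some.injEq] at this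
    rcases hz with rfl | rfl
    exacts [this.1, this.2]
  · exact fun x => (liftAut _ g).commutes x
  · intro x y _ _ hx hy; rw [map_add, hx, hy]
  · intro x _ hx; rw [map_inv₀, hx]
  · intro x y _ _ hx hy; rw [map_mul, hx, hy]

set_option maxHeartbeats 1600000 in
set_option synthInstance.maxHeartbeats 200000 in
/-- Smooth points and nodes below the field of coordinates. -/
theorem semiPoint_coordField (hB : BasePoint R l k q t) (h2 : IsUnit (2 : R))
    (hqm : ¬ q ∣ 2 * j + 1) (hM : M = 2 ^ a * (q * (2 * j + 1)))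
    [FiniteDimensional K (coordField K Ω l M)] [IsGalois K (coordField K Ω l M)]
    {W F : Type} [CommRing W] [Field F] [Algebra W F] (A : Subalgebra W F)
    [Algebra A (IntCl R (coordField K Ω l M))] [FaithfulSMul A (IntCl R (coordField K Ω l M))]
    [Module.Finite A (IntCl R (coordField K Ω l M))]
    (S : Subgroup (coordField K Ω l M ≃ₐ[K] coordField K Ω l M))
    [SMulCommClass S A (IntCl R (coordField K Ω l M))]
    [Algebra.IsInvariant A (IntCl R (coordField K Ω l M)) S]
    {P₀ : (legendreΩ Ω l).toAffine.Point} (hP₀ : P₀ ≠ 0) (hqP₀ : q • P₀ = 0)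
    (hline : ∀ g ∈ S, autPoint (liftAut (coordField K Ω l M) g) P₀ ∈ AddSubgroup.zmultiples P₀)
    (hmem : ∀ g : coordField K Ω l M ≃ₐ[K] coordField K Ω l M,
      (∀ T : (legendreΩ Ω l).toAffine.Point, (2 ^ a * (2 * j + 1)) • T = 0 →
        T ∈ fixedPts (l := l) (coordField K Ω l M) g) →
      autPoint (liftAut (coordField K Ω l M) g) P₀ ∈ AddSubgroup.zmultiples P₀ → g ∈ S)
    (m : Ideal (IntCl R (coordField K Ω l M))) [m.IsMaximal]
    (hqm' : (q : IntCl R (coordField K Ω l M)) ∈ m)
    (htm : algebraMap R (IntCl R (coordField K Ω l M)) t ∈ m)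
    (hconst : ∀ r : R, ∃ x : A,
      algebraMap R (IntCl R (coordField K Ω l M)) r - algebraMap A _ x ∈ m) :
    IsSmoothPoint A (q : W) (m.comap (algebraMap A (IntCl R (coordField K Ω l M)))) ∨
      IsNodePoint A (q : W) (m.comap (algebraMap A (IntCl R (coordField K Ω l M)))) := by
  classical
  have hl := hB.isUnit_l
  have hl1 := hB.isUnit_one_sub
  haveI := legendreΩ_isElliptic (Ω := Ω) hl hl1
  have hdq : 2 * k + 1 ∣ M := ⟨2 ^ a * (2 * j + 1), by rw [hM, ← hB.hq]; ring⟩
  have hLq : CoordsIn (coordField K Ω l M) l (2 * k + 1) := coordsIn_coordField hdq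
  obtain ⟨H⟩ := exists_hasCoords_intCl (k := k) hl hl1 hLq
  letI actq := galAction (n := 2 * k + 1) hLq
  haveI := finite_torsionBy (legendreΩ Ω l) (2 * k + 1) (by omega)
  letI : Fintype (LegTorsion Ω l (2 * k + 1)) := Fintype.ofFinite _
  haveI : IsIntegrallyClosed (IntCl R (coordField K Ω l M)) := isIntegrallyClosed_intCl _
  haveI : IsNoetherianRing (IntCl R (coordField K Ω l M)) := isNoetherianRing_intCl _
  haveI : FaithfulSMul R (IntCl R (coordField K Ω l M)) := faithfulSMul_intCl _
  haveI := faithfulSMul_subgroup_intCl (R := R) (coordField K Ω l M) S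
  have D := legSetup_of_basePoint hB hLq H
  have hle : ∀ r ∈ Ideal.span {(q : R), t},
      algebraMap R (IntCl R (coordField K Ω l M)) r ∈ m := fun r hr =>
    (D.mem_m_iff hqm' htm r).2 hr
  have hfix : ∀ g : coordField K Ω l M ≃ₐ[K] coordField K Ω l M, g • m = m →
      (∀ T : LegTorsion Ω l (2 * k + 1), g • T = T) → g = 1 := by
    intro g hg hT
    refine eq_one_of_fixedPts fun T hTM => ?_
    refine fixedPts_coprime (a := q) (b := 2 ^ a * (2 * j + 1)) ?_
      (fun S' hS' => congrArg Subtype.val (hT ⟨S', legTorsion_mem_iff.2 (hB.hq ▸ hS')⟩))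
      (fun S' hS' => mem_fixedPts_of_stabilizer hB h2 hqm hM hqm' hle hg hS')
      (by rw [← hTM, hM]; congr 1; ring)
    refine Nat.Coprime.mul_right ?_ ((Fact.out : q.Prime).coprime_iff_not_dvd.2 hqm)
    refine Nat.Coprime.pow_right a ((Nat.coprime_two_right).2 ?_)
    rw [hB.hq]
    exact odd_two_mul_add_one k
  set Q₀ : LegTorsion Ω l (2 * k + 1) := ⟨P₀, legTorsion_mem_iff.2 (hB.hq ▸ hqP₀)⟩
  have hzm : ∀ g : coordField K Ω l M ≃ₐ[K] coordField K Ω l M,
      g • Q₀ ∈ AddSubgroup.zmultiples Q₀ ↔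
        autPoint (liftAut (coordField K Ω l M) g) P₀ ∈ AddSubgroup.zmultiples P₀ := fun g => by
    rw [AddSubgroup.mem_zmultiples_iff, AddSubgroup.mem_zmultiples_iff]
    exact exists_congr fun n => ⟨fun e => congrArg Subtype.val e, fun e => Subtype.ext e⟩
  have hlineQ : ∀ g ∈ S, g • Q₀ ∈ AddSubgroup.zmultiples Q₀ := fun g hg =>
    (hzm g).2 (hline g hg)
  have hres : ∀ b, ∃ x : A, b - algebraMap A (IntCl R (coordField K Ω l M)) x ∈ m := fun b => by
    obtain ⟨r, hr⟩ := exists_sub_algebraMap_mem hB.splits m hle b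
    obtain ⟨x, hx⟩ := hconst r
    exact ⟨x, by simpa using add_mem hr hx⟩
  letI : Algebra (Localization.AtPrime m) Ω :=
    (localToField Ω m (Localization.AtPrime m)).toAlgebra
  haveI : IsScalarTower (IntCl R (coordField K Ω l M)) (Localization.AtPrime m) Ω :=
    IsScalarTower.of_algebraMap_eq fun x =>
      (localToField_algebraMap Ω m (Localization.AtPrime m) x).symm
  haveI : IsScalarTower R (Localization.AtPrime m) Ω := IsScalarTower.of_algebraMap_eq fun x => by
    rw [IsScalarTower.algebraMap_apply R (IntCl R (coordField K Ω l M)) (Localization.AtPrime m),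
      ← IsScalarTower.algebraMap_apply (IntCl R (coordField K Ω l M)) (Localization.AtPrime m) Ω,
      ← IsScalarTower.algebraMap_apply]
  haveI : FaithfulSMul (Localization.AtPrime m) Ω :=
    (faithfulSMul_iff_algebraMap_injective (Localization.AtPrime m) Ω).2
      (localToField_injective Ω m (Localization.AtPrime m))
  haveI : IsIntegrallyClosed (Localization.AtPrime m) :=
    isIntegrallyClosed_of_isLocalization (Localization.AtPrime m) m.primeCompl
      (Ideal.primeCompl_le_nonZeroDivisors m)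
  obtain ⟨u, hum, hu⟩ := exists_prod_eq (coordField K Ω l M) H (Localization.AtPrime m) hl hl1 m
  refine semiPoint_of_line (Localization.AtPrime m) D hqm' htm hfix
    (fun e => hP₀ (congrArg Subtype.val e)) hlineQ
    (fun g hg hgQ => hmem g (fun T hT => mem_fixedPts_of_stabilizer hB h2 hqm hM hqm' hle hg hT)
      ((hzm g).1 hgQ))
    hres hum (by rw [hu, hB.hq]) fun μ₀ => ?_
  refine ⟨(cosetSumB _ H (r := l) (Or.inr (Or.inr rfl)) Q₀ -
      cosetSumB _ H (r := (0 : R)) (Or.inl rfl) Q₀) - algebraMap R _ μ₀ *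
      (cosetSumB _ H (r := (1 : R)) (Or.inr (Or.inl rfl)) Q₀ -
        cosetSumB _ H (r := (0 : R)) (Or.inl rfl) Q₀), fun g hg => ?_, ?_⟩
  · have hne : Q₀ ≠ 0 := fun e => hP₀ (congrArg Subtype.val e)
    simp only [smul_sub, smul_mul',
      smul_cosetSumB _ H hLq hB.hq g _ hne (hlineQ g hg)]
    rw [Algebra.algebraMap_eq_smul_one (A := IntCl R (coordField K Ω l M)) μ₀, smul_comm, smul_one]
  · simp only [map_sub, map_mul, algebraMap_cosetSumB, ← IsScalarTower.algebraMap_apply]

end Fermat.Agent.Models
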