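/-
Translations and conjugations on the abscissae of division points, for a half period structure.
-/
import Fermat.Agent.Models.Gamma0.Constants
import Fermat.Agent.Moduli.FieldGen

set_option autoImplicit false
set_option linter.style.haveILetI false
set_option linter.unusedSectionVars false

noncomputable section

namespace Fermat.Agent.ModField

open UpperHalfPlane CongruenceSubgroup Filter
open Fermat.Agent.GalRep Fermat.Agent.GalRep.Level Fermat.Agent.Moduli
open Fermat.Agent.GalRep.Model (Quad Lev NZ PM rowMul nz_rowMul)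
open scoped MatrixGroups

variable {O : Type} [CommRing O] [IsDomain O] {M : ℕ} [NeZero M] (E : Emb O M) {L : Lev M}
  (hLm : L.m = 2)

include hLm in
theorem lev_eq_mul_two : (M : ℤ) = L.e * 2 := by
  have := L.eq
  rw [hLm] at this
  exact_mod_cast this

include hLm in
/-- A diagonal change fixes the half periods. -/
theorem pm_scaleV_V (a : (ZMod M)ˣ) (i : Fin 4) : PM M (scaleV a (L.V i)) (L.V i) := by
  have hM := lev_eq_mul_two hLm
  have h2 : (2 : ℤ) ∣ ((a : ZMod M).val : ℤ) - 1 := by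
    have hcop := ZMod.val_coe_unit_coprime a
    have : ¬ (2 : ℕ) ∣ (a : ZMod M).val := fun hd => by
      have h2M : (2 : ℕ) ∣ M := ⟨L.e, by exact_mod_cast (hM.trans (mul_comm _ _))⟩
      exact absurd (Nat.dvd_gcd hd h2M) (by rw [hcop]; decide)
    omega
  refine Or.inl ⟨by simp [scaleV], ?_⟩
  obtain ⟨c, hc⟩ := h2
  refine ⟨c * (Model.base i).2, ?_⟩
  simp only [scaleV, Lev.V, hM]
  linear_combination ((L.e : ℤ) * (Model.base i).2) * hc

include hLm in
/-- The group of level two fixes the half periods. -/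
theorem pm_rowMul_V {g : SL(2, ℤ)} (hg : g ∈ Gamma 2) (i : Fin 4) :
    PM M (rowMul (L.V i) g) (L.V i) := by
  have hM := lev_eq_mul_two hLm
  obtain ⟨h1, h2, h3, h4⟩ := Gamma_mem.mp hg
  have key : ∀ {x : ℤ}, (x : ZMod 2) = 0 → ∃ c : ℤ, x = 2 * c := fun {x} h => by
    obtain ⟨c, hc⟩ := (ZMod.intCast_zmod_eq_zero_iff_dvd x 2).1 h
    exact ⟨c, by exact_mod_cast hc⟩
  obtain ⟨c1, e1⟩ := key (x := g 0 0 - 1) (by push_cast; rw [h1, sub_self])
  obtain ⟨c2, e2⟩ := key (x := g 0 1) h2
  obtain ⟨c3, e3⟩ := key (x := g 1 0) h3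
  obtain ⟨c4, e4⟩ := key (x := g 1 1 - 1) (by push_cast; rw [h4, sub_self])
  refine Or.inl ⟨⟨(Model.base i).1 * c1 + (Model.base i).2 * c3, ?_⟩,
    ⟨(Model.base i).1 * c2 + (Model.base i).2 * c4, ?_⟩⟩ <;>
    simp only [rowMul, Lev.V, hM]
  · linear_combination ((L.e : ℤ) * (Model.base i).1) * e1 + ((L.e : ℤ) * (Model.base i).2) * e3
  · linear_combination ((L.e : ℤ) * (Model.base i).1) * e2 + ((L.e : ℤ) * (Model.base i).2) * e4

/-- Abscissae depend on the point up to sign. -/
theorem absF_congr {u u' : ℤ × ℤ} (hu : NZ M u) (hu' : NZ M u') (h : PM M u u') :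
    absF E L u hu = absF E L u' hu' := by
  apply fldGerm_injective E
  rw [absF, absF, fldGerm_quadF, fldGerm_quadF]
  refine Germ.coe_eq.2 (Eventually.of_forall fun τ => ?_)
  simp only [Quad.fn, absQuad]
  rw [Model.wpDiff_congr h (PM.refl _)]

include hLm in
/-- Translations of level two move the abscissae along the matrix. -/
theorem fShift_absF {g : SL(2, ℤ)} (hg : g ∈ Gamma 2) {u : ℤ × ℤ} (hu : NZ M u) :
    fShift E g (absF E L u hu) = absF E L (rowMul u g) (nz_rowMul g hu) := by
  rw [absF, fShift_quadF]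
  apply fldGerm_injective E
  rw [absF, fldGerm_quadF, fldGerm_quadF]
  refine Germ.coe_eq.2 (Eventually.of_forall fun τ => ?_)
  simp only [Quad.fn, Quad.mul, absQuad]
  rw [Model.wpDiff_congr (PM.refl (rowMul u g)) (pm_rowMul_V hLm hg 0),
    Model.wpDiff_congr (pm_rowMul_V hLm hg 2) (pm_rowMul_V hLm hg 0)]

include hLm in
/-- Conjugations move the abscissae along the character. -/
theorem fConj_absF (σ : stabK E) {u : ℤ × ℤ} (hu : NZ M u) :
    fConj E σ (absF E L u hu) =
      absF E L (scaleV (cycC M σ.1) u) (nz_scaleV _ hu) := by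
  apply toLS_injective E
  rw [toLS_fConj, absF, absF, quadF, quadF, ofMF, ofMF, toLS_toFld, toLS_toFld]
  show lmap σ.1.toRingHom (serAlg M (quadMF (absQuad L u hu))) =
    serAlg M (quadMF (absQuad L (scaleV (cycC M σ.1) u) (nz_scaleV _ hu)))
  rw [serAlg_quadMF, serAlg_quadMF]
  simp only [map_div₀, map_sub, conj_pSer, absQuad]
  have hp : ∀ i, Model.pSer M (Model.zetaC M) (scaleV (cycC M σ.1) (L.V i)) =
      Model.pSer M (Model.zetaC M) (L.V i) := fun i => by
    rw [← Model.map_pO (cycComplex M), ← Model.map_pO (cycComplex M),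
      Model.pO_congr (cycComplex M) (pm_scaleV_V hLm _ i)]
  rw [hp 0, hp 2]

theorem gamma_mono_mem {d e : ℕ} (hde : d ∣ e) {g : SL(2, ℤ)} (hg : g ∈ Gamma e) : g ∈ Gamma d := by
  obtain ⟨h1, h2, h3, h4⟩ := Gamma_mem.mp hg
  have e1 : ∀ {x : ℤ} {y : ℤ}, (x : ZMod e) = y → (x : ZMod d) = y := fun {x y} h => by
    have := congrArg (ZMod.castHom hde (ZMod d)) h
    simpa using this
  refine Gamma_mem.mpr ⟨?_, ?_, ?_, ?_⟩
  · simpa using e1 (y := 1) (by simpa using h1)
  · simpa using e1 (y := 0) (by simpa using h2)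
  · simpa using e1 (y := 0) (by simpa using h3)
  · simpa using e1 (y := 1) (by simpa using h4)

end Fermat.Agent.ModField
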