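/-
The group of the field of level `Γ₀(q) ∩ Γ(m)` inside the Galois group of the field of coordinates:
the automorphisms fixing the torsion of order `m` and preserving one line of order `q`.
-/
import Fermat.Agent.Models.Gamma0.AbsAction
import Fermat.Agent.Moduli.AbsBridge

set_option autoImplicit false
set_option linter.style.haveILetI false
set_option linter.unusedSectionVars false

noncomputable section

namespace Fermat.Agent.ModField

open Polynomial CongruenceSubgroup IsLocalRing WeierstrassCurve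
open Fermat.Agent.EC Fermat.Agent.Moduli Fermat.Agent.GalRep Fermat.Agent.GalRep.Level
open Fermat.Agent.GalRep.Model (Lev NZ PM rowMul nz_rowMul)
open scoped MatrixGroups

variable {W : Type} [CommRing W] [IsDomain W] [IsDiscreteValuationRing W] {O : Type} [CommRing O]
  [IsDomain O] [Algebra W O] {M : ℕ} [NeZero M] {E : Emb O M} [Algebra W (Fld E)]
  [IsScalarTower W O (Fld E)] {q m : ℕ} [hq : Fact q.Prime]
  {L : Lev M} {R : Type} [CommRing R] [IsDomain R] [IsIntegrallyClosed R] [IsNoetherianRing R]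
  {K₀ : Type} [Field K₀] [Algebra R K₀] [IsFractionRing R K₀] [Algebra R (Fld E)]
  [Algebra K₀ (Fld E)] [IsScalarTower R K₀ (Fld E)] {l : R} (Br : AbsBridge E L R K₀ l)
  [FiniteDimensional K₀ (coordField K₀ Br.Ω l M)] [IsGalois K₀ (coordField K₀ Br.Ω l M)]

/-- The level field in the field of coordinates. -/
def bridgeMap : Fld E →ₐ[K₀] coordField K₀ Br.Ω l M :=
  Br.ι.codRestrict (coordField K₀ Br.Ω l M).toSubalgebra fun x =>
    absField_le M (Br.range_eq.le ⟨x, rfl⟩)

theorem coe_bridgeMap (x : Fld E) : ((bridgeMap Br x : coordField K₀ Br.Ω l M) : Br.Ω) = Br.ι x :=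
  rfl

variable (W q m)

/-- The automorphisms fixing the descended field. -/
def lineGroup : Subgroup (coordField K₀ Br.Ω l M ≃ₐ[K₀] coordField K₀ Br.Ω l M) where
  carrier := {g | ∀ x ∈ Fld₀ W E q m, g (bridgeMap Br x) = bridgeMap Br x}
  one_mem' _ _ := rfl
  mul_mem' {g h} hg hh x hx := by rw [AlgEquiv.mul_apply, hh x hx, hg x hx]
  inv_mem' {g} hg x hx := by
    refine g.injective ?_
    rw [hg x hx]
    exact g.apply_symm_apply _

variable {W q m}

theorem mem_lineGroup {g : coordField K₀ Br.Ω l M ≃ₐ[K₀] coordField K₀ Br.Ω l M} :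
    g ∈ lineGroup W q m Br ↔ ∀ x ∈ Fld₀ W E q m, g (bridgeMap Br x) = bridgeMap Br x := Iff.rfl

/-- The field fixed by the group is the descended field. -/
theorem exists_of_fixed (hK : ∀ c, algebraMap K₀ (Fld E) c ∈ Fld₀ W E q m)
    {b : coordField K₀ Br.Ω l M} (hb : ∀ g ∈ lineGroup W q m Br, g b = b) :
    ∃ x ∈ Fld₀ W E q m, bridgeMap Br x = b := by
  let F' : IntermediateField K₀ (coordField K₀ Br.Ω l M) :=
    ((Fld₀ W E q m).toIntermediateField hK).map (bridgeMap Br)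
  have hle : F'.fixingSubgroup = lineGroup W q m Br := by
    ext g
    rw [IntermediateField.mem_fixingSubgroup_iff, mem_lineGroup]
    refine ⟨fun h x hx => h _ ⟨x, hx, rfl⟩, ?_⟩
    rintro h _ ⟨x, hx, rfl⟩
    exact h x hx
  have hbF : b ∈ IntermediateField.fixedField (lineGroup W q m Br) :=
    (IntermediateField.mem_fixedField_iff _ _).2 hb
  rw [← hle, IsGalois.fixedField_fixingSubgroup] at hbF
  obtain ⟨x, hx, rfl⟩ := hbF
  exact ⟨x, hx, rfl⟩

/-- The line point. -/
def linePoint (m : ℕ) : (legendreΩ Br.Ω l).toAffine.Point := Br.P (0, (m : ℤ))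

/-- An automorphism moves a division point as it moves its abscissa. -/
theorem autPoint_P {g : coordField K₀ Br.Ω l M ≃ₐ[K₀] coordField K₀ Br.Ω l M} {u : ℤ × ℤ}
    (hu : NZ M u) : ∃ y h, autPoint (l := l) (liftAut (coordField K₀ Br.Ω l M) g) (Br.P u) =
      Affine.Point.some ((g (bridgeMap Br (absF E L u hu)) : coordField K₀ Br.Ω l M) : Br.Ω) y h := by
  obtain ⟨y, h, e⟩ := Br.P_abs u hu
  obtain ⟨h', e'⟩ := autPoint_some (l := l) (liftAut (coordField K₀ Br.Ω l M) g) h
  refine ⟨liftAut (coordField K₀ Br.Ω l M) g y, ?_, ?_⟩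
  · rw [← liftAut_coe, coe_bridgeMap]
    exact h'
  · rw [e, e', Affine.Point.some.injEq]
    exact ⟨by rw [← liftAut_coe, coe_bridgeMap], rfl⟩

variable (hmax : maximalIdeal W = Ideal.span {(q : W)}) (hWO : Function.Injective (algebraMap W O))
  (hgen : Algebra.adjoin W {E.ζ} = ⊤) (hζ : ∃ c : W, algebraMap W O c = E.ζ ^ q)
  (hM : M = q * m) (hqm : ¬ q ∣ m) (h2 : 2 ∣ m) (hLm : L.m = 2)

include hM h2 in
theorem gamma_two_of_levelG {g : SL(2, ℤ)} (hg : g ∈ levelG q m) : g ∈ Gamma 2 :=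
  gamma_mono_mem h2 hg.2

include hM hq in
theorem nz_line {c : ℤ} (hc : ¬ (q : ℤ) ∣ c) : NZ M (0, c * m) := by
  rintro ⟨-, hd⟩
  rw [hM, Nat.cast_mul] at hd
  refine hc ((mul_dvd_mul_iff_right ?_).1 hd)
  intro h0
  have := NeZero.ne M
  rw [hM] at this
  exact this (by rw [Int.natCast_eq_zero.1 h0, mul_zero])

include hM hq hLm in
theorem linePoint_props : linePoint Br m ≠ 0 ∧ q • linePoint Br m = 0 := by
  refine ⟨fun h => ((Br.P_eq_zero _).1 h) ?_, ?_⟩
  · simpa using nz_line (q := q) hM (c := 1) (fun h => by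
      have := Int.le_of_dvd one_pos h
      have := hq.out.two_le
      omega)
  · rw [linePoint, ← map_nsmul, Br.P_eq_zero, NZ, not_not]
    refine ⟨by simp, ⟨1, ?_⟩⟩
    simp [hM]

include hmax hWO hgen hζ hM hqm h2 hLm in
/-- The product over the line of the differences from its abscissae is over the descended field. -/
theorem coeff_line_mem (s : ℕ) :
    (∏ i : Fin (q - 1), (X - Polynomial.C (absF E L (0, ((i : ℕ) + 1 : ℤ) * m)
      (nz_line hM (fun h => by
        have h1 := Int.le_of_dvd (by positivity) h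
        have := i.2
        omega))))).coeff s ∈ Fld₀ W E q m := by
  classical
  set nz := fun i : Fin (q - 1) => nz_line (M := M) (q := q) (m := m) hM
    (c := ((i : ℕ) + 1 : ℤ)) (fun h => by
        have h1 := Int.le_of_dvd (by positivity) h
        have := i.2
        omega)
  set P : (Fld E)[X] := ∏ i : Fin (q - 1),
    (X - Polynomial.C (absF E L (0, ((i : ℕ) + 1 : ℤ) * m) (nz i)))
  suffices key : ∀ (f : Fld E →+* Fld E) (d : ℤ), ¬ (q : ℤ) ∣ d →
      (∀ c : ℤ, ∀ hc : NZ M (0, c * m), ∃ hc' : NZ M (0, d * c * m),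
        f (absF E L (0, c * m) hc) = absF E L (0, d * c * m) hc') → P.map f = P by
    refine mem_fld₀_of_fixed hmax hWO hgen hζ hM hqm (fun g hg => ?_) fun σ _ => ?_
    · have hd : ¬ (q : ℤ) ∣ g 1 1 := fun h => by
        have hdet := congrArg (Int.cast : ℤ → ZMod q) g.det_coe
        rw [Matrix.det_fin_two] at hdet
        push_cast at hdet
        rw [Gamma0_mem.1 hg.1, (ZMod.intCast_zmod_eq_zero_iff_dvd _ _).2 h, mul_zero, mul_zero,
          sub_zero] at hdet
        exact zero_ne_one hdet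
      rw [← RingEquiv.coe_toRingHom, ← coeff_map, key _ (g 1 1) hd fun c hc => ?_]
      have hpm : PM M (rowMul (0, c * m) g) (0, g 1 1 * c * m) := by
        obtain ⟨e, he⟩ := (ZMod.intCast_zmod_eq_zero_iff_dvd _ _).1 (Gamma0_mem.1 hg.1)
        refine Or.inl ⟨⟨c * e, ?_⟩, ⟨0, ?_⟩⟩ <;> simp only [rowMul]
        · rw [hM, Nat.cast_mul]
          linear_combination (c * (m : ℤ)) * he
        · ring
      have hc' : NZ M (0, g 1 1 * c * m) := fun h => by
        refine nz_rowMul g hc ?_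
        rcases hpm with ⟨⟨a, ha⟩, ⟨b, hb⟩⟩ | ⟨⟨a, ha⟩, ⟨b, hb⟩⟩
        · exact ⟨⟨a, by linear_combination ha⟩, (dvd_sub_left h.2).1 ⟨b, hb⟩⟩
        · exact ⟨⟨a, by linear_combination ha⟩, (dvd_add_left h.2).1 ⟨b, hb⟩⟩
      exact ⟨hc', (fShift_absF E hLm (gamma_two_of_levelG hM h2 hg) hc).trans
        (absF_congr E _ hc' hpm)⟩
    · set a := cycC M σ.1
      have hd : ¬ (q : ℤ) ∣ ((a : ZMod M).val : ℤ) := fun h => by
        have hcop := (ZMod.val_coe_unit_coprime a).coprime_dvd_right ⟨m, hM⟩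
        exact hq.out.not_dvd_one (hcop ▸ Nat.dvd_gcd (Int.natCast_dvd_natCast.1 h) dvd_rfl)
      rw [← RingEquiv.coe_toRingHom, ← coeff_map, key _ _ hd fun c hc => ?_]
      have e : scaleV a (0, c * m) = (0, ((a : ZMod M).val : ℤ) * c * m) :=
        Prod.ext rfl (mul_assoc _ _ _).symm
      have hc' : NZ M (0, ((a : ZMod M).val : ℤ) * c * m) := e ▸ nz_scaleV a hc
      exact ⟨hc', (fConj_absF E hLm σ hc).trans (absF_congr E _ hc' (e ▸ PM.refl _))⟩
  intro f d hd hf
  have hq2 := hq.out.two_le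
  have hq' : (0 : ℤ) < q := by exact_mod_cast hq.out.pos
  have hqp : Prime (q : ℤ) := Nat.prime_iff_prime_int.1 hq.out
  have hr : ∀ i : Fin (q - 1),
      1 ≤ d * ((i : ℕ) + 1) % (q : ℤ) ∧ d * ((i : ℕ) + 1) % (q : ℤ) < q := fun i => by
    refine ⟨?_, Int.emod_lt_of_pos _ hq'⟩
    rcases (Int.emod_nonneg (d * ((i : ℕ) + 1)) hq'.ne').lt_or_eq with h | h
    · omega
    · exfalso
      rcases hqp.dvd_or_dvd (Int.dvd_of_emod_eq_zero h.symm) with h' | h'
      · exact hd h'
      · have := Int.le_of_dvd (by positivity) h'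
        have := i.2
        omega
  let π : Fin (q - 1) → Fin (q - 1) := fun i =>
    ⟨(d * ((i : ℕ) + 1) % (q : ℤ)).toNat - 1, by have := hr i; omega⟩
  have hπ : ∀ i, ((π i : ℕ) + 1 : ℤ) = d * ((i : ℕ) + 1) % (q : ℤ) := fun i => by
    have := hr i
    simp only [π]
    omega
  have hinj : Function.Injective π := fun i j h => by
    have h1 : d * ((i : ℕ) + 1) % (q : ℤ) = d * ((j : ℕ) + 1) % (q : ℤ) := by
      rw [← hπ, ← hπ, h]
    rw [Int.emod_eq_emod_iff_emod_sub_eq_zero, ← mul_sub] at h1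
    rcases hqp.dvd_or_dvd (Int.dvd_of_emod_eq_zero h1) with h' | h'
    · exact absurd h' hd
    · refine Fin.ext ?_
      have := Int.eq_zero_of_abs_lt_dvd h' (by
        rw [abs_lt]
        have := i.2
        have := j.2
        omega)
      omega
  rw [Polynomial.map_prod]
  refine Fintype.prod_equiv (Equiv.ofBijective π (Finite.injective_iff_bijective.1 hinj)) _ _ fun i => ?_
  rw [Polynomial.map_sub, map_X, map_C]
  obtain ⟨hc', e⟩ := hf _ (nz i)
  rw [e]
  congr 2
  refine absF_congr E hc' _ (Or.inl ⟨⟨0, by simp⟩, ?_⟩)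
  show (M : ℤ) ∣ d * ((i : ℕ) + 1) * m - ((π i : ℕ) + 1 : ℤ) * m
  rw [hπ, ← sub_mul, hM, Nat.cast_mul]
  exact mul_dvd_mul_right (Int.dvd_self_sub_emod) _

include hmax hWO hgen hζ hM hqm h2 hLm in
/-- The group preserves the line. -/
theorem autPoint_linePoint_mem {g : coordField K₀ Br.Ω l M ≃ₐ[K₀] coordField K₀ Br.Ω l M}
    (hg : g ∈ lineGroup W q m Br) :
    autPoint (l := l) (liftAut (coordField K₀ Br.Ω l M) g) (linePoint Br m) ∈
      AddSubgroup.zmultiples (linePoint Br m) := by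
  classical
  have h1 : NZ M (0, (1 : ℤ) * m) := nz_line hM fun h => by
    have := Int.le_of_dvd one_pos h
    have := hq.out.two_le
    omega
  set nz := fun i : Fin (q - 1) => nz_line (M := M) (q := q) (m := m) hM
    (c := ((i : ℕ) + 1 : ℤ)) (fun h => by
        have h1 := Int.le_of_dvd (by positivity) h
        have := i.2
        omega)
  set P : (Fld E)[X] := ∏ i : Fin (q - 1),
    (X - Polynomial.C (absF E L (0, ((i : ℕ) + 1 : ℤ) * m) (nz i))) with hP
  set gι : Fld E →+* coordField K₀ Br.Ω l M := g.toAlgHom.toRingHom.comp (bridgeMap Br).toRingHom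
  have hmap : P.map gι = P.map (bridgeMap Br).toRingHom := Polynomial.ext fun s => by
    rw [coeff_map, coeff_map]
    exact hg _ (coeff_line_mem hmax hWO hgen hζ hM hqm h2 hLm s)
  have hi0 : (⟨0, by have := hq.out.two_le; omega⟩ : Fin (q - 1)) ∈ (Finset.univ : Finset (Fin (q - 1))) :=
    Finset.mem_univ _
  have hroot : (P.map (bridgeMap Br).toRingHom).eval (gι (absF E L (0, (1 : ℤ) * m) h1)) = 0 := by
    rw [← hmap, eval_map_apply, hP, eval_prod, map_prod]
    refine Finset.prod_eq_zero hi0 ?_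
    rw [eval_sub, eval_X, eval_C]
    simp
  rw [hP, Polynomial.map_prod, eval_prod, Finset.prod_eq_zero_iff] at hroot
  obtain ⟨i, -, hi⟩ := hroot
  rw [Polynomial.map_sub, map_X, map_C, eval_sub, eval_X, eval_C, sub_eq_zero] at hi
  set c : ℤ := (i : ℕ) + 1
  have e1 : linePoint Br m = Br.P (0, (1 : ℤ) * m) := by rw [one_mul]; rfl
  have ec : c • linePoint Br m = Br.P (0, c * m) := by
    rw [linePoint, ← map_zsmul]
    congr 1
  obtain ⟨y, h, eg⟩ := autPoint_P Br (g := g) h1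
  obtain ⟨y', h', eu⟩ := Br.P_abs (0, c * m) (nz i)
  rw [← e1] at eg
  have hi' : ((g (bridgeMap Br (absF E L (0, (1 : ℤ) * m) h1)) : coordField K₀ Br.Ω l M) : Br.Ω) =
      Br.ι (absF E L (0, c * m) (nz i)) := congrArg Subtype.val hi
  have hsq : y ^ 2 = y' ^ 2 := by
    rw [equation_legendre h.1, equation_legendre h'.1, hi']
  rcases eq_or_eq_neg_of_sq_eq_sq _ _ hsq with rfl | rfl
  · refine AddSubgroup.mem_zmultiples_iff.2 ⟨c, ?_⟩
    rw [ec, eg, eu, Affine.Point.some.injEq]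
    exact ⟨hi'.symm, rfl⟩
  · refine AddSubgroup.mem_zmultiples_iff.2 ⟨-c, ?_⟩
    rw [neg_smul, ec, eg, eu, Affine.Point.neg_some, Affine.Point.some.injEq, negY_legendre]
    exact ⟨hi'.symm, rfl⟩

include hmax hWO hgen hζ hM hqm h2 hLm in
/-- An automorphism fixing the torsion of order `m` and preserving the line is in the group. -/
theorem mem_lineGroup_of_fixed (hMq : ¬ M ∣ 2 * q)
    (hconst : ∀ y ∈ Set.range ((algebraMap O (Fld E)).comp (algebraMap W O)),
      ∃ c : K₀, algebraMap K₀ (Fld E) c = y)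
    {g : coordField K₀ Br.Ω l M ≃ₐ[K₀] coordField K₀ Br.Ω l M}
    (hfix : ∀ T : (legendreΩ Br.Ω l).toAffine.Point, m • T = 0 →
      T ∈ fixedPts (l := l) (coordField K₀ Br.Ω l M) g)
    (hline : autPoint (l := l) (liftAut (coordField K₀ Br.Ω l M) g) (linePoint Br m) ∈
      AddSubgroup.zmultiples (linePoint Br m)) : g ∈ lineGroup W q m Br := by
  classical
  set φg := autPoint (l := l) (liftAut (coordField K₀ Br.Ω l M) g)
  have hPM : ∀ u, M • Br.P u = 0 := fun u => by
    rw [← map_nsmul, Br.P_eq_zero, NZ, not_not]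
    exact ⟨⟨u.1, by simp⟩, ⟨u.2, by simp⟩⟩
  have heq : ∀ {u v : ℤ × ℤ}, Br.P u = Br.P v →
      (u.1 : ZMod M) = v.1 ∧ (u.2 : ZMod M) = v.2 := fun {u v} h => by
    have h0 : Br.P (u - v) = 0 := by rw [map_sub, h, sub_self]
    rw [Br.P_eq_zero, NZ, not_not] at h0
    simpa [← ZMod.intCast_zmod_eq_zero_iff_dvd, sub_eq_zero] using h0
  have heq' : ∀ {u v : ℤ × ℤ}, (u.1 : ZMod M) = v.1 → (u.2 : ZMod M) = v.2 → Br.P u = Br.P v :=
    fun {u v} h1 h2 => by
    rw [← sub_eq_zero, ← map_sub, Br.P_eq_zero, NZ, not_not]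
    simp [← ZMod.intCast_zmod_eq_zero_iff_dvd, h1, h2]
  obtain ⟨e₁, he₁⟩ := Br.P_surj (φg (Br.P (1, 0))) (by rw [← map_nsmul, hPM, map_zero])
  obtain ⟨e₂, he₂⟩ := Br.P_surj (φg (Br.P (0, 1))) (by rw [← map_nsmul, hPM, map_zero])
  have hlin : ∀ u : ℤ × ℤ, φg (Br.P u) =
      Br.P (u.1 * e₁.1 + u.2 * e₂.1, u.1 * e₁.2 + u.2 * e₂.2) := fun u => by
    have eu : u = u.1 • ((1, 0) : ℤ × ℤ) + u.2 • ((0, 1) : ℤ × ℤ) := by ext <;> simp
    conv_lhs => rw [eu]
    rw [map_add, map_zsmul, map_zsmul, map_add, map_zsmul, map_zsmul, ← he₁, ← he₂, ← map_zsmul,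
      ← map_zsmul, ← map_add]
    congr 1
  set a : ZMod M := (e₁.1 : ZMod M) with ha
  set b : ZMod M := (e₁.2 : ZMod M) with hb
  set c : ZMod M := (e₂.1 : ZMod M) with hc
  set d : ZMod M := (e₂.2 : ZMod M) with hd
  have hinjP : ∀ u, φg (Br.P u) = 0 → Br.P u = 0 := fun u h => by
    by_contra hne
    obtain ⟨y, hy, e⟩ := autPoint_P Br (g := g)
      (u := u) (fun h0 => hne ((Br.P_eq_zero u).2 fun h' => h' h0))
    exact Affine.Point.some_ne_zero _ (e.symm.trans h)
  -- the determinant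
  let N : ZMod M × ZMod M → ZMod M × ZMod M := fun v => (v.1 * a + v.2 * c, v.1 * b + v.2 * d)
  have hN : Function.Injective N := fun v w h => by
    obtain ⟨x, hx1, hx2⟩ : ∃ x : ℤ × ℤ, (x.1 : ZMod M) = v.1 - w.1 ∧ (x.2 : ZMod M) = v.2 - w.2 :=
      ⟨(((v.1 - w.1).val : ℤ), ((v.2 - w.2).val : ℤ)), by simp⟩
    have h0 : φg (Br.P x) = 0 := by
      have h1 : a * (x.1 : ZMod M) + c * (x.2 : ZMod M) = 0 := by
        have := congrArg Prod.fst h
        simp only [N] at this
        rw [hx1, hx2]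
        linear_combination this
      have h2' : b * (x.1 : ZMod M) + d * (x.2 : ZMod M) = 0 := by
        have := congrArg Prod.snd h
        simp only [N] at this
        rw [hx1, hx2]
        linear_combination this
      rw [hlin, ← map_zero Br.P]
      exact heq' (by simp only [Prod.fst_zero]; push_cast; linear_combination h1)
        (by simp only [Prod.snd_zero]; push_cast; linear_combination h2')
    have := heq ((hinjP _ h0).trans (map_zero Br.P).symm)
    simp only [Prod.fst_zero, Prod.snd_zero, Int.cast_zero, hx1, hx2, sub_eq_zero] at this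
    exact Prod.ext this.1 this.2
  obtain ⟨⟨x1, y1⟩, hv1⟩ := (Finite.injective_iff_surjective.1 hN) (1, 0)
  obtain ⟨⟨x2, y2⟩, hv2⟩ := (Finite.injective_iff_surjective.1 hN) (0, 1)
  simp only [N, Prod.mk.injEq] at hv1 hv2
  obtain ⟨d₀, hd₀⟩ : IsUnit (a * d - b * c) := by
    refine IsUnit.of_mul_eq_one (x1 * y2 - y1 * x2) ?_
    linear_combination (x2 * b + y2 * d) * hv1.1 - (x2 * a + y2 * c) * hv1.2 + hv2.2
  -- congruent to one modulo `m`
  have hdvd : (m : ℕ) ∣ M := Dvd.intro_left q hM.symm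
  let π := ZMod.castHom hdvd (ZMod m)
  have hcongr : ∀ u : ℤ × ℤ,
      π (((u.1 * e₁.1 + u.2 * e₂.1 : ℤ) : ZMod M)) = (u.1 : ZMod m) ∧
        π (((u.1 * e₁.2 + u.2 * e₂.2 : ℤ) : ZMod M)) = (u.2 : ZMod m) := fun u => by
    have h := hfix (Br.P ((q : ℤ) * u.1, (q : ℤ) * u.2)) (by
      rw [← map_nsmul, Br.P_eq_zero, NZ, not_not]
      exact ⟨⟨u.1, by simp [hM]; ring⟩, ⟨u.2, by simp [hM]; ring⟩⟩)
    rw [mem_fixedPts] at h
    change φg (Br.P ((q : ℤ) * u.1, (q : ℤ) * u.2)) = Br.P ((q : ℤ) * u.1, (q : ℤ) * u.2) at h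
    rw [hlin] at h
    obtain ⟨k1, k2⟩ := heq h
    rw [ZMod.intCast_eq_intCast_iff_dvd_sub, hM, Nat.cast_mul] at k1 k2
    rw [map_intCast, map_intCast, ZMod.intCast_eq_intCast_iff_dvd_sub,
      ZMod.intCast_eq_intCast_iff_dvd_sub]
    constructor <;> refine (mul_dvd_mul_iff_left (Int.natCast_ne_zero.2 hq.out.ne_zero)).1 ?_
    · exact k1.trans (dvd_of_eq (by ring))
    · exact k2.trans (dvd_of_eq (by ring))
  obtain ⟨ha1, hb0⟩ := hcongr (1, 0)
  obtain ⟨hc0, hd1⟩ := hcongr (0, 1)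
  simp only [one_mul, zero_mul, add_zero, zero_add, Int.cast_one, Int.cast_zero] at ha1 hb0 hc0 hd1
  rw [← ha] at ha1; rw [← hb] at hb0; rw [← hc] at hc0; rw [← hd] at hd1
  have hd₀1 : π (d₀ : ZMod M) = 1 := by rw [hd₀, map_sub, map_mul, map_mul, ha1, hb0, hd1]; simp
  -- the lower left entry
  have hcq : ZMod.castHom (⟨m, hM⟩ : q ∣ M) (ZMod q) c = 0 := by
    obtain ⟨n, hn⟩ := AddSubgroup.mem_zmultiples_iff.1 hline
    change n • Br.P (0, (m : ℤ)) = φg (Br.P (0, (m : ℤ))) at hn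
    rw [hlin, ← map_zsmul] at hn
    obtain ⟨k1, -⟩ := heq hn
    simp only [Prod.smul_fst, smul_zero, zero_mul, zero_add, Int.cast_zero] at k1
    rw [eq_comm, ZMod.intCast_zmod_eq_zero_iff_dvd, hM, Nat.cast_mul, mul_comm (q : ℤ),
      mul_dvd_mul_iff_left (fun h => NeZero.ne M (by rw [hM, Int.natCast_eq_zero.1 h, mul_zero]))]
      at k1
    rw [hc, map_intCast, ZMod.intCast_zmod_eq_zero_iff_dvd]
    exact k1
  -- the translation and the conjugation
  let x₁ : SL(2, ZMod M) := ⟨!![a, b * ((d₀⁻¹ : (ZMod M)ˣ) : ZMod M); c,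
    d * ((d₀⁻¹ : (ZMod M)ˣ) : ZMod M)], by
      rw [Matrix.det_fin_two_of,
        show a * (d * ((d₀⁻¹ : (ZMod M)ˣ) : ZMod M)) - b * ((d₀⁻¹ : (ZMod M)ˣ) : ZMod M) * c =
          (a * d - b * c) * ((d₀⁻¹ : (ZMod M)ˣ) : ZMod M) by ring, ← hd₀, Units.mul_inv]⟩
  set g₁ := Level.lift x₁
  have hg : ∀ i j, ((g₁ i j : ℤ) : ZMod M) = x₁ i j := fun i j => by
    have := red_lift (M := M) x₁
    exact congrFun (congrFun (congrArg Subtype.val this) i) j
  have hinv1 : π ((d₀⁻¹ : (ZMod M)ˣ) : ZMod M) = 1 := by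
    have := congrArg π d₀.mul_inv
    rwa [map_mul, hd₀1, one_mul, map_one] at this
  have hlevel : g₁ ∈ levelG q m := by
    have ecast : ∀ {e : ℕ} (he : e ∣ M) (i j), ((g₁ i j : ℤ) : ZMod e) =
        ZMod.castHom he (ZMod e) (x₁ i j) := fun {e} he i j => by
      rw [← hg, map_intCast]
    refine ⟨Gamma0_mem.2 ?_, Gamma_mem.2 ⟨?_, ?_, ?_, ?_⟩⟩
    · rw [ecast ⟨m, hM⟩]; exact hcq
    · rw [ecast hdvd]; exact ha1
    · rw [ecast hdvd]; show π (b * _) = 0; rw [map_mul, hb0, zero_mul]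
    · rw [ecast hdvd]; exact hc0
    · rw [ecast hdvd]; show π (d * _) = 1; rw [map_mul, hd1, hinv1, one_mul]
  obtain ⟨σ, hσ, hσd⟩ := exists_stab_of_unit hmax hWO hgen hζ hM hqm d₀ hd₀1
  let f₁ : Fld E →+* coordField K₀ Br.Ω l M :=
    (bridgeMap Br).toRingHom.comp ((fConj E σ).toRingHom.comp (fShift E g₁))
  let f₂ : Fld E →+* coordField K₀ Br.Ω l M := g.toAlgHom.toRingHom.comp (bridgeMap Br).toRingHom
  have htop : ∀ x, f₁ x = f₂ x := fun x => by
    have hle : Subfield.closure (Set.range ((algebraMap O (Fld E)).comp (algebraMap W O)) ∪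
        absFSet E L) ≤ RingHom.eqLocusField f₁ f₂ := by
      refine Subfield.closure_le.2 ?_
      rintro x (⟨w, rfl⟩ | ⟨u, hu, rfl⟩)
      · obtain ⟨k, hk⟩ := hconst _ ⟨w, rfl⟩
        show bridgeMap Br (fConj E σ (fShift E g₁ (algebraMap O (Fld E) (algebraMap W O w)))) =
          g (bridgeMap Br (algebraMap O (Fld E) (algebraMap W O w)))
        rw [fShift_algebraMap, ← cstK_φ, fConj_cstK]
        have e : (⟨σ.1 (E.φ (algebraMap W O w)), (σ.2 _).mpr (E.φ_mem _)⟩ : E.K) =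
            ⟨E.φ (algebraMap W O w), E.φ_mem _⟩ := Subtype.ext (hσ _ (φ_mem_baseK W E w))
        rw [e, cstK_φ, show algebraMap O (Fld E) (algebraMap W O w) = algebraMap K₀ (Fld E) k from
          hk.symm, AlgHom.commutes, AlgEquiv.commutes]
      · show bridgeMap Br (fConj E σ (fShift E g₁ (absF E L u hu))) =
          g (bridgeMap Br (absF E L u hu))
        set v : ℤ × ℤ := scaleV (cycC M σ.1) (rowMul u g₁)
        have hv : NZ M v := nz_scaleV _ (nz_rowMul g₁ hu)
        rw [fShift_absF E hLm (gamma_two_of_levelG hM h2 hlevel) hu, fConj_absF E hLm σ]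
        have ev : φg (Br.P u) = Br.P v := by
          rw [hlin]
          refine heq' ?_ ?_ <;> simp only [v, scaleV, rowMul, hσd] <;>
            push_cast [ZMod.natCast_zmod_val, hg] <;> simp [x₁, a, b, c, d]
          have hdd := d₀.mul_inv
          linear_combination -((u.1 : ZMod M) * b + (u.2 : ZMod M) * d) * hdd
        obtain ⟨y, hy, e⟩ := autPoint_P Br (g := g) hu
        obtain ⟨y', hy', e'⟩ := Br.P_abs v hv
        change φg (Br.P u) = _ at e
        rw [ev, e', Affine.Point.some.injEq] at e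
        exact Subtype.ext e.1
    exact hle ((closure_absF_base_eq_top E hLm hgen hζ hMq).ge (Subfield.mem_top x))
  intro x hx
  have := htop x
  change bridgeMap Br (fConj E σ (fShift E g₁ x)) = g (bridgeMap Br x) at this
  rw [hx.1 g₁ hlevel, fConj_eq_self σ hσ hx] at this
  exact this.symm

end Fermat.Agent.ModField
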