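/-
The finite chart of the field of level `Γ₀(q) ∩ Γ(m)` over an unramified base has only smooth points
and nodes in characteristic `q`, for odd `q` and `m = 2^a (2j+1)`.
-/
import Fermat.Agent.Models.Gamma0.InteriorCoord
import Fermat.Agent.Models.Gamma0.LevelGroup
import Fermat.Agent.Moduli.Interior

set_option autoImplicit false
set_option linter.style.haveILetI false
set_option linter.unusedSectionVars false

noncomputable section

namespace Fermat.Agent.ModField

open Polynomial CongruenceSubgroup IsLocalRing WeierstrassCurve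
open Fermat.Agent.EC Fermat.Agent.Moduli Fermat.Agent.GalRep Fermat.Agent.GalRep.Level
open Fermat.Agent.GalRep.Model (Lev NZ PM rowMul chartRing)
open Fermat.Agent.Models (IsSmoothPoint IsNodePoint SemiPoints semiPoint_coordField)
open scoped MatrixGroups

variable {W : Type} [CommRing W] [IsDomain W] [IsDiscreteValuationRing W]
  [IsAlgClosed (ResidueField W)] {O : Type} [CommRing O] [IsDomain O] [Algebra W O]
  {M : ℕ} [NeZero M] {E : Emb O M} [Algebra W (Fld E)] [IsScalarTower W O (Fld E)]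
  {q m : ℕ} [hq : Fact q.Prime]

theorem isIntegral_of_gen (hgen : Algebra.adjoin W {E.ζ} = ⊤) : Algebra.IsIntegral W O := by
  refine ⟨fun o => ?_⟩
  have ho : o ∈ Algebra.adjoin W ({E.ζ} : Set O) := hgen ▸ Algebra.mem_top
  refine adjoin_le_integralClosure ?_ ho
  refine IsIntegral.of_pow (NeZero.pos M) ?_
  have hzM : E.ζ ^ M = 1 := E.inj (by rw [map_pow, E.map_ζ, map_one]; exact zetaC_pow M)
  rw [hzM]
  exact isIntegral_one

theorem injective_algebraMap_base (E : Emb O M) (hmax : maximalIdeal W = Ideal.span {(q : W)}) :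
    Function.Injective (algebraMap W O) := by
  rw [injective_iff_map_eq_zero]
  intro w hw
  by_contra h0
  obtain ⟨ϖ, hϖ⟩ := IsDiscreteValuationRing.exists_irreducible W
  obtain ⟨n, u, rfl⟩ := IsDiscreteValuationRing.eq_unit_mul_pow_irreducible h0 hϖ
  rw [map_mul, mul_eq_zero, map_pow] at hw
  have hπ : algebraMap W O ϖ = 0 := hw.elim (fun h => absurd h (u.isUnit.map _).ne_zero)
    eq_zero_of_pow_eq_zero
  obtain ⟨b, hb⟩ : ϖ ∣ (q : W) := by
    rw [← Ideal.mem_span_singleton, ← hϖ.maximalIdeal_eq, hmax]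
    exact Ideal.subset_span rfl
  have := congrArg (E.φ.comp (algebraMap W O)) hb
  rw [map_natCast, map_mul, RingHom.comp_apply, hπ, map_zero, zero_mul] at this
  exact hq.out.ne_zero (Nat.cast_eq_zero.1 this)

variable (hmax : maximalIdeal W = Ideal.span {(q : W)}) (hgen : Algebra.adjoin W {E.ζ} = ⊤)
  (hζ : ∃ c : W, algebraMap W O c = E.ζ ^ q) (hM : M = q * m) (hqm : ¬ q ∣ m) (h2 : 2 ∣ m)

include hmax hgen hζ hM hqm h2 in
/-- The parameter is in the descended field. -/
theorem lamF_mem_fld₀ {L : Lev M} (hLm : L.m = 2) : lamF E L ∈ Fld₀ W E q m := by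
  refine mem_fld₀_of_fixed hmax (injective_algebraMap_base E hmax) hgen hζ hM hqm
    (fun g hg => ?_) fun σ _ => ?_
  · exact (fShift_absF E hLm (gamma_two_of_levelG hM h2 hg) (L.nz_V 1)).trans
      (absF_congr E _ _ (pm_rowMul_V hLm (gamma_two_of_levelG hM h2 hg) 1))
  · exact (fConj_absF E hLm σ (L.nz_V 1)).trans (absF_congr E _ _ (pm_scaleV_V hLm _ 1))

set_option maxHeartbeats 1600000 in
set_option synthInstance.maxHeartbeats 400000 in
include hmax hgen hζ hM hqm h2 in
/-- The transport from the field of coordinates. -/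
theorem semiPoints_of_base {L : Lev M} (hLm : L.m = 2) {R : Type} [CommRing R] [IsDomain R]
    [IsIntegrallyClosed R] [IsNoetherianRing R] {K₀ : Type} [Field K₀] [Algebra R K₀]
    [IsFractionRing R K₀] [Algebra R (Fld E)] [Algebra K₀ (Fld E)] [IsScalarTower R K₀ (Fld E)]
    {l : R} {k j a : ℕ} (hm : m = 2 ^ a * (2 * j + 1)) (hqj : ¬ q ∣ 2 * j + 1) (hMq : ¬ M ∣ 2 * q)
    (h2R : IsUnit (2 : R)) (hlu : IsUnit l) (hl1u : IsUnit (1 - l))
    (hfl : algebraMap R (Fld E) l = lamF E L)
    (hR₀ : ∀ r : R, algebraMap R (Fld E) r ∈ Fld₀ W E q m)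
    (hconst : ∀ y ∈ Set.range ((algebraMap O (Fld E)).comp (algebraMap W O)),
      ∃ c : K₀, algebraMap K₀ (Fld E) c = y)
    (hiff : ∀ x : Fld E, x ∈ chartRing O (jF E) ↔ _root_.IsIntegral R x)
    (hbase : ∀ I : Ideal R, I.IsMaximal → (q : R) ∈ I → ∃ t ∈ I, BasePoint R l k q t) :
    SemiPoints (chartRing W (jF₀ W E q m)) (q : W) := by
  classical
  have hWO : Function.Injective (algebraMap W O) := injective_algebraMap_base E hmax
  haveI : Algebra.IsIntegral W O := isIntegral_of_gen hgen
  have hMa : M = 2 ^ a * (q * (2 * j + 1)) := by rw [hM, hm]; ring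
  have hK : ∀ c, algebraMap K₀ (Fld E) c ∈ Fld₀ W E q m := fun c => by
    obtain ⟨r, s, -, rfl⟩ := IsFractionRing.div_surjective (A := R) c
    rw [map_div₀, ← IsScalarTower.algebraMap_apply, ← IsScalarTower.algebraMap_apply]
    exact div_mem (hR₀ r) (hR₀ s)
  obtain ⟨Br⟩ := nonempty_absBridge E L hLm hgen hζ hMq hlu hl1u hfl hconst
  haveI : FiniteDimensional K₀ (coordField K₀ Br.Ω l M) :=
    finiteDimensional_coordField hlu hl1u (NeZero.pos M)
  haveI : IsGalois K₀ (coordField K₀ Br.Ω l M) := isGalois_coordField M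
  let B := IntCl R (coordField K₀ Br.Ω l M)
  let ιR : Fld E →ₐ[R] coordField K₀ Br.Ω l M := (bridgeMap Br).restrictScalars R
  have hιR : Function.Injective ιR := (bridgeMap Br).injective
  have hmem : ∀ x : Fld₀ W E q m,
      x ∈ chartRing W (jF₀ W E q m) ↔ _root_.IsIntegral R (ιR (x : Fld E)) := fun x => by
    have e1 : x ∈ chartRing W (jF₀ W E q m) ↔ (x : Fld E) ∈ chartRing O (jF E) :=
      mem_chart₀_iff' (W := W) (E := E) (q := q) (m := m) (w := jF₀ W E q m) (x := x)
    rw [e1, hiff]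
    exact (isIntegral_algHom_iff (A := Fld E) (B := coordField K₀ Br.Ω l M) ιR hιR
      (x := (x : Fld E))).symm
  let i : chartRing W (jF₀ W E q m) →+* B :=
    (ιR.toRingHom.comp ((Fld₀ W E q m).subtype.comp
      (chartRing W (jF₀ W E q m)).val.toRingHom)).codRestrict B fun x => (hmem _).1 x.2
  letI : Algebra (chartRing W (jF₀ W E q m)) B := i.toAlgebra
  have hi : Function.Injective i := fun x y e =>
    Subtype.ext (Subtype.ext (hιR (congrArg Subtype.val e)))
  haveI : FaithfulSMul (chartRing W (jF₀ W E q m)) B :=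
    (faithfulSMul_iff_algebraMap_injective _ _).2 hi
  let rA : R →+* chartRing W (jF₀ W E q m) :=
    ((algebraMap R (Fld E)).codRestrict (Fld₀ W E q m) hR₀).codRestrict _ fun r => by
      refine (hmem _).2 ?_
      show _root_.IsIntegral R (ιR (algebraMap R (Fld E) r))
      rw [AlgHom.commutes]
      exact isIntegral_algebraMap
  letI : Algebra R (chartRing W (jF₀ W E q m)) := rA.toAlgebra
  have hiA : ∀ r, i (rA r) = algebraMap R B r := fun r => Subtype.ext (ιR.commutes r)
  haveI : IsScalarTower R (chartRing W (jF₀ W E q m)) B :=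
    IsScalarTower.of_algebraMap_eq fun r => (hiA r).symm
  haveI : Module.Finite R B := by
    haveI : CharZero K₀ :=
      ((algebraMap K₀ Br.Ω).charZero_iff (algebraMap K₀ Br.Ω).injective).2 inferInstance
    exact IsIntegralClosure.finite R K₀ (coordField K₀ Br.Ω l M) _
  haveI : Module.Finite (chartRing W (jF₀ W E q m)) B := Module.Finite.of_restrictScalars_finite R _ _
  haveI : SMulCommClass (lineGroup W q m Br) (chartRing W (jF₀ W E q m)) B := ⟨fun s x b => by
    rw [Algebra.smul_def, Algebra.smul_def, smul_mul']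
    congr 1
    exact Subtype.ext (s.2 _ x.1.2)⟩
  haveI : Algebra.IsInvariant (chartRing W (jF₀ W E q m)) B (lineGroup W q m Br) := ⟨fun b hb => by
    obtain ⟨x, hx, hxb⟩ := exists_of_fixed Br hK
      (fun s hs => congrArg Subtype.val (hb ⟨s, hs⟩))
    refine ⟨⟨⟨x, hx⟩, (hmem ⟨x, hx⟩).2 ?_⟩, Subtype.ext hxb⟩
    show _root_.IsIntegral R (bridgeMap Br x)
    rw [hxb]
    exact b.2⟩
  intro 𝔪 h𝔪 hqA
  obtain ⟨mB, hmB, hmBA⟩ := Ideal.exists_ideal_over_maximal_of_isIntegral (S := B) 𝔪
    (le_of_eq_of_le ((RingHom.injective_iff_ker_eq_bot _).1 hi) bot_le)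
  have hqB : (q : B) ∈ mB := by
    rw [← hmBA, Ideal.mem_comap, map_natCast, map_natCast] at hqA
    exact hqA
  haveI : Algebra.IsIntegral R B := ⟨fun x => integralClosure.isIntegral x⟩
  haveI : (mB.comap (algebraMap R B)).IsMaximal := Ideal.isMaximal_comap_of_isIntegral_of_isMaximal mB
  obtain ⟨t, ht, hB⟩ := hbase (mB.comap (algebraMap R B)) inferInstance
    (by rw [Ideal.mem_comap, map_natCast]; exact hqB)
  obtain ⟨hP0, hPq⟩ := linePoint_props (q := q) Br hM hLm
  have hfin := semiPoint_coordField hB h2R hqj hMa (chartRing W (jF₀ W E q m)) (lineGroup W q m Br)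
    hP0 hPq
    (fun s hs => autPoint_linePoint_mem Br hmax hWO hgen hζ hM hqm h2 hLm hs)
    (fun s hfix hline => mem_lineGroup_of_fixed Br hmax hWO hgen hζ hM hqm h2 hLm hMq hconst
      (fun T hT => hfix T (hm ▸ hT)) hline)
    mB hqB ht (fun r => ⟨rA r, by
      rw [show algebraMap (chartRing W (jF₀ W E q m)) B (rA r) = algebraMap R B r from hiA r,
        sub_self]
      exact zero_mem _⟩)
  rwa [hmBA] at hfin


include hmax hgen hζ hM hqm h2 in
/-- The finite chart has smooth points and nodes over `q`. -/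
theorem semiPoints_finite {k j a : ℕ} (hk : q = 2 * k + 1) (ha : 0 < a) (hj : 0 < j)
    (hm : m = 2 ^ a * (2 * j + 1)) :
    SemiPoints (chartRing W (jF₀ W E q m)) (q : W) := by
  classical
  have hk0 : 0 < k := by have := hq.out.two_le; omega
  have hqj : ¬ q ∣ 2 * j + 1 := fun h => hqm (hm ▸ h.mul_left _)
  have hMa : M = 2 ^ a * (q * (2 * j + 1)) := by rw [hM, hm]; ring
  have hWO : Function.Injective (algebraMap W O) := injective_algebraMap_base E hmax
  haveI : Algebra.IsIntegral W O := isIntegral_of_gen hgen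
  have hq0 : (q : W) ≠ 0 := fun h => by
    have := congrArg (E.φ.comp (algebraMap W O)) h
    rw [map_natCast, map_zero] at this
    exact hq.out.ne_zero (Nat.cast_eq_zero.1 this)
  let L : Lev M :=
    { m := 2, e := 2 ^ (a - 1) * (q * (2 * j + 1)), hm := Or.inl rfl
      eq := by rw [hMa]; conv_lhs => rw [show a = a - 1 + 1 by omega, pow_succ]
               ring
      five := by
        rw [hMa]
        have h1 : 2 ≤ 2 ^ a := by
          calc 2 = 2 ^ 1 := rfl
            _ ≤ 2 ^ a := Nat.pow_le_pow_right (by norm_num) ha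
        have h2 : 3 * 3 ≤ q * (2 * j + 1) := Nat.mul_le_mul (by omega) (by omega)
        nlinarith }
  have hLm : L.m = 2 := rfl
  have hMq : ¬ M ∣ 2 * q := by
    intro hd
    rw [hM, mul_comm 2] at hd
    have := Nat.le_of_dvd two_pos ((mul_dvd_mul_iff_left hq.out.ne_zero).1 hd)
    have h1 : 2 * 3 ≤ m := hm ▸ Nat.mul_le_mul (Nat.le_self_pow (by omega) 2) (by omega)
    omega
  have h2W : IsUnit (2 : W) := by
    refine notMem_maximalIdeal.1 fun h => ?_
    refine (maximalIdeal.isMaximal W).ne_top ((Ideal.eq_top_iff_one _).2 ?_)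
    rw [show (1 : W) = (q : W) - 2 * (k : W) by rw [hk]; push_cast; ring]
    exact sub_mem (hmax ▸ Ideal.mem_span_singleton_self _) (Ideal.mul_mem_right _ _ h)
  -- the base
  set f := baseHom E L hLm hWO
  have hfal := baseHom_algebraMap E L hLm hWO
  have hfl : f (legVar W) = lamF E L := baseHom_legVar E L hLm hWO
  have hfinj : Function.Injective f := baseHom_injective E L hLm hWO
  set R := LegBase W
  set K₀ := FractionRing R
  letI : Algebra R (Fld E) := f.toAlgebra
  let g : K₀ →+* Fld E := IsFractionRing.lift (A := R) (K := K₀) hfinj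
  letI : Algebra K₀ (Fld E) := g.toAlgebra
  haveI : IsScalarTower R K₀ (Fld E) :=
    IsScalarTower.of_algebraMap_eq fun r => (IsFractionRing.lift_algebraMap hfinj r).symm
  have h2R : IsUnit (2 : R) := by
    have := h2W.map ((algebraMap W[X] R).comp C)
    rwa [map_ofNat] at this
  obtain ⟨hlu, hl1u⟩ := isUnit_legVar (W := W)
  have hconst : ∀ y ∈ Set.range ((algebraMap O (Fld E)).comp (algebraMap W O)),
      ∃ c : K₀, algebraMap K₀ (Fld E) c = y := by
    rintro _ ⟨w, rfl⟩
    refine ⟨algebraMap R K₀ (algebraMap W[X] R (C w)), ?_⟩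
    rw [← IsScalarTower.algebraMap_apply R K₀ (Fld E)]
    exact baseHom_C E L hLm hWO w
  have hlam := lamF_mem_fld₀ hmax hgen hζ hM hqm h2 hLm
  have hP : ∀ P : W[X], aeval (lamF E L) P ∈ Fld₀ W E q m := fun P => by
    rw [aeval_eq_sum_range]
    refine sum_mem fun i _ => ?_
    rw [Algebra.smul_def]
    exact mul_mem (algebraMap_mem_fld₀ W E q m _) (pow_mem hlam i)
  have hR₀ : ∀ r : R, algebraMap R (Fld E) r ∈ Fld₀ W E q m := fun r => by
    obtain ⟨P, n, hr⟩ := exists_legBase_mul r
    have e := congrArg f hr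
    rw [map_mul, hfal, hfal, map_pow] at e
    have hD : aeval (lamF E L) (legDisc W) ^ n ≠ 0 :=
      pow_ne_zero _ (isUnit_aeval_legDisc E L hLm hWO).ne_zero
    show f r ∈ _
    rw [(eq_div_iff hD).2 e]
    exact div_mem (hP P) (pow_mem (hP _) n)
  have hiff := mem_chartRing_iff_isIntegral E L hLm hgen h2W f hfal
  exact semiPoints_of_base hmax hgen hζ hM hqm h2 hLm (R := R) (K₀ := K₀) (l := legVar W) (k := k)
    hm hqj hMq h2R hlu hl1u hfl hR₀ hconst hiff fun I hI hqI => exists_basePoint hq.out hk hmax hq0 I hqI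

end Fermat.Agent.ModField
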