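/-
The chart of `1/j` of the field of level `Γ₀(q) ∩ Γ(m)` over an unramified base has smooth special
fibre at the cusps; with the finite chart, all its points are smooth points or nodes.
-/
import Fermat.Agent.Models.Gamma0.CuspLocal
import Fermat.Agent.Models.Gamma0.Interior

set_option autoImplicit false
set_option linter.style.haveILetI false
set_option linter.unusedSectionVars false

noncomputable section

namespace Fermat.Agent.ModField

open Polynomial CongruenceSubgroup IsLocalRing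
open Fermat.Agent.GalRep Fermat.Agent.GalRep.Level
open Fermat.Agent.GalRep.Model (chartRing zetaC)
open Fermat.Agent.Models (IsSmoothPoint IsNodePoint SemiPoints isSmoothPoint_of_upstairs)
open Fermat.Agent.CuspPt (zO cB evc wB wF)
open scoped MatrixGroups Pointwise

variable {W : Type} [CommRing W] {O : Type} [CommRing O] [IsDomain O]
  [Algebra W O] {M : ℕ} [NeZero M] {E : Emb O M} [Algebra W (Fld E)] [IsScalarTower W O (Fld E)]
  {q m : ℕ}

/-- A translation and a conjugation give an automorphism over the descended field. -/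
theorem exists_cuspH {g : SL(2, ℤ)} (hg : g ∈ levelG q m) {σ : stabK E}
    (hσ : ∀ c ∈ baseK W E, σ.1 c = c) :
    ∃ h : cuspH W E q m, ∀ x, h • x = fShift E g (fConj E σ x) :=
  ⟨⟨shiftHom E g⁻¹ * conjHom E σ, Subgroup.subset_closure ⟨g, hg, σ, hσ, fun x => by
      show shiftHom E g⁻¹ (fConj E σ x) = _
      rw [shiftHom_apply, inv_inv]⟩⟩, fun x => by
    show shiftHom E g⁻¹ (fConj E σ x) = _
    rw [shiftHom_apply, inv_inv]⟩

variable [IsDomain W] [IsDiscreteValuationRing W] [IsDiscreteValuationRing O] [Module.Finite W O]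
  [hq : Fact q.Prime] (hmax : maximalIdeal W = Ideal.span {(q : W)})
  (hgen : Algebra.adjoin W {E.ζ} = ⊤) (hζ : ∃ c : W, algebraMap W O c = E.ζ ^ q)
  (hM : M = q * m) (hqm : ¬ q ∣ m) (hm3 : 3 ≤ m)

include hmax hM hqm hm3 in
theorem setup_of_base : CuspPt.Setup O M q m where
  prime := hq.out
  level := hM
  notDvd := hqm
  three_le := hm3
  mem := by
    haveI : ((maximalIdeal O).comap (algebraMap W O)).IsMaximal :=
      Ideal.isMaximal_comap_of_isIntegral_of_isMaximal (maximalIdeal O)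
    have h : (q : W) ∈ (maximalIdeal O).comap (algebraMap W O) := by
      rw [eq_maximalIdeal ‹((maximalIdeal O).comap (algebraMap W O)).IsMaximal›, hmax]
      exact Ideal.mem_span_singleton_self _
    rwa [Ideal.mem_comap, map_natCast] at h

/-- The root of unity in the chart. -/
def zetaB (E : Emb O M) : cB E := algebraMap O (cB E) E.ζ

theorem smul_zetaB (hM : M = q * m) (h : cuspH W E q m) {g : SL(2, ℤ)} {σ : stabK E}
    (e : ∀ x, h • x = fShift E g (fConj E σ x)) :
    h • zetaB E = zetaB E ^ (cycC M σ.1 : ZMod M).val := by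
  refine Subtype.ext ?_
  rw [coe_smul_cuspH, SubmonoidClass.coe_pow, zetaB, Subalgebra.coe_algebraMap, e, ← cstK_φ,
    fConj_cstK, fShift_cstK, ← map_pow]
  congr 1
  refine Subtype.ext ?_
  rw [SubmonoidClass.coe_pow]
  show σ.1 (E.φ E.ζ) = E.φ E.ζ ^ (cycC M σ.1 : ZMod M).val
  rw [E.map_ζ]
  exact cycC_spec σ.1 (zetaC_pow M)

theorem zetaB_pow_inj {i j : ℕ} (hi : i < M) (hj : j < M) (h : zetaB E ^ i = zetaB E ^ j) :
    i = j := by
  refine (Complex.isPrimitiveRoot_exp M (NeZero.ne M)).pow_inj hi hj ?_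
  show zetaC M ^ i = zetaC M ^ j
  rw [← E.map_ζ, ← map_pow, ← map_pow]
  congr 1
  refine ModField.algebraMap_injective E ?_
  have h' := congrArg (fun b : cB E => (b : Fld E)) h
  simpa [zetaB, map_pow] using h'

include hgen in
/-- An automorphism fixing the root of unity fixes the constants. -/
theorem smul_algebraMap_of_fix (h : cuspH W E q m) (hh : h • zetaB E = zetaB E) (o : O) :
    h • algebraMap O (cB E) o = algebraMap O (cB E) o := by
  have ho : o ∈ Algebra.adjoin W ({E.ζ} : Set O) := hgen ▸ Algebra.mem_top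
  induction ho using Algebra.adjoin_induction with
  | mem y hy => rw [Set.mem_singleton_iff.1 hy]; exact hh
  | algebraMap a => rw [← toB_algebraMap W E q m, smul_toB]
  | add _ _ _ _ ha hb => rw [map_add, smul_add, ha, hb]
  | mul _ _ _ _ ha hb => rw [map_mul, smul_mul', ha, hb]

theorem mem_stabilizer_of_iff {G B : Type} [Group G] [CommRing B] [MulSemiringAction G B]
    {n : Ideal B} {h : G} (hh : ∀ z, h • z ∈ n ↔ z ∈ n) : h ∈ MulAction.stabilizer G n := by
  rw [MulAction.mem_stabilizer_iff]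
  ext z
  rw [Ideal.mem_pointwise_smul_iff_inv_smul_mem, ← hh, smul_inv_smul]

theorem smul_mem_iff_of_stabilizer {G B : Type} [Group G] [CommRing B] [MulSemiringAction G B]
    {n : Ideal B} (h : MulAction.stabilizer G n) (z : B) : (h : G) • z ∈ n ↔ z ∈ n := by
  have e := Ideal.smul_mem_pointwise_smul_iff (a := (h : G)) (S := n) (x := z)
  rwa [MulAction.mem_stabilizer_iff.1 h.2] at e

set_option synthInstance.maxHeartbeats 400000 in
set_option maxHeartbeats 800000 in
include hmax hgen hζ hM hqm hm3 in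
/-- Residues occur in the stabiliser of a cusp, acting trivially on the expansion there. -/
theorem exists_stab_resB [IsAlgClosed (ResidueField W)] {g₀ : SL(2, ℤ)} (hg₀ : (q : ℤ) ∣ g₀ 1 0 * g₀ 1 1) {n : Ideal (cB E)}
    (hn : ∀ z, z ∈ n ↔ evc E g₀ z = 0) (a : (ZMod M)ˣ)
    (ha : ZMod.unitsMap (Dvd.intro_left q hM.symm) a = 1) :
    ∃ h : MulAction.stabilizer (cuspH W E q m) n,
      (∀ b : cB E, resB E g₀ (h • b) = resB E g₀ b) ∧
        h • zetaB E = zetaB E ^ (a : ZMod M).val := by
  have hs := setup_of_base (O := O) hmax hM hqm hm3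
  have ha' : ZMod.castHom (Dvd.intro_left q hM.symm) (ZMod m) (a : ZMod M) = 1 :=
    congrArg Units.val ha
  obtain ⟨σ, hσ, rfl⟩ :=
    exists_stab_of_unit hmax (injective_algebraMap_base E hmax) hgen hζ hM hqm a ha'
  obtain ⟨g'', hg''⟩ := exists_conjEq (cycC M σ.1) g₀
  have hmM : m ∣ M := Dvd.intro_left q hM.symm
  have hqM : q ∣ M := ⟨m, hM⟩
  have hlev : g'' * g₀⁻¹ ∈ levelG q m := by
    refine ⟨Gamma0_mem.2 ?_, mul_inv_mem_gamma ?_⟩
    · obtain ⟨-, -, h10, h11⟩ := conjEq_iff.1 (conjEq_of_dvd hqM hg'')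
      have e : ((g'' * g₀⁻¹ : SL(2, ℤ)) 1 0 : ℤ) = g'' 1 0 * g₀ 1 1 - g'' 1 1 * g₀ 1 0 := by
        simp [Matrix.SpecialLinearGroup.coe_mul, Matrix.SpecialLinearGroup.coe_inv,
          Matrix.adjugate_fin_two, Matrix.mul_apply, Fin.sum_univ_two]
        ring
      have h0 := (ZMod.intCast_zmod_eq_zero_iff_dvd _ q).2 hg₀
      push_cast at h0
      rw [e]
      push_cast
      rw [h10, h11, mul_assoc, h0, mul_zero, zero_sub, neg_eq_zero, mul_comm]
      exact h0
    · obtain ⟨h00, h01, h10, h11⟩ := conjEq_iff.1 (conjEq_of_dvd hmM hg'')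
      have e1 : (Units.map (ZMod.castHom hmM (ZMod m)).toMonoidHom (cycC M σ.1) : (ZMod m)ˣ) = 1 :=
        ha
      rw [e1] at h01 h10
      ext i j
      show ((g'' i j : ℤ) : ZMod m) = ((g₀ i j : ℤ) : ZMod m)
      fin_cases i <;> fin_cases j
      · simpa using h00
      · simpa using h01
      · simpa using h10
      · simpa using h11
  obtain ⟨h, hh⟩ := exists_cuspH hlev hσ
  have hres : ∀ b : cB E, resB E g₀ (h • b) = resB E g₀ b := fun b =>
    resB_smul hM hgen hζ hs h hσ hh (g₁ := g₀) (by rw [inv_mul_cancel_right]; exact hg'') b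
  refine ⟨⟨h, mem_stabilizer_of_iff fun z => ?_⟩, hres, smul_zetaB hM h hh⟩
  rw [hn, hn, ← constantCoeff_resB, ← constantCoeff_resB, hres]

set_option maxHeartbeats 1600000 in
set_option synthInstance.maxHeartbeats 400000 in
include hmax hgen hζ hM hqm hm3 in
/-- The special fibre is smooth at the cusps. -/
theorem isSmoothPoint_cusp [IsAlgClosed (ResidueField W)]
    (p : Ideal (chartRing W (jF₀ W E q m)⁻¹)) [p.IsMaximal]
    (hqp : algebraMap W (chartRing W (jF₀ W E q m)⁻¹) (q : W) ∈ p)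
    (hwp : (⟨_, self_mem_chart _⟩ : chartRing W (jF₀ W E q m)⁻¹) ∈ p) :
    IsSmoothPoint (chartRing W (jF₀ W E q m)⁻¹) (q : W) p := by
  classical
  have hs := setup_of_base (O := O) hmax hM hqm hm3
  let A := chartRing W (jF₀ W E q m)⁻¹
  letI : Algebra A (cB E) := (toB W E q m).toAlgebra
  haveI : FaithfulSMul A (cB E) :=
    (faithfulSMul_iff_algebraMap_injective _ _).2 (toB_injective W E q m)
  haveI : Module.Finite A (cB E) := finite_toB
  haveI : Algebra.IsIntegral A (cB E) := Algebra.IsIntegral.of_finite A (cB E)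
  haveI : Finite (cuspH W E q m) := finite_cuspH hM hgen
  haveI : SMulCommClass (cuspH W E q m) A (cB E) := ⟨fun h a b => by
    show h • (toB W E q m a * b) = toB W E q m a * (h • b)
    rw [smul_mul', smul_toB]⟩
  haveI : Algebra.IsInvariant A (cB E) (cuspH W E q m) := ⟨fun b hb => by
    have hmem : (b : Fld E) ∈ Fld₀ W E q m := by
      refine mem_fld₀_of_fixed hmax (injective_algebraMap_base E hmax) hgen hζ hM hqm
        (fun g hg => ?_) fun σ hσ => ?_
      · obtain ⟨h, hh⟩ := exists_cuspH (W := W) hg (σ := (1 : stabK E)) fun c _ => rfl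
        have e := (hh (b : Fld E)).symm.trans (congrArg Subtype.val (hb h))
        rwa [fConj_one] at e
      · obtain ⟨h, hh⟩ := exists_cuspH (W := W) (one_mem (levelG q m)) hσ
        have e := (hh (b : Fld E)).symm.trans (congrArg Subtype.val (hb h))
        rwa [fShift_one] at e
    exact ⟨⟨⟨_, hmem⟩, mem_chart₀_iff'.2 b.2⟩, rfl⟩⟩
  haveI : FaithfulSMul (cuspH W E q m) (cB E) := ⟨fun {h h'} hb => by
    refine Subtype.ext (RingEquiv.ext fun x => ?_)
    obtain ⟨P, hP0, hP⟩ := exists_mul_mem_chart (W := W) (G := transG E)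
      (aeval_inv_jF_injective E) (fixedRational_inv_jF E) x
    have e := congrArg (fun z : cB E => (z : Fld E)) (hb ⟨_, mem_chartRing_restrict.1 hP⟩)
    simp only [coe_smul_cuspH, smul_mul'] at e
    have hfix : ∀ (k : cuspH W E q m) (Q : W[X]),
        k • aeval (R := W) (jF E)⁻¹ Q = aeval (jF E)⁻¹ Q := fun k Q => by
      induction Q using Polynomial.induction_on' with
      | add a c ha hc => rw [map_add, smul_add, ha, hc]
      | monomial i c => rw [aeval_monomial, smul_mul', smul_pow', smul_algebraMap_base, smul_wF']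
    rw [hfix, hfix] at e
    exact mul_left_cancel₀ hP0 e⟩
  -- a point above
  obtain ⟨n, hn, hnp⟩ := Ideal.exists_ideal_over_maximal_of_isIntegral (S := cB E) p (by
    rw [(RingHom.injective_iff_ker_eq_bot (algebraMap A (cB E))).1 (toB_injective W E q m)]
    exact bot_le)
  subst hnp
  haveI := hn.isPrime
  set lam := zO E (m : ℤ) - 1
  have hirr : Irreducible lam := irreducible_lam hM hgen hmax hζ hs
  have hassoc : Associated (q : O) (lam ^ (q - 1)) := associated_natCast hM
  have hqn : algebraMap O (cB E) (q : O) ∈ n := by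
    have h : toB W E q m (algebraMap W A (q : W)) ∈ n := hqp
    rwa [toB_algebraMap, map_natCast] at h
  have hlamn : algebraMap O (cB E) lam ∈ n := by
    refine Ideal.IsPrime.mem_of_pow_mem ‹_› (q - 1) ?_
    obtain ⟨u, hu⟩ := hassoc
    rw [← map_pow, ← hu, map_mul]
    exact Ideal.mul_mem_right _ _ hqn
  have hwn : wB E ∈ n := toB_self W E q m ▸ hwp
  -- the cusp, normalised
  obtain ⟨g, hg, x, hx, hgenx⟩ := exists_cusp_of_point E hs hirr n hlamn hwn
  obtain ⟨g₀, hg₀, hn₀⟩ : ∃ g₀ : SL(2, ℤ), (q : ℤ) ∣ g₀ 1 0 * g₀ 1 1 ∧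
      ∀ z, z ∈ n ↔ evc E g₀ z = 0 := by
    by_cases hz : (q : ℤ) ∣ g 1 0
    · exact ⟨g, hz.mul_right _, hg⟩
    obtain ⟨u, v, huv⟩ : IsCoprime (g 1 0) (q : ℤ) :=
      ((Nat.prime_iff_prime_int.1 hq.out).coprime_iff_not_dvd.2 hz).symm
    refine ⟨g * ModularGroup.T ^ (-(u * g 1 1)), Dvd.dvd.mul_left ?_ _, fun z => by
      rw [evc_mul_T, hg]⟩
    refine ⟨v * g 1 1, ?_⟩
    simp [Matrix.SpecialLinearGroup.coe_mul, ModularGroup.coe_T_zpow, Matrix.mul_apply,
      Fin.sum_univ_two]
    linear_combination -(g 1 1) * huv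
  -- the local ring
  haveI : IsNoetherianRing (cB E) := isNoetherianRing_B₁ E
  set C := Localization.AtPrime n
  let al : cB E →+* C := algebraMap (cB E) C
  have hunit : ∀ s : n.primeCompl, IsUnit (resB E g₀ s) := fun s => by
    rw [PowerSeries.isUnit_iff_constantCoeff, constantCoeff_resB, isUnit_iff_ne_zero]
    exact fun h0 => s.2 ((hn₀ _).2 h0)
  let ρ : C →+* PowerSeries (ResidueField O) := IsLocalization.lift (M := n.primeCompl) hunit
  have hρ : ∀ b, ρ (al b) = resB E g₀ b := fun b => IsLocalization.lift_eq hunit b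
  have hρn : ∀ b ∈ n, PowerSeries.X ∣ ρ (al b) := fun b hb => by
    rw [hρ, PowerSeries.X_dvd_iff, constantCoeff_resB]
    exact (hn₀ b).1 hb
  set πC := al (algebraMap O (cB E) lam)
  have hρπ : ρ πC = 0 := by
    rw [hρ, resB, RingHom.comp_apply, CuspPt.serB_algebraMap, PowerSeries.map_C,
      (residue_eq_zero_iff lam).2 (by rw [hirr.maximalIdeal_eq]; exact Ideal.mem_span_singleton_self _),
      map_zero]
  have hπC0 : πC ≠ 0 := by
    intro h
    rw [← map_zero al] at h
    have h1 := congrArg (fun z : cB E => (z : Fld E))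
      (IsLocalization.injective C n.primeCompl_le_nonZeroDivisors h)
    rw [Subalgebra.coe_algebraMap] at h1
    exact hirr.ne_zero (ModField.algebraMap_injective E (h1.trans (map_zero _).symm))
  -- the stabiliser
  let S := MulAction.stabilizer (cuspH W E q m) n
  let S₀ : Subgroup S := MulAction.stabilizer S (zetaB E)
  haveI : Fintype S := Fintype.ofFinite _
  haveI : Fintype S₀ := Fintype.ofFinite _
  haveI : Fintype (S ⧸ S₀) := Fintype.ofFinite _
  have hcoe : ∀ (t : S) (b : cB E), t • b = (t : cuspH W E q m) • b := fun t b => rfl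
  have hS₀π : ∀ t : S₀, ∀ o : O, (t : S) • algebraMap O (cB E) o = algebraMap O (cB E) o := fun t o =>
    smul_algebraMap_of_fix hgen (t : S).1 (MulAction.mem_stabilizer_iff.1 t.2) o
  have hStab : ∀ (t : S) (z : cB E), t • z ∈ n ↔ z ∈ n := fun t z => smul_mem_iff_of_stabilizer t z
  obtain ⟨e₁, Ve, he₁⟩ := exists_order_one_at E hs g₀
  have he₁n : al e₁ ∈ maximalIdeal C := (IsLocalization.AtPrime.to_map_mem_maximal_iff C n e₁).2
    ((hn₀ _).2 (by rw [← constantCoeff_resB, he₁, map_mul, PowerSeries.constantCoeff_X, zero_mul]))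
  have hord : ∀ t : S₀, maximalIdeal C = Ideal.span {πC, al ((t : S) • x)} ∧
      ∃ V : (PowerSeries (ResidueField O))ˣ,
        ρ (al ((t : S) • x)) = PowerSeries.X * (V : PowerSeries (ResidueField O)) := by
    intro t
    have hxn : (t : S) • x ∈ n := (hStab _ _).2 hx
    have hm : maximalIdeal C = Ideal.span {πC, al ((t : S) • x)} := by
      refine Models.maximalIdeal_eq_span_pair n hlamn hxn fun z hz => ?_
      obtain ⟨c, hc, hcz⟩ := hgenx ((t : S)⁻¹ • z) ((hStab _ _).2 hz)
      refine ⟨(t : S) • c, fun h => hc ((hStab _ _).1 h), ?_⟩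
      obtain ⟨a, b, hab⟩ := Ideal.mem_span_pair.1 hcz
      refine Ideal.mem_span_pair.2 ⟨(t : S) • a, (t : S) • b, ?_⟩
      have h1 := congrArg ((t : S) • ·) hab
      simp only [smul_add, smul_mul', smul_inv_smul, hS₀π t] at h1
      exact h1
    refine ⟨hm, exists_order_one ρ hm hρπ he₁n (U := Ve) (by rw [hρ, he₁]) ?_⟩
    exact PowerSeries.X_dvd_iff.1 (hρn _ hxn)
  choose hmC V hV using hord
  set s₀ := Nat.card S₀
  let y₀ : cB E := ∏ t : S₀, (t : S) • x
  have hy₀ : ∀ t ∈ S₀, t • y₀ = y₀ := fun t ht => by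
    rw [Finset.smul_prod']
    exact Fintype.prod_equiv (Equiv.mulLeft ⟨t, ht⟩) _ _ fun u => by
      rw [← mul_smul]; rfl
  have hρy₀ : ρ (al y₀) = PowerSeries.X ^ s₀ * ((∏ t : S₀, V t :
      (PowerSeries (ResidueField O))ˣ) : PowerSeries (ResidueField O)) := by
    rw [map_prod, map_prod, Finset.prod_congr rfl fun t _ => hV t, Finset.prod_mul_distrib,
      Finset.prod_const, Finset.card_univ, ← Nat.card_eq_fintype_card, Units.coe_prod]
  -- the residues
  have hmM : m ∣ M := Dvd.intro_left q hM.symm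
  choose k hkres hkζ using fun a : (ZMod.unitsMap hmM).ker =>
    exists_stab_resB hmax hgen hζ hM hqm hm3 hg₀ hn₀ (a : (ZMod M)ˣ) a.2
  have hbij : Function.Bijective fun a => (QuotientGroup.mk (k a) : S ⧸ S₀) := by
    refine ⟨fun a b h => ?_, fun c => ?_⟩
    · have h1 : (k a)⁻¹ * k b ∈ S₀ := QuotientGroup.eq.1 h
      rw [MulAction.mem_stabilizer_iff, mul_smul, inv_smul_eq_iff, hkζ, hkζ] at h1
      exact Subtype.ext (Units.ext (ZMod.val_injective _
        (zetaB_pow_inj (ZMod.val_lt _) (ZMod.val_lt _) h1).symm))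
    · induction c using QuotientGroup.induction_on with
      | H t =>
        obtain ⟨gt, -, σ, hσ, et⟩ := exists_of_mem_cuspH hM t.1
        have ha : cycC M σ.1 ∈ (ZMod.unitsMap hmM).ker := by
          refine Units.ext ?_
          show ZMod.castHom hmM (ZMod m) (cycC M σ.1 : ZMod M) = 1
          have h1 := cast_cycC hM hζ hσ
          rw [← ZMod.intCast_zmod_eq_zero_iff_dvd, Int.cast_sub, Int.cast_natCast, Int.cast_one,
            sub_eq_zero] at h1
          rw [← h1, ZMod.castHom_apply, ZMod.natCast_val]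
        refine ⟨⟨_, ha⟩, QuotientGroup.eq.2 ?_⟩
        rw [MulAction.mem_stabilizer_iff, mul_smul, inv_smul_eq_iff, hkζ]
        exact smul_zetaB hM t.1 et
  have hcardU : Nat.card (ZMod.unitsMap hmM).ker = q - 1 := by
    haveI : NeZero m := ⟨by omega⟩
    have hMt : Nat.totient M = (q - 1) * Nat.totient m := by
      rw [hM, Nat.totient_mul (hq.out.coprime_iff_not_dvd.2 hqm), Nat.totient_prime hq.out]
    have h1 := Subgroup.card_mul_index (ZMod.unitsMap hmM).ker
    rw [Subgroup.index_ker, MonoidHom.range_eq_top.2 (ZMod.unitsMap_surjective hmM),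
      Subgroup.card_top, Nat.card_eq_fintype_card (α := (ZMod m)ˣ),
      Nat.card_eq_fintype_card (α := (ZMod M)ˣ), ZMod.card_units_eq_totient,
      ZMod.card_units_eq_totient, hMt] at h1
    exact Nat.eq_of_mul_eq_mul_right (Nat.totient_pos.2 (by omega)) h1
  have hcardQ : Nat.card (S ⧸ S₀) = q - 1 := by
    rw [← Nat.card_eq_of_bijective _ hbij, hcardU]
  have hcardS : Nat.card S = (q - 1) * s₀ := by
    rw [← Subgroup.card_mul_index S₀, Subgroup.index, hcardQ, mul_comm]
  -- an invariant of order `s₀` at the cusp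
  let τ₀ : cB E := ∑ c : S ⧸ S₀, c.out • y₀
  have hρτ₀ : ρ (al τ₀) = ((q - 1 : ℕ) : PowerSeries (ResidueField O)) * ρ (al y₀) := by
    have hc : ∀ c : S ⧸ S₀, ρ (al (c.out • y₀)) = ρ (al y₀) := fun c => by
      obtain ⟨a, rfl⟩ := hbij.2 c
      rw [out_smul_eq S₀ hy₀, hρ, hρ, hkres]
    rw [map_sum, map_sum, Finset.sum_congr rfl fun c _ => hc c, Finset.sum_const, Finset.card_univ,
      ← Nat.card_eq_fintype_card, hcardQ, nsmul_eq_mul]
  haveI : Fintype (cuspH W E q m) := Fintype.ofFinite _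
  have ht : ∀ h : cuspH W E q m, h ∉ S → ∃ t ∈ h • n, t ∉ n := fun h hh => by
    by_contra hcon
    push Not at hcon
    haveI := Moduli.isMaximal_smul h n
    exact hh (MulAction.mem_stabilizer_iff.2
      ((Ideal.IsMaximal.eq_of_le inferInstance (Ideal.IsMaximal.ne_top hn) hcon)))
  choose t htm htn using ht
  let e₀ : cB E := ∏ h : {h : cuspH W E q m // h ∉ S}, t h.1 h.2
  have he₀ : e₀ ∉ n := fun h => by
    obtain ⟨i, -, hi⟩ := (Ideal.IsPrime.prod_mem_iff (p := n)).1 h
    exact htn _ _ hi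
  let P : cB E := ∏ u : S, u • e₀
  have hP : P ∉ n := fun h => by
    obtain ⟨i, -, hi⟩ := (Ideal.IsPrime.prod_mem_iff (p := n)).1 h
    exact he₀ ((hStab _ _).1 hi)
  let z : cB E := τ₀ * P ^ (s₀ + 1)
  have hzS : ∀ u ∈ S, u • z = z := fun u hu => by
    have h1 : (⟨u, hu⟩ : S) • τ₀ = τ₀ := smul_sum_out S₀ hy₀ ⟨u, hu⟩
    have h2 : (⟨u, hu⟩ : S) • P = P := by
      rw [Finset.smul_prod']
      exact Fintype.prod_equiv (Equiv.mulLeft ⟨u, hu⟩) _ _ fun v => by rw [← mul_smul]; rfl
    show (⟨u, hu⟩ : S) • z = z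
    rw [smul_mul', smul_pow', h1, h2]
  haveI : Fintype (cuspH W E q m ⧸ S) := Fintype.ofFinite _
  let T : cB E := ∑ c : cuspH W E q m ⧸ S, c.out • z
  obtain ⟨τ, hτ⟩ := Algebra.IsInvariant.isInvariant (A := A) (G := cuspH W E q m) T
    (smul_sum_out S hzS)
  have hdvd : ∀ h : cuspH W E q m, h ∉ S →
      (PowerSeries.X : PowerSeries (ResidueField O)) ^ (s₀ + 1) ∣ ρ (al (h • z)) := fun h hh => by
    have hh' : h⁻¹ ∉ S := fun h' => hh (inv_inv h ▸ inv_mem h')
    have h1 : h • e₀ ∈ n := by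
      refine Ideal.mem_inv_pointwise_smul_iff.1 ?_
      exact Ideal.mem_of_dvd _ (Finset.dvd_prod_of_mem _ (Finset.mem_univ ⟨h⁻¹, hh'⟩)) (htm _ hh')
    have h2 : h • P ∈ n := by
      rw [Finset.smul_prod']
      refine Ideal.mem_of_dvd _ (Finset.dvd_prod_of_mem _ (Finset.mem_univ (1 : S))) ?_
      rwa [one_smul]
    rw [smul_mul', smul_pow', map_mul, map_mul, map_pow, map_pow]
    exact dvd_mul_of_dvd_right (pow_dvd_pow_of_dvd (hρn _ h2) _) _
  set c₁ : cuspH W E q m ⧸ S := QuotientGroup.mk 1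
  obtain ⟨r, hr⟩ : (PowerSeries.X : PowerSeries (ResidueField O)) ^ (s₀ + 1) ∣
      ρ (al (∑ c ∈ Finset.univ.erase c₁, c.out • z)) := by
    rw [map_sum, map_sum]
    refine Finset.dvd_sum fun c hc => hdvd _ fun hS => (Finset.mem_erase.1 hc).1 ?_
    rw [← QuotientGroup.out_eq' c]
    exact QuotientGroup.eq.2 (by rw [mul_one]; exact inv_mem hS)
  set w := ((q - 1 : ℕ) : PowerSeries (ResidueField O)) *
    ((∏ t : S₀, V t : (PowerSeries (ResidueField O))ˣ) : PowerSeries (ResidueField O)) *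
      ρ (al P) ^ (s₀ + 1) + PowerSeries.X * r with hw
  have hρT : ρ (al T) = PowerSeries.X ^ s₀ * w := by
    have e : T = z + ∑ c ∈ Finset.univ.erase c₁, c.out • z := by
      show ∑ c : cuspH W E q m ⧸ S, c.out • z = _
      rw [← Finset.add_sum_erase _ _ (Finset.mem_univ c₁)]
      congr 1
      rw [out_smul_eq S hzS, one_smul]
    rw [e, map_add, map_add, hr, map_mul, map_mul, map_pow, map_pow, hρτ₀, hρy₀, hw]
    ring
  have hwu : IsUnit w := by
    rw [PowerSeries.isUnit_iff_constantCoeff, hw, map_add, map_mul PowerSeries.constantCoeff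
      PowerSeries.X, PowerSeries.constantCoeff_X, zero_mul, add_zero, map_mul, map_mul, map_pow,
      map_natCast]
    refine (IsUnit.mul ?_ (PowerSeries.isUnit_constantCoeff _ (Units.isUnit _))).mul ?_
    · haveI : CharP (ResidueField O) q :=
        (CharP.charP_iff_prime_eq_zero hq.out).mpr (CuspPt.natCast_residue hs)
      refine isUnit_iff_ne_zero.2 fun h => ?_
      have h2 := (CharP.cast_eq_zero_iff (ResidueField O) q _).1 h
      have hq2 := hq.out.two_le
      have h3 := Nat.le_of_dvd (by omega) h2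
      omega
    · refine IsUnit.pow _ (isUnit_iff_ne_zero.2 fun h => hP ((hn₀ _).2 ?_))
      rw [← constantCoeff_resB, ← hρ, h]
  -- conclusion
  let one₀ : S₀ := 1
  have hπT := fibre_of_order ρ (hmC one₀) hρπ (hV one₀) hπC0 (q - 1) s₀ hρT hwu
  have hqC : al (algebraMap A (cB E) (algebraMap W A (q : W))) = al (algebraMap O (cB E) (q : O)) := by
    show al (toB W E q m _) = _
    rw [toB_algebraMap, map_natCast]
  have hassocC : Associated (al (algebraMap O (cB E) (q : O))) (πC ^ (q - 1)) := by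
    rw [← map_pow, ← map_pow]
    exact (hassoc.map (algebraMap O (cB E))).map al
  refine isSmoothPoint_of_upstairs A (cuspH W E q m) n (C := C) (fun b => ?_) (τ := τ) hqp ?_ ?_
    (a := πC) ((IsLocalization.AtPrime.to_map_mem_maximal_iff C n _).2 hlamn) ?_ ?_
  · obtain ⟨o, ho⟩ := residue_surjective (R := O) (evc E g₀ b)
    obtain ⟨c, hc⟩ := exists_residue_eq hgen hmax hζ hs o
    refine ⟨algebraMap W A c, (hn₀ _).2 ?_⟩
    show evc E g₀ (b - toB W E q m (algebraMap W A c)) = 0
    rw [map_sub, toB_algebraMap, CuspPt.evc_algebraMap, hc, ho, sub_self]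
  · rw [hτ]
    refine (hn₀ _).2 ?_
    rw [← constantCoeff_resB, ← hρ, hρT, map_mul, map_pow, PowerSeries.constantCoeff_X,
      zero_pow (Nat.card_pos (α := S₀)).ne', zero_mul]
  · rw [hqC, hτ, Ideal.span_singleton_eq_span_singleton.2 hassocC, hπT.1]
    exact le_of_eq (congrArg (Nat.cast : ℕ → ℕ∞) hcardS.symm)
  · rw [hqC, Ideal.mem_span_singleton]
    exact (dvd_pow_self πC (by have := hq.out.two_le; omega)).trans hassocC.symm.dvd
  · rw [hτ]
    exact hπT.2

end Fermat.Agent.ModField
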