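/-
All points of the chart of `1/j` of the field of level `Γ₀(q) ∩ Γ(m)` over an unramified base are
smooth points or nodes, once those of the chart of `j` are.
-/
import Fermat.Agent.Models.Gamma0.Cusp
import Fermat.Agent.Models.Transfer
import Fermat.Agent.GalRep.Model.Glue

set_option autoImplicit false
set_option linter.style.haveILetI false
set_option linter.unusedSectionVars false

noncomputable section

namespace Fermat.Agent.ModField

open Polynomial CongruenceSubgroup IsLocalRing
open Fermat.Agent.GalRep Fermat.Agent.GalRep.Level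
open Fermat.Agent.GalRep.Model (chartRing exists_pow_mul_mem)
open Fermat.Agent.Models (SemiPoints semiPoint_transfer isMaximal_transIdeal)
open scoped MatrixGroups

variable {W : Type} [CommRing W] {O : Type} [CommRing O] [IsDomain O]
  [Algebra W O] {M : ℕ} [NeZero M] {E : Emb O M} [Algebra W (Fld E)] [IsScalarTower W O (Fld E)]
  {q m : ℕ}
variable [IsDomain W] [IsDiscreteValuationRing W] [IsDiscreteValuationRing O] [Module.Finite W O]
  [hq : Fact q.Prime] (hmax : maximalIdeal W = Ideal.span {(q : W)})

include hmax in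
/-- At a point over the special point the coordinate is congruent to a constant. -/
theorem exists_const_of_isMaximal [IsAlgClosed (ResidueField W)] {w : Fld₀ W E q m}
    (htr : Function.Injective (aeval (R := O) (w : Fld E)))
    (hfix : Model.FixedRational O (transG E) (w : Fld E))
    (p : Ideal (chartRing W w)) [p.IsMaximal]
    (hqp : algebraMap W (chartRing W w) (q : W) ∈ p) :
    ∃ c : W, (⟨w, self_mem_chart w⟩ : chartRing W w) - algebraMap W _ c ∈ p := by
  letI := (polyHom₀ w).toAlgebra
  haveI : Module.Finite W[X] (chartRing W w) := finite_chart₀ (G := transG E) htr hfix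
  haveI : Algebra.IsIntegral W[X] (chartRing W w) := Algebra.IsIntegral.of_finite _ _
  set I : Ideal W[X] := p.comap (algebraMap W[X] (chartRing W w))
  haveI : I.IsMaximal := Ideal.isMaximal_comap_of_isIntegral_of_isMaximal p
  set f : W[X] →+* (ResidueField W)[X] := mapRingHom (residue W)
  have hf : Function.Surjective f := Polynomial.map_surjective _ residue_surjective
  have hker : Ideal.comap f ⊥ ≤ I := by
    intro P hP
    have hd : ∀ i, (q : W) ∣ P.coeff i := fun i => by
      rw [← Ideal.mem_span_singleton, ← hmax, ← residue_eq_zero_iff]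
      have h0 : f P = 0 := hP
      simpa [f, Polynomial.coeff_map] using congrArg (fun Q => Q.coeff i) h0
    obtain ⟨P', rfl⟩ := (Polynomial.C_dvd_iff_dvd_coeff _ _).2 hd
    refine I.mul_mem_right _ ?_
    show polyHom₀ w (C (q : W)) ∈ p
    rw [polyHom₀, AlgHom.toRingHom_eq_coe, RingHom.coe_coe, aeval_C]
    exact hqp
  rcases Ideal.map_eq_top_or_isMaximal_of_surjective f hf ‹I.IsMaximal› with htop | hJ
  · exfalso
    have h1 := congrArg (Ideal.comap f) htop
    rw [Ideal.comap_map_of_surjective f hf, Ideal.comap_top, sup_eq_left.2 hker] at h1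
    exact ‹I.IsMaximal›.ne_top h1
  · obtain ⟨g, hg⟩ := (IsPrincipalIdealRing.principal (I.map f)).principal
    have hg' : I.map f = Ideal.span {g} := hg
    have hdeg : g.degree ≠ 0 := fun h => hJ.ne_top (by
      rw [hg']
      exact Ideal.span_singleton_eq_top.2 (Polynomial.isUnit_iff_degree_eq_zero.2 h))
    obtain ⟨r, hr⟩ := IsAlgClosed.exists_root g hdeg
    obtain ⟨c, rfl⟩ := residue_surjective r
    have hle : I.map f ≤ Ideal.span {X - C (residue W c)} := by
      rw [hg', Ideal.span_singleton_le_span_singleton]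
      exact dvd_iff_isRoot.2 hr
    have heq := hJ.eq_of_le (fun h => (Polynomial.not_isUnit_X_sub_C (residue W c))
      (Ideal.span_singleton_eq_top.1 h)) hle
    have hmem : X - C c ∈ Ideal.comap f (I.map f) := by
      rw [Ideal.mem_comap, heq]
      exact Ideal.mem_span_singleton.2 (dvd_of_eq (by simp [f]))
    rw [Ideal.comap_map_of_surjective f hf, sup_eq_left.2 hker] at hmem
    refine ⟨c, ?_⟩
    have h2 : polyHom₀ w (X - C c) ∈ p := hmem
    rwa [polyHom₀, AlgHom.toRingHom_eq_coe, RingHom.coe_coe, map_sub, aeval_X, aeval_C] at h2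

variable (hgen : Algebra.adjoin W {E.ζ} = ⊤) (hζ : ∃ c : W, algebraMap W O c = E.ζ ^ q)
  (hM : M = q * m) (hqm : ¬ q ∣ m) (hm3 : 3 ≤ m)

set_option maxHeartbeats 800000 in
set_option synthInstance.maxHeartbeats 400000 in
include hmax hgen hζ hM hqm hm3 in
/-- All points of the chart of `1/j` are smooth points or nodes. -/
theorem semiPoints_infinite [IsAlgClosed (ResidueField W)]
    (hfin : SemiPoints (chartRing W (jF₀ W E q m)) (q : W)) :
    SemiPoints (chartRing W (jF₀ W E q m)⁻¹) (q : W) := by
  intro p hp hqp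
  haveI := hp.isPrime
  by_cases hwp : (⟨_, self_mem_chart _⟩ : chartRing W (jF₀ W E q m)⁻¹) ∈ p
  · exact Or.inl (isSmoothPoint_cusp hmax hgen hζ hM hqm hm3 p hqp hwp)
  have hw0 := jF₀_ne_zero W E q m
  have hwu : jF₀ W E q m * (jF₀ W E q m)⁻¹ = 1 := mul_inv_cancel₀ hw0
  have hBB' : ∀ b ∈ chartRing W (jF₀ W E q m)⁻¹, ∃ e : ℕ,
      jF₀ W E q m ^ e * b ∈ chartRing W (jF₀ W E q m) :=
    fun b hb => exists_pow_mul_mem rfl hw0 hb
  have hB'B : ∀ b ∈ chartRing W (jF₀ W E q m), ∃ e : ℕ,
      (jF₀ W E q m)⁻¹ ^ e * b ∈ chartRing W (jF₀ W E q m)⁻¹ :=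
    fun b hb => exists_pow_mul_mem (inv_inv _).symm (inv_ne_zero hw0) hb
  have hc := exists_const_of_isMaximal hmax (w := (jF₀ W E q m)⁻¹) (aeval_inv_jF_injective E)
    (fixedRational_inv_jF E) p hqp
  have hmax' := isMaximal_transIdeal (hB'B := hB'B) hwp (self_mem_chart _) hwu hBB' hc
  have hqt : algebraMap W (chartRing W (jF₀ W E q m)) (q : W) ∈
      Models.transIdeal (self_mem_chart _) hB'B p := by
    refine ⟨0, by rw [pow_zero, one_mul]; exact Subalgebra.algebraMap_mem _ _, ?_⟩
    convert hqp using 1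
    refine Subtype.ext ?_
    show (jF₀ W E q m)⁻¹ ^ 0 * algebraMap W (Fld₀ W E q m) (q : W) = algebraMap W _ (q : W)
    rw [pow_zero, one_mul]
  exact semiPoint_transfer hwp (self_mem_chart _) hwu hBB' (hfin _ hmax' hqt)

end Fermat.Agent.ModField
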