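/-
Level `Γ₀(2) ∩ Γ(m)`, `m` odd, inside level `2m`: the invariants of one translation, and the level
three family adapted to it.
-/
import Fermat.Agent.Models.Gamma0.Chart
import Fermat.Agent.Moduli.TwoField

set_option autoImplicit false
set_option linter.style.haveILetI false
set_option linter.unusedSectionVars false

noncomputable section

namespace Fermat.Agent.ModField

open UpperHalfPlane CongruenceSubgroup Filter
open Fermat.Agent.GalRep
open Fermat.Agent.GalRep.Level
open Fermat.Agent.GalRep.Model (Lev NZ PM rowMul wpDiff wpDiff_ne_zero)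
open Fermat.Agent.Moduli
open scoped MatrixGroups

/-- The translation by `m`. -/
def transMat (m : ℕ) : SL(2, ℤ) := ⟨!![1, (m : ℤ); 0, 1], by simp [Matrix.det_fin_two]⟩

/-- Modulo two the transposition fixing `(1, 1)`, modulo `m` the identity. -/
def swapMat (m : ℕ) : SL(2, ℤ) :=
  ⟨!![1 - (m : ℤ), (m : ℤ); -(m : ℤ), 1 + (m : ℤ)], by simp [Matrix.det_fin_two]; ring⟩

/-- Carries one to the other. -/
def toSwap : SL(2, ℤ) := ⟨!![1, 0; 1, 1], by simp [Matrix.det_fin_two]⟩

theorem toSwap_mul_transMat (m : ℕ) : toSwap * transMat m = swapMat m * toSwap := by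
  refine Subtype.ext ?_
  show !![(1 : ℤ), 0; 1, 1] * !![1, (m : ℤ); 0, 1] =
    !![1 - (m : ℤ), (m : ℤ); -(m : ℤ), 1 + (m : ℤ)] * !![1, 0; 1, 1]
  simp [add_comm]

variable {O : Type} [CommRing O] [IsDomain O] {M : ℕ} [NeZero M] (E : Emb O M)

theorem isHalfSwap_swapMat (L : Lev M) (hLm : L.m = 2) {m : ℕ} (hm : Odd m) (hM : M = 2 * m) :
    IsHalfSwap E L (fShift E (swapMat m)) := by
  obtain ⟨j, rfl⟩ := hm
  have hMz : (M : ℤ) = 2 * (2 * j + 1) := by exact_mod_cast hM
  have he : (L.e : ℤ) = 2 * j + 1 := by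
    have := L.eq
    rw [hLm] at this
    omega
  have hV : ∀ i, L.V i =
      ((2 * j + 1 : ℤ) * (Model.base i).1, (2 * j + 1 : ℤ) * (Model.base i).2) := fun i => by
    rw [Model.Lev.V, he]
  have h0 : PM M (rowMul (L.V 0) (swapMat (2 * j + 1))) (L.V 2) := by
    rw [hV, hV]
    exact Or.inl ⟨⟨-j, by simp [rowMul, swapMat, Model.base, hMz]; ring⟩,
      ⟨j, by simp [rowMul, swapMat, Model.base, hMz]; ring⟩⟩
  have h1 : PM M (rowMul (L.V 1) (swapMat (2 * j + 1))) (L.V 1) := by
    rw [hV]
    exact Or.inl ⟨⟨-(2 * j + 1), by simp [rowMul, swapMat, Model.base, hMz]; ring⟩,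
      ⟨2 * j + 1, by simp [rowMul, swapMat, Model.base, hMz]; ring⟩⟩
  have h2 : PM M (rowMul (L.V 2) (swapMat (2 * j + 1))) (L.V 0) := by
    rw [hV, hV]
    exact Or.inl ⟨⟨-(j + 1), by simp [rowMul, swapMat, Model.base, hMz]; ring⟩,
      ⟨j + 1, by simp [rowMul, swapMat, Model.base, hMz]; ring⟩⟩
  have key : ∀ (u : ℤ × ℤ) (hu : NZ M u), PM M (rowMul u (swapMat (2 * j + 1))) u →
      fShift E (swapMat (2 * j + 1)) (absF E L u hu) = 1 - absF E L u hu := by
    intro u hu hfix
    rw [absF, fShift_quadF]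
    refine fldGerm_injective E ?_
    rw [map_sub, map_one, fldGerm_quadF, fldGerm_quadF]
    refine Germ.coe_eq.2 (Eventually.of_forall fun τ => ?_)
    simp only [Model.Quad.fn, Model.Quad.mul, absQuad, Model.wpDiff_congr hfix h0,
      Model.wpDiff_congr h2 h0, Pi.sub_apply, Pi.one_apply]
    have hD := wpDiff_ne_zero (L.nz_V 2) (L.nz_V 0) (L.not_pm L.valid2 L.valid0 (by decide)) τ
    have hflip : wpDiff M (L.V 0) (L.V 2) τ = -wpDiff M (L.V 2) (L.V 0) τ := by
      simp only [wpDiff, ← neg_div, neg_sub]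
    have hsub : wpDiff M u (L.V 2) τ =
        wpDiff M u (L.V 0) τ - wpDiff M (L.V 2) (L.V 0) τ := by
      simp only [wpDiff, sub_div]; ring
    rw [hflip, hsub]
    field_simp
    ring
  refine ⟨key _ _ h1, fun u hu ha hb => key u hu ?_⟩
  obtain ⟨a, ha⟩ := ha
  obtain ⟨b, hb⟩ := hb
  exact Or.inl ⟨⟨-a - b, by simp [rowMul, swapMat, ha, hb, hMz]; ring⟩,
    ⟨a + b, by simp [rowMul, swapMat, ha, hb, hMz]; ring⟩⟩

/-- Over the constants of the root of unity of order `2m`, level `Γ₀(2) ∩ Γ(m)` is the fixed field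
of the translation. -/
theorem mem_fld₀_two_iff (W : Type) [CommRing W] [Algebra W O]
    (hWO : Function.Surjective (algebraMap W O)) {m : ℕ} (hm : Odd m) (hM : M = 2 * m)
    {x : Fld E} : x ∈ Fld₀ W E 2 m ↔ fShift E (transMat m) x = x := by
  have hK : baseK W E = E.K := by
    rw [baseK, Emb.K, RingHom.coe_comp, hWO.range_comp]
  rw [mem_levelFld, hK]
  refine ⟨fun hx => hx.1 _ ⟨Gamma0_mem.mpr (by simp [transMat]),
    Gamma_mem.mpr (by simp [transMat])⟩, fun hx => ⟨fun g hg => ?_, ?_⟩⟩
  swap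
  · obtain ⟨a, b, -, rfl⟩ := exists_eq_div E x
    rw [map_div₀, toLS_toFld, toLS_toFld]
    exact div_mem (kSer_of_bdd E a.2) (kSer_of_bdd E b.2)
  obtain ⟨h0, hg'⟩ := mem_levelG.1 hg
  obtain ⟨ha, hb, hc, hd⟩ := Gamma_mem.mp hg'
  have hc2 : ((g 1 0 : ℤ) : ZMod 2) = 0 := Gamma0_mem.mp h0
  have hdet := congrArg (Int.cast : ℤ → ZMod 2) g.det_coe
  rw [Matrix.det_fin_two] at hdet
  push_cast at hdet
  rw [hc2, mul_zero, sub_zero] at hdet
  have hodd : ∀ a d : ZMod 2, a * d = 1 → a = 1 ∧ d = 1 := by decide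
  obtain ⟨ha2, hd2⟩ := hodd _ _ hdet
  subst hM
  have h2m : Nat.Coprime 2 m := (Nat.coprime_two_left.2 hm)
  have crt : ∀ a b : ℤ, (a : ZMod 2) = b → (a : ZMod m) = b → (a : ZMod (2 * m)) = b :=
    fun a b e2 em => by
      rw [ZMod.intCast_eq_intCast_iff_dvd_sub] at e2 em ⊢
      push_cast
      exact (Int.isCoprime_iff_nat_coprime.2 (by simpa using h2m)).mul_dvd e2 em
  have entry : ∀ h : SL(2, ℤ), (∀ i j, ((g i j : ℤ) : ZMod 2) = (h i j : ℤ)) →
      (∀ i j, ((g i j : ℤ) : ZMod m) = (h i j : ℤ)) → fShift E g x = fShift E h x :=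
    fun h e2 em => fShift_congr E (Subtype.ext (Matrix.ext fun i j => crt _ _ (e2 i j) (em i j))) x
  have hm1 : ((m : ℤ) : ZMod 2) = 1 := by
    obtain ⟨j, rfl⟩ := hm
    push_cast
    rw [show (2 : ZMod 2) = 0 by decide, zero_mul, zero_add]
  rcases (show ∀ b : ZMod 2, b = 0 ∨ b = 1 by decide) ((g 0 1 : ℤ) : ZMod 2) with hb2 | hb2
  · rw [entry 1 (fun i j => by fin_cases i <;> fin_cases j <;> simp [ha2, hb2, hc2, hd2])
      (fun i j => by fin_cases i <;> fin_cases j <;> simp [ha, hb, hc, hd]), fShift_one]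
  · rw [entry (transMat m)
      (fun i j => by fin_cases i <;> fin_cases j <;> simp_all [transMat])
      (fun i j => by fin_cases i <;> fin_cases j <;> simp [transMat, ha, hb, hc, hd]), hx]

section Family

variable {W : Type} [CommRing W] [IsDomain W] [IsDiscreteValuationRing W] [Algebra W O]
  [Algebra W (Fld E)] [IsScalarTower W O (Fld E)] {E}

/-- The family moved by an automorphism fixing the constants. -/
def mapHesseData {t : Fld E} (H : HesseData (W := W) E t) (f : Fld E ≃+* Fld E)
    (hf : ∀ c : W, f (algebraMap W (Fld E) c) = algebraMap W (Fld E) c) :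
    HesseData (W := W) E (f t) :=
  letI alg : Algebra (Fld E) H.Ω :=
    ((algebraMap (Fld E) H.Ω).comp f.symm.toRingHom).toAlgebra
  { Ω := H.Ω
    instAlg := alg
    instIsAlgebraic := ⟨fun x => by
      obtain ⟨P, hP, hPx⟩ :=
        (@Algebra.IsAlgebraic.isAlgebraic (Fld E) H.Ω _ _ H.instAlg H.instIsAlgebraic x)
      refine ⟨P.map f.toRingHom, (Polynomial.map_ne_zero_iff f.injective).2 hP, ?_⟩
      rw [Polynomial.aeval_def, Polynomial.eval₂_map]
      have hPx' : Polynomial.eval₂ (@algebraMap (Fld E) H.Ω _ _ H.instAlg) x P = 0 := hPx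
      rw [show (algebraMap (Fld E) H.Ω).comp f.toRingHom = @algebraMap (Fld E) H.Ω _ _ H.instAlg from
        RingHom.ext fun a => congrArg _ (f.symm_apply_apply a)]
      exact hPx'⟩
    disc_ne := by
      rw [← map_one f, ← map_pow, ← map_sub]
      exact (map_ne_zero_iff _ f.injective).2 H.disc_ne
    coord_mem := by
      intro x y h hT
      have key : ∀ (T : H.Ω), T = @algebraMap (Fld E) H.Ω _ _ H.instAlg t →
          ∀ (h : (hesseCurve T).toAffine.Nonsingular x y),
          M • WeierstrassCurve.Affine.Point.some x y h = 0 →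
          ∃ a b : Fld E, @algebraMap (Fld E) H.Ω _ _ H.instAlg a = x ∧
            @algebraMap (Fld E) H.Ω _ _ H.instAlg b = y := by
        rintro T rfl; exact H.coord_mem x y
      obtain ⟨a, b, ha, hb⟩ := key _ (congrArg _ (f.symm_apply_apply t)) h hT
      exact ⟨f a, f b, (congrArg _ (f.symm_apply_apply a)).trans ha,
        (congrArg _ (f.symm_apply_apply b)).trans hb⟩
    gen := by
      intro S hW hS
      have := H.gen (S.comap f.toRingHom) (fun c => by
        show f _ ∈ S
        rw [hf]; exact hW c) (fun a b h hT => by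
        show f a ∈ S
        have key : ∀ (T a' b' : H.Ω), T = @algebraMap (Fld E) H.Ω _ _ H.instAlg t →
            a' = @algebraMap (Fld E) H.Ω _ _ H.instAlg a →
            b' = @algebraMap (Fld E) H.Ω _ _ H.instAlg b →
            ∃ h : (hesseCurve T).toAffine.Nonsingular a' b',
              M • WeierstrassCurve.Affine.Point.some a' b' h = 0 := by
          rintro T a' b' rfl rfl rfl; exact ⟨h, hT⟩
        obtain ⟨h', hT'⟩ := key _ _ _ (congrArg _ (f.symm_apply_apply t))
          (congrArg _ (f.symm_apply_apply a)) (congrArg _ (f.symm_apply_apply b))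
        exact hS (f a) (f b) h' hT')
      intro x _
      have hx := this (Subfield.mem_top (f.symm x))
      show x ∈ S
      rw [← f.apply_symm_apply x]
      exact hx
    z₁ := f H.z₁
    z₂ := f H.z₂
    z_ne := fun h => H.z_ne (f.injective h)
    root₁ := by
      have := congrArg f H.root₁
      simpa only [map_add, map_sub, map_mul, map_pow, map_one, map_zero, map_ofNat] using this
    root₂ := by
      have := congrArg f H.root₂
      simpa only [map_add, map_sub, map_mul, map_pow, map_one, map_zero, map_ofNat] using this }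

variable (E)

/-- The family with the translation fixing the parameter and the odd torsion and exchanging two
points of order two. -/
theorem exists_hesseData_trans (L : Lev M) (hLm : L.m = 2)
    (hWO : Function.Injective (algebraMap W O)) (hgen : Algebra.adjoin W {E.ζ} = ⊤)
    (hζ : ∃ c : W, algebraMap W O c = E.ζ ^ 2) {m : ℕ} (hm : Odd m) (h3 : 3 ∣ m)
    (hM : M = 2 * m) :
    ∃ t : Fld E, jF E * (t ^ 3 - 1) ^ 3 = 27 * t ^ 3 * (t ^ 3 + 8) ^ 3 ∧
      ∃ H : HesseData (W := W) E t, fShift E (transMat m) t = t ∧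
        fShift E (transMat m) H.z₁ = H.z₂ ∧ fShift E (transMat m) H.z₂ = H.z₁ ∧
          ∀ (a b : Fld E) (h : (hesseCurve (algebraMap (Fld E) H.Ω t)).toAffine.Nonsingular
            (algebraMap (Fld E) H.Ω a) (algebraMap (Fld E) H.Ω b)),
            m • WeierstrassCurve.Affine.Point.some _ _ h = 0 →
              fShift E (transMat m) a = a ∧ fShift E (transMat m) b = b := by
  obtain ⟨t, hj, H, hσ⟩ := exists_hesseData E L hLm hWO hgen hζ (h3.trans (Dvd.intro_left 2 hM.symm))
  obtain ⟨hst, hs1, hs2, hs3⟩ := hσ _ (isHalfSwap_swapMat E L hLm hm hM)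
  have he : L.e = m := by
    have := L.eq
    rw [hLm] at this
    omega
  set f := fShift E toSwap
  have hcomm : ∀ x, fShift E (transMat m) (f x) = f (fShift E (swapMat m) x) := fun x => by
    rw [fShift_fShift, fShift_fShift, toSwap_mul_transMat]
  refine ⟨f t, ?_, mapHesseData H f (fun c => by
    rw [IsScalarTower.algebraMap_apply W O (Fld E), fShift_algebraMap]), ?_, ?_, ?_, ?_⟩
  · have := congrArg f hj
    simpa only [map_add, map_sub, map_mul, map_pow, map_one, map_ofNat,
      show f (jF E) = jF E from fShift_jF E _] using this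
  · rw [hcomm, hst]
  · show fShift E (transMat m) (f H.z₁) = f H.z₂
    rw [hcomm, hs1]
  · show fShift E (transMat m) (f H.z₂) = f H.z₁
    rw [hcomm, hs2]
  · intro a b h hT
    obtain ⟨a, rfl⟩ := f.surjective a
    obtain ⟨b, rfl⟩ := f.surjective b
    have key : ∀ (T a' b' : H.Ω), T = algebraMap (Fld E) H.Ω t → a' = algebraMap (Fld E) H.Ω a →
        b' = algebraMap (Fld E) H.Ω b → ∀ h : (hesseCurve T).toAffine.Nonsingular a' b',
        m • WeierstrassCurve.Affine.Point.some a' b' h = 0 →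
        fShift E (swapMat m) a = a ∧ fShift E (swapMat m) b = b := by
      rintro T a' b' rfl rfl rfl h hT
      exact hs3 a b h (he ▸ hT)
    obtain ⟨ea, eb⟩ := key _ _ _ (congrArg _ (f.symm_apply_apply t))
      (congrArg _ (f.symm_apply_apply a)) (congrArg _ (f.symm_apply_apply b)) h hT
    rw [hcomm, hcomm, ea, eb]
    exact ⟨rfl, rfl⟩

end Family

end Fermat.Agent.ModField
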