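/-
Level `Γ₀(2) ∩ Γ(m)` over the constants of odd roots of unity: the finite chart has smooth points
and nodes over `2`. It is unramified over the ring of one point of order two of the level three
family.
-/
import Fermat.Agent.Models.Gamma0.TwoSwap
import Fermat.Agent.Models.SemiPoint
import Fermat.Agent.Moduli.TwoNode

set_option autoImplicit false
set_option linter.style.haveILetI false
set_option linter.unusedSectionVars false

noncomputable section

namespace Fermat.Agent.ModField

open Polynomial IsLocalRing WeierstrassCurve Pointwise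
open Fermat.Agent.GalRep
open Fermat.Agent.GalRep.Level
open Fermat.Agent.GalRep.Model (chartRing Lev)
open Fermat.Agent.Moduli

/-- Two parameters at a point of a noetherian domain above a prime: each lies in a prime below the
point avoiding the other. -/
theorem exists_branch {S : Type*} [CommRing S] [IsDomain S] [IsNoetherianRing S] (n : Ideal S)
    [hn : n.IsMaximal] {a b : S} (ha : a ∈ n)
    (hgen : ∀ z ∈ n, ∃ s ∉ n, s * z ∈ Ideal.span {a, b}) {P : Ideal S} [P.IsPrime] (hP0 : P ≠ ⊥)
    (hPn : P < n) : ∃ Q : Ideal S, Q.IsPrime ∧ Q ≤ n ∧ a ∈ Q ∧ b ∉ Q := by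
  obtain ⟨Q, hQ, hle, hdisj⟩ := Ideal.exists_le_prime_disjoint (Ideal.span {a})
    (n.primeCompl ⊔ Submonoid.powers b) (by
      rw [Set.disjoint_left]
      intro z hz hz'
      obtain ⟨s, hs, p, ⟨N, rfl⟩, rfl⟩ := Submonoid.mem_sup.1 hz'
      exact mul_pow_notMem_span n ha hgen hP0 hPn hs N hz)
  refine ⟨Q, hQ, fun z hz => ?_, hle (Ideal.mem_span_singleton_self a), fun hb => ?_⟩
  · by_contra hzn
    exact Set.disjoint_left.1 hdisj hz (Submonoid.mem_sup_left hzn)
  · exact Set.disjoint_left.1 hdisj hb (Submonoid.mem_sup_right ⟨1, pow_one b⟩)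

variable {W : Type} [CommRing W] [IsDomain W] [IsDiscreteValuationRing W]
  [IsAlgClosed (ResidueField W)] {O : Type} [CommRing O] [IsDomain O] [Algebra W O]
  {M : ℕ} [NeZero M] (E : Emb O M) [Algebra W (Fld E)] [IsScalarTower W O (Fld E)]

/-- Every maximal ideal of the finite chart over `2` is a smooth point or a node of the fibre. -/
theorem semiPoints_finite_two {m : ℕ} (hmax : maximalIdeal W = Ideal.span {(2 : W)})
    (hgen : Algebra.adjoin W {E.ζ} = ⊤) (hζ : ∃ c : W, algebraMap W O c = E.ζ ^ 2)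
    (hm : Odd m) (h3 : 3 ∣ m) (hM : M = 2 * m) :
    Models.SemiPoints (chartRing W (jF₀ W E 2 m)) (2 : W) := by
  classical
  set A := chartRing W (jF₀ W E 2 m) with hAdef
  intro 𝔪 h𝔪 h2m
  rw [map_ofNat] at h2m
  have hm3 : 3 ≤ m := Nat.le_of_dvd hm.pos h3
  let L : Lev M :=
    { m := 2, e := m, hm := Or.inl rfl, eq := by rw [hM]; ring, five := by omega }
  -- constants
  have hψ : Function.Injective (algebraMap W (Fld E)) := injective_of_maximalIdeal_two hmax _
  have h20 : (2 : W) ≠ 0 := fun h0 => two_ne_zero (α := Fld E) (by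
    rw [← map_ofNat (algebraMap W (Fld E)), h0, map_zero])
  have hWO : Function.Injective (algebraMap W O) := fun x y h => hψ (by
    rw [IsScalarTower.algebraMap_apply W O (Fld E), IsScalarTower.algebraMap_apply W O (Fld E), h])
  have hodd : ∀ k : ℕ, Odd k → IsUnit (k : W) := fun k hk => isUnit_odd_natCast hmax hk
  have h3W : IsUnit (3 : W) := by simpa using hodd 3 (by decide)
  have hsurj : Function.Surjective (algebraMap W O) := by
    obtain ⟨c, hc⟩ := hζ
    obtain ⟨j, hj⟩ := hm
    have hprim : IsPrimitiveRoot E.ζ M := by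
      refine IsPrimitiveRoot.of_map_of_injective (f := E.φ) ?_ E.inj
      rw [E.map_ζ]
      exact Complex.isPrimitiveRoot_exp M (NeZero.ne M)
    have hneg : E.ζ ^ m = -1 := by
      have h1 : (E.ζ ^ m - 1) * (E.ζ ^ m + 1) = 0 := by
        rw [show (E.ζ ^ m - 1) * (E.ζ ^ m + 1) = E.ζ ^ (2 * m) - 1 by ring, ← hM, hprim.pow_eq_one,
          sub_self]
      exact eq_neg_of_add_eq_zero_left ((mul_eq_zero.1 h1).resolve_left
        (sub_ne_zero.2 (hprim.pow_ne_one_of_pos_of_lt (by omega) (by omega))))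
    have hζW : E.ζ ∈ (⊥ : Subalgebra W O) := by
      refine ⟨-c ^ (j + 1), ?_⟩
      show algebraMap W O _ = _
      rw [map_neg, map_pow, hc, ← pow_mul, show 2 * (j + 1) = m + 1 by omega, pow_succ, hneg,
        neg_one_mul, neg_neg]
    intro o
    have := Algebra.adjoin_le (S := (⊥ : Subalgebra W O)) (Set.singleton_subset_iff.2 hζW)
      (hgen ▸ Algebra.mem_top : o ∈ Algebra.adjoin W {E.ζ})
    exact this
  haveI : Algebra.IsIntegral W O := ⟨fun o => by
    obtain ⟨w, rfl⟩ := hsurj o
    exact isIntegral_algebraMap⟩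
  -- the family
  obtain ⟨t, hj, H, hht, hh1, hh2, hhT⟩ :=
    exists_hesseData_trans E L rfl hWO hgen hζ hm h3 hM
  have hA := H.disc_ne
  set h := fShift E (transMat m)
  have hF₀ : ∀ x : Fld E, x ∈ Fld₀ W E 2 m ↔ h x = x := fun x =>
    mem_fld₀_two_iff E W hsurj hm hM
  have hhW : ∀ w : W, h (algebraMap W (Fld E) w) = algebraMap W (Fld E) w := fun w => by
    rw [IsScalarTower.algebraMap_apply W O (Fld E)]
    exact fShift_algebraMap E _ _
  -- the base
  set R := HesseBase W
  obtain ⟨f, hfinj, hal'⟩ := exists_hesseBaseHom E hWO fun _ hP => aeval_ne_zero_of_jRel E hA hj hP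
  letI : Algebra R (Fld E) := f.toAlgebra
  have hal : ∀ P : W[X], algebraMap R (Fld E) (algebraMap W[X] R P) = aeval t P := hal'
  haveI : FaithfulSMul R (Fld E) := (faithfulSMul_iff_algebraMap_injective _ _).2 hfinj
  have htR : algebraMap R (Fld E) (hesseVar W) = t := by rw [hesseVar, hal, aeval_X]
  have hhR : ∀ r : R, h (algebraMap R (Fld E) r) = algebraMap R (Fld E) r :=
    RingHom.congr_fun (IsLocalization.ringHom_ext (Submonoid.powers (hesseDisc W))
      (j := h.toRingHom.comp (algebraMap R (Fld E))) (k := algebraMap R (Fld E))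
      (Polynomial.ringHom_ext (fun w => by simp [hal, hhW]) (by simp [hal, hht])))
  let g₀ : FractionRing R →+* Fld E := IsFractionRing.lift (A := R) (K := FractionRing R) hfinj
  letI : Algebra (FractionRing R) (Fld E) := g₀.toAlgebra
  haveI : IsScalarTower R (FractionRing R) (Fld E) :=
    IsScalarTower.of_algebraMap_eq fun r => (IsFractionRing.lift_algebraMap hfinj r).symm
  obtain ⟨hfd, hgal, -⟩ := hesseFld_galois hal H
  have hhK : ∀ x : FractionRing R,
      h (algebraMap (FractionRing R) (Fld E) x) = algebraMap (FractionRing R) (Fld E) x := fun x => by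
    obtain ⟨p, q, -, rfl⟩ := IsFractionRing.div_surjective (A := R) x
    rw [map_div₀, ← IsScalarTower.algebraMap_apply, ← IsScalarTower.algebraMap_apply, map_div₀,
      hhR, hhR]
  let σ : Fld E ≃ₐ[FractionRing R] Fld E := AlgEquiv.ofRingEquiv (f := h) hhK
  have hhσ : ∀ x, σ x = h x := fun x => rfl
  -- the third parameter
  obtain ⟨hQ, hP⟩ := two_torsion_vieta H.z_ne H.root₁ H.root₂
  set u : Fld E := -(H.z₁ + H.z₂) with hu
  have hroot : (t ^ 3 - 1) * u ^ 3 - 3 * t * u + 2 = 0 := by
    rw [hu]; linear_combination (-(H.z₁ + H.z₂)) * hQ - hP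
  have hhu : h u = u := by rw [hu, map_neg, map_add, hh1, hh2, add_comm]
  have hz1u : H.z₁ ≠ u := fun e => H.z_ne (by
    have := congrArg h e
    rw [hh1, hhu] at this
    rw [e, this])
  let Ku := IntermediateField.adjoin (FractionRing R) ({u} : Set (Fld E))
  haveI : IsGalois Ku (Fld E) := IsGalois.tower_top_intermediateField Ku
  have hperm : ∀ g : Fld E ≃ₐ[Ku] Fld E, (g H.z₁ = H.z₁ ∧ g H.z₂ = H.z₂) ∨
      (g H.z₁ = H.z₂ ∧ g H.z₂ = H.z₁) := by
    intro g
    have hgu : g u = u := g.commutes ⟨u, IntermediateField.subset_adjoin _ _ rfl⟩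
    have hgR' : ∀ r : R, g (algebraMap R (Fld E) r) = algebraMap R (Fld E) r := fun r => by
      rw [IsScalarTower.algebraMap_apply R (FractionRing R) (Fld E)]
      exact g.commutes (algebraMap (FractionRing R) Ku _)
    have hgt : g t = t := by rw [← htR, hgR']
    have hz2 : g H.z₂ = -u - g H.z₁ := by
      have e : H.z₂ = -u - H.z₁ := by rw [hu]; ring
      conv_lhs => rw [e, map_sub, map_neg, hgu]
    have hr := congrArg g H.root₁
    simp only [map_add, map_sub, map_mul, map_pow, map_one, map_zero, map_ofNat, hgt] at hr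
    have hfac : (t ^ 3 - 1) * ((g H.z₁ - H.z₁) * (g H.z₁ - H.z₂) * (g H.z₁ - u)) = 0 := by
      rw [hu]
      linear_combination hr - (g H.z₁) * hQ + hP
    rcases mul_eq_zero.1 ((mul_eq_zero.1 hfac).resolve_left hA) with h12 | h3'
    · rcases mul_eq_zero.1 h12 with e | e
      · exact Or.inl ⟨sub_eq_zero.1 e, by rw [hz2, sub_eq_zero.1 e, hu]; ring⟩
      · exact Or.inr ⟨sub_eq_zero.1 e, by rw [hz2, sub_eq_zero.1 e, hu]; ring⟩
    · exact absurd (g.injective ((sub_eq_zero.1 h3').trans hgu.symm)) hz1u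
  -- torsion of odd order
  have htor : ∀ (x y : Fld E)
      (hxy : (hesseCurve (algebraMap R (Fld E) (hesseVar W))).toAffine.Nonsingular x y),
      m • Affine.Point.some x y hxy = 0 → h x = x ∧ h y = y := by
    intro x y hxy hT
    letI : Algebra R H.Ω := ((algebraMap (Fld E) H.Ω).comp (algebraMap R (Fld E))).toAlgebra
    haveI : IsScalarTower R (Fld E) H.Ω := IsScalarTower.of_algebraMap_eq fun r => rfl
    obtain ⟨h', hT'⟩ :=
      nsmul_hesseMap_some (hesseVar W) (IsScalarTower.toAlgHom R (Fld E) H.Ω) hT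
    have key : ∀ (T : H.Ω), T = algebraMap (Fld E) H.Ω t →
        ∀ (hh : (hesseCurve T).toAffine.Nonsingular
          (algebraMap (Fld E) H.Ω x) (algebraMap (Fld E) H.Ω y)),
        m • Affine.Point.some _ _ hh = 0 → h x = x ∧ h y = y := by
      rintro T rfl hh hh'
      exact hhT x y hh hh'
    exact key _ (congrArg (algebraMap (Fld E) H.Ω) htR) h' hT'
  -- the group commutes with the translation
  have hgR : ∀ (g : Fld E ≃ₐ[Ku] Fld E) (r : R),
      g (algebraMap R (Fld E) r) = algebraMap R (Fld E) r := fun g r => by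
    rw [IsScalarTower.algebraMap_apply R (FractionRing R) (Fld E)]
    exact g.commutes (algebraMap (FractionRing R) Ku _)
  let gR : (Fld E ≃ₐ[Ku] Fld E) → (Fld E →ₐ[R] Fld E) := fun g =>
    { (g : Fld E →+* Fld E) with commutes' := hgR g }
  have hcomm : ∀ (g : Fld E ≃ₐ[Ku] Fld E) (x : Fld E), h (g x) = g (h x) := by
    intro g
    have := hesse_algEquiv_ext hal H hm hM (g := (g.restrictScalars _).trans σ)
      (g' := σ.trans (g.restrictScalars _))
      (by
        show h (g H.z₁) = g (h H.z₁)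
        rcases hperm g with ⟨e1, e2⟩ | ⟨e1, e2⟩
        · rw [e1, hh1, e2]
        · rw [e1, hh2, hh1, e2])
      (by
        show h (g H.z₂) = g (h H.z₂)
        rcases hperm g with ⟨e1, e2⟩ | ⟨e1, e2⟩
        · rw [e2, hh2, e1]
        · rw [e2, hh1, hh2, e1])
      fun x y hxy hT => by
        obtain ⟨h', hT'⟩ := nsmul_hesseMap_some (hesseVar W) (gR g) hT
        obtain ⟨ex, ey⟩ := htor _ _ hxy hT
        obtain ⟨egx, egy⟩ := htor (g x) (g y) h' hT'
        show h (g x) = g (h x) ∧ h (g y) = g (h y)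
        rw [ex, ey, egx, egy]
        exact ⟨rfl, rfl⟩
    exact fun x => DFunLike.congr_fun this x
  have hgF₀ : ∀ (g : Fld E ≃ₐ[Ku] Fld E) (x : Fld E), x ∈ Fld₀ W E 2 m → g x ∈ Fld₀ W E 2 m :=
    fun g x hx => (hF₀ _).2 (by rw [hcomm, (hF₀ x).1 hx])
  -- the chart
  have hiff : ∀ x : Fld₀ W E 2 m, x ∈ A ↔ IsIntegral R (x : Fld E) := fun x =>
    mem_chart₀_iff'.trans (mem_chartRing_iff_isIntegral_hesse E hgen h3W hal hA hj _)
  letI act : MulSemiringAction (Fld E ≃ₐ[Ku] Fld E) A :=
    { smul := fun g a => ⟨⟨g ((a : Fld₀ W E 2 m) : Fld E), hgF₀ g _ (a : Fld₀ W E 2 m).2⟩,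
        (hiff _).2 (((hiff _).1 a.2).map (gR g))⟩
      one_smul := fun a => rfl
      mul_smul := fun g g' a => rfl
      smul_zero := fun g => Subtype.ext (Subtype.ext (map_zero g))
      smul_add := fun g a b => Subtype.ext (Subtype.ext (map_add g _ _))
      smul_one := fun g => Subtype.ext (Subtype.ext (map_one g))
      smul_mul := fun g a b => Subtype.ext (Subtype.ext (map_mul g _ _)) }
  let ρ : (Fld E ≃ₐ[Ku] Fld E) →* RingAut A := MulSemiringAction.toRingAut _ A
  letI actG : MulSemiringAction ρ.range A :=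
    MulSemiringAction.compHom A ρ.range.subtype
  haveI : Finite ρ.range := Finite.of_surjective _ ρ.rangeRestrict_surjective
  haveI : Fintype ρ.range := Fintype.ofFinite _
  let iF₀ : R →+* Fld₀ W E 2 m :=
    (algebraMap R (Fld E)).codRestrict _ fun r => (hF₀ _).2 (hhR r)
  let iR : R →+* A := iF₀.codRestrict A fun r => (hiff _).2 isIntegral_algebraMap
  letI : Algebra R A := iR.toAlgebra
  haveI : IsScalarTower R A (Fld E) := IsScalarTower.of_algebraMap_eq fun r => rfl
  have hAF : Function.Injective (algebraMap A (Fld E)) :=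
    Subtype.val_injective.comp Subtype.val_injective
  haveI : FaithfulSMul A (Fld E) := (faithfulSMul_iff_algebraMap_injective _ _).2 hAF
  haveI : Algebra.IsIntegral R A :=
    ⟨fun a => (isIntegral_algebraMap_iff (A := A) (B := Fld E) hAF).1 ((hiff _).1 a.2)⟩
  haveI : FaithfulSMul R A := (faithfulSMul_iff_algebraMap_injective _ _).2 fun x y e =>
    hfinj (congrArg (algebraMap A (Fld E)) e)
  haveI : IsNoetherianRing A := by
    haveI : Module.Finite R (integralClosure R (Fld E)) :=
      IsIntegralClosure.finite R (FractionRing R) (Fld E) (integralClosure R (Fld E))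
    let i : A →ₗ[R] integralClosure R (Fld E) :=
      LinearMap.codRestrict (integralClosure R (Fld E)).toSubmodule
        (IsScalarTower.toAlgHom R A (Fld E)).toLinearMap fun a => (hiff _).1 a.2
    haveI : IsNoetherian R A := isNoetherian_of_injective i fun a b e =>
      hAF (congrArg (fun x : integralClosure R (Fld E) => (x : Fld E)) e)
    exact isNoetherian_of_tower R inferInstance
  -- the point
  have h2m' : (2 : A) ∈ 𝔪 := h2m
  set I := 𝔪.comap (algebraMap R A) with hI
  haveI : I.IsMaximal := Ideal.isMaximal_comap_of_isIntegral_of_isMaximal 𝔪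
  have h2I : (2 : R) ∈ I := by rw [hI, Ideal.mem_comap, map_ofNat]; exact h2m
  obtain ⟨c₀, hIc, hsplit, -⟩ := exists_hessePoint hmax h20 I h2I
  obtain ⟨P₂, hP₂, hP₂I, h2P₂, hτP₂⟩ := exists_prime_two_le hmax I h2I
  haveI := hP₂
  haveI : 𝔪.LiesOver I := ⟨rfl⟩
  have hP₂lt : P₂ < I := lt_of_le_of_ne hP₂I fun e => hτP₂ c₀ (by
    rw [e, hIc]; exact Ideal.subset_span (Or.inr rfl))
  obtain ⟨Q, hQm, hQp, hQo⟩ := Ideal.exists_ideal_lt_liesOver_of_lt 𝔪 hP₂lt
  haveI := hQp
  have h2Q : (2 : A) ∈ Q := by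
    have : algebraMap R A 2 ∈ Q := by
      have := h2P₂
      rw [hQo.over] at this
      exact this
    rwa [map_ofNat] at this
  have hQ0 : Q ≠ ⊥ := fun e => two_ne_zero (α := Fld E) (by
    rw [e, Ideal.mem_bot] at h2Q
    simpa using congrArg (algebraMap A (Fld E)) h2Q)
  -- the ring of one point of order two
  have hint := isIntegral_hesse_root (W := W) (z₁ := H.z₁) (z₂ := H.z₂)
    (by rw [htR]; exact hQ) (by rw [htR]; exact hP)
  have huI : IsIntegral R u :=
    ((hint _ (Set.mem_insert _ _)).add (hint _ (Set.mem_insert_of_mem _ rfl))).neg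
  let S := nodeRing (W := W) u
  have hSF₀ : ∀ x ∈ S, x ∈ Fld₀ W E 2 m := fun x hx => by
    induction hx using Algebra.adjoin_induction with
    | mem x hx => rcases hx with rfl; exact (hF₀ _).2 hhu
    | algebraMap r => exact (hF₀ _).2 (hhR r)
    | add x y _ _ hx hy => exact add_mem hx hy
    | mul x y _ _ hx hy => exact mul_mem hx hy
  let φ : S →+* A :=
    (S.val.toRingHom.codRestrict (Fld₀ W E 2 m) fun x => hSF₀ x x.2).codRestrict A fun x =>
      (hiff _).2 (Algebra.adjoin_le (S := integralClosure R (Fld E))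
        (Set.singleton_subset_iff.2 huI) x.2)
  letI : Algebra S A := φ.toAlgebra
  haveI : IsScalarTower R S A := IsScalarTower.of_algebraMap_eq fun r => rfl
  haveI : Algebra.IsIntegral S A := Algebra.IsIntegral.tower_top R
  set 𝔫 := 𝔪.comap φ with h𝔫
  haveI : 𝔫.IsMaximal := Ideal.isMaximal_comap_of_isIntegral_of_isMaximal (R := S) 𝔪
  -- the action is free at the point
  have hnR : IsUnit (m : R) := by
    have := (hodd m hm).map ((algebraMap W[X] R).comp C)
    rwa [map_natCast] at this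
  have hB : CoordsFrom A (algebraMap R (Fld E) (hesseVar W)) m := fun x y hxy hT =>
    let ⟨hx, hy⟩ := isIntegral_hesseFld H hnR hxy hT
    let ⟨ex, ey⟩ := htor x y hxy hT
    ⟨⟨⟨x, (hF₀ x).2 ex⟩, (hiff _).2 hx⟩, ⟨⟨y, (hF₀ y).2 ey⟩, (hiff _).2 hy⟩, rfl, rfl⟩
  have hfree : ∀ g : ρ.range, g • 𝔪 = 𝔪 → g = 1 := by
    rintro ⟨_, g, rfl⟩ hg
    have hres : ∀ z : A, g • z - z ∈ 𝔪 := fun z => by
      obtain ⟨r, hr⟩ := exists_sub_mem_of_splitsMod hsplit 𝔪 (fun r hr => hr) z
      have h1 : g • (z - algebraMap R A r) ∈ 𝔪 := by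
        have := Ideal.smul_mem_pointwise_smul (⟨ρ g, g, rfl⟩ : ρ.range) _ _ hr
        exact (SetLike.ext_iff.1 hg _).1 this
      have e : g • algebraMap R A r = algebraMap R A r := Subtype.ext (Subtype.ext (hgR g r))
      rw [smul_sub, e] at h1
      have := sub_mem h1 hr
      rwa [sub_sub_sub_cancel_right] at this
    have hfix : ∀ (x y : Fld E)
        (hxy : (hesseCurve (algebraMap R (Fld E) (hesseVar W))).toAffine.Nonsingular x y),
        m • Affine.Point.some x y hxy = 0 → g x = x ∧ g y = y := by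
      intro x y hxy hT
      obtain ⟨X', Y', rfl, rfl⟩ := hB x y hxy hT
      obtain ⟨h', hT'⟩ := nsmul_hesseMap_some (hesseVar W) (gR g) hT
      obtain ⟨e1, e2⟩ := eq_of_congr_odd 𝔪 h2m' (t' := algebraMap R A (hesseVar W))
        (IsScalarTower.algebraMap_apply R A (Fld E) _).symm (fun hmem => by
          refine h𝔪.ne_top (Ideal.eq_top_of_isUnit_mem 𝔪 hmem ?_)
          have := (isUnit_hesseVar (W := W)).map (algebraMap R A)
          rwa [map_sub, map_pow, map_one] at this) hm hB
        (X := g • X') (Y := g • Y') (X' := X') (Y' := Y') h' hxy hT' hT (hres X') (hres Y')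
      exact ⟨congrArg (algebraMap A (Fld E)) e1, congrArg (algebraMap A (Fld E)) e2⟩
    have hg' : ∀ a : A, g • a = a := by
      rcases hperm g with ⟨e1, e2⟩ | ⟨e1, e2⟩
      · have := hesse_algEquiv_ext hal H hm hM (g := g.restrictScalars _) (g' := AlgEquiv.refl)
          e1 e2 hfix
        exact fun a => Subtype.ext (Subtype.ext (DFunLike.congr_fun this _))
      · have := hesse_algEquiv_ext hal H hm hM (g := g.restrictScalars _) (g' := σ)
          (e1.trans hh1.symm) (e2.trans hh2.symm) fun x y hxy hT => by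
            obtain ⟨ex, ey⟩ := htor x y hxy hT
            obtain ⟨gx, gy⟩ := hfix x y hxy hT
            exact ⟨gx.trans ex.symm, gy.trans ey.symm⟩
        intro a
        refine Subtype.ext (Subtype.ext ?_)
        exact (DFunLike.congr_fun this _).trans ((hF₀ _).1 (a : Fld₀ W E 2 m).2)
    exact Subtype.ext (RingEquiv.ext hg')
  obtain ⟨hcases, hnorm⟩ := nodeRing_regular (F := Fld E) hmax h20 (by rw [htR]; exact hroot) 𝔫 (by
    rw [h𝔫, Ideal.mem_comap, map_ofNat]; exact h2m)
  -- generators below generate above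
  have hbelow : ∀ y : A, (∀ g : ρ.range, g • y = y) →
      ∃ s : S, φ s ∉ 𝔪 ∧ ∃ y' : S, φ s * y = φ y' := fun y hfix => by
    have hyK : algebraMap A (Fld E) y ∈ Ku := by
      have := (IsGalois.mem_bot_iff_fixed (algebraMap A (Fld E) y)).2 fun g =>
        congrArg (algebraMap A (Fld E)) (hfix ⟨ρ g, g, rfl⟩)
      obtain ⟨w, hw⟩ := IntermediateField.mem_bot.1 this
      exact hw ▸ w.2
    obtain ⟨s, hs, y', hy'⟩ := hnorm _ ((hiff _).1 y.2) (exists_frac_of_mem_adjoin _ hyK)
    exact ⟨s, hs, y', hAF hy'⟩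
  rcases hcases with ⟨a, b, e, he, hab, ha, hb, hgenS⟩ | ⟨b, hb, hgenS, c, hcond⟩
  · have hgA := exists_mul_mem_span_pair (G := ρ.range) φ 𝔪 hfree hbelow hgenS
    refine Or.inr ⟨φ a, φ b, φ e, he, ?_, ha, hb, hgA, exists_branch 𝔪 ha hgA hQ0 hQm,
      exists_branch 𝔪 hb (fun z hz => ?_) hQ0 hQm⟩
    · rw [← map_mul, hab, map_mul, map_ofNat, map_ofNat]
    · rw [Set.pair_comm]; exact hgA z hz
  · have hgA := exists_mul_mem_span_pair (G := ρ.range) φ 𝔪 hfree hbelow hgenS
    rw [map_ofNat] at hgA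
    refine Or.inl ⟨φ b, Q, hQp, hQm.le, by rw [map_ofNat]; exact h2Q, fun hbQ => hτP₂ c ?_, hb, ?_⟩
    · have := hcond (Q.comap φ) (Ideal.IsPrime.comap φ) (fun z hz => hQm.le hz)
        (by rw [Ideal.mem_comap, map_ofNat]; exact h2Q) hbQ
      rw [hQo.over]
      exact this
    · rw [map_ofNat]; exact hgA

end Fermat.Agent.ModField
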