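/-
A series at infinity of a periodic holomorphic function converges on the whole half plane.
-/
import Fermat.Agent.MCurve.QExp
import Fermat.Agent.GalRep.QSeries

set_option autoImplicit false

noncomputable section

namespace Fermat.Agent.GalRep

open UpperHalfPlane Filter
open Fermat.Agent.MCurve (QExp LExp)
open scoped Manifold

/-- A series at infinity is a convergent Laurent expansion. -/
theorem lExp_of_hasQSeries {w : ℕ} (hw : 0 < w) {F : ℍ → ℂ}
    (hF : MDifferentiable 𝓘(ℂ) 𝓘(ℂ) F) (hper : ∀ τ : ℍ, F ((w : ℝ) +ᵥ τ) = F τ)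
    {f : LaurentSeries ℂ} (hf : HasQSeries w F f) : LExp (w : ℝ) F f := by
  obtain ⟨B, hB⟩ : ∃ B : ℕ, ∀ m < -(B : ℤ), f.coeff m = 0 :=
    ⟨(-f.order).toNat, fun m hm => HahnSeries.coeff_eq_zero_of_lt_order (by omega)⟩
  obtain ⟨C, hC⟩ := hf.growth hw hB
  set G : ℍ → ℂ := fun τ => F τ * qq w τ ^ B with hG
  have hh : (0 : ℝ) < w := by exact_mod_cast hw
  have hGper : Function.Periodic (G ∘ ofComplex) (w : ℝ) := by
    intro z
    rcases lt_or_ge 0 z.im with hz | hz
    · have hz' : 0 < (z + ((w : ℝ) : ℂ)).im := by simp [hz]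
      have e : (⟨z + ((w : ℝ) : ℂ), hz'⟩ : ℍ) = (w : ℝ) +ᵥ (⟨z, hz⟩ : ℍ) :=
        UpperHalfPlane.ext (by rw [coe_vadd]; exact add_comm _ _)
      simp only [Function.comp, ofComplex_apply_of_im_pos hz, ofComplex_apply_of_im_pos hz', e, hG,
        hper, qq_add_nat w hw]
    · have hz' : (z + ((w : ℝ) : ℂ)).im ≤ 0 := by simp [hz]
      simp only [Function.comp, ofComplex_apply_of_im_nonpos hz, ofComplex_apply_of_im_nonpos hz']
  have hGhol : MDifferentiable 𝓘(ℂ) 𝓘(ℂ) G := by
    rw [UpperHalfPlane.mdifferentiable_iff] at hF ⊢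
    have h2 : DifferentiableOn ℂ (fun z : ℂ => Complex.exp (2 * Real.pi * Complex.I * z / w) ^ B)
        upperHalfPlaneSet := by
      apply Differentiable.differentiableOn
      fun_prop
    refine (hF.mul h2).congr fun z hz => ?_
    simp [hG, qq, ofComplex_apply_of_im_pos hz]
  have hGbdd : IsBoundedAtImInfty G := by
    refine Asymptotics.IsBigO.of_bound C ?_
    filter_upwards [hC] with τ hτ
    rw [hG, norm_mul, norm_pow]
    have h0 : 0 < ‖qq w τ‖ := norm_pos_iff.mpr (qq_ne_zero w τ)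
    simp only [Pi.one_apply, norm_one, mul_one]
    calc ‖F τ‖ * ‖qq w τ‖ ^ B ≤ C * ‖qq w τ‖ ^ (-(B : ℤ)) * ‖qq w τ‖ ^ B := by gcongr
    _ = C := by rw [mul_assoc, ← zpow_natCast, ← zpow_add₀ h0.ne']; simp
  set P := qExpansion (w : ℝ) G
  have hP : QExp (w : ℝ) G P := fun τ => by
    simpa only [smul_eq_mul] using hasSum_qExpansion hh hGper hGhol hGbdd τ
  have hs : HasQSeries w G (HahnSeries.ofPowerSeries ℤ ℂ P) := by
    rw [hasQSeries_iff]
    refine .of_forall fun τ => ?_
    refine (Nat.cast_injective.hasSum_iff fun m hm => ?_).mp ?_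
    · rw [HahnSeries.ofPowerSeries_apply, HahnSeries.embDomain_of_notMem_range, zero_mul]
      rintro ⟨k, hk⟩; exact hm ⟨k, hk⟩
    · simpa [Function.comp_def, qq_eq_qParam, HahnSeries.ofPowerSeries_apply_coeff] using hP τ
  refine ⟨B, P, hP.congr fun τ => ?_, ?_⟩
  · rw [hG, ← qq_eq_qParam]; exact mul_comm _ _
  · refine hf.unique hw (((HasQSeries.single w (-(B : ℤ)) 1).mul hs).congr (.of_forall fun τ => ?_))
    simp only [Pi.mul_apply, one_mul, hG, zpow_neg, zpow_natCast]
    field_simp [qq_ne_zero w τ]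

end Fermat.Agent.GalRep
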