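/-
Above a prime not dividing `m` the special fibre of level `Γ(m)` has one component: a function of
level `Γ(m)` vanishing on the component at infinity vanishes on every component.
-/
import Fermat.Agent.Models.Gamma0.SeriesConv
import Fermat.Agent.Models.Field.Charts
import Fermat.Agent.GalRep.Level.FieldM
import Fermat.Agent.MCurve.RedDegree

set_option autoImplicit false
set_option linter.style.haveILetI false
set_option linter.unusedSectionVars false

noncomputable section

namespace Fermat.Agent.ModField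

open Polynomial IsLocalRing CongruenceSubgroup UpperHalfPlane
open Fermat.Agent.GalRep
open Fermat.Agent.GalRep.Level
open Fermat.Agent.GalRep.Model (chartRing mem_chartRing_iff C_pi_prime SeriesField isIntegral_adjoin_iff)
open Fermat.Agent.MCurve (levelRing translate redExp IsGoodRing LExp)
open scoped MatrixGroups

variable {O : Type} [CommRing O] [IsDomain O] [IsDiscreteValuationRing O] {M : ℕ} [NeZero M]
  {E : Emb O M} {π : O}

/-- Fractions with denominator a power of `X`. -/
def PoleBound (z : SeriesField O) : Prop :=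
  ∃ (N : ℕ) (P : PowerSeries O), z * algebraMap (PowerSeries O) (SeriesField O) (PowerSeries.X ^ N) =
    algebraMap (PowerSeries O) (SeriesField O) P

theorem PoleBound.of_le {z : SeriesField O} {N N' : ℕ} (h : N ≤ N') {P : PowerSeries O}
    (hz : z * algebraMap (PowerSeries O) (SeriesField O) (PowerSeries.X ^ N) = algebraMap (PowerSeries O) (SeriesField O) P) :
    z * algebraMap (PowerSeries O) (SeriesField O) (PowerSeries.X ^ N') =
      algebraMap (PowerSeries O) (SeriesField O) (P * PowerSeries.X ^ (N' - N)) := by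
  rw [map_mul, ← hz, mul_assoc, ← map_mul, ← pow_add, Nat.add_sub_cancel' h]

theorem PoleBound.ofPS (P : PowerSeries O) :
    PoleBound (algebraMap (PowerSeries O) (SeriesField O) P) := ⟨0, P, by rw [pow_zero, map_one, mul_one]⟩

theorem PoleBound.add {x y : SeriesField O} (hx : PoleBound x) (hy : PoleBound y) :
    PoleBound (x + y) := by
  obtain ⟨a, P, hP⟩ := hx
  obtain ⟨b, Q, hQ⟩ := hy
  exact ⟨max a b, P * PowerSeries.X ^ (max a b - a) + Q * PowerSeries.X ^ (max a b - b), by
    rw [add_mul, map_add, ← PoleBound.of_le (le_max_left a b) hP,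
      ← PoleBound.of_le (le_max_right a b) hQ]⟩

theorem PoleBound.mul {x y : SeriesField O} (hx : PoleBound x) (hy : PoleBound y) :
    PoleBound (x * y) := by
  obtain ⟨a, P, hP⟩ := hx
  obtain ⟨b, Q, hQ⟩ := hy
  exact ⟨a + b, P * Q, by rw [map_mul, ← hP, ← hQ, pow_add, map_mul]; ring⟩

theorem PoleBound.of_root {y : SeriesField O} {d : ℕ} {c : ℕ → SeriesField O}
    (hc : ∀ i, PoleBound (c i)) (he : y ^ d + ∑ i ∈ Finset.range d, c i * y ^ i = 0) :
    PoleBound y := by
  classical
  choose Nc Pc hPc using hc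
  set N := (Finset.range d).sup Nc
  set z := y * algebraMap (PowerSeries O) (SeriesField O) (PowerSeries.X ^ N)
  let c' : ℕ → PowerSeries O := fun i =>
    Pc i * PowerSeries.X ^ (N - Nc i) * PowerSeries.X ^ (N * (d - i - 1))
  have hint : IsIntegral (PowerSeries O) z := by
    refine ⟨X ^ d + ∑ i : Fin d, C (c' i) * X ^ (i : ℕ), monic_X_pow_add (degree_sum_fin_lt _), ?_⟩
    simp only [eval₂_add, eval₂_X_pow, eval₂_finsetSum, eval₂_mul, eval₂_C]
    rw [Fin.sum_univ_eq_sum_range
      (fun i => algebraMap (PowerSeries O) (SeriesField O) (c' i) * z ^ i) d]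
    have e : ∀ i ∈ Finset.range d, algebraMap (PowerSeries O) (SeriesField O) (c' i) * z ^ i =
        algebraMap (PowerSeries O) (SeriesField O) (PowerSeries.X ^ (N * d)) * (c i * y ^ i) := by
      intro i hi
      have h1 : i < d := Finset.mem_range.mp hi
      rw [show N * d = N + N * (d - i - 1) + N * i by
        obtain ⟨r, rfl⟩ := Nat.exists_eq_add_of_lt h1
        rw [show i + r + 1 - i - 1 = r by omega]; ring]
      simp only [c', z, mul_pow, pow_add, map_mul, ← map_pow, ← pow_mul,
        ← PoleBound.of_le (Finset.le_sup (f := Nc) hi) (hPc i)]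
      rw [← map_mul, ← PoleBound.of_le (Finset.le_sup (f := Nc) hi) (hPc i)]
      ring
    rw [Finset.sum_congr rfl e, ← Finset.mul_sum]
    simp only [z, mul_pow, ← map_pow, ← pow_mul]
    linear_combination (algebraMap (PowerSeries O) (SeriesField O) (PowerSeries.X ^ (N * d))) * he
  obtain ⟨P, hP⟩ := IsIntegrallyClosed.isIntegral_iff.mp hint
  exact ⟨N, P, hP.symm⟩

theorem poleBound_aeval_jF (P : O[X]) : PoleBound (serF E (aeval (jF E) P)) := by
  induction P using Polynomial.induction_on with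
  | C a => rw [aeval_C, serF_algebraMap]; exact PoleBound.ofPS _
  | add p q hp hq => rw [map_add, map_add]; exact hp.add hq
  | monomial n a ih =>
    rw [pow_succ, ← mul_assoc, map_mul, map_mul, aeval_X]
    exact ih.mul ⟨M, _, serF_jF E⟩

theorem poleBound_chart {x : Fld E} (hx : x ∈ chartRing O (jF E)) : PoleBound (serF E x) := by
  obtain ⟨P, hP, hPx⟩ := (isIntegral_adjoin_iff _ _).mp ((mem_chartRing_iff).mp hx)
  have h := congrArg (serF E) hPx
  rw [map_zero, eval₂_eq_sum_range, Finset.sum_range_succ,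
    show P.coeff P.natDegree = 1 from hP, map_one, one_mul, map_add, map_pow, map_sum] at h
  refine PoleBound.of_root (d := P.natDegree) (c := fun i => serF E (aeval (jF E) (P.coeff i)))
    (fun i => poleBound_aeval_jF _) (Eq.trans ?_ h)
  rw [add_comm]
  congr 1
  refine Finset.sum_congr rfl fun i _ => ?_
  rw [map_mul, map_pow]
  rfl

theorem fShift_mem_chart {x : Fld E} (hx : x ∈ chartRing O (jF E)) (g : SL(2, ℤ)) :
    fShift E g x ∈ chartRing O (jF E) := by
  have hg : shiftHom E g⁻¹ ∈ transG E := ⟨_, rfl⟩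
  have := smul_mem_chart (fun σ : transG E => transG_smul_jF E σ) (⟨_, hg⟩ : transG E) hx
  rwa [transG_smul_def, shiftHom_apply, inv_inv] at this

/-- The series of a function at a cusp, its integrality and the test of vanishing on the component. -/
theorem exists_series_test (hπ : Irreducible π) {φ : bddMF E} {δ : SL(2, ℤ)}
    (hp : PoleBound (serAt E δ (toFld E φ))) :
    ∃ P : ℤ → O, (∀ k, (serAlg M (shift M δ (φ : MF M))).coeff k = E.φ (P k)) ∧
      (toFld E φ ∈ (gaussP E hπ δ).nonunits ↔ ∀ k, π ∣ P k) := by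
  classical
  obtain ⟨N, P, hP⟩ := hp
  have hs := congrArg E.toC hP
  rw [map_mul, E.toC_algebraMap, E.toC_algebraMap, serAt, RingHom.comp_apply,
    RingEquiv.toRingHom_eq_coe, RingHom.coe_coe, fShift_toFld, toC_serF, toLS_toFld] at hs
  have hX : E.gO (PowerSeries.X ^ N) = HahnSeries.single (N : ℤ) (1 : ℂ) := by
    rw [Emb.gO, RingHom.comp_apply, map_pow, PowerSeries.map_X, map_pow,
      HahnSeries.ofPowerSeries_X, HahnSeries.single_pow, one_pow, nsmul_eq_mul, mul_one]
  rw [hX] at hs
  let Q : ℤ → O := fun k => if 0 ≤ k + N then PowerSeries.coeff (k + N).toNat P else 0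
  refine ⟨Q, fun k => ?_, ?_⟩
  · have h1 := congrArg (fun s : LaurentSeries ℂ => s.coeff (k + N)) hs
    simp only [HahnSeries.coeff_mul_single_add, mul_one, Emb.gO, RingHom.comp_apply] at h1
    change (serAlg M (shift M δ (φ : MF M))).coeff k = _ at h1
    rw [h1]
    simp only [Q]
    split_ifs with hk
    · obtain ⟨i, hi⟩ := Int.eq_ofNat_of_zero_le hk
      rw [hi, HahnSeries.ofPowerSeries_apply_coeff, PowerSeries.coeff_map, Int.toNat_natCast]
    · rw [map_zero, HahnSeries.ofPowerSeries_apply, HahnSeries.embDomain_of_notMem_range]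
      rintro ⟨i, hi⟩
      simp at hi
      omega
  have key : (∀ k, π ∣ Q k) ↔ PowerSeries.C π ∣ P := by
    constructor
    · intro h
      have h' : ∀ i : ℕ, π ∣ PowerSeries.coeff i P := fun i => by
        simpa [Q] using h ((i : ℤ) - N)
      choose c hc using h'
      exact ⟨PowerSeries.mk c, PowerSeries.ext fun i => by
        rw [PowerSeries.coeff_C_mul, PowerSeries.coeff_mk, ← hc]⟩
    · rintro ⟨c, rfl⟩ k
      simp only [Q]
      split_ifs
      · rw [PowerSeries.coeff_C_mul]; exact dvd_mul_right _ _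
      · exact dvd_zero π
  rw [key, mem_nonunits_gaussP, mem_nonunits_gaussRing hπ]
  have hXn : ¬ PowerSeries.C π ∣ (PowerSeries.X ^ N : PowerSeries O) := by
    rintro ⟨c, hc⟩
    have := congrArg (PowerSeries.coeff N) hc
    rw [PowerSeries.coeff_X_pow_self, PowerSeries.coeff_C_mul] at this
    exact hπ.not_isUnit (IsUnit.of_mul_eq_one _ this.symm)
  refine ⟨?_, fun hd => ⟨P, _, hXn, hd, hP⟩⟩
  rintro ⟨a, b, hb, ha, he⟩
  have h2 : P * b = a * PowerSeries.X ^ N := IsFractionRing.injective (PowerSeries O) (SeriesField O)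
    (by rw [map_mul, map_mul, ← hP, ← he]; ring)
  exact ((C_pi_prime hπ).dvd_or_dvd (h2 ▸ ha.mul_right _)).resolve_right hb

theorem exists_num_invariant (hπ : Irreducible π) (x : Fld E) :
    ∃ (φ : bddMF E) (Q : O[X]), ¬ C π ∣ Q ∧ x * aeval (jF E) Q = toFld E φ := by
  classical
  obtain ⟨a, b, hb, rfl⟩ := exists_eq_div E x
  haveI : Fintype SL(2, ZMod M) := Fintype.ofFinite _
  let N : bddMF E := ∏ y : SL(2, ZMod M), shiftB E (Level.lift y) b
  let c : bddMF E := ∏ y ∈ (Finset.univ : Finset SL(2, ZMod M)).erase 1, shiftB E (Level.lift y) b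
  have hbc : b * c = N := by
    show b * c = ∏ y : SL(2, ZMod M), shiftB E (Level.lift y) b
    rw [← Finset.mul_prod_erase Finset.univ _ (Finset.mem_univ (1 : SL(2, ZMod M)))]
    congr 1
    refine Subtype.ext ?_
    show (b : MF M) = shift M (Level.lift (1 : SL(2, ZMod M))) b
    rw [shift_eq_of_red_eq (g := Level.lift (1 : SL(2, ZMod M))) (h := 1)
      (by rw [red_lift, map_one]), shift_one]
  have hinvN : ∀ g, shift M g (N : MF M) = N := fun g => by
    have e : ∀ y, shift M g ((shiftB E (Level.lift y) b : bddMF E) : MF M) =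
        ((shiftB E (Level.lift (y * red M g)) b : bddMF E) : MF M) := fun y => by
      show shift M g (shift M (Level.lift y) (b : MF M)) = shift M (Level.lift (y * red M g)) b
      rw [shift_shift]
      exact shift_eq_of_red_eq (by rw [map_mul, red_lift, red_lift]) _
    simp only [N, SubmonoidClass.coe_finsetProd, map_prod, e]
    exact Fintype.prod_equiv (Equiv.mulRight (red M g)) _ _ fun y => rfl
  have hN0 : N ≠ 0 := by
    refine Finset.prod_ne_zero_iff.mpr fun y _ h0 => hb ((shiftB E (Level.lift y)).injective ?_)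
    rw [h0, map_zero]
  obtain ⟨P₀, hP₀⟩ := exists_eval_of_invariant E N.2 hinvN
  have hden : ∀ R : Polynomial E.K, ∃ (d : O) (R' : O[X]), d ≠ 0 ∧
      R'.map E.φ = Polynomial.C (E.φ d) * R.map E.K.subtype := fun R => by
    induction R using Polynomial.induction_on' with
    | add p q hp hq =>
      obtain ⟨d, p', hd, hp'⟩ := hp
      obtain ⟨d', q', hd', hq'⟩ := hq
      refine ⟨d * d', Polynomial.C d' * p' + Polynomial.C d * q', mul_ne_zero hd hd', ?_⟩
      simp only [Polynomial.map_add, Polynomial.map_mul, Polynomial.map_C, hp', hq', map_mul]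
      ring
    | monomial n k =>
      obtain ⟨u, v, hv, hk⟩ := exists_frac_of_mem E k.2
      refine ⟨v, monomial n u, hv, ?_⟩
      rw [Polynomial.map_monomial, Polynomial.map_monomial, C_mul_monomial]
      congr 1
      show E.φ u = E.φ v * (k : ℂ)
      rw [hk, mul_div_cancel₀ _ ((map_ne_zero_iff _ E.inj).mpr hv)]
  obtain ⟨d, Q₀, hd, hQ₀⟩ := hden P₀
  have eQ : aeval (jF E) Q₀ = algebraMap O (Fld E) d * toFld E N := toLS_injective E (by
    rw [map_mul, toLS_algebraMap, toLS_toFld, toFld_aeval, hQ₀, map_mul, map_mul, ← hP₀, aeval_C,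
      AlgHom.commutes, HahnSeries.algebraMap_apply']
    simp)
  have hd0 : algebraMap O (Fld E) d ≠ 0 := (map_ne_zero_iff _ (algebraMap_injective E)).mpr hd
  have hQ0 : Q₀ ≠ 0 := by
    rintro rfl
    rw [map_zero, eq_comm, mul_eq_zero] at eQ
    exact eQ.elim hd0 fun h => hN0 (toFld_injective E (h.trans (map_zero _).symm))
  obtain ⟨k, Q, hQ, hkQ⟩ := WfDvdMonoid.max_power_factor hQ0
    (prime_C_iff.mpr hπ.prime).irreducible
  have hπk : algebraMap O (Fld E) (π ^ k) ≠ 0 :=
    (map_ne_zero_iff _ (algebraMap_injective E)).mpr (pow_ne_zero _ hπ.ne_zero)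
  have hcK : (E.φ d / E.φ (π ^ k)) ∈ E.K := div_mem (E.φ_mem _) (E.φ_mem _)
  refine ⟨⟨algebraMap ℂ (MF M) (E.φ d / E.φ (π ^ k)), algebraMap_mem_bddMF E hcK⟩ * (a * c), Q, hQ,
    ?_⟩
  refine mul_left_cancel₀ hπk ?_
  have hbF : toFld E b ≠ 0 := (map_ne_zero_iff _ (toFld_injective E)).mpr hb
  have e1 : algebraMap O (Fld E) (π ^ k) *
      toFld E ⟨algebraMap ℂ (MF M) (E.φ d / E.φ (π ^ k)), algebraMap_mem_bddMF E hcK⟩ =
        algebraMap O (Fld E) d := by
    refine toLS_injective E ?_
    rw [map_mul, toLS_algebraMap, toLS_algebraMap, toLS_toFld, AlgHom.commutes,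
      HahnSeries.algebraMap_apply']
    have : E.φ (π ^ k) ≠ 0 := (map_ne_zero_iff _ E.inj).mpr (pow_ne_zero _ hπ.ne_zero)
    simp only [HahnSeries.C_apply, Algebra.algebraMap_self, RingHom.id_apply,
      HahnSeries.single_mul_single, add_zero, mul_div_cancel₀ _ this, ← PowerSeries.C_eq_algebraMap,
      HahnSeries.ofPowerSeries_C]
  have e2 : algebraMap O (Fld E) (π ^ k) * aeval (jF E) Q = aeval (jF E) Q₀ := by
    rw [hkQ, map_mul, map_pow (aeval (jF E)), aeval_C, map_pow]
  have h3 := e2.trans eQ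
  rw [← hbc, map_mul] at h3
  have h4 := div_mul_cancel₀ (toFld E a) hbF
  rw [map_mul, map_mul]
  linear_combination (toFld E a / toFld E b) * h3 - (toFld E a * toFld E c) * e1 +
    (algebraMap O (Fld E) d * toFld E c) * h4

/-- A function of level `Γ(m)` vanishing on the component at infinity vanishes on all of them. -/
theorem nonunit_gauss_of_level (hπ : Irreducible π) {m : ℕ} [NeZero m] (hm : m ∣ M)
    (hmu : IsUnit (m : O)) {x : Fld E} (hx : x ∈ chartRing O (jF E))
    (hinv : ∀ g ∈ Gamma m, fShift E g x = x) (δ : SL(2, ℤ)) :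
    x ∈ (gaussP E hπ δ).nonunits ↔ x ∈ (gaussP E hπ 1).nonunits := by
  classical
  obtain ⟨φ, Q, hQ, hxQ⟩ := exists_num_invariant (E := E) hπ x
  -- the test
  have hfix : ∀ (g : SL(2, ℤ)) (R : O[X]), fShift E g (aeval (jF E) R) = aeval (jF E) R := by
    intro g R
    induction R using Polynomial.induction_on with
    | C a => rw [aeval_C, fShift_algebraMap]
    | add p q hp hq => rw [map_add, map_add, hp, hq]
    | monomial n a ih => rw [pow_succ, ← mul_assoc, map_mul, aeval_X, map_mul, ih, fShift_jF]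
  have hser : ∀ δ, serAt E δ (toFld E φ) = serF E (fShift E δ x) * serF E (aeval (jF E) Q) := fun δ => by
    rw [← hxQ, map_mul]
    congr 1
    rw [serAt, RingHom.comp_apply, RingEquiv.toRingHom_eq_coe, RingHom.coe_coe]
    congr 1
    exact hfix δ Q
  have htest : ∀ δ, ∃ P : ℤ → O, (∀ k, (serAlg M (shift M δ (φ : MF M))).coeff k = E.φ (P k)) ∧
      (x ∈ (gaussP E hπ δ).nonunits ↔ ∀ k, π ∣ P k) := fun δ => by
    obtain ⟨P, hP, hiff⟩ := exists_series_test (φ := φ) (δ := δ) hπ (by
      rw [hser]; exact (poleBound_chart (fShift_mem_chart hx δ)).mul (poleBound_aeval_jF Q))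
    refine ⟨P, hP, Iff.trans ?_ hiff⟩
    rw [mem_nonunits_gaussP, mem_nonunits_gaussP, hser,
      show serAt E δ x = serF E (fShift E δ x) from rfl]
    set u := serF E (aeval (jF E) Q)
    have hu : u ∈ gaussRing hπ ∧ u ∉ (gaussRing hπ).nonunits := ⟨by
      have h1 := (chart_le_gaussP E hπ 1).1 (aeval (jF E) Q)
        (by rw [← coe_polyHom]; exact SetLike.coe_mem _)
      rwa [mem_gaussP, serAt, RingHom.comp_apply, RingEquiv.toRingHom_eq_coe, RingHom.coe_coe,
        fShift_one] at h1, fun h => hQ (centre_jF E hπ Q h)⟩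
    rw [ValuationSubring.mem_nonunits_iff, ValuationSubring.mem_nonunits_iff, map_mul,
      le_antisymm (((gaussRing hπ).valuation_le_one_iff u).mpr hu.1)
        (not_lt.mp fun h => hu.2 ((gaussRing hπ).mem_nonunits_iff.mpr h)), mul_one]
  choose P hP hPiff using htest
  -- invariance
  have hφinv : ∀ g ∈ Gamma m, shift M g (φ : MF M) = φ := fun g hg => by
    have h1 : fShift E g (toFld E φ) = toFld E φ := by
      rw [← hxQ, map_mul, hinv g hg]
      congr 1
      exact hfix g Q
    rw [fShift_toFld] at h1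
    exact congrArg Subtype.val (toFld_injective E h1)
  -- the subring of constants and its reduction
  let e : O ≃+* E.φ.range := RingEquiv.ofBijective E.φ.rangeRestrict
    ⟨fun a b h => E.inj (congrArg Subtype.val h), E.φ.rangeRestrict_surjective⟩
  let r : E.φ.range →+* ResidueField O := (residue O).comp e.symm.toRingHom
  have hr : ∀ (a : O) (h : E.φ a ∈ E.φ.range), r ⟨E.φ a, h⟩ = residue O a := fun a h => by
    show residue O (e.symm ⟨E.φ a, h⟩) = _
    congr 1
    exact e.injective (by rw [e.apply_symm_apply]; exact Subtype.ext rfl)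
  have hA : IsGoodRing m E.φ.range := by
    refine ⟨fun ζ hζ => ?_, ?_⟩
    · have hM : ζ ^ M = 1 := by
        obtain ⟨t, ht⟩ := hm
        rw [ht, pow_mul, hζ, one_pow]
      obtain ⟨i, -, hi⟩ := (Complex.isPrimitiveRoot_exp M (NeZero.ne M)).eq_pow_of_pow_eq_one hM
      exact ⟨E.ζ ^ i, by rw [map_pow, E.map_ζ, ← hi]; rfl⟩
    · obtain ⟨v, hv⟩ := hmu.exists_right_inv
      refine ⟨v, eq_inv_of_mul_eq_one_right ?_⟩
      rw [← map_natCast E.φ, ← map_mul, hv, map_one]
  have hk : (m : ResidueField O) ≠ 0 := by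
    rw [← map_natCast (residue O)]; exact (hmu.map _).ne_zero
  obtain ⟨s, hs⟩ := hm
  have hs0 : s ≠ 0 := fun h => NeZero.ne M (by rw [hs, h, mul_zero])
  -- the series in width `m`
  have hseries : ∀ δ, ∃ t : LaurentSeries E.φ.range,
      LExp (m : ℝ) ((shift M δ (φ : MF M) : MF M) : ℍ → ℂ) (ModularCurve.coeffMap E.φ.range.subtype t) ∧
      ((∀ k, π ∣ P δ k) ↔ ModularCurve.coeffMap r t = 0) := by
    intro δ
    set G : MF M := shift M δ (φ : MF M)
    have hper : ∀ τ : ℍ, (G : ℍ → ℂ) ((m : ℝ) +ᵥ τ) = (G : ℍ → ℂ) τ := fun τ => by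
      have h1 := congrArg (fun F : MF M => (F : ℍ → ℂ) (δ • τ))
        (hφinv _ ((Gamma_normal m).conj_mem _ (ModularGroup_T_pow_mem_Gamma m m dvd_rfl) δ))
      simp only [shift_apply, mul_smul, inv_smul_smul] at h1
      rw [modular_T_zpow_smul, Int.cast_natCast] at h1
      simpa only [G, shift_apply] using h1
    obtain ⟨g, hg⟩ := exists_hasQSeries_of_periodic G.2.holo hper (NeZero.pos M)
      (hasQSeries_serHom G)
    have hexp : expand s hs0 g = serHom M G := by
      have h1 := hg.refine_width (NeZero.pos m) s hs0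
      rw [← hs] at h1
      exact h1.unique (NeZero.pos M) (hasQSeries_serHom G)
    have hcoef : ∀ j : ℤ, g.coeff j = E.φ (P δ ((s : ℤ) * j)) := fun j => by
      rw [← hP δ, ← expand_coeff_mul s hs0 g j, hexp]
      rfl
    obtain ⟨t, ht⟩ := MCurve.exists_coeffMap_subtype_eq (A := E.φ.range) (s := g)
      fun j => ⟨_, (hcoef j).symm⟩
    have hzero : ∀ k : ℤ, ¬ (s : ℤ) ∣ k → P δ k = 0 := fun k hk => E.inj (by
      rw [map_zero, ← hP δ k]
      show (serHom M G).coeff k = 0
      rw [← hexp, expand_coeff_of_not_dvd s hs0 g k hk])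
    refine ⟨t, ht ▸ lExp_of_hasQSeries (NeZero.pos m) G.2.holo hper hg, ?_⟩
    have hres : ∀ j : ℤ, r (t.coeff j) = residue O (P δ ((s : ℤ) * j)) := fun j => by
      rw [← hr _ ⟨_, rfl⟩]
      congr 1
      refine Subtype.ext (Eq.trans ?_ (hcoef j))
      rw [← ht]
      rfl
    constructor
    · intro h
      refine HahnSeries.ext (funext fun j => ?_)
      show r (t.coeff j) = 0
      rw [hres, residue_eq_zero_iff, hπ.maximalIdeal_eq, Ideal.mem_span_singleton]
      exact h _
    · intro h k
      by_cases hk : (s : ℤ) ∣ k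
      · obtain ⟨j, rfl⟩ := hk
        have h1 := congrArg (fun u : LaurentSeries (ResidueField O) => u.coeff j) h
        change r (t.coeff j) = 0 at h1
        rwa [hres, residue_eq_zero_iff, hπ.maximalIdeal_eq, Ideal.mem_span_singleton] at h1
      · rw [hzero k hk]; exact dvd_zero π
  have hmem : ((φ : MF M) : ℍ → ℂ) ∈ levelRing m E.φ.range := by
    refine ⟨fun γ hγ τ => ?_, fun δ => ?_⟩
    · have := congrArg (fun F : MF M => (F : ℍ → ℂ) τ) (hφinv γ hγ)
      simpa only [shift_apply] using this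
    · obtain ⟨t, ht, -⟩ := hseries δ
      refine ⟨UpperHalfPlane.mdifferentiable_iff.mp (shift M δ (φ : MF M)).2.holo, t, ?_⟩
      exact ht
  set f : levelRing m E.φ.range := ⟨_, hmem⟩
  have hred : ∀ δ, x ∈ (gaussP E hπ δ).nonunits ↔ redExp m r (translate m E.φ.range δ f) = 0 :=
    fun δ => by
    obtain ⟨t, ht, hiff⟩ := hseries δ
    rw [hPiff δ, hiff, MCurve.redExp_eq m r (t := t) ht]
  have htop := MCurve.decompGp_eq_top m r hA hk
  rw [hred δ, hred 1, MCurve.translate_one]
  exact (htop ▸ Subgroup.mem_top δ : δ ∈ MCurve.decompGp m r) f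

end Fermat.Agent.ModField
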