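/-
Functions without poles on the upper half plane whose expansions at all cusps have integral
coefficients and bounded poles are integral over `O[j]`.
-/
import Fermat.Agent.Models.Gamma0.LevelIrred
import Fermat.Agent.Models.Gamma0.Field
import Fermat.Agent.Moduli.CuspRing

set_option autoImplicit false
set_option linter.style.haveILetI false
set_option linter.unusedSectionVars false

noncomputable section

namespace Fermat.Agent.ModField

open Polynomial UpperHalfPlane CongruenceSubgroup IsLocalRing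
open Fermat.Agent.GalRep
open Fermat.Agent.GalRep.Level
open Fermat.Agent.GalRep.Model (SeriesField chartRing)
open Fermat.Agent.CuspPt (cuspInt wF wS serAt_wF exists_wS serAt_one)
open scoped MatrixGroups

variable {O : Type} [CommRing O] [IsDomain O] [IsDiscreteValuationRing O] {M : ℕ} [NeZero M]
  (E : Emb O M)

/-- The criterion's data. -/
def PoleInt (x : Fld E) : Prop :=
  x ∈ (toFld E).range ∧ ∀ g : SL(2, ℤ), PoleBound (serAt E g x)

theorem serAt_wF_pow (g : SL(2, ℤ)) (k : ℕ) :
    serAt E g (wF E ^ k) = algebraMap (PowerSeries O) (SeriesField O) (wS O M ^ k) := by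
  rw [map_pow, serAt_wF, map_pow]

/-- A multiple by a power of `1/j` is integral at the cusps. -/
theorem PoleInt.exists_cuspInt {x : Fld E} (hx : PoleInt E x) :
    ∃ k : ℕ, wF E ^ k * x ∈ cuspInt E := by
  classical
  haveI : Fintype SL(2, ZMod M) := Fintype.ofFinite _
  choose N P hP using fun y : SL(2, ZMod M) => hx.2 (Level.lift y)
  set K := Finset.univ.sup N
  refine ⟨K, fun g => ?_, K, ?_⟩
  · have hg : serAt E g x = serAt E (Level.lift (red M g)) x := by
      simp only [serAt, RingHom.comp_apply, RingEquiv.toRingHom_eq_coe, RingEquiv.coe_toRingHom,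
        fShift_congr E (red_lift (M := M) (red M g)).symm]
    obtain ⟨U, hU⟩ := exists_wS (O := O) (M := M)
    have hNK : N (red M g) ≤ M * K := (Finset.le_sup (Finset.mem_univ _)).trans
      (Nat.le_mul_of_pos_left _ (NeZero.pos M))
    refine ⟨(U : PowerSeries O) ^ K * (P (red M g) * PowerSeries.X ^ (M * K - N (red M g))), ?_⟩
    rw [map_mul, map_mul (serAt E g), serAt_wF_pow, hg, hU, mul_pow, ← pow_mul, map_mul _ (_ ^ _),
      mul_comm (algebraMap (PowerSeries O) (SeriesField O) (PowerSeries.X ^ (M * K))), mul_assoc,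
      mul_comm (algebraMap (PowerSeries O) (SeriesField O) (PowerSeries.X ^ (M * K))),
      PoleBound.of_le hNK (hP _)]
  · obtain ⟨a, ha⟩ := hx.1
    refine ⟨a, ?_⟩
    rw [ha, ← mul_assoc, ← mul_pow, show jF E * wF E = 1 from mul_inv_cancel₀ (jF_ne_zero E),
      one_pow, one_mul]

theorem PoleInt.fShift {x : Fld E} (hx : PoleInt E x) (g : SL(2, ℤ)) :
    PoleInt E (fShift E g x) := by
  obtain ⟨a, ha⟩ := hx.1
  refine ⟨⟨_, by rw [← ha, fShift_toFld]⟩, fun g' => ?_⟩
  rw [serAt_fShift]
  exact hx.2 _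

/-- An invariant such function is a polynomial in `j` over `O`. -/
theorem PoleInt.exists_aeval {x : Fld E} (hx : PoleInt E x)
    (hinv : ∀ g, ModField.fShift E g x = x) : ∃ P : O[X], x = aeval (jF E) P := by
  obtain ⟨k, hk⟩ := hx.exists_cuspInt E
  obtain ⟨Q, hQ⟩ := CuspPt.exists_aeval_of_invariant E hk fun g => by
    rw [map_mul, map_pow, show ModField.fShift E g (wF E) = wF E by
      rw [show wF E = (jF E)⁻¹ from rfl, map_inv₀, fShift_jF], hinv]
  obtain ⟨a, ha⟩ := hx.1
  have hainv : ∀ g, shift M g (a : MF M) = a := fun g => by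
    have h1 : ModField.fShift E g (toFld E a) = toFld E a := by rw [ha, hinv]
    rw [fShift_toFld] at h1
    exact congrArg Subtype.val (toFld_injective E h1)
  obtain ⟨R, hR⟩ := exists_eval_of_invariant E a.2 hainv
  set φR := R.map E.K.subtype
  -- compare inside the series
  have hj : jqN M ≠ 0 := by
    rw [← toLS_jF E]
    exact (_root_.map_ne_zero _).mpr (jF_ne_zero E)
  set D := max Q.natDegree k
  have hw : ∀ T : O[X], toLS E (aeval (wF E) T) = aeval (jqN M)⁻¹ (T.map E.φ) := fun T => by
    induction T using Polynomial.induction_on' with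
    | add p q hp hq => simp only [map_add, Polynomial.map_add, hp, hq]
    | monomial n a =>
      rw [aeval_monomial, map_mul, map_pow, toLS_algebraMap,
        show wF E = (jF E)⁻¹ from rfl, map_inv₀, toLS_jF, Polynomial.map_monomial,
        aeval_monomial, HahnSeries.algebraMap_apply']
      simp
  have e1 : aeval (jqN M) (φR * X ^ D) =
      aeval (jqN M) ((Q.map E.φ).reflect D * X ^ k) := by
    have h1 := congrArg (toLS E) hQ
    rw [map_mul, map_pow, ← ha, toLS_toFld, hR, ← aeval_algHom_apply, serAlg_jMF,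
      show toLS E (wF E) = (jqN M)⁻¹ by rw [show wF E = (jF E)⁻¹ from rfl, map_inv₀, toLS_jF],
      hw] at h1
    letI : Invertible (jqN M) := invertibleOfNonzero hj
    have h2 := eval₂_reflect_mul_pow (algebraMap ℂ (LaurentSeries ℂ)) (⅟ (jqN M)) D
      (Q.map E.φ) (by rw [natDegree_map_eq_of_injective E.inj]; exact le_max_left _ _)
    rw [invOf_invOf, invOf_eq_inv, ← aeval_def, ← aeval_def, ← h1] at h2
    rw [map_mul, map_mul, aeval_X_pow, aeval_X_pow]
    have h3 : aeval (jqN M) ((Q.map E.φ).reflect D) =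
        (jqN M)⁻¹ ^ k * aeval (jqN M) φR * jqN M ^ D := by
      rw [← h2, mul_assoc, ← mul_pow, inv_mul_cancel₀ hj, one_pow, mul_one]
    rw [h3, inv_pow]
    field_simp
  have e2 : φR * X ^ D = (Q.map E.φ).reflect D * X ^ k := by
    refine sub_eq_zero.mp (aeval_jqN_injective' (M := M) ?_)
    rw [serAlg_jMF, map_sub, e1, sub_self]
  have hc : ∀ i, φR.coeff i ∈ Set.range E.φ := fun i => by
    have h := congrArg (fun T : ℂ[X] => T.coeff (i + D)) e2
    simp only [coeff_mul_X_pow] at h
    rw [h, coeff_mul_X_pow', coeff_reflect, coeff_map]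
    split_ifs
    · exact ⟨_, rfl⟩
    · exact ⟨0, map_zero _⟩
  obtain ⟨P, hP⟩ : φR ∈ Polynomial.lifts E.φ :=
    (lifts_iff_coeff_lifts _).mpr hc
  refine ⟨P, toLS_injective E ?_⟩
  rw [← ha, toLS_toFld, hR, toFld_aeval]
  exact congrArg (fun T => serAlg M (aeval (jMF (Gamma M)) T)) hP.symm

/-- Such functions are integral over `O[j]`. -/
theorem PoleInt.mem_chartRing {x : Fld E} (hx : PoleInt E x) : x ∈ chartRing O (jF E) := by
  classical
  haveI := Fintype.ofFinite (transG E)
  rw [Model.mem_chartRing_iff, Model.isIntegral_adjoin_iff]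
  set p : (Fld E)[X] := ∏ σ : transG E, (X - C (σ • x)) with hp
  have hsub : ∀ {y z : Fld E}, PoleInt E y → PoleInt E z →
      PoleInt E (y + z) ∧ PoleInt E (y * z) := fun hy hz =>
    ⟨⟨add_mem hy.1 hz.1, fun g => by rw [map_add]; exact (hy.2 g).add (hz.2 g)⟩,
      ⟨mul_mem hy.1 hz.1, fun g => by rw [map_mul]; exact (hy.2 g).mul (hz.2 g)⟩⟩
  let S : Subsemiring (Fld E) :=
    { carrier := {y | PoleInt E y}
      one_mem' := ⟨one_mem _, fun g => by
        rw [map_one, ← map_one (algebraMap (PowerSeries O) (SeriesField O))]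
        exact PoleBound.ofPS 1⟩
      zero_mem' := ⟨zero_mem _, fun g => by
        rw [map_zero, ← map_zero (algebraMap (PowerSeries O) (SeriesField O))]
        exact PoleBound.ofPS 0⟩
      add_mem' := fun hy hz => (hsub hy hz).1
      mul_mem' := fun hy hz => (hsub hy hz).2 }
  have hneg : PoleInt E (-1 : Fld E) := ⟨neg_mem (one_mem _), fun g => by
    rw [map_neg, map_one, ← map_one (algebraMap (PowerSeries O) (SeriesField O)), ← map_neg]
    exact PoleBound.ofPS _⟩
  have hmem : ∀ σ : transG E, -(σ • x) ∈ S := fun σ => by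
    obtain ⟨g, hg⟩ := (mem_transG E).mp σ.2
    rw [transG_smul_def, hg, ← neg_one_mul]
    exact (hsub hneg (hx.fShift E g)).2
  have hlift : p ∈ Polynomial.lifts S.subtype := Subsemiring.prod_mem _ fun σ _ => by
    rw [sub_eq_add_neg, ← C_neg]
    exact add_mem (Polynomial.X_mem_lifts _) (Polynomial.C_mem_lifts S.subtype ⟨_, hmem σ⟩)
  have hfix : ∀ g n, ModField.fShift E g (p.coeff n) = p.coeff n := by
    intro g n
    let τ : transG E := ⟨shiftHom E g⁻¹, ⟨_, rfl⟩⟩
    have hτ : ∀ y, ModField.fShift E g y = τ • y := fun y => by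
      rw [transG_smul_def]
      show _ = shiftHom E g⁻¹ y
      rw [shiftHom_apply, inv_inv]
    have h' : τ • p = p := by
      rw [hp, Finset.smul_prod']
      refine Fintype.prod_equiv (Equiv.mulLeft τ) _ _ fun σ => ?_
      simp [smul_sub, mul_smul]
    rw [hτ, ← coeff_smul, h']
  have hl : p ∈ Polynomial.lifts (aeval (jF E) : O[X] →ₐ[O] Fld E).toRingHom := by
    rw [lifts_iff_coeff_lifts]
    intro n
    obtain ⟨c, hc⟩ := (lifts_iff_coeff_lifts _).mp hlift n
    obtain ⟨P, hP⟩ := (show PoleInt E (p.coeff n) from hc ▸ c.2).exists_aeval E fun g => hfix g n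
    exact ⟨P, hP.symm⟩
  obtain ⟨P, hP, -, hPm⟩ :=
    lifts_and_natDegree_eq_and_monic hl (monic_prod_of_monic _ _ fun σ _ => monic_X_sub_C _)
  refine ⟨P, hPm, ?_⟩
  rw [← eval_map, hP, hp, eval_prod]
  exact Finset.prod_eq_zero (Finset.mem_univ (1 : transG E)) (by simp)

end Fermat.Agent.ModField
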