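/-
The unit `q¹² Δ(qτ) / Δ(τ)` in the field of level `Γ₀(q) ∩ Γ(m)`: up to a power of the parameter and
a unit series it is `q¹²` at the cusps over infinity and `1` at the others.
-/
import Fermat.Agent.Models.Gamma0.Chart
import Fermat.Agent.Mazur3.DeltaQuot

set_option autoImplicit false
set_option linter.style.haveILetI false
set_option linter.unusedSectionVars false

noncomputable section

namespace Fermat.Agent.ModField

open UpperHalfPlane CongruenceSubgroup IsLocalRing
open Fermat.Agent.GalRep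
open Fermat.Agent.GalRep.Level
open Fermat.Agent.GalRep.Model (SeriesField)
open Fermat.Agent.Mazur3 (uFun isModFun_uFun uFun_cases intSer dSer dInvSer hasQSeries_dSer
  hasQSeries_dInvSer)
open scoped MatrixGroups

variable {O : Type} [CommRing O] [IsDomain O] {M : ℕ} [NeZero M] {E : Emb O M}

/-- A power of the parameter times a unit series over the base. -/
def GoodSer (E : Emb O M) (s : LaurentSeries ℂ) : Prop :=
  ∃ (n : ℤ) (U : PowerSeries O), IsUnit U ∧ s = HahnSeries.single n (1 : ℂ) * E.gO U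

theorem GoodSer.mul {s t : LaurentSeries ℂ} (hs : GoodSer E s) (ht : GoodSer E t) :
    GoodSer E (s * t) := by
  obtain ⟨a, U, hU, rfl⟩ := hs
  obtain ⟨b, V, hV, rfl⟩ := ht
  refine ⟨a + b, U * V, hU.mul hV, ?_⟩
  rw [map_mul, ← mul_one (1 : ℂ), ← HahnSeries.single_mul_single, mul_one]
  ring

theorem GoodSer.of_int (n : ℤ) {P : PowerSeries ℤ} (hP : PowerSeries.constantCoeff P = 1) :
    GoodSer E (HahnSeries.single n (1 : ℂ) * intSer P) := by
  refine ⟨n, PowerSeries.map (Int.castRingHom O) P, ?_, ?_⟩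
  · rw [PowerSeries.isUnit_iff_constantCoeff, ← PowerSeries.coeff_zero_eq_constantCoeff_apply,
      PowerSeries.coeff_map, PowerSeries.coeff_zero_eq_constantCoeff_apply, hP, map_one]
    exact isUnit_one
  · congr 1
    rw [intSer, Emb.gO, RingHom.comp_apply]
    congr 1
    ext k
    simp

theorem GoodSer.expand {s : LaurentSeries ℂ} (hs : GoodSer E s) {k : ℕ} (hk : k ≠ 0) :
    GoodSer E (GalRep.expand k hk s) := by
  obtain ⟨n, U, hU, rfl⟩ := hs
  refine ⟨(k : ℤ) * n, PowerSeries.expand k hk U, hU.map (PowerSeries.expand k hk), ?_⟩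
  rw [map_mul, expand_single', Emb.gO, RingHom.comp_apply, expand_ofPowerSeries, RingHom.comp_apply,
    PowerSeries.map_expand]

theorem GoodSer.twist {s : LaurentSeries ℂ} (hs : GoodSer E s) {ζ : ℂˣ} (hζ : ζ ^ M = 1) :
    GoodSer E (GalRep.twist ζ s) := by
  obtain ⟨n, U, hU, rfl⟩ := hs
  obtain ⟨i, -, hi⟩ := (Complex.isPrimitiveRoot_exp M (NeZero.ne M)).eq_pow_of_pow_eq_one
    (ξ := (ζ : ℂ)) (by rw [← Units.val_pow_eq_pow_val, hζ, Units.val_one])
  have hz : E.φ (E.ζ ^ i) = ζ := by rw [map_pow, E.map_ζ, ← hi]; rfl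
  have hu : IsUnit (E.ζ ^ i) := IsUnit.of_pow_eq_one (n := M) (E.inj (by
    rw [map_pow, map_one, hz, ← Units.val_pow_eq_pow_val, hζ, Units.val_one])) (NeZero.ne M)
  obtain ⟨z, hz'⟩ := hu
  have hzn : E.φ ((z ^ n : Oˣ) : O) = ((ζ ^ n : ℂˣ) : ℂ) := by
    have e : Units.map E.φ.toMonoidHom z = ζ := Units.ext (by
      show E.φ (z : O) = _
      rw [hz', hz])
    rw [← e, ← map_zpow]
    rfl
  refine ⟨n, PowerSeries.C ((z ^ n : Oˣ) : O) * PowerSeries.rescale (z : O) U,
    ((Units.isUnit _).map PowerSeries.C).mul (hU.map (PowerSeries.rescale _)), ?_⟩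
  rw [map_mul, map_mul, ← mul_assoc]
  congr 1
  · rw [Emb.gO, RingHom.comp_apply, PowerSeries.map_C, HahnSeries.ofPowerSeries_C,
      HahnSeries.C_apply, HahnSeries.single_mul_single, add_zero, one_mul, hzn]
    ext k
    rw [twist_coeff]
    rcases eq_or_ne k n with rfl | hk
    · rw [HahnSeries.coeff_single_same, HahnSeries.coeff_single_same, one_mul]
    · rw [HahnSeries.coeff_single_of_ne hk, HahnSeries.coeff_single_of_ne hk, zero_mul]
  · ext k
    rw [twist_coeff, Emb.gO, RingHom.comp_apply, RingHom.comp_apply]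
    by_cases hk : ∃ j : ℕ, (j : ℤ) = k
    · obtain ⟨j, rfl⟩ := hk
      rw [HahnSeries.ofPowerSeries_apply_coeff, HahnSeries.ofPowerSeries_apply_coeff,
        PowerSeries.coeff_map, PowerSeries.coeff_map, PowerSeries.coeff_rescale, map_mul, map_pow,
        hz', hz, zpow_natCast, Units.val_pow_eq_pow_val]
      exact mul_comm _ _
    · rw [HahnSeries.ofPowerSeries_apply, HahnSeries.ofPowerSeries_apply,
        HahnSeries.embDomain_of_notMem_range, HahnSeries.embDomain_of_notMem_range, zero_mul]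
      all_goals rintro ⟨j, hj⟩; exact hk ⟨j, hj⟩

theorem goodSer_dSer : GoodSer E dSer :=
  GoodSer.of_int 1 (by rw [map_pow, ModularCurve.constantCoeff_etaProd, one_pow])

theorem goodSer_dInvSer : GoodSer E dInvSer :=
  GoodSer.of_int (-1) (by
    have h := congrArg PowerSeries.constantCoeff ModularCurve.dedekindEtaUnit_mul_inv
    rwa [map_mul, show ModularCurve.dedekindEtaUnit = ModularCurve.etaProd ^ 24 from rfl, map_pow,
      ModularCurve.constantCoeff_etaProd, one_pow, one_mul, map_one] at h)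

variable (q : ℕ) [hq : Fact q.Prime]

/-- The unit at level `Γ(M)`. -/
def uM (hqM : q ∣ M) : MF M :=
  ⟨uFun q, modFuns_anti ((Gamma_le_Gamma0 M).trans fun g hg => by
    rw [Gamma0_mem] at hg ⊢
    have := congrArg (ZMod.castHom hqM (ZMod q)) hg
    rwa [map_intCast, map_zero] at this) (isModFun_uFun q)⟩

variable {q}

theorem shift_uM_of_mem (hqM : q ∣ M) {g : SL(2, ℤ)} (hg : g ∈ Gamma0 q) :
    shift M g (uM q hqM) = uM q hqM :=
  Subtype.ext (funext fun τ => (isModFun_uFun q).invariant g hg τ)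

/-- The series of the unit at every cusp. -/
theorem exists_ser_uM (hqM : q ∣ M) (δ : SL(2, ℤ)) :
    ∃ s : LaurentSeries ℂ, GoodSer E s ∧
      serAlg M (shift M δ (uM q hqM)) =
        HahnSeries.C (if (q : ℤ) ∣ δ 1 0 then (q : ℂ) ^ 12 else 1) * s := by
  have hM := NeZero.pos M
  have hmem : δ ∈ Gamma0 q ↔ (q : ℤ) ∣ δ 1 0 := by
    rw [Gamma0_mem, ZMod.intCast_zmod_eq_zero_iff_dvd]
  by_cases hδ : (q : ℤ) ∣ δ 1 0
  · rw [if_pos hδ, shift_uM_of_mem hqM (hmem.mpr hδ)]
    refine ⟨_, (((goodSer_dSer (E := E)).twist (one_pow M)).expand hq.out.ne_zero).mul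
      goodSer_dInvSer |>.expand (NeZero.ne M), ?_⟩
    have hd : HasQSeries 1 (fun τ => ModularForm.discriminant (posMat _ (det_diagN q) • τ))
        (GalRep.expand q hq.out.ne_zero (GalRep.twist 1 dSer)) := by
      have := hasQSeries_dSer.comp_affine one_pos q 1 hq.out.ne_zero one_pos 0
        (fun τ => posMat _ (det_diagN q) • τ) (fun τ => by rw [coe_posMat_smul]; simp) 1 (by simp)
      rwa [mul_one] at this
    have h := ((hd.mul hasQSeries_dInvSer).smul ((q : ℂ) ^ 12)).refine_width one_pos M (NeZero.ne M)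
    rw [one_mul, map_mul, HahnSeries.C_apply, expand_single', mul_zero, ← HahnSeries.C_apply] at h
    exact ((hasQSeries_serHom (uM q hqM)).congr (.of_forall fun τ => by
      show uFun q τ = _; simp only [Pi.mul_apply, uFun]; ring)).unique hM h
  · rw [if_neg hδ]
    obtain ⟨b, h⟩ := (uFun_cases q δ).resolve_left fun h => hδ (hmem.mp h.1)
    obtain ⟨r, hr⟩ := hqM
    have hr0 : r ≠ 0 := fun h0 => NeZero.ne M (by rw [hr, h0, mul_zero])
    set ζ : ℂˣ := Units.mk0 (Complex.exp (2 * Real.pi * Complex.I * b / (q * 1 : ℕ)))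
      (Complex.exp_ne_zero _) with hζ
    have hζM : ζ ^ M = 1 := by
      ext
      simp only [hζ, Units.val_pow_eq_pow_val, Units.val_mk0, mul_one, Units.val_one]
      rw [← Complex.exp_nat_mul, show (M : ℂ) * (2 * Real.pi * Complex.I * b / q) =
        ((r : ℤ) * b : ℤ) * (2 * Real.pi * Complex.I) by
          have : (q : ℂ) ≠ 0 := Nat.cast_ne_zero.2 hq.out.ne_zero
          rw [hr]; push_cast
          field_simp]
      exact Complex.exp_int_mul_two_pi_mul_I _
    refine ⟨_, ((((goodSer_dSer (E := E)).twist hζM).expand one_ne_zero).mul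
      (goodSer_dInvSer.expand hq.out.ne_zero)).expand hr0, ?_⟩
    have h1 := ((hasQSeries_dSer.comp_upper one_pos b one_pos hq.out.pos).mul
      (hasQSeries_dInvSer.refine_width one_pos q hq.out.ne_zero)).refine_width
        (by rw [one_mul]; exact hq.out.pos) r hr0
    rw [one_mul, ← hr] at h1
    simp only [map_one, one_mul]
    exact ((hasQSeries_serHom (shift M δ (uM q ⟨r, hr⟩))).congr (.of_forall fun τ => by
      show uFun q (δ • τ) = _
      rw [h τ]; simp only [Pi.mul_apply]; ring)).unique hM h1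

theorem gO_C (c : O) : E.gO (PowerSeries.C c) = HahnSeries.C (E.φ c) := by
  rw [Emb.gO, RingHom.comp_apply, PowerSeries.map_C, HahnSeries.ofPowerSeries_C]

theorem single_mem_sFld (n : ℤ) : HahnSeries.single n (1 : ℂ) ∈ E.sFld := by
  have h : ∀ k : ℕ, HahnSeries.single (k : ℤ) (1 : ℂ) ∈ E.sFld := fun k => by
    convert E.gO_mem (PowerSeries.X ^ k) using 1
    rw [Emb.gO, RingHom.comp_apply, map_pow, PowerSeries.map_X, map_pow,
      HahnSeries.ofPowerSeries_X, HahnSeries.single_pow, one_pow, nsmul_eq_mul, mul_one]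
  rcases n with k | k
  · exact h k
  · have h1 := inv_mem (h (k + 1))
    rwa [HahnSeries.inv_single, inv_one] at h1

theorem GoodSer.mem_sFld {s : LaurentSeries ℂ} (hs : GoodSer E s) : s ∈ E.sFld := by
  obtain ⟨n, U, -, rfl⟩ := hs
  exact mul_mem (single_mem_sFld n) (E.gO_mem U)

theorem uM_mem (hqM : q ∣ M) : uM q hqM ∈ bddMF E := (mem_bddMF E).mpr fun g => by
  obtain ⟨s, hs, e⟩ := exists_ser_uM (E := E) hqM g
  rw [e]
  refine mul_mem ?_ hs.mem_sFld
  split_ifs
  · rw [map_pow]; exact pow_mem (E.C_mem (by exact natCast_mem _ q)) _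
  · exact E.C_mem (one_mem _)

/-- The unit in the field of level `Γ(M)`. -/
def uF (E : Emb O M) (q : ℕ) [Fact q.Prime] (hqM : q ∣ M) : Fld E :=
  toFld E ⟨uM q hqM, uM_mem hqM⟩

/-- The unit at the cusps, as fractions of power series. -/
theorem serAt_uF [IsDiscreteValuationRing O] (hqM : q ∣ M) (δ : SL(2, ℤ)) :
    ∃ (a b : ℕ) (U : PowerSeries O), IsUnit U ∧
      serAt E δ (uF E q hqM) * algebraMap (PowerSeries O) (SeriesField O) (PowerSeries.X ^ a) =
        algebraMap (PowerSeries O) (SeriesField O)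
          (PowerSeries.C (if (q : ℤ) ∣ δ 1 0 then (q : O) ^ 12 else 1) * U * PowerSeries.X ^ b) := by
  obtain ⟨_, ⟨n, U, hU, rfl⟩, e⟩ := exists_ser_uM (E := E) hqM δ
  obtain ⟨a, b, hn⟩ : ∃ a b : ℕ, n + a = b := ⟨(-n).toNat, n.toNat, by omega⟩
  refine ⟨a, b, U, hU, E.toC_injective ?_⟩
  have hX : ∀ k : ℕ, E.gO (PowerSeries.X ^ k) = HahnSeries.single (k : ℤ) (1 : ℂ) := fun k => by
    rw [Emb.gO, RingHom.comp_apply, map_pow, PowerSeries.map_X, map_pow,
      HahnSeries.ofPowerSeries_X, HahnSeries.single_pow, one_pow, nsmul_eq_mul, mul_one]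
  rw [map_mul, E.toC_algebraMap, E.toC_algebraMap, serAt, RingHom.comp_apply,
    RingEquiv.toRingHom_eq_coe, RingHom.coe_coe, uF, fShift_toFld, toC_serF, toLS_toFld, e,
    map_mul, map_mul, gO_C, hX, hX, ← hn, ← mul_one (1 : ℂ), ← HahnSeries.single_mul_single,
    mul_one]
  split_ifs <;> simp only [map_pow, map_natCast, map_one] <;> ring

variable {W : Type} [CommRing W] [Algebra W O] [Algebra W (Fld E)] [IsScalarTower W O (Fld E)]

theorem uF_mem_fld₀ (hqM : q ∣ M) (m : ℕ) : uF E q hqM ∈ levelFld E q m (baseK W E) := by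
  refine mem_levelFld.mpr ⟨fun g hg => ?_, ?_⟩
  · rw [uF, fShift_toFld]
    exact congrArg _ (Subtype.ext (shift_uM_of_mem hqM (mem_levelG.mp hg).1))
  · rw [uF, toLS_toFld]
    obtain ⟨g, hg⟩ : ∃ g : LaurentSeries ℂ, (∀ k, g.coeff k ∈ baseK W E) ∧
        serAlg M (uM q hqM) = g := by
      refine ⟨_, fun k => ?_, rfl⟩
      have hd : HasQSeries 1 (fun τ => ModularForm.discriminant (posMat _ (det_diagN q) • τ))
          (GalRep.expand q hq.out.ne_zero (GalRep.twist 1 dSer)) := by
        have := hasQSeries_dSer.comp_affine one_pos q 1 hq.out.ne_zero one_pos 0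
          (fun τ => posMat _ (det_diagN q) • τ) (fun τ => by rw [coe_posMat_smul]; simp) 1 (by simp)
        rwa [mul_one] at this
      have h := ((hd.mul hasQSeries_dInvSer).smul ((q : ℂ) ^ 12)).refine_width one_pos M
        (NeZero.ne M)
      rw [one_mul] at h
      have e := ((hasQSeries_serHom (uM q hqM)).congr (.of_forall fun τ => by
        show uFun q τ = _; simp only [Pi.mul_apply, uFun]; ring)).unique (NeZero.pos M) h
      show (serHom M (uM q hqM)).coeff k ∈ baseK W E
      rw [e]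
      refine mem_kSer.mp ?_ k
      have hint : ∀ (j : ℤ) (P : PowerSeries ℤ),
          HahnSeries.single j (1 : ℂ) * intSer P ∈ kSer (baseK W E) := fun j P => by
        refine mul_mem (mem_kSer.mpr fun i => ?_) (mem_kSer.mpr fun i => ?_)
        · rw [HahnSeries.coeff_single]; split_ifs
          · exact one_mem _
          · exact zero_mem _
        · rw [intSer]
          by_cases hi : ∃ t : ℕ, (t : ℤ) = i
          · obtain ⟨t, rfl⟩ := hi
            rw [HahnSeries.ofPowerSeries_apply_coeff, PowerSeries.coeff_map]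
            exact intCast_mem _ _
          · rw [HahnSeries.ofPowerSeries_apply, HahnSeries.embDomain_of_notMem_range]
            · exact zero_mem _
            · rintro ⟨t, ht⟩; exact hi ⟨t, ht⟩
      have hexp : ∀ (r : ℕ) (hr : r ≠ 0) {s : LaurentSeries ℂ}, s ∈ kSer (baseK W E) →
          GalRep.expand r hr s ∈ kSer (baseK W E) := fun r hr s hs => mem_kSer.mpr fun i => by
        by_cases hi : (r : ℤ) ∣ i
        · obtain ⟨t, rfl⟩ := hi
          rw [expand_coeff_mul]; exact mem_kSer.mp hs t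
        · rw [expand_coeff_of_not_dvd _ _ _ _ hi]; exact zero_mem _
      have h1 : ∀ f : LaurentSeries ℂ, GalRep.twist (1 : ℂˣ) f = f := fun f => by ext; simp
      rw [h1]
      refine hexp _ _ (mul_mem (mem_kSer.mpr fun i => ?_) (mul_mem (hexp _ _ (hint 1 _)) (hint (-1) _)))
      rw [HahnSeries.C_apply, HahnSeries.coeff_single]
      split_ifs
      · exact pow_mem (natCast_mem _ q) _
      · exact zero_mem _
    rw [hg.2]
    exact mem_kSer.mpr hg.1

/-- The unit in the descended field. -/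
def uF₀ (W : Type) [CommRing W] [Algebra W O] [Algebra W (Fld E)] [IsScalarTower W O (Fld E)]
    (hqM : q ∣ M) (m : ℕ) : Fld₀ W E q m := ⟨uF E q hqM, uF_mem_fld₀ hqM m⟩

end Fermat.Agent.ModField
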