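/-
The function `u = q¹² Δ(qτ) / Δ(τ)` and its partner `v = q¹² / u` are integral over `O[j]`; `u` is
`q¹²` times a unit on the components over infinity and a unit on the others.
-/
import Fermat.Agent.Models.Gamma0.DeltaUnit
import Fermat.Agent.Models.Gamma0.ChartCrit
import Fermat.Agent.Models.DetectResidue

set_option autoImplicit false
set_option linter.style.haveILetI false
set_option linter.unusedSectionVars false

noncomputable section

namespace Fermat.Agent.ModField

open UpperHalfPlane CongruenceSubgroup IsLocalRing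
open Fermat.Agent.GalRep
open Fermat.Agent.GalRep.Level
open Fermat.Agent.GalRep.Model (SeriesField chartRing)
open Fermat.Agent.Mazur3 (uFun isModFun_uFun uFun_cases hasQSeries_dSer hasQSeries_dInvSer)
open Fermat.Agent.Models (IsU rs)
open scoped MatrixGroups Manifold

variable {O : Type} [CommRing O] [IsDomain O] {M : ℕ} [NeZero M] {E : Emb O M}
variable (q : ℕ) [hq : Fact q.Prime]

theorem uFun_ne_zero (τ : ℍ) : uFun q τ ≠ 0 :=
  div_ne_zero (mul_ne_zero (pow_ne_zero _ (Nat.cast_ne_zero.2 hq.out.ne_zero))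
    (ModularForm.discriminant_ne_zero _)) (ModularForm.discriminant_ne_zero _)

/-- The partner `q¹² / u`. -/
def vFun (τ : ℍ) : ℂ := (q : ℂ) ^ 12 / uFun q τ

theorem isModFun_vFun : IsModFun (Gamma0 q) (vFun q) := by
  refine ⟨?_, fun γ hγ τ => ?_, fun δ => ?_⟩
  · refine UpperHalfPlane.mdifferentiable_iff.mpr ?_
    exact (differentiableOn_const _).div
      (UpperHalfPlane.mdifferentiable_iff.mp (isModFun_uFun q).holo) fun z _ => uFun_ne_zero q _
  · rw [vFun, vFun, (isModFun_uFun q).invariant γ hγ τ]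
  · rcases uFun_cases q δ with ⟨-, b, h⟩ | ⟨b, h⟩
    · refine ⟨1 * 1, _, one_pos, (((hasQSeries_dInvSer.comp_upper one_pos b hq.out.pos one_pos).mul
        hasQSeries_dSer).smul 1).congr (.of_forall fun τ => ?_)⟩
      have := ModularForm.discriminant_ne_zero τ
      have := ModularForm.discriminant_ne_zero (posMat _ (det_upper_pos b hq.out.pos one_pos) • τ)
      have := pow_ne_zero 12 (Nat.cast_ne_zero (R := ℂ).2 hq.out.ne_zero)
      simp only [vFun, h, Pi.mul_apply]
      have hq0 := Nat.cast_ne_zero (R := ℂ).2 hq.out.ne_zero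
      field_simp
    · refine ⟨1 * q, _, by simp [hq.out.pos], (((hasQSeries_dInvSer.comp_upper one_pos b one_pos
        hq.out.pos).mul (hasQSeries_dSer.refine_width one_pos q hq.out.ne_zero)).smul
          ((q : ℂ) ^ 12)).congr (.of_forall fun τ => ?_)⟩
      have := ModularForm.discriminant_ne_zero τ
      have := ModularForm.discriminant_ne_zero (posMat _ (det_upper_pos b one_pos hq.out.pos) • τ)
      simp only [vFun, h, Pi.mul_apply]
      field_simp

/-- The partner at level `Γ(M)`. -/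
def vM (hqM : q ∣ M) : MF M :=
  ⟨vFun q, modFuns_anti ((Gamma_le_Gamma0 M).trans fun g hg => by
    rw [Gamma0_mem] at hg ⊢
    have := congrArg (ZMod.castHom hqM (ZMod q)) hg
    rwa [map_intCast, map_zero] at this) (isModFun_vFun q)⟩

variable {q}

theorem uM_mul_vM (hqM : q ∣ M) : uM q hqM * vM q hqM = algebraMap ℂ (MF M) ((q : ℂ) ^ 12) :=
  Subtype.ext (funext fun τ => mul_div_cancel₀ _ (uFun_ne_zero q τ))

theorem vM_mem (hqM : q ∣ M) : vM q hqM ∈ bddMF E := (mem_bddMF E).mpr fun g => by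
  have hu := (mem_bddMF E).mp (uM_mem (E := E) hqM) g
  have e : serAlg M (shift M g (uM q hqM)) * serAlg M (shift M g (vM q hqM)) =
      HahnSeries.C ((q : ℂ) ^ 12) := by
    rw [← map_mul, ← map_mul, uM_mul_vM, AlgHom.commutes, AlgHom.commutes,
      HahnSeries.algebraMap_apply']
    simp [map_pow]
  have hC : HahnSeries.C ((q : ℂ) ^ 12) ∈ E.sFld := E.C_mem (pow_mem (natCast_mem _ q) _)
  have hne : serAlg M (shift M g (uM q hqM)) ≠ 0 := fun h0 => by
    rw [h0, zero_mul, eq_comm] at e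
    exact pow_ne_zero 12 (Nat.cast_ne_zero (R := ℂ).2 hq.out.ne_zero)
      (HahnSeries.C_injective (e.trans HahnSeries.C.map_zero.symm))
  rw [show serAlg M (shift M g (vM q hqM)) =
    (serAlg M (shift M g (uM q hqM)))⁻¹ * HahnSeries.C ((q : ℂ) ^ 12) by
      rw [← e, inv_mul_cancel_left₀ hne]]
  exact mul_mem (inv_mem hu) hC

/-- The partner in the field of level `Γ(M)`. -/
def vF (E : Emb O M) (q : ℕ) [Fact q.Prime] (hqM : q ∣ M) : Fld E :=
  toFld E ⟨vM q hqM, vM_mem hqM⟩

theorem uF_mul_vF (hqM : q ∣ M) : uF E q hqM * vF E q hqM = (q : Fld E) ^ 12 := by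
  rw [uF, vF, ← map_mul, ← map_natCast (toFld E), ← map_pow]
  refine congrArg _ (Subtype.ext ?_)
  show uM q hqM * vM q hqM = _
  rw [uM_mul_vM]
  simp

theorem natCast_fld_ne_zero : (q : Fld E) ≠ 0 := fun h => by
  have h1 := congrArg (toLS E) h
  rw [map_zero, map_natCast, ← map_natCast HahnSeries.C] at h1
  exact (Nat.cast_ne_zero (R := ℂ)).2 hq.out.ne_zero
    (HahnSeries.C_injective (h1.trans HahnSeries.C.map_zero.symm))

theorem uF_ne_zero (hqM : q ∣ M) : uF E q hqM ≠ 0 :=
  left_ne_zero_of_mul ((uF_mul_vF (E := E) hqM).symm ▸ pow_ne_zero 12 natCast_fld_ne_zero)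

theorem vF_ne_zero (hqM : q ∣ M) : vF E q hqM ≠ 0 :=
  right_ne_zero_of_mul ((uF_mul_vF (E := E) hqM).symm ▸ pow_ne_zero 12 natCast_fld_ne_zero)

variable [IsDiscreteValuationRing O]

theorem poleInt_uF (hqM : q ∣ M) : PoleInt E (uF E q hqM) :=
  ⟨⟨_, rfl⟩, fun g => by
    obtain ⟨a, b, U, -, h⟩ := serAt_uF (E := E) hqM g
    exact ⟨a, _, h⟩⟩

theorem poleInt_vF (hqM : q ∣ M) : PoleInt E (vF E q hqM) := by
  refine ⟨⟨_, rfl⟩, fun g => ?_⟩
  obtain ⟨a, b, U, hU, h⟩ := serAt_uF (E := E) hqM g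
  obtain ⟨V, hV⟩ := hU.exists_right_inv
  refine ⟨b, PowerSeries.C (if (q : ℤ) ∣ g 1 0 then 1 else (q : O) ^ 12) * V * PowerSeries.X ^ a, ?_⟩
  have e := congrArg (serAt E g) (uF_mul_vF (E := E) hqM)
  rw [map_mul, map_pow, map_natCast] at e
  set al := algebraMap (PowerSeries O) (SeriesField O)
  have hne : serAt E g (uF E q hqM) ≠ 0 := (_root_.map_ne_zero _).mpr (uF_ne_zero hqM)
  refine mul_left_cancel₀ hne ?_
  rw [← mul_assoc, e]
  have h2 : serAt E g (uF E q hqM) * al (PowerSeries.C (if (q : ℤ) ∣ g 1 0 then 1 else (q : O) ^ 12) *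
      V * PowerSeries.X ^ a) = al (PowerSeries.C ((q : O) ^ 12) * PowerSeries.X ^ b) := by
    rw [map_mul, mul_left_comm, h, ← map_mul]
    congr 1
    split_ifs
    · rw [map_one, one_mul]
      linear_combination (PowerSeries.C ((q : O) ^ 12) * PowerSeries.X ^ b) * hV
    · rw [map_one, one_mul]
      linear_combination (PowerSeries.C ((q : O) ^ 12) * PowerSeries.X ^ b) * hV
  rw [h2]
  simp [map_pow]

theorem uF_mem_chart (hqM : q ∣ M) : uF E q hqM ∈ chartRing O (jF E) :=
  (poleInt_uF hqM).mem_chartRing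

theorem vF_mem_chart (hqM : q ∣ M) : vF E q hqM ∈ chartRing O (jF E) :=
  (poleInt_vF hqM).mem_chartRing

/-- The valuations of `u`. -/
theorem uF_gauss {π : O} (hπ : Irreducible π) (hqπ : (q : O) ∈ maximalIdeal O) (hqM : q ∣ M)
    (δ : SL(2, ℤ)) :
    ((q : ℤ) ∣ δ 1 0 → uF E q hqM ∈ (gaussP E hπ δ).nonunits ∧
      IsU (gaussP E hπ δ) (vF E q hqM)) ∧
    (¬ (q : ℤ) ∣ δ 1 0 → IsU (gaussP E hπ δ) (uF E q hqM) ∧
      vF E q hqM ∈ (gaussP E hπ δ).nonunits) := by
  set G := gaussP E hπ δ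
  have hq' : algebraMap O (Fld E) (q : O) ∈ G.nonunits := by
    rw [hπ.maximalIdeal_eq, Ideal.mem_span_singleton] at hqπ
    obtain ⟨c, hc⟩ := hqπ
    rw [hc, map_mul, ValuationSubring.mem_nonunits_iff, map_mul]
    refine mul_lt_one_of_lt_of_le ((G.mem_nonunits_iff).mp
      (uniformizer_gaussP E hπ δ).1) ((ValuationSubring.valuation_le_one_iff _ _).mpr ?_)
    rw [mem_gaussP, serAt_algebraMap]
    exact algebraMap_mem_gaussRing hπ _
  have hval : G.valuation ((q : Fld E) ^ 12) < 1 := by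
    rw [map_pow, ← map_natCast (algebraMap O (Fld E))]
    exact pow_lt_one₀ zero_le' ((G.mem_nonunits_iff).mp hq') (by norm_num)
  obtain ⟨a, b, U, hU, h⟩ := serAt_uF (E := E) hqM δ
  have hXn : ∀ k, ¬ PowerSeries.C π ∣ (PowerSeries.X ^ k : PowerSeries O) := fun k => by
    rintro ⟨c, hc⟩
    have := congrArg (PowerSeries.coeff k) hc
    rw [PowerSeries.coeff_X_pow_self, PowerSeries.coeff_C_mul] at this
    exact hπ.not_isUnit (IsUnit.of_mul_eq_one _ this.symm)
  have huv := uF_mul_vF (E := E) hqM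
  have hmem : uF E q hqM ∈ G := by
    rw [mem_gaussP, mem_gaussRing]
    exact ⟨_, _, hXn a, h⟩
  have hmem' : vF E q hqM ∈ G :=
    (chart_le_gaussP E hπ δ).1 _ (vF_mem_chart hqM)
  constructor
  · intro hd
    rw [if_pos hd] at h
    have hu : uF E q hqM ∈ G.nonunits := by
      rw [mem_nonunits_gaussP, mem_nonunits_gaussRing]
      refine ⟨_, _, hXn a, ?_, h⟩
      rw [mul_assoc]
      refine Dvd.dvd.mul_right ?_ _
      rw [hπ.maximalIdeal_eq, Ideal.mem_span_singleton] at hqπ
      exact map_dvd _ (hqπ.trans (dvd_pow_self _ (by norm_num)))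
    refine ⟨hu, ?_⟩
    have h1 : uF E q hqM / (q : Fld E) ^ 12 ∈ G := by
      rw [mem_gaussP, mem_gaussRing]
      refine ⟨U * PowerSeries.X ^ b, _, hXn a, ?_⟩
      rw [map_div₀, map_pow, map_natCast, div_mul_eq_mul_div, h, mul_assoc, map_mul,
        map_pow PowerSeries.C, map_natCast, map_pow (algebraMap _ _), map_natCast,
        mul_div_cancel_left₀]
      exact pow_ne_zero _ (by
        rw [← map_natCast (algebraMap (PowerSeries O) (SeriesField O))]
        refine (map_ne_zero_iff _ (IsFractionRing.injective _ _)).mpr ?_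
        rw [← map_natCast PowerSeries.C]
        exact fun h0 => hq.out.ne_zero (Nat.cast_injective (R := ℂ) (by
          rw [← map_natCast E.φ, show (q : O) = 0 from PowerSeries.C_injective (h0.trans
            PowerSeries.C.map_zero.symm), map_zero, Nat.cast_zero])))
    refine Models.isU_iff.mpr ⟨vF_ne_zero hqM, hmem', ?_⟩
    rwa [show (vF E q hqM)⁻¹ = uF E q hqM / (q : Fld E) ^ 12 by
      rw [← huv, div_mul_cancel_left₀ (uF_ne_zero hqM)]]
  · intro hd
    rw [if_neg hd, map_one, one_mul] at h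
    have hu : IsU G (uF E q hqM) := by
      refine Models.isU_iff.mpr ⟨uF_ne_zero hqM, hmem, ?_⟩
      rw [mem_gaussP, mem_gaussRing]
      refine ⟨PowerSeries.X ^ a, U * PowerSeries.X ^ b, fun hd => ?_, ?_⟩
      · exact hXn b ((hU.dvd_mul_left).mp hd)
      · rw [← h, map_inv₀, inv_mul_cancel_left₀ ((_root_.map_ne_zero _).mpr (uF_ne_zero hqM))]
    refine ⟨hu, ?_⟩
    rw [ValuationSubring.mem_nonunits_iff,
      show vF E q hqM = (q : Fld E) ^ 12 * (uF E q hqM)⁻¹ by
        rw [← huv, mul_comm (uF E q hqM), mul_assoc, mul_inv_cancel₀ (uF_ne_zero hqM), mul_one],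
      map_mul]
    exact mul_lt_one_of_lt_of_le hval ((ValuationSubring.valuation_le_one_iff _ _).mpr
      (Models.isU_iff.mp hu).2.2)

end Fermat.Agent.ModField
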