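/-
At level `Γ₀(q) ∩ Γ(m)`, `q ∤ m`, the descended special fibre has exactly two components: those
over infinity and those over zero.
-/
import Fermat.Agent.Models.Gamma0.DeltaInv
import Fermat.Agent.Models.Gamma0.Fibre
import Fermat.Agent.Models.SemiBranch
import Fermat.Agent.NewVec.SeriesAct

set_option autoImplicit false
set_option linter.style.haveILetI false
set_option linter.unusedSectionVars false

noncomputable section

namespace Fermat.Agent.ModField

open Polynomial IsLocalRing CongruenceSubgroup UpperHalfPlane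
open Fermat.Agent.GalRep
open Fermat.Agent.GalRep.Level
open Fermat.Agent.GalRep.Model (chartRing SeriesField C_pi_prime zetaC)
open Fermat.Agent.Models (SemiPoints IsU rs ChartFibre center)
open scoped MatrixGroups

section Twist

variable {O : Type} [CommRing O] [IsDomain O] [IsDiscreteValuationRing O] {M : ℕ} [NeZero M]
  {E : Emb O M} {π : O}

theorem serAt_eq (δ : SL(2, ℤ)) (x : Fld E) : serAt E δ x = serF E (fShift E δ x) := by
  simp only [serAt, RingHom.comp_apply, RingEquiv.toRingHom_eq_coe, RingEquiv.coe_toRingHom]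

/-- Translation by `T` at a cusp keeps the component. -/
theorem gaussP_mul_T (hπ : Irreducible π) (δ : SL(2, ℤ)) (r : ℤ) :
    gaussP E hπ (δ * ModularGroup.T ^ r) = gaussP E hπ δ := by
  have key : ∀ (δ : SL(2, ℤ)) (r : ℤ) (x : Fld E), x ∈ gaussP E hπ δ →
      x ∈ gaussP E hπ (δ * ModularGroup.T ^ r) := by
    intro δ r x hx
    let z : O := E.ζ ^ (r % (M : ℤ)).toNat
    have hz : E.φ z = zetaC M ^ r := by
      have hM : (M : ℤ) ≠ 0 := by exact_mod_cast NeZero.ne M
      have h0 : zetaC M ≠ 0 := Complex.exp_ne_zero _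
      rw [map_pow, E.map_ζ, ← zpow_natCast, Int.toNat_of_nonneg (Int.emod_nonneg r hM)]
      conv_rhs => rw [← Int.emod_add_mul_ediv r M, zpow_add₀ h0, zpow_mul, zpow_natCast,
        Level.zetaC_pow, one_zpow, mul_one]
    have hzu : IsUnit z := by
      refine IsUnit.pow _ (IsUnit.of_pow_eq_one (n := M) (E.inj ?_) (NeZero.ne M))
      rw [map_pow, map_one, E.map_ζ]
      exact Level.zetaC_pow M
    let tw : PowerSeries O → PowerSeries O := fun a =>
      PowerSeries.mk fun i => PowerSeries.coeff i a * z ^ i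
    have htw : ∀ a, E.gO (tw a) = NewVec.twistHom (NewVec.zU M ^ r) (E.gO a) := fun a => by
      ext i
      rw [NewVec.twistHom, twist_coeff]
      simp only [Emb.gO, RingHom.comp_apply]
      by_cases hi : 0 ≤ i
      · lift i to ℕ using hi
        rw [HahnSeries.ofPowerSeries_apply_coeff, HahnSeries.ofPowerSeries_apply_coeff,
          PowerSeries.coeff_map, PowerSeries.coeff_map, PowerSeries.coeff_mk, map_mul, map_pow,
          hz, zpow_natCast, Units.val_pow_eq_pow_val, Units.val_zpow_eq_zpow_val]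
        rfl
      · have hi' : i ∉ Set.range ((↑) : ℕ → ℤ) := fun ⟨k, hk⟩ => hi (hk ▸ Int.natCast_nonneg k)
        have h1 : ∀ f : PowerSeries ℂ, (HahnSeries.ofPowerSeries ℤ ℂ f).coeff i = 0 := fun f => by
          rw [HahnSeries.ofPowerSeries_apply]
          exact HahnSeries.embDomain_of_notMem_range hi'
        rw [h1, h1, zero_mul]
    rw [mem_gaussP, serAt_eq, mem_gaussRing] at hx ⊢
    obtain ⟨a, b, hb, hab⟩ := hx
    refine ⟨tw a, tw b, fun ⟨c, hc⟩ => hb ?_, ?_⟩
    · have hd : ∀ i, π ∣ PowerSeries.coeff i b := fun i => by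
        have := congrArg (PowerSeries.coeff i) hc
        rw [PowerSeries.coeff_mk, PowerSeries.coeff_C_mul] at this
        exact ((hzu.pow i).dvd_mul_right).mp ⟨_, this⟩
      choose e he using hd
      exact ⟨PowerSeries.mk e, PowerSeries.ext fun i => by
        rw [PowerSeries.coeff_C_mul, PowerSeries.coeff_mk, ← he]⟩
    · refine E.toC_injective ?_
      have h := congrArg E.toC hab
      rw [map_mul, toC_serF, E.toC_algebraMap, E.toC_algebraMap] at h
      rw [map_mul, toC_serF, E.toC_algebraMap, E.toC_algebraMap, htw, htw, ← fShift_fShift,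
        NewVec.toLS_fShift_T, ← map_mul, h]
  refine le_antisymm (fun x hx => ?_) fun x => key δ r x
  have := key _ (-r) x hx
  rwa [mul_assoc, ← zpow_add, add_neg_cancel, zpow_zero, mul_one] at this

end Twist

section Val

variable {K ι : Type} [Field K] (A : ValuationSubring K)

theorem valuation_isU {x : K} (h : IsU A x) : A.valuation x = 1 := by
  obtain ⟨h0, h1, h2⟩ := Models.isU_iff.mp h
  refine le_antisymm ((ValuationSubring.valuation_le_one_iff _ _).mpr h1) ?_
  have h3 := (ValuationSubring.valuation_le_one_iff _ _).mpr h2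
  rw [map_inv₀] at h3
  exact (inv_le_one₀ (zero_lt_iff.mpr ((_root_.map_ne_zero _).mpr h0))).mp h3

theorem prod_mem_nonunits_iff [Fintype ι] {f : ι → K} (h : ∀ i, f i ∈ A) :
    ∏ i, f i ∈ A.nonunits ↔ ∃ i, f i ∈ A.nonunits := by
  classical
  simp only [ValuationSubring.mem_nonunits_iff, map_prod]
  constructor
  · intro hz
    by_contra hall
    push Not at hall
    exact hz.ne (Finset.prod_eq_one fun i _ =>
      le_antisymm ((ValuationSubring.valuation_le_one_iff _ _).mpr (h i)) (hall i))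
  · rintro ⟨i, hi⟩
    rw [← Finset.mul_prod_erase Finset.univ _ (Finset.mem_univ i)]
    exact mul_lt_one_of_lt_of_le hi (Finset.prod_induction _ (· ≤ 1)
      (fun a b ha hb => mul_le_one' ha hb) le_rfl
      fun y _ => (ValuationSubring.valuation_le_one_iff _ _).mpr (h y))

theorem mul_add_mem_nonunits_iff {X a b : K} (ha : IsU A a) (hb : b ∈ A.nonunits) :
    X * a + b ∈ A.nonunits ↔ X ∈ A.nonunits := by
  simp only [ValuationSubring.mem_nonunits_iff] at hb ⊢
  have ha1 := valuation_isU A ha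
  constructor
  · intro h
    have := Valuation.map_sub A.valuation (X * a + b) b
    rw [add_sub_cancel_right, map_mul, ha1, mul_one] at this
    exact this.trans_lt (max_lt h hb)
  · intro h
    refine (Valuation.map_add A.valuation _ _).trans_lt (max_lt ?_ hb)
    rwa [map_mul, ha1, mul_one]

theorem mul_add_notMem_nonunits {X a b : K} (hX : X ∈ A) (ha : a ∈ A.nonunits) (hb : IsU A b) :
    X * a + b ∉ A.nonunits := by
  simp only [ValuationSubring.mem_nonunits_iff, not_lt] at ha ⊢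
  have h1 : A.valuation (X * a) < 1 := by
    rw [map_mul]
    exact (mul_le_of_le_one_left' ((ValuationSubring.valuation_le_one_iff _ _).mpr hX)).trans_lt ha
  rw [Valuation.map_add_eq_of_lt_right _ ((valuation_isU A hb).symm ▸ h1), valuation_isU A hb]

end Val

variable {W : Type} [CommRing W] [IsDomain W] [IsDiscreteValuationRing W]
  {O : Type} [CommRing O] [IsDomain O] [IsDiscreteValuationRing O] [Algebra W O] [Module.Finite W O]
  [FaithfulSMul W O]
  {M : ℕ} [NeZero M] {E : Emb O M} {q m : ℕ} [hq' : Fact q.Prime]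
  [Algebra W (Fld E)] [IsScalarTower W O (Fld E)] {π : O} {hπ : Irreducible π}

local notation "F₀" => Fld₀ W E q m
local notation "cP" => comp (W := W) (E := E) (q := q) (m := m) hπ

theorem comp_mul_left {g : SL(2, ℤ)} (hg : g ∈ levelG q m) (δ : SL(2, ℤ)) : cP (g * δ) = cP δ := by
  ext x
  show (x : Fld E) ∈ gaussP E hπ (g * δ) ↔ (x : Fld E) ∈ gaussP E hπ δ
  rw [← fShift_mem_gaussP, (mem_levelFld.mp x.2).1 g hg]

theorem comp_mul_T (δ : SL(2, ℤ)) (r : ℤ) : cP (δ * ModularGroup.T ^ r) = cP δ := by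
  rw [comp, gaussP_mul_T]; rfl

theorem dvd_mul_left_iff {g : SL(2, ℤ)} (hg : g ∈ Gamma0 q) (δ : SL(2, ℤ)) :
    ((q : ℤ) ∣ (g * δ) 1 0 ↔ (q : ℤ) ∣ δ 1 0) := by
  have hq10 : (q : ℤ) ∣ g 1 0 := (ZMod.intCast_zmod_eq_zero_iff_dvd _ q).mp (Gamma0_mem.mp hg)
  have hdet : g 0 0 * g 1 1 - g 0 1 * g 1 0 = 1 := by
    rw [← Matrix.det_fin_two (g : Matrix (Fin 2) (Fin 2) ℤ)]; exact g.det_coe
  have he : (g * δ) 1 0 = g 1 0 * δ 0 0 + g 1 1 * δ 1 0 := by
    simp [Matrix.SpecialLinearGroup.coe_mul, Matrix.mul_apply, Fin.sum_univ_two]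
  rw [he, dvd_add_right (hq10.mul_right _)]
  refine ⟨fun h => ?_, fun h => h.mul_left _⟩
  have e : δ 1 0 = g 0 0 * (g 1 1 * δ 1 0) - g 0 1 * (g 1 0 * δ 1 0) := by
    linear_combination -(δ 1 0) * hdet
  rw [e]
  exact dvd_sub (h.mul_left _) ((hq10.mul_right _).mul_left _)

/-- A translate of the same type gives the same component. -/
theorem comp_translate (hqm : ¬ q ∣ m) {δ g : SL(2, ℤ)} (hg : g ∈ Gamma m)
    (ht : (q : ℤ) ∣ (g * δ) 1 0 ↔ (q : ℤ) ∣ δ 1 0) : cP (g * δ) = cP δ := by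
  haveI := hq'
  have hcast : ∀ z : ℤ, ((z : ZMod q) = 0 ↔ (q : ℤ) ∣ z) := fun z =>
    ZMod.intCast_zmod_eq_zero_iff_dvd z q
  set γ := g * δ with hγ
  obtain ⟨k, hk⟩ : ∃ k : ℤ, ((γ 1 0 * δ 1 1 - (γ 1 1 + (m : ℤ) * k * γ 1 0) * δ 1 0 : ℤ) :
      ZMod q) = 0 := by
    by_cases hc : (q : ℤ) ∣ δ 1 0
    · exact ⟨0, (hcast _).mpr (dvd_sub ((ht.mpr hc).mul_right _) (hc.mul_left _))⟩
    · have hc' : (γ 1 0 : ZMod q) ≠ 0 := fun h => hc (ht.mp ((hcast _).mp h))
      have hm' : (m : ZMod q) ≠ 0 := fun h => hqm ((ZMod.natCast_eq_zero_iff m q).mp h)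
      have hc0 : (δ 1 0 : ZMod q) ≠ 0 := fun h => hc ((hcast _).mp h)
      obtain ⟨k, hk⟩ := ZMod.intCast_surjective ((((γ 1 0 : ℤ) : ZMod q) * ((δ 1 1 : ℤ) : ZMod q) -
        ((γ 1 1 : ℤ) : ZMod q) * ((δ 1 0 : ℤ) : ZMod q)) /
          ((m : ZMod q) * ((γ 1 0 : ℤ) : ZMod q) * ((δ 1 0 : ℤ) : ZMod q)))
      refine ⟨k, ?_⟩
      push_cast
      rw [hk]
      field_simp
      ring
  set g' : SL(2, ℤ) := γ * ModularGroup.T ^ ((m : ℤ) * k) * δ⁻¹ with hg'
  have hT : ModularGroup.T ^ ((m : ℤ) * k) ∈ Gamma m :=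
    ModularGroup_T_pow_mem_Gamma m _ (dvd_mul_right _ _)
  have hgl : g' ∈ levelG q m := by
    refine mem_levelG.mpr ⟨?_, ?_⟩
    · rw [Gamma0_mem]
      rw [← hk]
      congr 1
      simp [hg', Matrix.SpecialLinearGroup.coe_mul, ModularGroup.coe_T_zpow, Matrix.mul_apply,
        Fin.sum_univ_two, Matrix.SpecialLinearGroup.coe_inv, Matrix.adjugate_fin_two]
      ring
    · rw [hg', hγ, mul_assoc g, mul_assoc g]
      exact mul_mem hg ((Gamma_normal m).conj_mem _ hT δ)
  have e : γ = g' * δ * ModularGroup.T ^ (-((m : ℤ) * k)) := by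
    rw [hg', inv_mul_cancel_right, mul_assoc, ← zpow_add, add_neg_cancel, zpow_zero, mul_one]
  rw [e, comp_mul_T, comp_mul_left hgl]

variable [IsAlgClosed (ResidueField W)] (hq : maximalIdeal W = Ideal.span {(q : W)})

include hq in
theorem natCast_mem_max : (q : O) ∈ maximalIdeal O := by
  have h := (algebraMap_mem_maximal_iff (W := W) (O := O) (q : W)).mpr
    (hq ▸ Ideal.mem_span_singleton_self _)
  rwa [map_natCast] at h

include hq in
theorem isUnit_natCast_level (hqm : ¬ q ∣ m) : IsUnit (m : O) := by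
  obtain ⟨a, b, hab⟩ := Int.isCoprime_iff_gcd_eq_one.mpr (by
    rw [Int.gcd_natCast_natCast]; exact (hq'.out.coprime_iff_not_dvd.mpr hqm) :
    Int.gcd (q : ℤ) m = 1)
  refine notMem_maximalIdeal.mp fun h => ?_
  refine (maximalIdeal.isMaximal O).ne_top ((Ideal.eq_top_iff_one _).mpr ?_)
  have e : (1 : O) = (a : O) * q + (b : O) * m := by
    have := congrArg ((↑) : ℤ → O) hab
    push_cast at this
    exact this.symm
  rw [e]
  exact add_mem (Ideal.mul_mem_left _ _ (natCast_mem_max hq)) (Ideal.mul_mem_left _ _ h)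

variable (hqM : q ∣ M) (hmM : m ∣ M) (hqm : ¬ q ∣ m)
  (hpts : SemiPoints (chartRing W (jF₀ W E q m)) (q : W))

set_option maxHeartbeats 400000 in
include hq hqM hmM hqm in
/-- Vanishing along the component depends only on the type of the cusp. -/
theorem nonunit_comp_iff [NeZero m] {x : F₀} (hx : x ∈ chartRing W (jF₀ W E q m))
    {δ δ' : SL(2, ℤ)} (ht : (q : ℤ) ∣ δ 1 0 ↔ (q : ℤ) ∣ δ' 1 0) :
    x ∈ (cP δ).nonunits ↔ x ∈ (cP δ').nonunits := by
  classical
  haveI : Module.Finite W O := inferInstance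
  rw [comp, comp, mem_nonunits_comap, mem_nonunits_comap]
  set X : Fld E := (x : Fld E)
  have hX : X ∈ chartRing O (jF E) := by
    have h := (mem_chart₀_iff' (w := jF₀ W E q m) (x := x)).1 hx
    rwa [coe_jF₀] at h
  -- `a` is a unit exactly on the components of the type, `b` on the others
  obtain ⟨a, b, ha, hb, hab⟩ : ∃ a b : Fld E, a ∈ chartRing O (jF E) ∧ b ∈ chartRing O (jF E) ∧
      ∀ η : SL(2, ℤ), (((q : ℤ) ∣ η 1 0 ↔ (q : ℤ) ∣ δ 1 0) →
          IsU (gaussP E hπ η) a ∧ b ∈ (gaussP E hπ η).nonunits) ∧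
        (¬ ((q : ℤ) ∣ η 1 0 ↔ (q : ℤ) ∣ δ 1 0) →
          a ∈ (gaussP E hπ η).nonunits ∧ IsU (gaussP E hπ η) b) := by
    have hv := fun η => uF_gauss (E := E) hπ (natCast_mem_max hq) hqM η
    by_cases hd : (q : ℤ) ∣ δ 1 0
    · refine ⟨vF E q hqM, uF E q hqM, vF_mem_chart hqM, uF_mem_chart hqM, fun η => ⟨fun h =>
        ⟨((hv η).1 (h.mpr hd)).2, ((hv η).1 (h.mpr hd)).1⟩, fun h => ?_⟩⟩
      have hn : ¬ (q : ℤ) ∣ η 1 0 := fun hη => h (iff_of_true hη hd)
      exact ⟨((hv η).2 hn).2, ((hv η).2 hn).1⟩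
    · refine ⟨uF E q hqM, vF E q hqM, uF_mem_chart hqM, vF_mem_chart hqM, fun η => ⟨fun h =>
        ((hv η).2 (fun hη => hd (h.mp hη))), fun h => ?_⟩⟩
      exact (hv η).1 (not_not.mp fun hη => h (iff_of_false hη hd))
  set H := (Gamma m).map (red M)
  haveI : Fintype H := Fintype.ofFinite _
  set w : Fld E := X * a + b
  set z : Fld E := ∏ y : H, fShift E (Level.lift (y : SL(2, ZMod M))) w
  have hlift : ∀ y : H, Level.lift (y : SL(2, ZMod M)) ∈ Gamma m := by
    rintro ⟨_, g, hg, rfl⟩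
    have e : red M (Level.lift (red M g)) = red M g := red_lift _
    have h1 : (Level.lift (red M g)) * g⁻¹ ∈ Gamma M :=
      red_eq_one_iff.mp (by rw [map_mul, map_inv, e, mul_inv_cancel])
    have h2 := mul_mem ((gamma_le_levelG hqM hmM h1)).2 hg
    rwa [inv_mul_cancel_right] at h2
  have hwc : w ∈ chartRing O (jF E) := add_mem (mul_mem hX ha) hb
  have hzc : z ∈ chartRing O (jF E) :=
    Subalgebra.prod_mem _ fun y _ => fShift_mem_chart hwc _
  have hzinv : ∀ g ∈ Gamma m, fShift E g z = z := by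
    intro g hg
    rw [map_prod]
    refine Fintype.prod_equiv (Equiv.mulRight (⟨red M g, g, hg, rfl⟩ : H)) _ _ fun y => ?_
    rw [fShift_fShift]
    refine fShift_congr E ?_ w
    rw [map_mul, red_lift, Equiv.coe_mulRight, Subgroup.coe_mul, red_lift]
  have hval : ∀ η : SL(2, ℤ), ((q : ℤ) ∣ η 1 0 ↔ (q : ℤ) ∣ δ 1 0) →
      (z ∈ (gaussP E hπ η).nonunits ↔ X ∈ (gaussP E hπ η).nonunits) := by
    intro η hη
    set G := gaussP E hπ η
    have hle : ∀ y : H, fShift E (Level.lift (y : SL(2, ZMod M))) w ∈ G := fun y =>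
      (chart_le_gaussP E hπ η).1 _ (fShift_mem_chart hwc _)
    have hfac : ∀ y : H, fShift E (Level.lift (y : SL(2, ZMod M))) w ∈ G.nonunits ↔
        (((q : ℤ) ∣ (Level.lift (y : SL(2, ZMod M)) * η) 1 0 ↔ (q : ℤ) ∣ δ 1 0) ∧
          X ∈ (gaussP E hπ (Level.lift (y : SL(2, ZMod M)) * η)).nonunits) := by
      intro y
      set η' := Level.lift (y : SL(2, ZMod M)) * η
      rw [show fShift E (Level.lift (y : SL(2, ZMod M))) w ∈ G.nonunits ↔
        w ∈ (gaussP E hπ η').nonunits by
          rw [mem_nonunits_gaussP, mem_nonunits_gaussP, serAt_fShift]]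
      by_cases ht' : ((q : ℤ) ∣ η' 1 0 ↔ (q : ℤ) ∣ δ 1 0)
      · rw [mul_add_mem_nonunits_iff _ ((hab η').1 ht').1 ((hab η').1 ht').2]
        exact (and_iff_right ht').symm
      · exact iff_of_false (mul_add_notMem_nonunits _ ((chart_le_gaussP E hπ η').1 _ hX)
          ((hab η').2 ht').1 ((hab η').2 ht').2) fun h => ht' h.1
    rw [prod_mem_nonunits_iff G hle]
    constructor
    · rintro ⟨y, hy⟩
      obtain ⟨hy1, hy2⟩ := (hfac y).mp hy
      have hc : cP (Level.lift (y : SL(2, ZMod M)) * η) = cP η :=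
        comp_translate hqm (hlift y) (hy1.trans hη.symm)
      have : x ∈ (cP (Level.lift (y : SL(2, ZMod M)) * η)).nonunits := by
        rw [comp, mem_nonunits_comap]; exact hy2
      rwa [hc, comp, mem_nonunits_comap] at this
    · intro hX'
      have h1 : red M (Level.lift ((1 : H) : SL(2, ZMod M))) = 1 := red_lift _
      have e1 : gaussP E hπ (Level.lift ((1 : H) : SL(2, ZMod M)) * η) = gaussP E hπ η := by
        ext v
        rw [mem_gaussP, mem_gaussP, serAt_eq, serAt_eq,
          fShift_congr E (g := Level.lift ((1 : H) : SL(2, ZMod M)) * η) (h := η) (by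
            rw [map_mul, h1, one_mul])]
      have hg1 := gamma_le_levelG hqM hmM (red_eq_one_iff.mp h1)
      exact ⟨1, (hfac 1).mpr ⟨(dvd_mul_left_iff hg1.1 η).trans hη, e1.symm ▸ hX'⟩⟩
  show X ∈ (gaussP E hπ δ).nonunits ↔ X ∈ (gaussP E hπ δ').nonunits
  rw [← hval δ Iff.rfl, ← hval δ' ht.symm,
    nonunit_gauss_of_level hπ hmM (isUnit_natCast_level hq hqm) hzc hzinv δ,
    nonunit_gauss_of_level hπ hmM (isUnit_natCast_level hq hqm) hzc hzinv δ']

include hq hqM hmM hqm hpts in
/-- Cusps of one type give one component. -/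
theorem comp_eq_of_type [NeZero m] {δ δ' : SL(2, ℤ)}
    (ht : (q : ℤ) ∣ δ 1 0 ↔ (q : ℤ) ∣ δ' 1 0) : cP δ = cP δ' := by
  have hw := coord_jF (W := W) (E := E) (q := q) (m := m) hπ
  have hf := hw.chartFibre hq hpts
  haveI := hw.isFractionRing
  have hinj := Models.center_injective hf hpts (fun i => natCast_mem_comp hq i)
    (hw.not_isMaximal_center hq hpts)
    ((map_ne_zero_iff _ algebraMap_fld₀_injective).mpr
      ((IsDiscreteValuationRing.irreducible_iff_uniformizer _).mpr hq).ne_zero)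
    (compP_injective hπ)
  let i : Comps W E q m hπ := ⟨cP δ, δ, rfl⟩
  let i' : Comps W E q m hπ := ⟨cP δ', δ', rfl⟩
  have h : center hf i = center hf i' := Ideal.ext fun b => by
    rw [Models.mem_center, Models.mem_center]
    exact nonunit_comp_iff hq hqM hmM hqm b.2 ht
  exact congrArg Subtype.val (hinj h)

variable (W E q m) in
/-- The two components: `false` over infinity, `true` over zero. -/
def twoP (hπ : Irreducible π) : Bool → ValuationSubring F₀ :=
  fun i => comp hπ (if i then ModularGroup.S else 1)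

include hq hqM hmM hqm hpts in
theorem comp_eq_twoP [NeZero m] (δ : SL(2, ℤ)) :
    cP δ = twoP W E q m hπ (!decide ((q : ℤ) ∣ δ 1 0)) := by
  by_cases h : (q : ℤ) ∣ δ 1 0
  · simp only [h, decide_true, Bool.not_true, twoP, Bool.false_eq_true, if_false]
    exact comp_eq_of_type hq hqM hmM hqm hpts (iff_of_true h (by simp))
  · simp only [h, decide_false, Bool.not_false, twoP, if_true]
    refine comp_eq_of_type hq hqM hmM hqm hpts (iff_of_false h ?_)
    simp only [ModularGroup.coe_S]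
    intro hd
    simp at hd
    exact hq'.out.ne_one (Nat.dvd_one.mp (Int.natCast_dvd_natCast.mp (by simpa using hd)))

include hq hqM hmM hqm hpts in
theorem range_twoP [NeZero m] : Set.range (twoP W E q m hπ) = Set.range cP := by
  refine Set.Subset.antisymm (Set.range_subset_iff.mpr fun i => ⟨_, rfl⟩)
    (Set.range_subset_iff.mpr fun δ => ?_)
  exact ⟨_, (comp_eq_twoP hq hqM hmM hqm hpts δ).symm⟩

include hq hqM in
/-- The values of `u` and `v` on the two components. -/
theorem uF₀_twoP :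
    (uF₀ W hqM m : F₀) ∈ (twoP W E q m hπ false).nonunits ∧
      IsU (twoP W E q m hπ true) (uF₀ W hqM m : F₀) := by
  have h1 := uF_gauss (E := E) hπ (natCast_mem_max hq) hqM 1
  have hS := uF_gauss (E := E) hπ (natCast_mem_max hq) hqM ModularGroup.S
  refine ⟨?_, ?_⟩
  · rw [twoP, comp, mem_nonunits_comap]
    exact (h1.1 (by simp)).1
  · rw [twoP, comp, isU_comap_iff]
    refine (hS.2 ?_).1
    simp only [ModularGroup.coe_S]
    intro hd
    simp at hd
    exact hq'.out.ne_one (Nat.dvd_one.mp (Int.natCast_dvd_natCast.mp (by simpa using hd)))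

include hq hqM in
theorem twoP_injective : Function.Injective (twoP W E q m hπ) := by
  obtain ⟨h0, h1⟩ := uF₀_twoP (W := W) (E := E) (hπ := hπ) (m := m) hq hqM
  have hne : twoP W E q m hπ false ≠ twoP W E q m hπ true := fun e => by
    rw [e] at h0
    exact h1.2 (Models.rs_eq_zero_of_nonunit h0)
  intro i j h
  cases i <;> cases j
  · rfl
  · exact absurd h hne
  · exact absurd h.symm hne
  · rfl

end Fermat.Agent.ModField
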