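/-
The two components of level `Γ₀(q) ∩ Γ(m)` meet, and `u = q¹² Δ(qτ)/Δ(τ)` is `y¹²` times a unit at
the crossings, `y` vanishing along the component over infinity.
-/
import Fermat.Agent.Models.Gamma0.TwoComps
import Fermat.Agent.Models.Gamma0.TwoCharts
import Fermat.Agent.Models.SemiTwo

set_option autoImplicit false
set_option linter.style.haveILetI false
set_option linter.unusedSectionVars false

noncomputable section

namespace Fermat.Agent.ModField

open Polynomial IsLocalRing CongruenceSubgroup UpperHalfPlane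
open Fermat.Agent.GalRep
open Fermat.Agent.GalRep.Level
open Fermat.Agent.GalRep.Model (chartRing SeriesField C_pi_prime self_mem_chartRing)
open Fermat.Agent.Mazur3 (uFun isModFun_uFun intSer dSer dInvSer hasQSeries_dSer hasQSeries_dInvSer)
open Fermat.Agent.Models (SemiPoints IsU rs ChartFibre center mem_center IsNodeTwo)
open scoped MatrixGroups

/-! ## The series of `u` at infinity -/

section Series

variable {O : Type} [CommRing O] [IsDomain O] {M : ℕ} [NeZero M] {E : Emb O M}
  {q : ℕ} [hq : Fact q.Prime]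

/-- At infinity `u = q¹² q_M ^ (M (q - 1))` times a unit series. -/
theorem serF_uF (hqM : q ∣ M) : ∃ U : PowerSeries O, IsUnit U ∧
    serF E (uF E q hqM) = algebraMap (PowerSeries O) (SeriesField O)
      (PowerSeries.C ((q : O) ^ 12) * U * PowerSeries.X ^ (M * (q - 1))) := by
  have hd : HasQSeries 1 (fun τ => ModularForm.discriminant (posMat _ (det_diagN q) • τ))
      (GalRep.expand q hq.out.ne_zero (GalRep.twist 1 dSer)) := by
    have := hasQSeries_dSer.comp_affine one_pos q 1 hq.out.ne_zero one_pos 0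
      (fun τ => posMat _ (det_diagN q) • τ) (fun τ => by rw [coe_posMat_smul]; simp) 1 (by simp)
    rwa [mul_one] at this
  have h := ((hd.mul hasQSeries_dInvSer).smul ((q : ℂ) ^ 12)).refine_width one_pos M (NeZero.ne M)
  rw [one_mul, map_mul, HahnSeries.C_apply, expand_single', mul_zero, ← HahnSeries.C_apply] at h
  have e := ((hasQSeries_serHom (uM q hqM)).congr (.of_forall fun τ => by
    show uFun q τ = _; simp only [Pi.mul_apply, uFun]; ring)).unique (NeZero.pos M) h
  have h1 : ∀ f : LaurentSeries ℂ, GalRep.twist (1 : ℂˣ) f = f := fun f => by ext; simp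
  let P := PowerSeries.expand M (NeZero.ne M)
    (PowerSeries.expand q hq.out.ne_zero ((ModularCurve.etaProd ^ 24).map (Int.castRingHom O)) *
      ModularCurve.dedekindEtaUnitInv.map (Int.castRingHom O))
  refine ⟨P, ?_, E.toC_injective ?_⟩
  · refine (IsUnit.mul (IsUnit.map _ ?_) ?_).map _ <;>
      rw [PowerSeries.isUnit_iff_constantCoeff, ← PowerSeries.coeff_zero_eq_constantCoeff_apply,
        PowerSeries.coeff_map, PowerSeries.coeff_zero_eq_constantCoeff_apply]
    · rw [map_pow, ModularCurve.constantCoeff_etaProd, one_pow, map_one]; exact isUnit_one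
    · have h2 := congrArg PowerSeries.constantCoeff ModularCurve.dedekindEtaUnit_mul_inv
      rw [map_mul, show ModularCurve.dedekindEtaUnit = ModularCurve.etaProd ^ 24 from rfl, map_pow,
        ModularCurve.constantCoeff_etaProd, one_pow, one_mul, map_one] at h2
      rw [h2, map_one]; exact isUnit_one
  · have hI : ∀ Q : PowerSeries ℤ, intSer Q = E.gO (Q.map (Int.castRingHom O)) := fun Q => by
      rw [intSer, Emb.gO, RingHom.comp_apply]
      congr 1
      ext k
      simp
    have hX : ∀ k : ℕ, E.gO (PowerSeries.X ^ k) = HahnSeries.single (k : ℤ) (1 : ℂ) := fun k => by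
      rw [Emb.gO, RingHom.comp_apply, map_pow, PowerSeries.map_X, map_pow,
        HahnSeries.ofPowerSeries_X, HahnSeries.single_pow, one_pow, nsmul_eq_mul, mul_one]
    have hexp : ∀ (r : ℕ) (hr : r ≠ 0) (Q : PowerSeries O),
        GalRep.expand r hr (E.gO Q) = E.gO (PowerSeries.expand r hr Q) := fun r hr Q => by
      rw [Emb.gO, RingHom.comp_apply, expand_ofPowerSeries, RingHom.comp_apply,
        PowerSeries.map_expand]
    rw [toC_serF, uF, toLS_toFld, E.toC_algebraMap, map_mul, map_mul, hX, gO_C, map_pow,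
      map_natCast]
    show serHom M (uM q hqM) = _
    rw [e, h1, dSer, dInvSer]
    simp only [P, hI, map_mul, expand_single', hexp, map_pow HahnSeries.C, map_natCast, map_pow]
    have e2 : ((M * (q - 1) : ℕ) : ℤ) = (M : ℤ) * ((q : ℤ) * 1) + (M : ℤ) * (-1) := by
      rw [Nat.cast_mul, Nat.cast_sub hq.out.one_le]; push_cast; ring
    rw [e2, ← mul_one (1 : ℂ), ← HahnSeries.single_mul_single, mul_one]
    ring

/-- The same at every cusp over infinity. -/
theorem serAt_uF_inf (hqM : q ∣ M) {δ : SL(2, ℤ)} (hd : (q : ℤ) ∣ δ 1 0) :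
    serAt E δ (uF E q hqM) = serF E (uF E q hqM) := by
  rw [serAt, RingHom.comp_apply, RingEquiv.toRingHom_eq_coe, RingEquiv.coe_toRingHom]
  refine congrArg _ ?_
  rw [uF, fShift_toFld]
  refine congrArg _ (Subtype.ext (shift_uM_of_mem hqM ?_))
  rw [Gamma0_mem, ZMod.intCast_zmod_eq_zero_iff_dvd]
  exact hd

variable [IsDiscreteValuationRing O] {π : O}

/-- A polynomial in `j` which is not zero on the component has a unit coefficient of small index. -/
theorem exists_low_coeff (hπ : Irreducible π) (P : O[X]) (hP : ¬ C π ∣ P) :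
    ∃ (s : PowerSeries O) (D k : ℕ), k ≤ D ∧ ¬ π ∣ PowerSeries.coeff k s ∧
      serF E (aeval (jF E) P) * algebraMap (PowerSeries O) (SeriesField O) (PowerSeries.X ^ D) =
        algebraMap (PowerSeries O) (SeriesField O) s := by
  classical
  rw [C_dvd_iff_dvd_coeff] at hP
  push Not at hP
  obtain ⟨i₀, hi₀⟩ := hP
  let S := (Finset.range (P.natDegree + 1)).filter fun i => ¬ π ∣ P.coeff i
  have hS : S.Nonempty := ⟨i₀, Finset.mem_filter.mpr ⟨Finset.mem_range.mpr (by
    by_contra hlt
    exact hi₀ (by rw [coeff_eq_zero_of_natDegree_lt (by omega)]; exact dvd_zero π)), hi₀⟩⟩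
  set d := S.max' hS
  obtain ⟨hdr, hd⟩ := Finset.mem_filter.mp (S.max'_mem hS)
  rw [Finset.mem_range] at hdr
  set D := P.natDegree
  set U := jUnit (O := O) (M := M)
  let s : PowerSeries O := ∑ i ∈ Finset.range (D + 1),
    PowerSeries.C (P.coeff i) * U ^ i * PowerSeries.X ^ (M * (D - i))
  refine ⟨s, M * D, M * (D - d), Nat.mul_le_mul_left _ (Nat.sub_le _ _), ?_, ?_⟩
  · intro h4
    refine hd ?_
    rw [map_sum, ← Finset.add_sum_erase _ _ (Finset.mem_range.mpr hdr)] at h4
    have h7 : π ∣ ∑ i ∈ (Finset.range (D + 1)).erase d, PowerSeries.coeff (M * (D - d))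
        (PowerSeries.C (P.coeff i) * U ^ i * PowerSeries.X ^ (M * (D - i))) := by
      refine Finset.dvd_sum fun i hi => ?_
      rw [mul_assoc, PowerSeries.coeff_C_mul]
      rcases lt_or_gt_of_ne (Finset.ne_of_mem_erase hi) with hlt | hgt
      · rw [PowerSeries.coeff_mul_X_pow', if_neg, mul_zero]
        · exact dvd_zero π
        · have := Finset.mem_range.mp (Finset.mem_of_mem_erase hi)
          have h5 : M * (D - d) < M * (D - i) := Nat.mul_lt_mul_of_pos_left (by omega) (NeZero.pos M)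
          omega
      · refine Dvd.dvd.mul_right ?_ _
        by_contra hni
        have := S.le_max' i (Finset.mem_filter.mpr ⟨Finset.mem_of_mem_erase hi, hni⟩)
        omega
    have h6 := (dvd_add_left h7).mp h4
    rwa [mul_assoc, PowerSeries.coeff_C_mul, PowerSeries.coeff_mul_X_pow', if_pos le_rfl,
      Nat.sub_self, PowerSeries.coeff_zero_eq_constantCoeff_apply, map_pow, constantCoeff_jUnit,
      one_pow, mul_one] at h6
  · rw [aeval_eq_sum_range, map_sum, Finset.sum_mul, map_sum]
    refine Finset.sum_congr rfl fun i hi => ?_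
    have hiD : i ≤ D := Nat.lt_succ_iff.mp (Finset.mem_range.mp hi)
    rw [Algebra.smul_def, map_mul, map_pow, serF_algebraMap, map_mul, map_mul, map_pow _ U,
      ← serF_jF E, map_pow, map_pow, map_pow, mul_pow, ← pow_mul]
    have : M * D = M * i + M * (D - i) := by rw [← mul_add, Nat.add_sub_cancel' hiD]
    rw [this, pow_add]
    ring

set_option maxHeartbeats 600000 in
/-- A regular function whose reduction is `q_M ^ B`, `B > 0`, times a unit over infinity and `1`
over zero does not exist. -/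
theorem false_of_residues (hπ : Irreducible π) (hqM : q ∣ M) {U : PowerSeries O} (hU : IsUnit U)
    {B : ℕ} (hB : 0 < B) {X : Fld E} (hX : X ∈ chartRing O (jF E))
    (hval : ∀ δ : SL(2, ℤ), serAt E δ X ∈ gaussRing hπ ∧ rs (gaussRing hπ) (serAt E δ X) =
      if (q : ℤ) ∣ δ 1 0 then
        rs (gaussRing hπ) (algebraMap (PowerSeries O) (SeriesField O) (U * PowerSeries.X ^ B))
      else 1) : False := by
  classical
  haveI : Fintype SL(2, ZMod M) := Fintype.ofFinite _
  set G := gaussRing hπ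
  set al := algebraMap (PowerSeries O) (SeriesField O)
  have halG : ∀ a : PowerSeries O, al a ∈ G := algebraMap_mem_gaussRing hπ
  obtain ⟨N, hN⟩ : ∃ N : Fld E, N = ∏ y : SL(2, ZMod M), fShift E (Level.lift y) X := ⟨_, rfl⟩
  have hNinv : ∀ g, fShift E g N = N := fun g => by
    rw [hN, map_prod]
    refine Fintype.prod_equiv (Equiv.mulRight (red M g)) _ _ fun y => ?_
    rw [fShift_fShift]
    exact fShift_congr E (by rw [map_mul, red_lift, Equiv.coe_mulRight, red_lift]) _
  obtain ⟨P, hP⟩ := exists_eq_aeval_of_invariant (G := transG E) (aeval_jF_injective E)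
    (fixedRational_jF E) (x := N) (hN ▸ Subalgebra.prod_mem _
      fun (y : SL(2, ZMod M)) _ => fShift_mem_chart hX (Level.lift y)) (fun σ => by
        obtain ⟨g, hg⟩ := (mem_transG E).mp σ.2
        rw [transG_smul_def, hg, hNinv])
  set r := rs G (al (U * PowerSeries.X ^ B)) with hr
  set S := Finset.univ.filter fun y : SL(2, ZMod M) => (q : ℤ) ∣ (Level.lift y) 1 0
  have hprod : serF E N ∈ G ∧ rs G (serF E N) = r ^ S.card := by
    have key : ∀ T : Finset SL(2, ZMod M),
        (∏ y ∈ T, serAt E (Level.lift y) X) ∈ G ∧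
        rs G (∏ y ∈ T, serAt E (Level.lift y) X) =
          ∏ y ∈ T, if (q : ℤ) ∣ (Level.lift y) 1 0 then r else 1 := by
      intro T
      induction T using Finset.induction_on with
      | empty => simp [Models.rs_one]
      | @insert y T hy ih =>
        rw [Finset.prod_insert hy, Finset.prod_insert hy]
        refine ⟨G.mul_mem _ _ (hval _).1 ih.1, ?_⟩
        rw [Models.rs_mul (hval _).1 ih.1, (hval _).2, ih.2]
    have e : serF E N = ∏ y : SL(2, ZMod M), serAt E (Level.lift y) X := by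
      rw [hN, map_prod]
      exact Finset.prod_congr rfl fun y _ => (serAt_eq _ _).symm
    refine ⟨e ▸ (key _).1, ?_⟩
    rw [e, (key _).2, ← Finset.prod_filter, Finset.prod_const]
  have hK : 0 < S.card := Finset.card_pos.mpr ⟨1, Finset.mem_filter.mpr ⟨Finset.mem_univ _, by
    have h1 : red M (Level.lift (1 : SL(2, ZMod M))) = 1 := red_lift _
    have h2 := congrFun (congrFun (congrArg Subtype.val h1) 1) 0
    simp only [red_apply, Matrix.SpecialLinearGroup.coe_one, Matrix.one_apply_ne (by decide :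
      (1 : Fin 2) ≠ 0)] at h2
    rw [ZMod.intCast_zmod_eq_zero_iff_dvd] at h2
    exact (Int.natCast_dvd_natCast.mpr hqM).trans h2⟩⟩
  have hXn : ∀ k, ¬ PowerSeries.C π ∣ (PowerSeries.X ^ k : PowerSeries O) := fun k hd => by
    obtain ⟨c, hc⟩ := hd
    have := congrArg (PowerSeries.coeff k) hc
    rw [PowerSeries.coeff_X_pow_self, PowerSeries.coeff_C_mul] at this
    exact hπ.not_isUnit (IsUnit.of_mul_eq_one _ this.symm)
  have hUX : ¬ PowerSeries.C π ∣ U * PowerSeries.X ^ B := fun h =>
    hXn B ((hU.dvd_mul_left).mp h)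
  have hrU : r ≠ 0 := fun h => by
    rw [hr, Models.rs_eq_zero (halG _), mem_nonunits_gaussRing] at h
    obtain ⟨a, b, hb, ha, he⟩ := h
    rw [← map_mul] at he
    exact ((C_pi_prime hπ).dvd_or_dvd ((IsFractionRing.injective _ _ he).symm ▸ ha)).elim hUX hb
  have hPπ : ¬ C π ∣ P := fun ⟨Q, hQ⟩ => pow_ne_zero S.card hrU (by
    rw [← hprod.2]
    refine Models.rs_eq_zero_of_nonunit ?_
    rw [hP, hQ, map_mul, map_mul, aeval_C, serF_algebraMap, ValuationSubring.mem_nonunits_iff,
      map_mul]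
    refine mul_lt_one_of_lt_of_le (G.mem_nonunits_iff.mp (uniformizer_gaussRing hπ).1)
      ((ValuationSubring.valuation_le_one_iff _ _).mpr ?_)
    have := (chart_le_gaussP E hπ 1).1 (aeval (jF E) Q) (by rw [← coe_polyHom]; exact SetLike.coe_mem _)
    rwa [mem_gaussP, serAt_eq, fShift_one] at this)
  obtain ⟨s, D, k, hk, hks, hs⟩ := exists_low_coeff (E := E) hπ P hPπ
  have hdiff : al (s - (U * PowerSeries.X ^ B) ^ S.card * PowerSeries.X ^ D) ∈ G.nonunits := by
    rw [map_sub, map_mul, map_pow al (U * _), ← hs, ← hP]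
    refine (Models.rs_eq_iff (G.mul_mem _ _ hprod.1 (halG _))
      (G.mul_mem _ _ (pow_mem (halG _) _) (halG _))).mp ?_
    rw [Models.rs_mul hprod.1 (halG _), Models.rs_mul (pow_mem (halG _) _) (halG _),
      Models.rs_pow (halG _), hprod.2]
  rw [mem_nonunits_gaussRing] at hdiff
  obtain ⟨a, b, hb, ha, he⟩ := hdiff
  rw [← map_mul] at he
  obtain ⟨c, hc⟩ := ((C_pi_prime hπ).dvd_or_dvd
    ((IsFractionRing.injective _ _ he).symm ▸ ha)).resolve_right hb
  refine hks ⟨PowerSeries.coeff k c, ?_⟩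
  have e := congrArg (PowerSeries.coeff k) hc
  rw [map_sub, PowerSeries.coeff_C_mul, mul_pow, ← pow_mul, mul_assoc, ← pow_add,
    PowerSeries.coeff_mul_X_pow', if_neg (by nlinarith), sub_zero] at e
  exact e

end Series

/-! ## The two components -/

variable {W : Type} [CommRing W] [IsDomain W] [IsDiscreteValuationRing W]
  [IsAlgClosed (ResidueField W)]
  {O : Type} [CommRing O] [IsDomain O] [IsDiscreteValuationRing O] [Algebra W O] [Module.Finite W O]
  [FaithfulSMul W O]
  {M : ℕ} [NeZero M] {E : Emb O M} {q m : ℕ} [hq' : Fact q.Prime] [NeZero m]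
  [Algebra W (Fld E)] [IsScalarTower W O (Fld E)] {π : O} {hπ : Irreducible π}
  (hq : maximalIdeal W = Ideal.span {(q : W)}) (hqM : q ∣ M) (hmM : m ∣ M) (hqm : ¬ q ∣ m)
  (hpts₀ : SemiPoints (chartRing W (jF₀ W E q m)) (q : W))

local notation "F₀" => Fld₀ W E q m
local notation "P₂" => twoP W E q m hπ
local notation "B₀" => chartRing W (jF₀ W E q m)

section Chart

variable {w : Fld₀ W E q m} (hw : Coord hπ w) (hpts : SemiPoints (chartRing W w) (q : W))

include hq hqM hmM hqm hpts₀ hw hpts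

/-- The special fibre with the two components. -/
theorem chartFibre_two : ChartFibre (chartRing W w) (q : W) P₂ where
  le i := (hw.le ⟨_, _, rfl⟩ : ∀ b ∈ chartRing W w, b ∈ P₂ i)
  noetherian := hw.noetherian hq
  reduced b hb hu := (hw.chartFibre hq hpts).reduced b hb fun i => by
    obtain ⟨δ, hδ⟩ := exists_compP_eq hπ i
    rw [hδ, comp_eq_twoP hq hqM hmM hqm hpts₀ δ]
    exact hu _
  maximal_above i := (hw.chartFibre hq hpts).maximal_above ⟨_, _, rfl⟩
  residue := (hw.chartFibre hq hpts).residue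

theorem center_two_eq (i : Bool) :
    center (chartFibre_two hq hqM hmM hqm hpts₀ hw hpts) i =
      center (hw.chartFibre hq hpts) ⟨P₂ i, _, rfl⟩ :=
  Ideal.ext fun b => by rw [mem_center, mem_center]; rfl

theorem center_two_not_isMaximal (i : Bool) :
    ¬ (center (chartFibre_two hq hqM hmM hqm hpts₀ hw hpts) i).IsMaximal := by
  rw [center_two_eq hq hqM hmM hqm hpts₀ hw hpts]
  exact hw.not_isMaximal_center hq hpts _

omit hqM hmM hqm hpts₀ hw hpts in
theorem natCast_mem_twoP (i : Bool) : algebraMap W F₀ (q : W) ∈ (P₂ i).nonunits :=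
  natCast_mem_comp hq ⟨P₂ i, _, rfl⟩

omit hqM hmM hqm hpts₀ hw hpts in
theorem natCast_fld₀_ne_zero : algebraMap W F₀ (q : W) ≠ 0 :=
  (map_ne_zero_iff _ algebraMap_fld₀_injective).mpr
    ((IsDiscreteValuationRing.irreducible_iff_uniformizer _).mpr hq).ne_zero

theorem center_two_injective :
    Function.Injective (center (chartFibre_two hq hqM hmM hqm hpts₀ hw hpts)) := by
  haveI := hw.isFractionRing
  exact Models.center_injective _ hpts (natCast_mem_twoP hq)
    (center_two_not_isMaximal hq hqM hmM hqm hpts₀ hw hpts) (natCast_fld₀_ne_zero hq)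
    (twoP_injective hq hqM)

theorem cases_two {mm : Ideal (chartRing W w)} (hm : mm.IsMaximal)
    (hπm : algebraMap W (chartRing W w) (q : W) ∈ mm) :
    (∃ i, Models.IsSmoothTwo (chartFibre_two hq hqM hmM hqm hpts₀ hw hpts) i mm) ∨
      ∃ x y u, IsNodeTwo (chartFibre_two hq hqM hmM hqm hpts₀ hw hpts) mm x y u :=
  Models.semiTwo_cases _ hpts (natCast_mem_twoP hq)
    (center_two_not_isMaximal hq hqM hmM hqm hpts₀ hw hpts) (natCast_fld₀_ne_zero hq)
    (center_two_injective hq hqM hmM hqm hpts₀ hw hpts) hm hπm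

/-- Along a component the valuation of `q` is the least. -/
theorem valuation_le_natCast (i : Bool) {z : chartRing W w}
    (hz : z ∈ center (chartFibre_two hq hqM hmM hqm hpts₀ hw hpts) i) :
    (P₂ i).valuation (z : F₀) ≤ (P₂ i).valuation (algebraMap W F₀ (q : W)) := by
  set hf := chartFibre_two hq hqM hmM hqm hpts₀ hw hpts
  obtain ⟨t, ht, hts⟩ := Models.center_gen hf hpts (natCast_mem_twoP hq)
    (center_two_not_isMaximal hq hqM hmM hqm hpts₀ hw hpts) hz
  obtain ⟨c, hc⟩ := Ideal.mem_span_singleton.mp hts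
  have e := congrArg (fun b : chartRing W w => (P₂ i).valuation (b : F₀)) hc
  simp only [MulMemClass.coe_mul, Subalgebra.coe_algebraMap, map_mul] at e
  rw [valuation_isU _ (Models.isU_of_notMem_center ht), one_mul] at e
  rw [e]
  exact mul_le_of_le_one_right' ((ValuationSubring.valuation_le_one_iff _ _).mpr (hf.le i _ c.2))

end Chart

variable (W E q m) in
/-- `v = q¹² / u` in the descended field. -/
def vF₀ (hqM : q ∣ M) : F₀ := (q : F₀) ^ 12 * (uF₀ W hqM m)⁻¹

include hqM in
theorem coe_vF₀ : ((vF₀ W E q m hqM : F₀) : Fld E) = vF E q hqM := by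
  show ((q : F₀) : Fld E) ^ 12 * (uF E q hqM)⁻¹ = _
  rw [show ((q : F₀) : Fld E) = (q : Fld E) from map_natCast (Fld₀ W E q m).subtype q, ← uF_mul_vF,
    mul_comm (uF E q hqM), mul_assoc, mul_inv_cancel₀ (uF_ne_zero hqM), mul_one]

include hqM in
theorem uF₀_mem : uF₀ W hqM m ∈ B₀ := mem_chart₀_iff'.2 (uF_mem_chart hqM)

include hqM in
theorem vF₀_mem : vF₀ W E q m hqM ∈ B₀ :=
  (mem_chart₀_iff' (w := jF₀ W E q m)).2 (by rw [coe_vF₀, coe_jF₀]; exact vF_mem_chart hqM)

include hqM in
theorem uF₀_ne_zero : uF₀ W hqM m ≠ (0 : F₀) := fun h => uF_ne_zero hqM (congrArg Subtype.val h)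

include hq hqM hmM hqm hpts₀ in
/-- `u` is `y¹²` times a unit at a crossing. -/
theorem uF₀_monomial {mm : Ideal B₀} [mm.IsPrime] {x y u : B₀}
    (h : IsNodeTwo (chartFibre_two (hπ := hπ) hq hqM hmM hqm hpts₀ (coord_jF hπ) hpts₀) mm x y u) :
    ∃ c d : B₀, c ∉ mm ∧ d ∉ mm ∧ c * (⟨_, uF₀_mem hqM⟩ : B₀) = d * y ^ 12 := by
  refine h.monomial _ (natCast_fld₀_ne_zero hq) (b := ⟨_, vF₀_mem hqM⟩) (Subtype.ext ?_)
    (uF₀_twoP hq hqM).2 ?_
  · show uF₀ W hqM m * vF₀ W E q m hqM = _
    rw [vF₀, mul_left_comm, mul_inv_cancel₀ (uF₀_ne_zero hqM), mul_one]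
    simp
  · show IsU (P₂ false) (vF₀ W E q m hqM)
    rw [twoP, comp, isU_comap_iff]
    show IsU _ (((vF₀ W E q m hqM : F₀)) : Fld E)
    rw [coe_vF₀]
    exact ((uF_gauss (E := E) hπ (natCast_mem_max hq) hqM 1).1 (by simp)).2

include hq hqM hmM hqm hpts₀ in
/-- The bounds on the two components. -/
theorem valuation_uF₀_mul_le {ε : B₀}
    (hε : ε ∈ center (chartFibre_two (hπ := hπ) hq hqM hmM hqm hpts₀ (coord_jF hπ) hpts₀) true)
    (i : Bool) :
    (P₂ i).valuation (uF₀ W hqM m) * (P₂ i).valuation (ε : F₀) ^ 13 ≤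
      (P₂ i).valuation (algebraMap W F₀ (q : W)) ^ (if i then 13 else 12) := by
  cases i
  · have e : uF₀ W hqM m * vF₀ W E q m hqM = algebraMap W F₀ (q : W) ^ 12 := by
      rw [vF₀, mul_left_comm, mul_inv_cancel₀ (uF₀_ne_zero hqM), mul_one, map_natCast]
    have hvU : IsU (P₂ false) (vF₀ W E q m hqM) := by
      rw [twoP, comp, isU_comap_iff]
      show IsU _ (((vF₀ W E q m hqM : F₀)) : Fld E)
      rw [coe_vF₀]
      exact ((uF_gauss (E := E) hπ (natCast_mem_max hq) hqM 1).1 (by simp)).2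
    rw [if_neg Bool.false_ne_true, ← map_pow _ (algebraMap W F₀ (q : W)), ← e, map_mul,
      valuation_isU _ hvU, mul_one]
    exact mul_le_of_le_one_right' (pow_le_one₀ zero_le'
      ((ValuationSubring.valuation_le_one_iff _ _).mpr ((chartFibre_two hq hqM hmM hqm hpts₀
        (coord_jF hπ) hpts₀).le _ _ ε.2)))
  · rw [if_pos rfl]
    exact (mul_le_of_le_one_left'
      ((ValuationSubring.valuation_le_one_iff _ _).mpr (uF₀_twoP hq hqM).2.1)).trans
      (pow_le_pow_left₀ zero_le' (valuation_le_natCast hq hqM hmM hqm hpts₀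
        (coord_jF hπ) hpts₀ true hε) 13)

theorem lt_one_of_bound {Γ₀ : Type} [LinearOrderedCommGroupWithZero Γ₀] {a c p : Γ₀} {k n : ℕ}
    (hp : p ≠ 0) (hp1 : p < 1) (hkn : k < n) (h : a * p ^ k = c) (hc : c ≤ p ^ n) : a < 1 := by
  by_contra hge
  rw [not_lt] at hge
  have h1 : p ^ k ≤ p ^ n := (le_mul_of_one_le_left' hge).trans (h.le.trans hc)
  exact absurd h1 (not_le.mpr (pow_lt_pow_right_of_lt_one₀ (zero_lt_iff.mpr hp) hp1 hkn))

set_option maxHeartbeats 600000 in
include hq hqM hmM hqm hpts₀ in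
/-- The quotient of `u ε¹³` by `q¹²`. -/
theorem exists_div_pow {ε : B₀}
    (hε : ε ∈ center (chartFibre_two (hπ := hπ) hq hqM hmM hqm hpts₀ (coord_jF hπ) hpts₀) true) :
    ∃ z : B₀, (z : F₀) * algebraMap W F₀ (q : W) ^ 12 = uF₀ W hqM m * (ε : F₀) ^ 13 ∧
      (z : F₀) ∈ (P₂ true).nonunits := by
  set hf := chartFibre_two (hπ := hπ) hq hqM hmM hqm hpts₀ (coord_jF hπ) hpts₀
  set p := algebraMap W F₀ (q : W) with hp
  have hp0 : p ≠ 0 := natCast_fld₀_ne_zero hq
  have hnon : ∀ (z : F₀) (k : ℕ) (i : Bool), z * p ^ k = uF₀ W hqM m * (ε : F₀) ^ 13 →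
      k < (if i then 13 else 12) → z ∈ (P₂ i).nonunits := by
    intro z k i h hk
    rw [(P₂ i).mem_nonunits_iff]
    refine lt_one_of_bound ((_root_.map_ne_zero _).mpr hp0)
      ((P₂ i).mem_nonunits_iff.mp (natCast_mem_twoP hq i)) hk ?_
      (valuation_uF₀_mul_le hq hqM hmM hqm hpts₀ hε i)
    rw [← map_pow (P₂ i).valuation, ← map_pow (P₂ i).valuation, ← map_mul, ← map_mul, h]
  have hz : ∀ k ≤ 12, ∃ z : B₀, (z : F₀) * p ^ k = uF₀ W hqM m * (ε : F₀) ^ 13 := by
    intro k hk
    induction k with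
    | zero => exact ⟨⟨_, uF₀_mem hqM⟩ * ε ^ 13, by simp⟩
    | succ k ih =>
      obtain ⟨z, hzk⟩ := ih (by omega)
      obtain ⟨e, he, hze⟩ := hf.reduced z z.2 fun i => hnon z k i hzk (by cases i <;> simp <;> omega)
      refine ⟨⟨e, he⟩, ?_⟩
      rw [← hzk, hze, Algebra.smul_def, ← hp, pow_succ]
      ring
  obtain ⟨z, hz⟩ := hz 12 le_rfl
  exact ⟨z, hz, hnon z 12 true hz (by simp)⟩

set_option maxHeartbeats 600000 in
include hq hqM hmM hqm hpts₀ in
/-- The two components meet in the finite chart. -/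
theorem exists_node_two : ∃ mm : Ideal B₀, mm.IsMaximal ∧ ∃ x y u,
    IsNodeTwo (chartFibre_two (hπ := hπ) hq hqM hmM hqm hpts₀ (coord_jF hπ) hpts₀) mm x y u := by
  classical
  by_contra hno
  push Not at hno
  set hf := chartFibre_two (hπ := hπ) hq hqM hmM hqm hpts₀ (coord_jF hπ) hpts₀
  have htop : center hf true ⊔ center hf false = ⊤ := by
    by_contra hne
    obtain ⟨mm, hmm, hle⟩ := Ideal.exists_le_maximal _ hne
    have hπm : algebraMap W B₀ (q : W) ∈ mm :=
      hle (Ideal.mem_sup_left (mem_center.mpr (natCast_mem_twoP hq true)))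
    rcases cases_two hq hqM hmM hqm hpts₀ (coord_jF hπ) hpts₀ hmm hπm with
      ⟨i, hi⟩ | ⟨x, y, u, hn⟩
    · refine hi.other ?_
      cases i
      · exact le_sup_left.trans hle
      · exact le_sup_right.trans hle
    · exact hno mm hmm x y u hn
  obtain ⟨ε, hε, η, hη, hεη⟩ := Submodule.mem_sup.mp ((Ideal.eq_top_iff_one _).mp htop)
  obtain ⟨z, hz, hzt⟩ := exists_div_pow hq hqM hmM hqm hpts₀ hε
  obtain ⟨U, hU, huser⟩ := serF_uF (E := E) hqM
  set G := gaussRing hπ
  set al := algebraMap (PowerSeries O) (SeriesField O)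
  have hq0 : al (PowerSeries.C ((q : O) ^ 12)) ≠ 0 := by
    refine (map_ne_zero_iff _ (IsFractionRing.injective _ _)).mpr fun h0 => ?_
    have h1 := congrArg E.φ (PowerSeries.C_injective (h0.trans PowerSeries.C.map_zero.symm))
    rw [map_pow, map_natCast, map_zero] at h1
    exact pow_ne_zero 12 (Nat.cast_ne_zero.2 hq'.out.ne_zero) h1
  refine false_of_residues (E := E) (q := q) hπ hqM hU
    (B := M * (q - 1)) (Nat.mul_pos (NeZero.pos M) (by have := hq'.out.two_le; omega))
    (X := ((z : F₀) : Fld E) + ((η : F₀) : Fld E)) ?_ fun δ => ?_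
  · have h1 : ∀ b : B₀, ((b : F₀) : Fld E) ∈ chartRing O (jF E) := fun b => by
      have h := (mem_chart₀_iff' (w := jF₀ W E q m) (x := (b : F₀))).1 b.2
      rwa [coe_jF₀] at h
    exact add_mem (h1 z) (h1 η)
  have hmem : ∀ b : B₀, serAt E δ ((b : F₀) : Fld E) ∈ G := fun b => by
    have h := (mem_chart₀_iff' (w := jF₀ W E q m) (x := (b : F₀))).1 b.2
    have h2 := (coord_jF (W := W) (E := E) (q := q) (m := m) hπ).mem δ _ h
    rwa [mem_gaussP] at h2
  have hnon : ∀ b : B₀, b ∈ center hf (!decide ((q : ℤ) ∣ δ 1 0)) →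
      rs G (serAt E δ ((b : F₀) : Fld E)) = 0 := fun b hb => by
    refine Models.rs_eq_zero_of_nonunit ?_
    rw [mem_center, ← comp_eq_twoP hq hqM hmM hqm hpts₀ δ, comp, mem_nonunits_comap,
      mem_nonunits_gaussP] at hb
    exact hb
  have hsum : rs G (serAt E δ ((ε : F₀) : Fld E)) + rs G (serAt E δ ((η : F₀) : Fld E)) = 1 := by
    rw [← Models.rs_add (hmem ε) (hmem η), ← map_add]
    have : ((ε : F₀) : Fld E) + ((η : F₀) : Fld E) = 1 := by
      have := congrArg (fun b : B₀ => ((b : F₀) : Fld E)) hεη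
      simpa using this
    rw [this, map_one, Models.rs_one]
  rw [map_add]
  refine ⟨G.add_mem _ _ (hmem z) (hmem η), ?_⟩
  rw [Models.rs_add (hmem z) (hmem η)]
  split_ifs with hd
  · simp only [hd, decide_true, Bool.not_true] at hnon
    rw [hnon η hη, add_zero] at hsum
    have hsu : serAt E δ (uF E q hqM) =
        al (PowerSeries.C ((q : O) ^ 12) * U * PowerSeries.X ^ (M * (q - 1))) := by
      rw [serAt_uF_inf hqM hd, huser]
    have hzs : serAt E δ ((z : F₀) : Fld E) =
        al (U * PowerSeries.X ^ (M * (q - 1))) * serAt E δ ((ε : F₀) : Fld E) ^ 13 := by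
      have h1 := congrArg (fun t : F₀ => serAt E δ (t : Fld E)) hz
      simp only [Subfield.coe_mul, SubmonoidClass.coe_pow] at h1
      rw [map_mul, map_mul, map_pow, map_pow] at h1
      rw [show serAt E δ ((uF₀ W hqM m : F₀) : Fld E) = serAt E δ (uF E q hqM) from rfl, hsu,
        show ((algebraMap W F₀ (q : W) : F₀) : Fld E) = algebraMap O (Fld E) (q : O) by
          rw [coe_algebraMap_fld₀, map_natCast, map_natCast], serAt_algebraMap,
        ← map_pow al, ← map_pow PowerSeries.C] at h1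
      refine mul_left_cancel₀ hq0 ?_
      rw [mul_comm, h1, map_mul, map_mul, map_mul]
      ring
    rw [hzs, Models.rs_mul (algebraMap_mem_gaussRing hπ _) (pow_mem (hmem ε) _),
      Models.rs_pow (hmem ε), hsum, one_pow, mul_one, hnon η hη, add_zero]
  · simp only [hd, decide_false, Bool.not_false] at hnon
    rw [hnon ε hε, zero_add] at hsum
    rw [hnon z (mem_center.mpr hzt), zero_add, hsum]

end Fermat.Agent.ModField
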