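/-
The model of level `Γ₀(q) ∩ Γ(m)` over a base ramified at `q` as a two-component wild model.
-/
import Fermat.Agent.Models.Gamma0.NodeW
import Fermat.Agent.Models.Gamma0.InertiaRoot
import Fermat.Agent.Models.Wild.Extend

set_option autoImplicit false
set_option linter.style.haveILetI false
set_option linter.unusedSectionVars false

noncomputable section

namespace Fermat.Agent.ModField

open IsLocalRing CongruenceSubgroup UpperHalfPlane
open Fermat.Agent.GalRep
open Fermat.Agent.GalRep.Level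
open Fermat.Agent.GalRep.Model (chartRing SeriesField self_mem_chartRing)
open Fermat.Agent.Models (SemiPoints ChartFibre center TotRam IsWildChart IsWildModel IsNodeOf
  IsNodeTwo)
open scoped MatrixGroups

/-! ## Gauss places and larger constants -/

section Gauss

variable {O : Type} [CommRing O] [IsDomain O] [IsDiscreteValuationRing O] {M : ℕ} [NeZero M]
  {E : Emb O M} {O' : Type} [CommRing O'] [IsDomain O'] [IsDiscreteValuationRing O']
  {E' : Emb O' M} {π : O} {ϖ : O'}

theorem gO_map {ι : O →+* O'} (hι : ∀ a, E'.φ (ι a) = E.φ a) (P : PowerSeries O) :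
    E'.gO (P.map ι) = E.gO P := by
  simp only [Emb.gO, RingHom.comp_apply]
  congr 1
  ext k
  simp [hι]

theorem serAt_eq_map {ι : O →+* O'} (hι : ∀ a, E'.φ (ι a) = E.φ a) (hK : E.K ≤ E'.K)
    (δ : SL(2, ℤ)) {x : Fld E} {a b : PowerSeries O}
    (h : serAt E δ x * algebraMap (PowerSeries O) (SeriesField O) b =
      algebraMap (PowerSeries O) (SeriesField O) a) :
    serAt E' δ (inclFld hK x) * algebraMap (PowerSeries O') (SeriesField O') (b.map ι) =
      algebraMap (PowerSeries O') (SeriesField O') (a.map ι) := by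
  refine E'.toC_injective ?_
  have h1 := congrArg E.toC h
  rw [serAt_eq, map_mul, toC_serF, E.toC_algebraMap, E.toC_algebraMap] at h1
  rw [serAt_eq, map_mul, toC_serF, E'.toC_algebraMap, E'.toC_algebraMap, gO_map hι, gO_map hι,
    ← inclFld_fShift, toLS_inclFld, h1]

/-- The Gauss place over larger constants lies over the Gauss place. -/
theorem inclFld_mem_gaussP_iff (hπ : Irreducible π) (hϖ : Irreducible ϖ) {ι : O →+* O'}
    (hι : ∀ a, E'.φ (ι a) = E.φ a) (hloc : ¬ IsUnit (ι π)) (hK : E.K ≤ E'.K) (δ : SL(2, ℤ))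
    (x : Fld E) : inclFld hK x ∈ gaussP E' hϖ δ ↔ x ∈ gaussP E hπ δ := by
  have hdvd : ϖ ∣ ι π := by
    rw [← Ideal.mem_span_singleton, ← hϖ.maximalIdeal_eq]
    exact (IsLocalRing.mem_maximalIdeal _).mpr hloc
  have hunit : ∀ b : PowerSeries O, ¬ PowerSeries.C π ∣ b → ¬ PowerSeries.C ϖ ∣ b.map ι := by
    intro b hb hd
    refine hb ?_
    have hk : ∀ k, π ∣ PowerSeries.coeff k b := fun k => by
      obtain ⟨c, hc⟩ := hd
      have e := congrArg (PowerSeries.coeff k) hc
      rw [PowerSeries.coeff_map, PowerSeries.coeff_C_mul] at e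
      rw [← Ideal.mem_span_singleton, ← hπ.maximalIdeal_eq, IsLocalRing.mem_maximalIdeal]
      intro hu
      exact hϖ.not_isUnit (isUnit_of_mul_isUnit_left (e ▸ hu.map ι))
    choose c hc using hk
    exact ⟨PowerSeries.mk c, PowerSeries.ext fun k => by
      rw [PowerSeries.coeff_C_mul, PowerSeries.coeff_mk, ← hc]⟩
  have hle : ∀ y : Fld E, y ∈ gaussP E hπ δ → inclFld hK y ∈ gaussP E' hϖ δ := fun y hy => by
    rw [mem_gaussP, mem_gaussRing] at hy ⊢
    obtain ⟨a, b, hb, hab⟩ := hy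
    exact ⟨_, _, hunit b hb, serAt_eq_map hι hK δ hab⟩
  have hnon : ∀ y : Fld E, y ∈ (gaussP E hπ δ).nonunits →
      inclFld hK y ∈ (gaussP E' hϖ δ).nonunits := fun y hy => by
    rw [mem_nonunits_gaussP, mem_nonunits_gaussRing] at hy ⊢
    obtain ⟨a, b, hb, ⟨a', ha⟩, hab⟩ := hy
    obtain ⟨d, hd⟩ := hdvd
    refine ⟨_, _, hunit b hb, ?_, serAt_eq_map hι hK δ hab⟩
    rw [ha, map_mul, PowerSeries.map_C, hd, map_mul, mul_assoc]
    exact dvd_mul_right _ _
  refine ⟨fun hx' => ?_, hle x⟩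
  by_contra hx
  have hx0 : x ≠ 0 := fun h => hx (h ▸ zero_mem _)
  have hinv : x⁻¹ ∈ (gaussP E hπ δ).nonunits := by
    rw [ValuationSubring.mem_nonunits_iff, map_inv₀]
    refine inv_lt_one_of_one_lt₀ ?_
    rw [← not_le, ValuationSubring.valuation_le_one_iff]
    exact hx
  have h1 := hnon _ hinv
  rw [ValuationSubring.mem_nonunits_iff, map_inv₀, map_inv₀] at h1
  have h2 : (gaussP E' hϖ δ).valuation (inclFld hK x) ≤ 1 :=
    (ValuationSubring.valuation_le_one_iff _ _).mpr hx'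
  exact absurd ((one_le_inv₀ (zero_lt_iff.mpr ((_root_.map_ne_zero _).mpr
    ((_root_.map_ne_zero _).mpr hx0)))).mpr h2) (not_le.mpr h1)

/-- The induced map of base rings. -/
theorem exists_baseHom (hO : ∀ a : O, ∃ a' : O', E'.φ a' = E.φ a) :
    ∃ ι : O →+* O', ∀ a, E'.φ (ι a) = E.φ a := by
  choose f hf using hO
  exact ⟨{
    toFun := f
    map_one' := E'.inj (by rw [hf, map_one, map_one])
    map_mul' := fun a b => E'.inj (by rw [hf, map_mul, map_mul, hf, hf])
    map_zero' := E'.inj (by rw [hf, map_zero, map_zero])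
    map_add' := fun a b => E'.inj (by rw [hf, map_add, map_add, hf, hf]) }, hf⟩

end Gauss

/-! ## The model -/

variable {W : Type} [CommRing W] [IsDomain W] [IsDiscreteValuationRing W]
  [IsAlgClosed (ResidueField W)]
  {O : Type} [CommRing O] [IsDomain O] [IsDiscreteValuationRing O] [Algebra W O] [Module.Finite W O]
  [FaithfulSMul W O]
  {M : ℕ} [NeZero M] {E : Emb O M} {q m : ℕ} [hq' : Fact q.Prime] [NeZero m]
  [Algebra W (Fld E)] [IsScalarTower W O (Fld E)]
  {O' : Type} [CommRing O'] [IsDomain O'] [IsDiscreteValuationRing O']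
  [IsAlgClosed (ResidueField O')] {E' : Emb O' M}
  [Algebra W O'] [Algebra (Fld₀ W E q m) (Fld₀ O' E' q m)] [Algebra W (Fld₀ O' E' q m)]
  [IsScalarTower W (Fld₀ W E q m) (Fld₀ O' E' q m)] [IsScalarTower W O' (Fld₀ O' E' q m)]

local notation "F₀" => Fld₀ W E q m
local notation "F₁" => Fld₀ O' E' q m

variable (hq : maximalIdeal W = Ideal.span {(q : W)}) (hqM : q ∣ M) (hmM : m ∣ M) (hqm : ¬ q ∣ m)
  (hpts₀ : SemiPoints (chartRing W (jF₀ W E q m)) (q : W))
  (hcompat : ∀ x : Fld₀ W E q m,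
    toLS E' ((algebraMap (Fld₀ W E q m) (Fld₀ O' E' q m) x : Fld₀ O' E' q m) : Fld E') =
      toLS E (x : Fld E))
  (hK : E.K ≤ E'.K) (hO : ∀ a : O, ∃ a' : O', E'.φ a' = E.φ a)
  (X : TotRam W O' (Fld₀ W E q m) (Fld₀ O' E' q m)) (hXπ : X.π = (q : W))

include hXπ in
theorem natCast_eq_unif : ∃ u : O'ˣ, (q : O') = u * X.ϖ ^ X.e := by
  refine ⟨X.unit⁻¹, ?_⟩
  rw [X.pow_eq, hXπ, map_natCast, mul_comm (q : O'), ← mul_assoc, Units.inv_mul, one_mul]

include hq hcompat hK hO hXπ in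
/-- The components over the extension lie over the two components. -/
theorem algebraMap_mem_twoP_iff {π : O} (hπ : Irreducible π) (hϖ : Irreducible X.ϖ) (i : Bool)
    (x : F₀) : algebraMap F₀ F₁ x ∈ twoP O' E' q m hϖ i ↔ x ∈ twoP W E q m hπ i := by
  obtain ⟨ι, hι⟩ := exists_baseHom hO
  have hloc : ¬ IsUnit (ι π) := fun hu => by
    have hq0 : (q : O) ≠ 0 := fun h => by
      have h1 := congrArg E.φ h
      rw [map_natCast, map_zero] at h1
      exact hq'.out.ne_zero (Nat.cast_eq_zero.1 h1)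
    obtain ⟨n, u, hu'⟩ := IsDiscreteValuationRing.eq_unit_mul_pow_irreducible hq0 hπ
    have h2 : IsUnit (q : O') := by
      rw [← map_natCast ι q, hu', map_mul, map_pow]
      exact (u.isUnit.map ι).mul (hu.pow n)
    obtain ⟨v, hv⟩ := natCast_eq_unif X hXπ
    rw [hv] at h2
    exact hϖ.not_isUnit ((isUnit_pow_iff X.e_pos.ne').mp (isUnit_of_mul_isUnit_right h2))
  have e : ((algebraMap F₀ F₁ x : F₁) : Fld E') = inclFld hK (x : Fld E) :=
    toLS_injective E' (by rw [hcompat, toLS_inclFld])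
  show ((algebraMap F₀ F₁ x : F₁) : Fld E') ∈ gaussP E' hϖ _ ↔ (x : Fld E) ∈ gaussP E hπ _
  rw [e]
  exact inclFld_mem_gaussP_iff hπ hϖ hι hloc hK _ _

/-- The uniformiser on a component. -/
theorem uniformizer_twoP {ϖ : O'} (hϖ : Irreducible ϖ) (i : Bool) :
    algebraMap O' F₁ ϖ ∈ (twoP O' E' q m hϖ i).nonunits ∧
      ∀ x ∈ (twoP O' E' q m hϖ i).nonunits, x / algebraMap O' F₁ ϖ ∈ twoP O' E' q m hϖ i := by
  refine ⟨(mem_nonunits_comap _ _).mpr (uniformizer_gaussP E' hϖ _).1, fun x hx => ?_⟩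
  show ((x / algebraMap O' F₁ ϖ : F₁) : Fld E') ∈ gaussP E' hϖ _
  rw [Subfield.coe_div, coe_algebraMap_fld₀]
  exact (uniformizer_gaussP E' hϖ _).2 _ ((mem_nonunits_comap _ _).mp hx)

include hq hqM hmM hqm hpts₀ hcompat hK hO hXπ in
/-- A chart over the extension. -/
theorem wildChart_level (hϖ : Irreducible X.ϖ) {π : O} (hπ : Irreducible π) {w : F₀}
    (hw : Coord hπ w) (hw' : Coord hϖ (algebraMap F₀ F₁ w))
    (hpts : SemiPoints (chartRing W w) (q : W)) :
    IsWildChart (chartRing O' (algebraMap F₀ F₁ w)) (algebraMap F₀ F₁ w) X.ϖ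
        (twoP O' E' q m hϖ) X.e (algebraMap F₀ F₁).fieldRange ∧
      ((∃ mm : Ideal (chartRing W w), mm.IsMaximal ∧ ∃ x y u : chartRing W w,
          IsNodeTwo (chartFibre_two (hπ := hπ) hq hqM hmM hqm hpts₀ hw hpts) mm x y u) →
        ∃ mm : Ideal (chartRing O' (algebraMap F₀ F₁ w)), mm.IsMaximal ∧
          IsNodeOf (chartRing O' (algebraMap F₀ F₁ w)) X.ϖ (twoP O' E' q m hϖ) X.e
            (algebraMap F₀ F₁).fieldRange mm) := by
  set B := chartRing W w
  set w' := algebraMap F₀ F₁ w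
  set P₂ := twoP W E q m hπ
  obtain ⟨hpts', hf, hu, hmax, hc, hπ0, hnode⟩ : SemiPoints B X.π ∧
      ∃ hf : ChartFibre B X.π P₂, (∀ i, algebraMap W F₀ X.π ∈ (P₂ i).nonunits) ∧
        (∀ i, ¬ (center hf i).IsMaximal) ∧ Function.Injective (center hf) ∧
        algebraMap W F₀ X.π ≠ 0 ∧
        ((∃ mm : Ideal B, mm.IsMaximal ∧ ∃ x y u : B,
            IsNodeTwo (chartFibre_two (hπ := hπ) hq hqM hmM hqm hpts₀ hw hpts) mm x y u) →
          ∃ mm : Ideal B, mm.IsMaximal ∧ ∃ x y u : B, IsNodeTwo hf mm x y u) := by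
    rw [hXπ]
    exact ⟨hpts, chartFibre_two hq hqM hmM hqm hpts₀ hw hpts, natCast_mem_twoP hq,
      center_two_not_isMaximal hq hqM hmM hqm hpts₀ hw hpts,
      center_two_injective hq hqM hmM hqm hpts₀ hw hpts, natCast_fld₀_ne_zero hq, id⟩
  haveI : IsFractionRing B F₀ := hw.isFractionRing
  have he : X.extend B = chartRing O' w' := extend_chart X hw.tr hw.rat hpts'
  have hP := algebraMap_mem_twoP_iff hq hcompat hK hO X hXπ hπ hϖ
  have hgen : ∀ i, X.gen ∈ (twoP O' E' q m hϖ i).nonunits := fun i => (uniformizer_twoP hϖ i).1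
  have hclosed : ∀ x : F₁, IsIntegral (X.extend B) x → x ∈ X.extend B := by
    rw [he]; exact fun x hx => chartRing_closed _ hx
  have hnoeth : IsNoetherianRing (X.extend B) := by
    rw [he]; exact isNoetherianRing_chart₀ (W := O') (G := transG E') hw'.tr hw'.rat
  have hfr : IsFractionRing (X.extend B) F₁ := by
    rw [he]; exact isFractionRing_chart₀ (W := O') (G := transG E') hw'.tr hw'.rat
  rw [← he]
  refine ⟨Models.extend_isWildChart X hP hgen hf hclosed hnoeth hfr hpts' hu hmax hπ0 hc w'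
    fun b hb => ?_, fun hn => ?_⟩
  · rw [he] at hb
    exact mem_chart_iff.mp hb
  · obtain ⟨mm, hmm, x, y, u, hxyu⟩ := hnode hn
    exact Models.extend_exists_node X hP hgen hf hpts' hu hmax hπ0 hc hxyu

include hq hqM hmM hqm hpts₀ hcompat hK hO hXπ in
/-- The level model over the ramified base is a wild two-component model. -/
theorem isWildModel_level (hϖ : Irreducible X.ϖ)
    (hpts₁ : SemiPoints (chartRing W (jF₀ W E q m)⁻¹) (q : W)) :
    IsWildModel (model₀ O' E' q m) X.ϖ (twoP O' E' q m hϖ) X.e q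
      (algebraMap F₀ F₁).fieldRange := by
  obtain ⟨π, hπ⟩ := IsDiscreteValuationRing.exists_irreducible O
  have hj : algebraMap F₀ F₁ (jF₀ W E q m) = jF₀ O' E' q m := algebraMap_jF₀ hcompat
  have hj' : algebraMap F₀ F₁ (jF₀ W E q m)⁻¹ = (jF₀ O' E' q m)⁻¹ := by rw [map_inv₀, hj]
  have h₀ := wildChart_level hq hqM hmM hqm hpts₀ hcompat hK hO X hXπ hϖ hπ (coord_jF hπ)
    (by rw [hj]; exact coord_jF hϖ) hpts₀
  have h₁ := wildChart_level hq hqM hmM hqm hpts₀ hcompat hK hO X hXπ hϖ hπ (coord_inv_jF hπ)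
    (by rw [hj']; exact coord_inv_jF hϖ) hpts₁
  have hn := h₀.2 (exists_node_two (hπ := hπ) hq hqM hmM hqm hpts₀)
  have c₀ := h₀.1
  have c₁ := h₁.1
  rw [hj] at c₀ hn
  rw [hj'] at c₁
  exact
    { irreducible := hϖ
      injective := algebraMap_fld₀_injective
      prime := hq'.out
      e_pos := X.e_pos
      natCast_eq := natCast_eq_unif X hXπ
      algClosed := inferInstance
      uniformizer := uniformizer_twoP hϖ
      chart₀ := c₀
      chart₁ := c₁
      exists_node := hn }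

end Fermat.Agent.ModField
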