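/-
Over a ramified base the component of a translate depends only on the type of the cusp.
-/
import Fermat.Agent.Models.Gamma0.WildInstance

set_option autoImplicit false
set_option linter.style.haveILetI false
set_option linter.unusedSectionVars false

noncomputable section

namespace Fermat.Agent.Models

variable {O O' F F' : Type} [CommRing O] [IsDomain O] [IsDiscreteValuationRing O]
  [IsAlgClosed (IsLocalRing.ResidueField O)] [CommRing O'] [IsDomain O']
  [IsDiscreteValuationRing O'] [IsAlgClosed (IsLocalRing.ResidueField O')]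
  [Field F] [Field F'] [Algebra O F]
  [Algebra O O'] [Algebra O' F'] [Algebra F F'] [Algebra O F'] [IsScalarTower O F F']
  [IsScalarTower O O' F'] (X : TotRam O O' F F')
  {B : Subalgebra O F} {P₂ : Bool → ValuationSubring F} {P₁ P₁' : Bool → ValuationSubring F'}

/-- A place over a component of the base is determined by it. -/
theorem extend_unique [IsFractionRing B F] (hP : ∀ i x, algebraMap F F' x ∈ P₁ i ↔ x ∈ P₂ i)
    (hϖ : ∀ i, X.gen ∈ (P₁ i).nonunits)
    (hP' : ∀ i x, algebraMap F F' x ∈ P₁' i ↔ x ∈ P₂ i) (hϖ' : ∀ i, X.gen ∈ (P₁' i).nonunits)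
    (hf : ChartFibre B X.π P₂) (hpts : SemiPoints B X.π)
    (hu : ∀ i, algebraMap O F X.π ∈ (P₂ i).nonunits) (hmax : ∀ i, ¬ (center hf i).IsMaximal)
    (i : Bool) : P₁ i = P₁' i := by
  have hle : ∀ {Q Q' : Bool → ValuationSubring F'}, (∀ i x, algebraMap F F' x ∈ Q i ↔ x ∈ P₂ i) →
      (∀ i, X.gen ∈ (Q i).nonunits) → (∀ i x, algebraMap F F' x ∈ Q' i ↔ x ∈ P₂ i) →
      (∀ i, X.gen ∈ (Q' i).nonunits) → ∀ z ∈ Q i, z ∈ Q' i := by
    intro Q Q' hQ hQϖ hQ' hQϖ' z hz
    obtain ⟨a, b, hb, hab⟩ := extend_frac X hQ hQϖ hf hpts hu hmax i hz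
    obtain ⟨b₀, hb₀, r, hr, hbr⟩ := X.exists_sub_eq B b.2
    have hb' : (b : F') ∉ (Q' i).nonunits := fun h => hb
      ((mem_nonunits_iff_base X hQ hQϖ hf i hr hbr).mpr
        ((mem_nonunits_iff_base X hQ' hQϖ' hf i hr hbr).mp h))
    have hb0 : (b : F') ≠ 0 := fun h0 => hb' (by rw [h0]; exact (Q' i).nonunits.zero_mem)
    rw [show z = (a : F') * (b : F')⁻¹ by rw [← hab, mul_inv_cancel_right₀ hb0]]
    refine mul_mem (extend_le X hQ' hQϖ' hf i a.2) ((ValuationSubring.valuation_le_one_iff _ _).mp ?_)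
    rw [map_inv₀]
    exact inv_le_one_of_one_le₀ (not_lt.mp ((ValuationSubring.mem_nonunits_iff _).not.mp hb'))
  ext z
  exact ⟨hle hP hϖ hP' hϖ' z, hle hP' hϖ' hP hϖ z⟩

end Fermat.Agent.Models

namespace Fermat.Agent.ModField

open IsLocalRing CongruenceSubgroup
open Fermat.Agent.GalRep
open Fermat.Agent.GalRep.Level
open Fermat.Agent.GalRep.Model (chartRing SeriesField self_mem_chartRing)
open Fermat.Agent.Models (SemiPoints TotRam)
open scoped MatrixGroups

variable {W : Type} [CommRing W] [IsDomain W] [IsDiscreteValuationRing W]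
  [IsAlgClosed (ResidueField W)]
  {O : Type} [CommRing O] [IsDomain O] [IsDiscreteValuationRing O] [Algebra W O] [Module.Finite W O]
  [FaithfulSMul W O]
  {M : ℕ} [NeZero M] {E : Emb O M} {q m : ℕ} [hq' : Fact q.Prime] [NeZero m]
  [Algebra W (Fld E)] [IsScalarTower W O (Fld E)]
  {O' : Type} [CommRing O'] [IsDomain O'] [IsDiscreteValuationRing O']
  [IsAlgClosed (ResidueField O')] {E' : Emb O' M}
  [Algebra W O'] [Algebra (Fld₀ W E q m) (Fld₀ O' E' q m)] [Algebra W (Fld₀ O' E' q m)]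
  [IsScalarTower W (Fld₀ W E q m) (Fld₀ O' E' q m)] [IsScalarTower W O' (Fld₀ O' E' q m)]

variable (hq : maximalIdeal W = Ideal.span {(q : W)}) (hqM : q ∣ M) (hmM : m ∣ M) (hqm : ¬ q ∣ m)
  (hpts₀ : SemiPoints (chartRing W (jF₀ W E q m)) (q : W))
  (hcompat : ∀ x : Fld₀ W E q m,
    toLS E' ((algebraMap (Fld₀ W E q m) (Fld₀ O' E' q m) x : Fld₀ O' E' q m) : Fld E') =
      toLS E (x : Fld E))
  (hK : E.K ≤ E'.K) (hO : ∀ a : O, ∃ a' : O', E'.φ a' = E.φ a)
  (X : TotRam W O' (Fld₀ W E q m) (Fld₀ O' E' q m)) (hXπ : X.π = (q : W))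

include hq hcompat hK hO hXπ in
/-- A component over the extension lies over the component of the same cusp. -/
theorem algebraMap_mem_comp_iff {π : O} (hπ : Irreducible π) (hϖ : Irreducible X.ϖ) (δ : SL(2, ℤ))
    (x : Fld₀ W E q m) :
    algebraMap (Fld₀ W E q m) (Fld₀ O' E' q m) x ∈ comp (W := O') (E := E') hϖ δ ↔
      x ∈ comp (W := W) (E := E) hπ δ := by
  obtain ⟨ι, hι⟩ := exists_baseHom hO
  have hloc : ¬ IsUnit (ι π) := fun hu => by
    have hq0 : (q : O) ≠ 0 := fun h => by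
      have h1 := congrArg E.φ h
      rw [map_natCast, map_zero] at h1
      exact hq'.out.ne_zero (Nat.cast_eq_zero.1 h1)
    obtain ⟨n, u, hu'⟩ := IsDiscreteValuationRing.eq_unit_mul_pow_irreducible hq0 hπ
    have h2 : IsUnit (q : O') := by
      rw [← map_natCast ι q, hu', map_mul, map_pow]
      exact (u.isUnit.map ι).mul (hu.pow n)
    obtain ⟨v, hv⟩ := natCast_eq_unif X hXπ
    rw [hv] at h2
    exact hϖ.not_isUnit ((isUnit_pow_iff X.e_pos.ne').mp (isUnit_of_mul_isUnit_right h2))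
  have e : ((algebraMap (Fld₀ W E q m) (Fld₀ O' E' q m) x : Fld₀ O' E' q m) : Fld E') =
      inclFld hK (x : Fld E) :=
    toLS_injective E' (by rw [hcompat, toLS_inclFld])
  show ((algebraMap (Fld₀ W E q m) (Fld₀ O' E' q m) x : Fld₀ O' E' q m) : Fld E') ∈
    gaussP E' hϖ _ ↔ (x : Fld E) ∈ gaussP E hπ _
  rw [e]
  exact inclFld_mem_gaussP_iff hπ hϖ hι hloc hK _ _

include hq hqM hmM hqm hpts₀ hcompat hK hO hXπ in
/-- The component of a translate over the extension. -/
theorem comp_eq_twoP_level (hϖ : Irreducible X.ϖ) (δ : SL(2, ℤ)) :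
    comp (W := O') (E := E') (q := q) (m := m) hϖ δ =
      twoP O' E' q m hϖ (!decide ((q : ℤ) ∣ δ 1 0)) := by
  obtain ⟨π, hπ⟩ := IsDiscreteValuationRing.exists_irreducible O
  set i := !decide ((q : ℤ) ∣ δ 1 0)
  haveI := (coord_jF (W := W) (E := E) (q := q) (m := m) hπ).isFractionRing
  have hP := algebraMap_mem_twoP_iff hq hcompat hK hO X hXπ hπ hϖ
  have hgen : ∀ j, X.gen ∈ (twoP O' E' q m hϖ j).nonunits := fun j => (uniformizer_twoP hϖ j).1
  let P' : Bool → ValuationSubring (Fld₀ O' E' q m) :=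
    Function.update (twoP O' E' q m hϖ) i (comp (W := O') (E := E') hϖ δ)
  have hP' : ∀ j x, algebraMap (Fld₀ W E q m) (Fld₀ O' E' q m) x ∈ P' j ↔
      x ∈ twoP W E q m hπ j := fun j x => by
    rcases eq_or_ne j i with rfl | hj
    · simp only [P', Function.update_self]
      rw [algebraMap_mem_comp_iff hq hcompat hK hO X hXπ hπ hϖ, comp_eq_twoP hq hqM hmM hqm hpts₀ δ]
    · simp only [P', Function.update_of_ne hj]
      exact hP j x
  have hgen' : ∀ j, X.gen ∈ (P' j).nonunits := fun j => by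
    rcases eq_or_ne j i with rfl | hj
    · simp only [P', Function.update_self]
      exact (mem_nonunits_comap _ _).mpr (uniformizer_gaussP E' hϖ _).1
    · simp only [P', Function.update_of_ne hj]
      exact hgen j
  have hf := chartFibre_two (hπ := hπ) hq hqM hmM hqm hpts₀ (coord_jF hπ) hpts₀
  have key := Models.extend_unique (B := chartRing W (jF₀ W E q m)) X hP' hgen' hP hgen
    (P₂ := twoP W E q m hπ) (hXπ.symm ▸ hf) (hXπ.symm ▸ hpts₀)
    (by rw [hXπ]; exact natCast_mem_twoP hq)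
    (fun j => center_two_not_isMaximal hq hqM hmM hqm hpts₀ (coord_jF hπ) hpts₀ j) i
  simpa only [P', Function.update_self] using key

end Fermat.Agent.ModField
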