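/-
In a finite extension `K` of a field generated over its `p`-th powers by one element `J`, the
`p`-th powers are the elements of any field containing them but not `J`.
-/
import Mathlib.FieldTheory.Relrank
import Mathlib.FieldTheory.KummerPolynomial
import Mathlib.FieldTheory.IntermediateField.Adjoin.Basic
import Mathlib.FieldTheory.IntermediateField.Algebraic
import Mathlib.FieldTheory.Minpoly.Finite

set_option autoImplicit false
set_option linter.style.haveILetI false

noncomputable section

namespace Fermat.Agent.ModField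

open Polynomial

variable {L : Type*} [Field L] {p : ℕ}

theorem relfinrank_le_of_root {B A : Subfield L} (hBA : B ≤ A) (J : L) (hp : 0 < p)
    (hJ : J ^ p ∈ B) (hA : ∀ C : Subfield L, B ≤ C → J ∈ C → A ≤ C) :
    Subfield.relfinrank B A ≤ p := by
  classical
  set f : (↥B)[X] := X ^ p - C ⟨J ^ p, hJ⟩
  have hroot : aeval J f = 0 := by
    simp only [f, map_sub, map_pow, aeval_X, aeval_C]
    exact sub_self _
  have hmonic : f.Monic := monic_X_pow_sub_C _ hp.ne'
  have hint : IsIntegral B J := ⟨f, hmonic, hroot⟩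
  rw [Subfield.relfinrank_eq_finrank_of_le hBA]
  have hle : Subfield.extendScalars hBA ≤ IntermediateField.adjoin B {J} := fun x hx => by
    have h2 := hA (IntermediateField.adjoin B {J}).toSubfield
      (fun b hb => (IntermediateField.adjoin B {J}).algebraMap_mem ⟨b, hb⟩)
      (IntermediateField.mem_adjoin_simple_self B J) ((Subfield.mem_extendScalars _).mp hx)
    exact h2
  haveI := IntermediateField.adjoin.finiteDimensional hint
  refine (IntermediateField.finrank_le_of_le_right hle).trans ?_
  rw [IntermediateField.adjoin.finrank hint]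
  exact (natDegree_le_of_dvd (minpoly.dvd B J hroot) hmonic.ne_zero).trans
    (by rw [natDegree_X_pow_sub_C])

theorem exists_pow_of_mem [Fact p.Prime] [CharP L p] {A K S : Subfield L} {J : L} (hAK : A ≤ K)
    (hfin : Subfield.relfinrank A K ≠ 0) (hJA : J ∈ A)
    (hA : ∀ C : Subfield L, (∀ a ∈ A, a ^ p ∈ C) → J ∈ C → A ≤ C)
    (hS : ∀ x ∈ K, x ^ p ∈ S) (hJ : J ∉ S) {z : L} (hzK : z ∈ K) (hzS : z ∈ S) :
    ∃ w ∈ K, w ^ p = z := by
  classical
  have hp : p.Prime := Fact.out
  set φ := frobenius L p
  set Ap := A.map φ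
  set Kp := K.map φ
  have hmem : ∀ {T : Subfield L} {x : L}, x ∈ T.map φ ↔ ∃ a ∈ T, a ^ p = x := fun {T x} => by
    simp only [Subfield.mem_map, φ, frobenius_def]
  have hApA : Ap ≤ A := fun x hx => by
    obtain ⟨a, ha, rfl⟩ := hmem.mp hx
    exact pow_mem ha p
  have hApKp : Ap ≤ Kp := fun x hx => by
    obtain ⟨a, ha, rfl⟩ := hmem.mp hx
    exact hmem.mpr ⟨a, hAK ha, rfl⟩
  have hKpK : Kp ≤ K := fun x hx => by
    obtain ⟨a, ha, rfl⟩ := hmem.mp hx
    exact pow_mem ha p
  set T := S ⊓ K
  have hKpT : Kp ≤ T := fun x hx => by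
    obtain ⟨a, ha, rfl⟩ := hmem.mp hx
    exact ⟨hS a ha, pow_mem ha p⟩
  have hTK : T ≤ K := inf_le_right
  -- the degree over the powers
  have hApAle : Subfield.relfinrank Ap A ≤ p :=
    relfinrank_le_of_root hApA J hp.pos (hmem.mpr ⟨J, hJA, rfl⟩) fun C hC hJC =>
      hA C (fun a ha => hC (hmem.mpr ⟨a, ha, rfl⟩)) hJC
  have h1 : Subfield.relfinrank Ap A * Subfield.relfinrank A K =
      Subfield.relfinrank A K * Subfield.relfinrank Kp K := by
    rw [Subfield.relfinrank_mul_relfinrank hApA hAK,
      ← Subfield.relfinrank_mul_relfinrank hApKp hKpK]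
    congr 1
    exact Subfield.relfinrank_map_map A K φ
  rw [mul_comm, mul_right_inj' hfin] at h1
  have hKle : Subfield.relfinrank Kp K ≤ p := h1 ▸ hApAle
  have hApos : Subfield.relfinrank Ap A ≠ 0 := by
    rw [Subfield.relfinrank_eq_finrank_of_le hApA]
    set f : (↥Ap)[X] := X ^ p - C ⟨J ^ p, hmem.mpr ⟨J, hJA, rfl⟩⟩
    have hint : IsIntegral Ap J := ⟨f, monic_X_pow_sub_C _ hp.ne_zero, by
      rw [← aeval_def]
      simp only [f, map_sub, map_pow, aeval_X, aeval_C]
      exact sub_self _⟩
    haveI := IntermediateField.adjoin.finiteDimensional hint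
    have hle : Subfield.extendScalars hApA ≤ IntermediateField.adjoin Ap {J} := fun x hx =>
      hA (IntermediateField.adjoin Ap {J}).toSubfield
        (fun a ha => (IntermediateField.adjoin Ap {J}).algebraMap_mem ⟨a ^ p, hmem.mpr ⟨a, ha, rfl⟩⟩)
        (IntermediateField.mem_adjoin_simple_self Ap J) ((Subfield.mem_extendScalars _).mp hx)
    haveI : FiniteDimensional Ap (Subfield.extendScalars hApA) :=
      FiniteDimensional.of_injective (IntermediateField.inclusion hle).toLinearMap
        (IntermediateField.inclusion_injective hle)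
    exact Module.finrank_pos.ne'
  have hKne : Subfield.relfinrank Kp K ≠ 0 := h1 ▸ hApos
  have hTne : Subfield.relfinrank Kp T ≠ 0 ∧ Subfield.relfinrank T K ≠ 0 := by
    rw [← Subfield.relfinrank_mul_relfinrank hKpT hTK, Ne, mul_eq_zero, not_or] at hKne
    exact hKne
  -- `J` has degree `p` over the field
  have hpT : p ≤ Subfield.relfinrank T K := by
    rw [Subfield.relfinrank_eq_finrank_of_le hTK]
    haveI : FiniteDimensional T (Subfield.extendScalars hTK) := Module.finite_of_finrank_pos
      (Nat.pos_of_ne_zero (by rw [← Subfield.relfinrank_eq_finrank_of_le hTK]; exact hTne.2))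
    have hJp : J ^ p ∈ T := ⟨hS J (hAK hJA), pow_mem (hAK hJA) p⟩
    set f : (↥T)[X] := X ^ p - C ⟨J ^ p, hJp⟩
    have hroot : aeval J f = 0 := by
      simp only [f, map_sub, map_pow, aeval_X, aeval_C]
      exact sub_self _
    have hirr : Irreducible f := X_pow_sub_C_irreducible_of_prime hp fun b hb => hJ (by
      have h2 : (b : L) ^ p = J ^ p := congrArg Subtype.val hb
      rw [← frobenius_inj L p h2]
      exact b.2.1)
    have hmin : f = minpoly T J :=
      minpoly.eq_of_irreducible_of_monic hirr hroot (monic_X_pow_sub_C _ hp.ne_zero)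
    let J' : Subfield.extendScalars hTK := ⟨J, hAK hJA⟩
    have hJ' : minpoly T J' = minpoly T J :=
      (minpoly.algHom_eq (Subfield.extendScalars hTK).val Subtype.val_injective J').symm
    have h2 := minpoly.natDegree_le (A := T) J'
    rwa [hJ', ← hmin, natDegree_X_pow_sub_C] at h2
  have hone : Subfield.relfinrank Kp T = 1 := by
    have h2 := Subfield.relfinrank_mul_relfinrank hKpT hTK
    have h3 : Subfield.relfinrank Kp T * Subfield.relfinrank T K ≤
        1 * Subfield.relfinrank T K := by rw [h2, one_mul]; exact hKle.trans hpT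
    have h4 := Nat.le_of_mul_le_mul_right h3 (Nat.pos_of_ne_zero hTne.2)
    omega
  exact hmem.mp (Subfield.relfinrank_eq_one_iff.mp hone ⟨hzS, hzK⟩)

end Fermat.Agent.ModField
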