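/-
A function of level `Γ₀(p) ∩ Γ(m)` with a multiple whose reduced series at infinity lives on the
exponents divisible by `p ^ 2` is a `p`-th power on the component at infinity.
-/
import Fermat.Agent.Models.Gamma0.WildInstance
import Fermat.Agent.Models.Gamma0.PowDegree
import Fermat.Agent.Models.Gamma0.LevelIrred
import Fermat.Agent.GalRep.KummerCongr
import Fermat.Agent.Models.Wild.Trivial

set_option autoImplicit false
set_option linter.style.haveILetI false
set_option linter.unusedSectionVars false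

noncomputable section

namespace Fermat.Agent.ModField

open Polynomial IsLocalRing CongruenceSubgroup
open Fermat.Agent.GalRep
open Fermat.Agent.GalRep.Level
open Fermat.Agent.GalRep.Model (chartRing self_mem_chartRing SeriesField C_pi_prime)
open Fermat.Agent.Models (IsWildModel IsU center)
open scoped MatrixGroups

/-- The range of a contraction of exponents. -/
theorem mem_range_expand {k : Type*} [Field k] {a : ℕ} (ha : a ≠ 0) {x : LaurentSeries k}
    (hx : ∀ i : ℤ, ¬ (a : ℤ) ∣ i → x.coeff i = 0) : x ∈ (expand (K := k) a ha).fieldRange := by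
  let y : LaurentSeries k := HahnSeries.ofSuppBddBelow (fun i => x.coeff ((a : ℤ) * i))
    ⟨min x.order 0, fun i hi => by
      by_contra hlt
      rw [not_le, lt_min_iff] at hlt
      refine hi (HahnSeries.coeff_eq_zero_of_lt_order ?_)
      have : (1 : ℤ) ≤ a := by exact_mod_cast Nat.one_le_iff_ne_zero.mpr ha
      nlinarith⟩
  refine ⟨y, HahnSeries.ext (funext fun i => ?_)⟩
  by_cases hi : (a : ℤ) ∣ i
  · obtain ⟨j, rfl⟩ := hi
    rw [expand_coeff_mul]
    rfl
  · rw [expand_coeff_of_not_dvd _ _ _ _ hi, hx i hi]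

section Series

variable {O : Type} [CommRing O] [IsDomain O] [IsDiscreteValuationRing O] {M : ℕ} [NeZero M]
  {E : Emb O M} {π : O}

/-- A function with bounded poles has an integral series. -/
theorem exists_lmap_eq {x : Fld E} (hx : PoleBound (serF E x)) :
    ∃ s : LaurentSeries O, lmap E.φ s = toLS E x := by
  obtain ⟨N, P, hP⟩ := hx
  refine ⟨HahnSeries.single (-(N : ℤ)) 1 * HahnSeries.ofPowerSeries ℤ O P, ?_⟩
  have h := congrArg E.toC hP
  rw [map_mul, toC_serF, E.toC_algebraMap, E.toC_algebraMap] at h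
  have hX : E.gO (PowerSeries.X ^ N) = HahnSeries.single (N : ℤ) (1 : ℂ) := by
    rw [Emb.gO, RingHom.comp_apply, map_pow, PowerSeries.map_X, map_pow,
      HahnSeries.ofPowerSeries_X, HahnSeries.single_pow, one_pow, nsmul_eq_mul, mul_one]
  have h1 : ∀ Q : PowerSeries O, lmap E.φ (HahnSeries.ofPowerSeries ℤ O Q) = E.gO Q :=
    fun Q => by
      ext i
      simp only [lmap_coeff, Emb.gO, RingHom.comp_apply]
      by_cases hi : 0 ≤ i
      · lift i to ℕ using hi
        rw [HahnSeries.ofPowerSeries_apply_coeff, HahnSeries.ofPowerSeries_apply_coeff,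
          PowerSeries.coeff_map]
      · rw [HahnSeries.ofPowerSeries_apply, HahnSeries.ofPowerSeries_apply,
          HahnSeries.embDomain_of_notMem_range, HahnSeries.embDomain_of_notMem_range, map_zero] <;>
        · rintro ⟨j, hj⟩
          simp at hj
          omega
  have h2 : lmap E.φ (HahnSeries.single (-(N : ℤ)) (1 : O)) = HahnSeries.single (-(N : ℤ)) (1 : ℂ) := by
    ext i
    simp only [lmap_coeff, HahnSeries.coeff_single]
    split_ifs <;> simp
  rw [map_mul, h1, h2, ← h, hX, mul_left_comm, HahnSeries.single_mul_single]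
  simp

/-- The Gauss place at infinity on an integral series. -/
theorem gauss_of_lmap (hπ : Irreducible π) {x : Fld E} {s : LaurentSeries O}
    (hs : lmap E.φ s = toLS E x) :
    x ∈ gaussP E hπ 1 ∧ (x ∈ (gaussP E hπ 1).nonunits ↔ lmap (residue O) s = 0) := by
  set N := (-s.order).toNat
  set P : PowerSeries O := PowerSeries.mk fun i => s.coeff ((i : ℤ) - N)
  have hcoef : ∀ i : ℕ, PowerSeries.coeff i P = s.coeff ((i : ℤ) - N) := fun i =>
    PowerSeries.coeff_mk _ _
  have hX : E.gO (PowerSeries.X ^ N) = HahnSeries.single (N : ℤ) (1 : ℂ) := by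
    rw [Emb.gO, RingHom.comp_apply, map_pow, PowerSeries.map_X, map_pow,
      HahnSeries.ofPowerSeries_X, HahnSeries.single_pow, one_pow, nsmul_eq_mul, mul_one]
  have hPx : serAt E 1 x * algebraMap (PowerSeries O) (SeriesField O) (PowerSeries.X ^ N) =
      algebraMap (PowerSeries O) (SeriesField O) P := by
    refine E.toC_injective ?_
    rw [serAt_eq, fShift_one, map_mul, toC_serF, E.toC_algebraMap, E.toC_algebraMap, hX, ← hs]
    ext i
    rw [show i = (i - N) + N by ring, HahnSeries.coeff_mul_single_add, mul_one, lmap_coeff]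
    simp only [Emb.gO, RingHom.comp_apply]
    rw [sub_add_cancel]
    by_cases hi : 0 ≤ i
    · lift i to ℕ using hi
      rw [HahnSeries.ofPowerSeries_apply_coeff, PowerSeries.coeff_map, hcoef]
    · rw [HahnSeries.ofPowerSeries_apply, HahnSeries.embDomain_of_notMem_range,
        HahnSeries.coeff_eq_zero_of_lt_order (by omega), map_zero]
      rintro ⟨j, hj⟩
      simp at hj
      omega
  have hXn : ¬ PowerSeries.C π ∣ (PowerSeries.X ^ N : PowerSeries O) := by
    rintro ⟨c, hc⟩
    have := congrArg (PowerSeries.coeff N) hc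
    rw [PowerSeries.coeff_X_pow_self, PowerSeries.coeff_C_mul] at this
    exact hπ.not_isUnit (IsUnit.of_mul_eq_one _ this.symm)
  refine ⟨(mem_gaussP E hπ 1).mpr ⟨P, _, hXn, hPx⟩, ?_⟩
  rw [mem_nonunits_gaussP, mem_nonunits_gaussRing hπ]
  have hzero : lmap (residue O) s = 0 ↔ PowerSeries.C π ∣ P := by
    constructor
    · intro h
      have h' : ∀ i : ℕ, π ∣ PowerSeries.coeff i P := fun i => by
        have h2 : residue O (s.coeff ((i : ℤ) - N)) = 0 := by
          rw [← lmap_coeff, h, HahnSeries.coeff_zero]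
        rw [residue_eq_zero_iff, hπ.maximalIdeal_eq, Ideal.mem_span_singleton] at h2
        rwa [hcoef]
      choose c hc using h'
      exact ⟨PowerSeries.mk c, PowerSeries.ext fun i => (hc i).trans (by
        rw [PowerSeries.coeff_C_mul, PowerSeries.coeff_mk])⟩
    · rintro ⟨c, hc⟩
      refine HahnSeries.ext (funext fun i => ?_)
      rw [lmap_coeff, HahnSeries.coeff_zero, residue_eq_zero_iff, hπ.maximalIdeal_eq,
        Ideal.mem_span_singleton]
      by_cases hi : 0 ≤ i + N
      · obtain ⟨j, hj⟩ := Int.eq_ofNat_of_zero_le hi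
        rw [show i = (j : ℤ) - N by omega, ← hcoef, hc, PowerSeries.coeff_C_mul]
        exact dvd_mul_right _ _
      · rw [HahnSeries.coeff_eq_zero_of_lt_order (by omega)]
        exact dvd_zero _
  rw [hzero]
  refine ⟨?_, fun hd => ⟨P, _, hXn, hd, hPx⟩⟩
  rintro ⟨a, b, hb, ha, he⟩
  have h2 : P * b = a * PowerSeries.X ^ N := IsFractionRing.injective (PowerSeries O) (SeriesField O)
    (by rw [map_mul, map_mul, ← hPx, ← he]; ring)
  exact ((C_pi_prime hπ).dvd_or_dvd (h2 ▸ ha.mul_right _)).resolve_right hb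

/-- At level `Γ₀(p) ∩ Γ(m)` inside `Γ(p m)` only exponents divisible by `p` occur. -/
theorem coeff_eq_zero_of_level {p m : ℕ} [NeZero m] (hM : M = p * m) {K : Subfield ℂ} {x : Fld E}
    (hx : x ∈ levelFld E p m K) {i : ℤ} (hi : ¬ (p : ℤ) ∣ i) : (toLS E x).coeff i = 0 := by
  have hT : ModularGroup.T ^ (m : ℤ) ∈ levelG p m := by
    refine mem_levelG.mpr ⟨?_, ModularGroup_T_pow_mem_Gamma m _ dvd_rfl⟩
    rw [Gamma0_mem, ModularGroup.coe_T_zpow]
    simp
  have h := congrArg (fun s => HahnSeries.coeff (toLS E s) i) ((mem_levelFld.mp hx).1 _ hT)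
  simp only [NewVec.toLS_fShift_T, NewVec.twistHom, twist_coeff] at h
  by_contra hne
  have h1 : ((NewVec.zU M ^ (m : ℤ)) ^ i : ℂˣ) = 1 := by
    refine Units.ext ?_
    exact mul_left_cancel₀ hne (h.trans (mul_one _).symm)
  rw [← zpow_mul] at h1
  have h2 : (Model.zetaC M : ℂ) ^ ((m : ℤ) * i) = 1 := by
    have := congrArg Units.val h1
    rwa [Units.val_zpow_eq_zpow_val] at this
  have hprim : IsPrimitiveRoot (Model.zetaC M) M := Complex.isPrimitiveRoot_exp M (NeZero.ne M)
  have h3 := (hprim.zpow_eq_one_iff_dvd _).mp h2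
  rw [hM, Nat.cast_mul, mul_comm (p : ℤ)] at h3
  exact hi ((mul_dvd_mul_iff_left (by exact_mod_cast NeZero.ne m)).mp h3)

/-- The series of `j` at the exponent `-M`. -/
theorem coeff_toLS_jF : (toLS E (jF E)).coeff (-(M : ℤ)) = 1 := by
  rw [toLS_jF, jqN_eq, show -(M : ℤ) = (M : ℤ) * (-1) by ring, expand_coeff_mul, jq_eq_jqModC,
    ModularCurve.jqModC]
  have h := HahnSeries.coeff_single_mul_add (r := (1 : ℂ)) (b := (-1 : ℤ)) (a := (0 : ℤ))
    (x := HahnSeries.ofPowerSeries ℤ ℂ (ModularCurve.jNum.map (Int.castRingHom ℂ)))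
  rw [zero_add, one_mul] at h
  rw [h]
  exact (HahnSeries.ofPowerSeries_apply_coeff (R := ℂ) (Γ := ℤ) _ 0).trans (by
    rw [PowerSeries.coeff_map, PowerSeries.coeff_zero_eq_constantCoeff_apply,
      ModularCurve.constantCoeff_jNum, map_one])

/-- A multiple of the series has a reduction supported on the exponents divisible by `p ^ 2`. -/
def PowSer (p : ℕ) (x : Fld E) : Prop :=
  ∃ (μ : E.K) (s : LaurentSeries O), μ ≠ 0 ∧ HahnSeries.C (μ : ℂ) * toLS E x = lmap E.φ s ∧
    lmap (residue O) s ≠ 0 ∧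
    ∀ i : ℤ, ¬ ((p * p : ℕ) : ℤ) ∣ i → (lmap (residue O) s).coeff i = 0

end Series

variable {O : Type} [CommRing O] [IsDomain O] [IsDiscreteValuationRing O] {M p m : ℕ} [NeZero M]
  [Fact p.Prime] [NeZero m] {E : Emb O M} {ϖ : O} {hϖ : Irreducible ϖ} {e : ℕ}
  {F₀ : Subfield (Fld₀ O E p m)}

local notation "F" => Fld₀ O E p m
local notation "Pc" => twoP O E p m hϖ

theorem mem_nonunits_twoP_false (hπ : Irreducible ϖ) {x : F} :
    x ∈ (twoP O E p m hπ false).nonunits ↔ (x : Fld E) ∈ (gaussP E hπ 1).nonunits := by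
  rw [twoP, comp, mem_nonunits_comap]
  rfl

theorem mem_twoP_false (hπ : Irreducible ϖ) {x : F} :
    x ∈ twoP O E p m hπ false ↔ (x : Fld E) ∈ gaussP E hπ 1 := Iff.rfl

/-- The `p`-th powers on the component at infinity. -/
theorem exists_root_false (hM : M = p * m) (hpm : ¬ p ∣ m)
    (hw : IsWildModel (model₀ O E p m) ϖ Pc e p F₀) {f : F} (hf : PowSer p (f : Fld E)) :
    ∃ (n : ℤ) (T : F),
      T ^ p / (f / algebraMap O F ϖ ^ n) - 1 ∈ (Pc false).nonunits := by
  classical
  have hp : p.Prime := Fact.out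
  haveI := hw.algClosed
  set k := ResidueField O
  haveI : CharP k p := by
    refine (CharP.charP_iff_prime_eq_zero hp).mpr ?_
    obtain ⟨u, hu⟩ := hw.natCast_eq
    rw [← map_natCast (residue O), hu, residue_eq_zero_iff, hϖ.maximalIdeal_eq,
      Ideal.mem_span_singleton]
    exact Dvd.dvd.mul_left (dvd_pow_self ϖ hw.e_pos.ne') _
  haveI : CharP (LaurentSeries k) p :=
    (RingHom.charP_iff (HahnSeries.C : k →+* LaurentSeries k) HahnSeries.C_injective p).mp ‹_›
  set R := lmap (residue O)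
  let L : F →+* LaurentSeries ℂ := (toLS E).comp (Subfield.subtype _)
  have hLO : ∀ a : O, L (algebraMap O F a) = HahnSeries.C (E.φ a) := fun a => toLS_algebraMap E a
  -- the reduction of the chart
  set B := chartRing O (jF₀ O E p m)
  have hser : ∀ b : B, ∃ s : LaurentSeries O, lmap E.φ s = L (b : F) := fun b => by
    have h := (mem_chart₀_iff' (W := O) (w := jF₀ O E p m) (x := (b : F))).1 b.2
    rw [coe_jF₀] at h
    exact exists_lmap_eq (poleBound_chart h)
  choose σ hσ using hser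
  have hinj := lmap_injective E.inj
  let S₀ : B →+* LaurentSeries O :=
    { toFun := σ
      map_one' := hinj (by rw [hσ, map_one, OneMemClass.coe_one, map_one])
      map_zero' := hinj (by rw [hσ, map_zero, ZeroMemClass.coe_zero, map_zero])
      map_mul' := fun a b => hinj (by rw [hσ, map_mul, hσ, hσ, MulMemClass.coe_mul, map_mul])
      map_add' := fun a b => hinj (by rw [hσ, map_add, hσ, hσ, AddMemClass.coe_add, map_add]) }
  let ρ : B →+* LaurentSeries k := R.comp S₀
  have hker : ∀ b : B, (b : F) ∈ (Pc false).nonunits ↔ ρ b = 0 := fun b =>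
    (mem_nonunits_twoP_false hϖ).trans (gauss_of_lmap hϖ (hσ b)).2
  have hexp : ∀ b : B, ρ b ∈ (expand (K := k) p hp.ne_zero).fieldRange := fun b =>
    mem_range_expand _ fun i hi => by
      show (R (σ b)).coeff i = 0
      rw [lmap_coeff, show (σ b).coeff i = 0 from E.inj (by
        rw [← lmap_coeff, hσ, map_zero]
        exact coeff_eq_zero_of_level hM (b : F).2 hi), map_zero]
  set J : LaurentSeries k := ρ ⟨jF₀ O E p m, self_mem_chartRing _⟩
  have hJcoef : J.coeff (-(M : ℤ)) = 1 := by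
    show (R (σ _)).coeff _ = 1
    rw [lmap_coeff, show (σ ⟨jF₀ O E p m, self_mem_chartRing _⟩).coeff (-(M : ℤ)) = 1 from E.inj (by
      rw [← lmap_coeff, hσ, map_one]
      exact coeff_toLS_jF), map_one]
  have hconst : ∀ a : O, ρ (algebraMap O B a) = HahnSeries.C (residue O a) := fun a => by
    show R (σ _) = _
    rw [show σ (algebraMap O B a) = HahnSeries.C a from hinj (by
      rw [hσ, lmap_C]; exact hLO a), lmap_C]
  -- the fields
  set A : Subfield (LaurentSeries k) :=
    Subfield.closure (Set.range (HahnSeries.C : k →+* LaurentSeries k) ∪ {J})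
  set Kc : Subfield (LaurentSeries k) := Subfield.closure (Set.range ρ)
  have hAKc : A ≤ Kc := Subfield.closure_le.mpr (by
    rintro _ (⟨c, rfl⟩ | rfl)
    · obtain ⟨a, rfl⟩ := IsLocalRing.residue_surjective (R := O) c
      exact Subfield.subset_closure ⟨_, hconst a⟩
    · exact Subfield.subset_closure ⟨_, rfl⟩)
  obtain ⟨g, G, hG, hgen⟩ := (model₀ O E p m).fg₀
  set K₀ : IntermediateField A (LaurentSeries k) :=
    IntermediateField.adjoin A (Set.range fun i => ρ ⟨G i, hG i⟩)
  let ψ : O[X] →+* A := (ρ.comp (polyHom₀ (jF₀ O E p m))).codRestrict A fun P => by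
    induction P using Polynomial.induction_on' with
    | add a b ha hb => rw [map_add]; exact add_mem ha hb
    | monomial i a =>
      rw [← C_mul_X_pow_eq_monomial, map_mul, map_pow]
      show ρ (polyHom₀ (jF₀ O E p m) (C a)) * ρ (polyHom₀ (jF₀ O E p m) X) ^ i ∈ A
      refine mul_mem ?_ (pow_mem ?_ _)
      · rw [show polyHom₀ (jF₀ O E p m) (C a) = algebraMap O B a from Subtype.ext (by
          rw [coe_polyHom₀, aeval_C]; rfl), hconst]
        exact Subfield.subset_closure (Or.inl ⟨_, rfl⟩)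
      · rw [show polyHom₀ (jF₀ O E p m) X = ⟨jF₀ O E p m, self_mem_chartRing _⟩ from Subtype.ext (by
          rw [coe_polyHom₀, aeval_X])]
        exact Subfield.subset_closure (Or.inr rfl)
  haveI : FiniteDimensional A K₀ := by
    refine IntermediateField.finiteDimensional_adjoin fun x hx => ?_
    obtain ⟨i, rfl⟩ := hx
    obtain ⟨P, hP, hPx⟩ := (isIntegral_adjoin_iff' _ _).1 (mem_chart_iff.1 (hG i))
    refine ⟨P.map ψ, hP.map _, ?_⟩
    have h0 : P.eval₂ (polyHom₀ (jF₀ O E p m)) (⟨G i, hG i⟩ : B) = 0 := Subtype.ext (by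
      show B.val.toRingHom _ = _
      rw [hom_eval₂, ZeroMemClass.coe_zero, ← hPx]
      exact congrArg (fun φ => eval₂ φ (G i) P) (RingHom.ext fun Q => coe_polyHom₀ _ Q))
    have h1 := congrArg ρ h0
    rw [map_zero, hom_eval₂] at h1
    rw [eval₂_map]
    exact h1
  have hmemK₀ : ∀ b : B, ρ b ∈ K₀ := fun b => by
    obtain ⟨P, hP⟩ := hgen _ b.2
    rw [show b = ∑ i, polyHom₀ (jF₀ O E p m) (P i) * ⟨G i, hG i⟩ from Subtype.ext (by
      rw [AddSubmonoidClass.coe_finsetSum]
      refine hP.trans (Finset.sum_congr rfl fun i _ => ?_)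
      rw [MulMemClass.coe_mul, coe_polyHom₀]
      rfl), map_sum]
    refine sum_mem fun i _ => ?_
    rw [map_mul]
    exact mul_mem (K₀.algebraMap_mem (ψ (P i))) (IntermediateField.subset_adjoin A _ ⟨i, rfl⟩)
  set K : Subfield (LaurentSeries k) := K₀.toSubfield
  have hKc : K = Kc := by
    refine le_antisymm ?_ (Subfield.closure_le.mpr (by rintro _ ⟨b, rfl⟩; exact hmemK₀ b))
    let Kc' : IntermediateField A (LaurentSeries k) :=
      { Kc with algebraMap_mem' := fun a => hAKc a.2 }
    have hle : K₀ ≤ Kc' := IntermediateField.adjoin_le_iff.mpr (by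
      rintro _ ⟨i, rfl⟩; exact Subfield.subset_closure ⟨_, rfl⟩)
    exact fun x hx => hle hx
  have hAK : A ≤ K := hKc ▸ hAKc
  have hfin : Subfield.relfinrank A K ≠ 0 := by
    rw [Subfield.relfinrank_eq_finrank_of_le hAK,
      show Subfield.extendScalars hAK = K₀ from IntermediateField.ext fun x => Iff.rfl]
    exact Module.finrank_pos.ne'
  set S : Subfield (LaurentSeries k) :=
    ((expand (K := k) p hp.ne_zero).comp (expand p hp.ne_zero)).fieldRange
  have hKexp : K ≤ (expand (K := k) p hp.ne_zero).fieldRange := hKc ▸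
    Subfield.closure_le.mpr (by rintro _ ⟨b, rfl⟩; exact hexp b)
  have hS : ∀ x ∈ K, x ^ p ∈ S := fun x hx => by
    obtain ⟨y, rfl⟩ := hKexp hx
    exact ⟨lmap (frobenius k p) y, by rw [RingHom.comp_apply, ← pow_char_eq_expand, map_pow]⟩
  have hJS : J ∉ S := by
    rintro ⟨y, hy⟩
    refine one_ne_zero (α := k) (hJcoef.symm.trans ?_)
    rw [← hy, RingHom.comp_apply, show -(M : ℤ) = (p : ℤ) * -(m : ℤ) by rw [hM]; push_cast; ring,
      expand_coeff_mul, expand_coeff_of_not_dvd]
    rw [dvd_neg]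
    exact fun h => hpm (Int.natCast_dvd_natCast.mp h)
  have hA : ∀ C' : Subfield (LaurentSeries k), (∀ a ∈ A, a ^ p ∈ C') → J ∈ C' → A ≤ C' :=
    fun C' hC hJC => Subfield.closure_le.mpr (by
      rintro _ (⟨c, rfl⟩ | rfl)
      · obtain ⟨d, rfl⟩ := IsAlgClosed.exists_pow_nat_eq c hp.pos
        rw [map_pow]
        exact hC _ (Subfield.subset_closure (Or.inl ⟨d, rfl⟩))
      · exact hJC)
  -- normalisation of the series
  obtain ⟨μ, s, hμ, hμs, hs0, hsupp⟩ := hf
  obtain ⟨u, v, hv, huv⟩ := exists_frac_of_mem E μ.2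
  have hu : u ≠ 0 := fun h0 => hμ (Subtype.ext (by rw [huv, h0, map_zero, zero_div]; rfl))
  obtain ⟨α, ε, hεu⟩ := IsDiscreteValuationRing.eq_unit_mul_pow_irreducible hu hϖ
  obtain ⟨β, δ, hδv⟩ := IsDiscreteValuationRing.eq_unit_mul_pow_irreducible hv hϖ
  set c : O := (δ : O) * ((ε⁻¹ : Oˣ) : O)
  set n : ℤ := (β : ℤ) - α
  set z : F := f / algebraMap O F ϖ ^ n
  have hz : L z = lmap E.φ (HahnSeries.C c * s) := by
    rw [map_mul, lmap_C, ← hμs, ← mul_assoc, ← map_mul, show L z = L f / L (algebraMap O F ϖ) ^ n by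
      rw [map_div₀, map_zpow₀], hLO, div_eq_mul_inv, mul_comm, ← map_zpow₀, ← map_inv₀]
    refine congrArg (fun t => HahnSeries.C t * L f) ?_
    have h1 : E.φ ϖ ≠ 0 := (map_ne_zero_iff _ E.inj).mpr hϖ.ne_zero
    have h2 : E.φ ((ε⁻¹ : Oˣ) : O) * E.φ (ε : O) = 1 := by rw [← map_mul, Units.inv_mul, map_one]
    have h3 : E.φ (δ : O) ≠ 0 := (map_ne_zero_iff _ E.inj).mpr δ.ne_zero
    rw [huv, hεu, hδv, map_mul, map_mul, map_mul, map_pow, map_pow, zpow_sub₀ h1, inv_div,
      zpow_natCast, zpow_natCast]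
    field_simp
    linear_combination -h2
  have hcu : residue O c ≠ 0 := ((δ * ε⁻¹).isUnit.map (residue O)).ne_zero
  set Rz := R (HahnSeries.C c * s)
  have hRz : Rz = HahnSeries.C (residue O c) * R s := by rw [← lmap_C (residue O), ← map_mul]
  have hRz0 : Rz ≠ 0 := hRz ▸ mul_ne_zero (by simpa using hcu) hs0
  have hRzS : Rz ∈ S := by
    have hsup : ∀ i : ℤ, ¬ ((p * p : ℕ) : ℤ) ∣ i → Rz.coeff i = 0 := fun i hi => by
      rw [hRz, HahnSeries.C_mul_eq_smul, HahnSeries.coeff_smul, hsupp i hi, smul_zero]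
    obtain ⟨y, hy⟩ := mem_range_expand hp.ne_zero (x := Rz) fun i hi => hsup i fun h =>
      hi (dvd_trans (by rw [Nat.cast_mul]; exact dvd_mul_right _ _) h)
    obtain ⟨y', hy'⟩ := mem_range_expand hp.ne_zero (x := y) fun i hi => by
      rw [← expand_coeff_mul p hp.ne_zero y i, hy]
      refine hsup _ fun h => hi ?_
      rw [Nat.cast_mul] at h
      exact (mul_dvd_mul_iff_left (by exact_mod_cast hp.ne_zero)).mp h
    exact ⟨y', by rw [RingHom.comp_apply, hy', hy]⟩
  have hzP : z ∈ Pc false := (mem_twoP_false hϖ).mpr (gauss_of_lmap hϖ (x := (z : Fld E)) hz.symm).1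
  obtain ⟨a, b, hb, hab⟩ : ∃ a b : B, (b : F) ∉ (Pc false).nonunits ∧ z * (b : F) = a :=
    hw.chart₀.frac false z hzP
  have hρb : ρ b ≠ 0 := fun h0 => hb ((hker b).mpr h0)
  have hab' : Rz * ρ b = ρ a := by
    show R _ * R (σ b) = R (σ a)
    rw [← map_mul]
    congr 1
    refine hinj ?_
    rw [map_mul (lmap E.φ), hσ, hσ, ← hz, ← map_mul, hab]
  have hRzK : Rz ∈ K := by
    rw [hKc, eq_div_of_mul_eq hρb hab']
    exact div_mem (Subfield.subset_closure ⟨a, rfl⟩) (Subfield.subset_closure ⟨b, rfl⟩)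
  obtain ⟨w, hwK, hwp⟩ :=
    exists_pow_of_mem (p := p) hAK hfin (Subfield.subset_closure (Or.inr rfl)) hA hS hJS hRzK hRzS
  rw [hKc, Subfield.mem_closure_iff] at hwK
  obtain ⟨x', hx', y', hy', hxy⟩ := hwK
  rw [← RingHom.coe_range, Subring.closure_eq] at hx' hy'
  obtain ⟨cc, rfl⟩ := hx'
  obtain ⟨dd, rfl⟩ := hy'
  have hw0 : w ≠ 0 := fun h0 => hRz0 (by rw [← hwp, h0, zero_pow hp.ne_zero])
  rw [← hxy] at hw0 hwp
  obtain ⟨hρc, hρd⟩ := div_ne_zero_iff.mp hw0
  refine ⟨n, (cc : F) / (dd : F), ?_⟩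
  have hρa : ρ a ≠ 0 := hab' ▸ mul_ne_zero hRz0 hρb
  set num : B := cc ^ p * b - dd ^ p * a
  set den : B := dd ^ p * a
  have hnum : (num : F) ∈ (Pc false).nonunits := (hker _).mpr (by
    simp only [num, map_sub, map_mul, map_pow]
    rw [← hab', ← hwp, div_pow]
    field_simp
    ring)
  have hden : IsU (Pc false) (den : F) :=
    Models.isU_of_notMem_center (hf := hw.chart₀.fibre) fun h' => by
      have h0 := (hker den).mp (Models.mem_center.mp h')
      simp only [den, map_mul, map_pow] at h0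
      exact mul_ne_zero (pow_ne_zero p hρd) hρa h0
  have hne : ∀ {y : B}, ρ y ≠ 0 → (y : F) ≠ 0 := fun {y} hy h0 =>
    hy (by rw [show y = 0 from Subtype.ext h0, map_zero])
  have hT : ((cc : F) / (dd : F)) ^ p / z - 1 = (num : F) * (den : F)⁻¹ := by
    have hb0 := hne hρb
    have ha0 := hne hρa
    have hd0 := hne hρd
    have hz' : z = (a : F) / (b : F) := by rw [eq_div_iff hb0]; exact hab
    rw [hz', div_pow]
    simp only [num, den]
    push_cast
    field_simp
  show ((cc : F) / (dd : F)) ^ p / z - 1 ∈ (Pc false).nonunits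
  rw [hT]
  exact (hw.pDvd_one_iff false).mp (((hw.pDvd_one_iff false).mpr hnum).mul_mem hden.inv.1)

/-- Power reductions at both types of cusps give roots on both components. -/
theorem exists_root_both (hM : M = p * m) (hpm : ¬ p ∣ m)
    (hw : IsWildModel (model₀ O E p m) ϖ Pc e p F₀) (W : F ≃+* F)
    (hWc : ∀ a, W (algebraMap O F a) = algebraMap O F a)
    (hW : ∀ z, W z ∈ (Pc false).nonunits ↔ z ∈ (Pc true).nonunits) {f : F}
    (hf : PowSer p (f : Fld E)) (hWf : PowSer p ((W f : F) : Fld E)) :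
    ∃ (n : Bool → ℤ) (T : Bool → F),
      ∀ i, T i ^ p / (f / algebraMap O F ϖ ^ n i) - 1 ∈ (Pc i).nonunits := by
  obtain ⟨n₀, T₀, h₀⟩ := exists_root_false hM hpm hw hf
  obtain ⟨n₁, T₁, h₁⟩ := exists_root_false hM hpm hw hWf
  refine ⟨fun i => bif i then n₁ else n₀, fun i => bif i then W.symm T₁ else T₀, fun i => ?_⟩
  cases i with
  | false => exact h₀
  | true =>
    refine (hW _).mp ?_
    simp only [cond_true, map_sub, map_one, map_div₀, map_pow, map_zpow₀, RingEquiv.apply_symm_apply,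
      hWc]
    exact h₁

end Fermat.Agent.ModField
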