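/-
The norm and the trace from level `Γ₀(p) ∩ Γ(m)` to level `Γ(m)` on the level model: they respect
the charts, and the trace is congruent to the identity on the component over infinity.
-/
import Fermat.Agent.Models.Gamma0.TwoComps
import Fermat.Agent.Models.Gamma0.TwoCharts
import Fermat.Agent.Models.Wild.ClassOps

set_option autoImplicit false
set_option linter.style.haveILetI false
set_option linter.unusedSectionVars false

noncomputable section

namespace Fermat.Agent.ModField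

open Polynomial IsLocalRing CongruenceSubgroup
open Fermat.Agent.GalRep
open Fermat.Agent.GalRep.Level
open Fermat.Agent.GalRep.Model (chartRing self_mem_chartRing)
open Fermat.Agent.Models (RootClosed rootModule mem_rootModule mul_mem_rootModule mul_left_mem
  rootClosed_of_isIntegral IsNormOp)
open scoped MatrixGroups

/-! ## Charts under maps -/

section Maps

variable {R L : Type} [CommRing R] [IsDomain R] [IsDiscreteValuationRing R] [Field L] [Algebra R L]

/-- A map sending the coordinate and the constants into a closed ring sends the chart there. -/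
theorem map_mem_of_mem_chart {S : Subalgebra R L} (hS : ∀ x, IsIntegral S x → x ∈ S) (φ : L →+* L)
    (hC : ∀ a, φ (algebraMap R L a) ∈ S) {w : L} (hw : φ w ∈ S) {x : L}
    (hx : x ∈ chartRing R w) : φ x ∈ S := by
  obtain ⟨P, hP, hPx⟩ := (isIntegral_adjoin_iff' w x).mp (mem_chart_iff.mp hx)
  have hmem : ∀ Q : R[X], φ (aeval w Q) ∈ S := fun Q => by
    induction Q using Polynomial.induction_on' with
    | add a b ha hb => rw [map_add, map_add]; exact add_mem ha hb
    | monomial n a =>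
      rw [aeval_monomial, map_mul, map_pow]
      exact mul_mem (hC a) (pow_mem hw n)
  refine hS _ ⟨P.map ((φ.comp (aeval w).toRingHom).codRestrict S hmem), hP.map _, ?_⟩
  rw [eval₂_map]
  have h2 := congrArg φ hPx
  rw [map_zero, Polynomial.hom_eval₂] at h2
  exact h2

theorem mem_overlap_iff {w x : L} (hw : w ≠ 0) :
    x ∈ overlapRing R w ↔ ∃ N : ℕ, w ^ N * x ∈ chartRing R w := by
  refine ⟨fun hx => overlap_loc w hw hx, fun ⟨N, hN⟩ => ?_⟩
  have h1 : w⁻¹ ∈ overlapRing R w := by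
    rw [← overlapRing_inv]
    exact chartRing_le_overlap _ (self_mem_chartRing _)
  have h2 := mul_mem (pow_mem h1 N) (chartRing_le_overlap _ hN)
  rwa [← mul_assoc, ← mul_pow, inv_mul_cancel₀ hw, one_pow, one_mul] at h2

/-- A product of perturbed sections. -/
theorem exists_prod_add {n : ℕ} {S : Subalgebra R L} {hB : RootClosed S n} {hn : 0 < n}
    {ι : Type} (t : Finset ι) {fs a b : ι → L} {c : L} (hc : c ∈ S)
    (ha : ∀ i, a i ∈ rootModule hB hn (fs i)) (hb : ∀ i, b i ∈ rootModule hB hn (fs i)) :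
    ∏ i ∈ t, a i ∈ rootModule hB hn (∏ i ∈ t, fs i) ∧
      ∃ z ∈ rootModule hB hn (∏ i ∈ t, fs i), ∏ i ∈ t, (a i + c * b i) = ∏ i ∈ t, a i + c * z := by
  classical
  induction t using Finset.induction_on with
  | empty => exact ⟨by simp [mem_rootModule, one_mem], 0, zero_mem _, by simp⟩
  | insert i t hi ih =>
    obtain ⟨hP, z, hz, hze⟩ := ih
    rw [Finset.prod_insert hi, Finset.prod_insert hi, Finset.prod_insert hi]
    refine ⟨mul_mem_rootModule (ha i) hP, b i * ∏ j ∈ t, a j + a i * z + c * (b i * z),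
      add_mem (add_mem (mul_mem_rootModule (hb i) hP) (mul_mem_rootModule (ha i) hz))
        (mul_left_mem hc (mul_mem_rootModule (hb i) hz)), ?_⟩
    rw [hze]; ring

/-- A product of elements congruent to one. -/
theorem exists_prod_one_add {S : Subalgebra R L} {ι : Type} (t : Finset ι) {a : ι → L} {c : L}
    (hc : c ∈ S) (ha : ∀ i, a i ∈ S) :
    ∃ w ∈ S, ∏ i ∈ t, (1 + c * a i) = 1 + c * ∑ i ∈ t, a i + c * c * w := by
  classical
  induction t using Finset.induction_on with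
  | empty => exact ⟨0, zero_mem _, by simp⟩
  | insert i t hi ih =>
    obtain ⟨w, hw, he⟩ := ih
    rw [Finset.prod_insert hi, Finset.sum_insert hi, he]
    exact ⟨w + a i * ∑ j ∈ t, a j + c * (a i * w),
      add_mem (add_mem hw (mul_mem (ha i) (Subalgebra.sum_mem _ fun j _ => ha j)))
        (mul_mem hc (mul_mem (ha i) hw)), by ring⟩

end Maps

/-! ## Cosets -/

section Cosets

variable {p m : ℕ}

theorem mul_inv_mem_gamma0_iff (h h' : SL(2, ℤ)) :
    h * h'⁻¹ ∈ Gamma0 p ↔ (p : ℤ) ∣ h 1 0 * h' 1 1 - h 1 1 * h' 1 0 := by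
  rw [Gamma0_mem, ZMod.intCast_zmod_eq_zero_iff_dvd]
  refine iff_of_eq (congrArg _ ?_)
  simp [Matrix.SpecialLinearGroup.coe_mul, Matrix.SpecialLinearGroup.coe_inv,
    Matrix.adjugate_fin_two, Matrix.mul_apply, Fin.sum_univ_two]
  ring

/-- Lower unipotent. -/
def cosLow (m : ℕ) : SL(2, ℤ) := ⟨!![1, 0; (m : ℤ), 1], by simp [Matrix.det_fin_two]⟩

/-- Representatives of the cosets of `Γ₀(p) ∩ Γ(m)` in `Γ(m)`. -/
def cosRep (p m : ℕ) : Option (Fin p) → SL(2, ℤ)
  | none => 1
  | some s => cosLow m * ModularGroup.T ^ ((((s : ℕ) * m : ℕ) : ℤ))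

theorem cosLow_mem (m : ℕ) : cosLow m ∈ Gamma m := Gamma_mem.mpr (by simp [cosLow])

theorem T_pow_mem (s m : ℕ) : ModularGroup.T ^ (((s * m : ℕ) : ℤ)) ∈ Gamma m :=
  ModularGroup_T_pow_mem_Gamma m _ (Int.natCast_dvd_natCast.mpr (Dvd.intro_left s rfl))

theorem cosRep_mem : ∀ i, cosRep p m i ∈ Gamma m
  | none => one_mem _
  | some _ => mul_mem (cosLow_mem m) (T_pow_mem _ m)

theorem cosRep_some_10 (s : Fin p) : cosRep p m (some s) 1 0 = (m : ℤ) := by
  simp only [cosRep, Matrix.SpecialLinearGroup.coe_mul, ModularGroup.coe_T_zpow]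
  simp [cosLow, Matrix.mul_apply, Fin.sum_univ_two]

theorem cosRep_some_11 (s : Fin p) :
    cosRep p m (some s) 1 1 = (s : ℤ) * (m : ℤ) * (m : ℤ) + 1 := by
  simp only [cosRep, Matrix.SpecialLinearGroup.coe_mul, ModularGroup.coe_T_zpow]
  simp [cosLow, Matrix.mul_apply, Fin.sum_univ_two]
  ring

variable [hp : Fact p.Prime] (hpm : ¬ p ∣ m)

include hpm in
theorem cosRep_inj {i j : Option (Fin p)} (h : cosRep p m i * (cosRep p m j)⁻¹ ∈ levelG p m) :
    i = j := by
  have hd := (mul_inv_mem_gamma0_iff _ _).mp h.1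
  rw [← ZMod.intCast_zmod_eq_zero_iff_dvd] at hd
  have hm0 : (m : ZMod p) ≠ 0 := fun h0 => hpm ((ZMod.natCast_eq_zero_iff _ _).mp h0)
  rcases i with _ | s <;> rcases j with _ | t
  · rfl
  · simp [cosRep_some_10, show cosRep p m none = 1 from rfl, hm0] at hd
  · simp [cosRep_some_10, show cosRep p m none = 1 from rfl, hm0] at hd
  · rw [cosRep_some_10, cosRep_some_10, cosRep_some_11, cosRep_some_11] at hd
    push_cast at hd
    have h1 : ((t : ℕ) : ZMod p) = ((s : ℕ) : ZMod p) := by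
      have h2 : (m : ZMod p) ^ 3 * (((t : ℕ) : ZMod p) - ((s : ℕ) : ZMod p)) = 0 := by
        linear_combination hd
      exact sub_eq_zero.mp ((mul_eq_zero.mp h2).resolve_left (pow_ne_zero 3 hm0))
    have h3 := congrArg ZMod.val h1
    rw [ZMod.val_natCast_of_lt t.isLt, ZMod.val_natCast_of_lt s.isLt] at h3
    exact congrArg some (Fin.ext h3.symm)

include hpm in
theorem exists_cosRep {h : SL(2, ℤ)} (hh : h ∈ Gamma m) :
    ∃ i, h * (cosRep p m i)⁻¹ ∈ levelG p m := by
  have hg : ∀ i, h * (cosRep p m i)⁻¹ ∈ Gamma m := fun i => mul_mem hh (inv_mem (cosRep_mem i))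
  by_cases hc : (p : ℤ) ∣ h 1 0
  · refine ⟨none, (mul_inv_mem_gamma0_iff _ _).mpr ?_, hg none⟩
    simpa [show cosRep p m none = 1 from rfl] using hc
  have hm0 : (m : ZMod p) ≠ 0 := fun h0 => hpm ((ZMod.natCast_eq_zero_iff _ _).mp h0)
  have hc0 : ((h 1 0 : ℤ) : ZMod p) ≠ 0 := fun h0 =>
    hc ((ZMod.intCast_zmod_eq_zero_iff_dvd _ _).mp h0)
  set z : ZMod p := (((h 1 1 : ℤ) : ZMod p) * (m : ZMod p) - ((h 1 0 : ℤ) : ZMod p)) /
    (((h 1 0 : ℤ) : ZMod p) * (m : ZMod p) * (m : ZMod p)) with hz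
  refine ⟨some ⟨z.val, ZMod.val_lt z⟩, (mul_inv_mem_gamma0_iff _ _).mpr ?_, hg _⟩
  rw [← ZMod.intCast_zmod_eq_zero_iff_dvd, cosRep_some_10, cosRep_some_11]
  push_cast
  rw [ZMod.natCast_zmod_val, hz]
  field_simp
  ring

end Cosets

variable {O : Type} [CommRing O] [IsDomain O] [IsDiscreteValuationRing O] {M : ℕ} [NeZero M]
  {E : Emb O M} {p m : ℕ}

theorem baseK_eq : baseK O E = E.K := by
  rw [baseK, Emb.K, RingHom.coe_comp]
  exact congrArg _ (Function.Surjective.range_comp (fun a => ⟨a, rfl⟩) _)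

theorem mem_fld₀_self_iff {x : Fld E} :
    x ∈ Fld₀ O E p m ↔ ∀ g ∈ levelG p m, fShift E g x = x := by
  rw [mem_levelFld, baseK_eq]
  exact and_iff_left (E.sFld_le (toLS_mem E x))

theorem fld₀_fixed (x : Fld₀ O E p m) {g : SL(2, ℤ)} (hg : g ∈ levelG p m) :
    fShift E g (x : Fld E) = x := mem_fld₀_self_iff.mp x.2 g hg

theorem fShift_coset (x : Fld₀ O E p m) {h h' : SL(2, ℤ)} (hh : h * h'⁻¹ ∈ levelG p m) :
    fShift E h (x : Fld E) = fShift E h' (x : Fld E) := by
  conv_lhs => rw [← inv_mul_cancel_right h h', ← fShift_fShift, fld₀_fixed x hh]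

theorem fShift_mem_chartRing (g : SL(2, ℤ)) {x : Fld E} :
    (x ∈ chartRing O (jF E) → fShift E g x ∈ chartRing O (jF E)) ∧
      (x ∈ chartRing O (jF E)⁻¹ → fShift E g x ∈ chartRing O (jF E)⁻¹) := by
  have hC : ∀ w : Fld E, ∀ a : O, (fShift E g).toRingHom (algebraMap O (Fld E) a) ∈ chartRing O w :=
    fun w a => by
      rw [RingEquiv.toRingHom_eq_coe, RingEquiv.coe_toRingHom, fShift_algebraMap]
      exact (chartRing O w).algebraMap_mem a
  refine ⟨map_mem_of_mem_chart (fun _ => chartRing_closed _) (fShift E g).toRingHom (hC _) ?_,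
    map_mem_of_mem_chart (fun _ => chartRing_closed _) (fShift E g).toRingHom (hC _) ?_⟩
  · rw [RingEquiv.toRingHom_eq_coe, RingEquiv.coe_toRingHom, fShift_jF]
    exact self_mem_chartRing _
  · rw [RingEquiv.toRingHom_eq_coe, RingEquiv.coe_toRingHom, map_inv₀, fShift_jF]
    exact self_mem_chartRing _

theorem fShift_mem_overlap (g : SL(2, ℤ)) {x : Fld E} (hx : x ∈ overlapRing O (jF E)) :
    fShift E g x ∈ overlapRing O (jF E) := by
  obtain ⟨N, hN⟩ := (mem_overlap_iff (jF_ne_zero E)).mp hx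
  refine (mem_overlap_iff (jF_ne_zero E)).mpr ⟨N, ?_⟩
  have := (fShift_mem_chartRing g).1 hN
  rwa [map_mul, map_pow, fShift_jF] at this

theorem mem_overlap₀_iff {x : Fld₀ O E p m} :
    x ∈ overlapRing O (jF₀ O E p m) ↔ (x : Fld E) ∈ overlapRing O (jF E) := by
  rw [mem_overlap_iff (jF₀_ne_zero O E p m), mem_overlap_iff (jF_ne_zero E)]
  exact exists_congr fun N => mem_chart₀_iff'

theorem overlap_le_gaussP {π : O} (hπ : Irreducible π) (δ : SL(2, ℤ)) {x : Fld E}
    (hx : x ∈ overlapRing O (jF E)) : x ∈ gaussP E hπ δ := by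
  obtain ⟨N, hN⟩ := (mem_overlap_iff (jF_ne_zero E)).mp hx
  have h := (gaussP E hπ δ).mul_mem _ _ ((chart_le_gaussP E hπ δ).2 _
    (pow_mem (self_mem_chartRing (jF E)⁻¹) N)) ((chart_le_gaussP E hπ δ).1 _ hN)
  rwa [← mul_assoc, ← mul_pow, inv_mul_cancel₀ (jF_ne_zero E), one_pow, one_mul] at h

/-! ## Congruence at infinity -/

theorem natCast_mem_nonunits_gaussP (hp : (p : O) ∈ maximalIdeal O) {π : O} (hπ : Irreducible π)
    (δ : SL(2, ℤ)) : (p : Fld E) ∈ (gaussP E hπ δ).nonunits := by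
  rw [hπ.maximalIdeal_eq, Ideal.mem_span_singleton] at hp
  obtain ⟨c, hc⟩ := hp
  rw [← map_natCast (algebraMap O (Fld E)), hc, map_mul, ValuationSubring.mem_nonunits_iff, map_mul]
  refine mul_lt_one_of_lt_of_le ((gaussP E hπ δ).mem_nonunits_iff.mp
    (uniformizer_gaussP E hπ δ).1) ((ValuationSubring.valuation_le_one_iff _ _).mpr ?_)
  rw [mem_gaussP, serAt_algebraMap]
  exact algebraMap_mem_gaussRing hπ _

/-- The sum of the translates of an integral element at infinity vanishes there. -/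
theorem sum_translates_mem [hp' : Fact p.Prime] (hp : (p : O) ∈ maximalIdeal O) (hM : M = p * m)
    {π : O} (hπ : Irreducible π) {y : Fld E} (hy : y ∈ gaussP E hπ 1) :
    ∑ s : Fin p, fShift E (ModularGroup.T ^ (((s : ℕ) * m : ℕ) : ℤ)) y ∈
      (gaussP E hπ 1).nonunits := by
  set V := gaussP E hπ 1
  haveI : CharP (ResidueField O) p := (CharP.charP_iff_prime_eq_zero hp'.out).mpr (by
    rw [← map_natCast (residue O), residue_eq_zero_iff]; exact hp)
  have hterm : ∀ s : ℕ, fShift E (ModularGroup.T ^ ((s * m : ℕ) : ℤ)) y - y ∈ V.nonunits := by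
    intro s
    have h1 := NewVec.fConjT_sub_mem E hπ (1 : stabK E) (fun o => ⟨o, rfl, by simp⟩)
      ((s * m : ℕ) : ℤ) ⟨E.ζ ^ (s * m), by rw [map_pow, E.map_ζ, zpow_natCast], ?_⟩ hy
    · rwa [fConj_one] at h1
    rw [← residue_eq_zero_iff, map_sub, map_one]
    refine eq_zero_of_pow_eq_zero (n := p) ?_
    rw [sub_pow_char, one_pow, ← map_pow, ← pow_mul, show s * m * p = M * s by rw [hM]; ring,
      pow_mul, show E.ζ ^ M = 1 from E.inj (by rw [map_pow, E.map_ζ, map_one]; exact zetaC_pow M),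
      one_pow, map_one, sub_self]
  have e : ∑ s : Fin p, fShift E (ModularGroup.T ^ (((s : ℕ) * m : ℕ) : ℤ)) y =
      (p : Fld E) * y + ∑ s : Fin p, (fShift E (ModularGroup.T ^ (((s : ℕ) * m : ℕ) : ℤ)) y - y) := by
    rw [Finset.sum_sub_distrib, Finset.sum_const, Finset.card_univ, Fintype.card_fin, nsmul_eq_mul]
    ring
  rw [e, ValuationSubring.mem_nonunits_iff]
  refine (Valuation.map_add _ _ _).trans_lt (max_lt ?_ ?_)
  · rw [map_mul]
    exact mul_lt_one_of_lt_of_le (V.mem_nonunits_iff.mp (natCast_mem_nonunits_gaussP hp hπ 1))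
      ((ValuationSubring.valuation_le_one_iff _ _).mpr hy)
  · exact Valuation.map_sum_lt _ one_ne_zero fun s _ => V.mem_nonunits_iff.mp (hterm s)

/-! ## The operators -/

variable [hp' : Fact p.Prime] (hpm : ¬ p ∣ m)

include hpm in
/-- Any family of representatives gives the same translates up to order. -/
theorem exists_coset_perm {η : Option (Fin p) → SL(2, ℤ)} (hη : ∀ i, η i ∈ Gamma m)
    (hinj : ∀ i j, η i * (η j)⁻¹ ∈ levelG p m → i = j) (x : Fld₀ O E p m) :
    ∃ e : Equiv.Perm (Option (Fin p)), ∀ i,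
      fShift E (η i) (x : Fld E) = fShift E (cosRep p m (e i)) (x : Fld E) := by
  choose f hf using fun i => exists_cosRep hpm (hη i)
  have hinjf : Function.Injective f := fun i j hij => by
    refine hinj i j ?_
    have := mul_mem (hf i) (inv_mem (hij ▸ hf j : η j * (cosRep p m (f i))⁻¹ ∈ levelG p m))
    simpa [mul_inv_rev, mul_assoc] using this
  exact ⟨Equiv.ofBijective f (Finite.injective_iff_bijective.mp hinjf), fun i =>
    fShift_coset x (hf i)⟩

include hpm in
theorem fShift_sum_prod (x : Fld₀ O E p m) {g : SL(2, ℤ)} (hg : g ∈ levelG p m) :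
    fShift E g (∏ i, fShift E (cosRep p m i) (x : Fld E)) =
        ∏ i, fShift E (cosRep p m i) (x : Fld E) ∧
      fShift E g (∑ i, fShift E (cosRep p m i) (x : Fld E)) =
        ∑ i, fShift E (cosRep p m i) (x : Fld E) := by
  obtain ⟨e, he⟩ := exists_coset_perm hpm (η := fun i => cosRep p m i * g)
    (fun i => mul_mem (cosRep_mem i) hg.2) (fun i j h => cosRep_inj hpm (by
      simpa [mul_inv_rev, mul_assoc] using h)) x
  constructor
  · rw [map_prod]
    exact Fintype.prod_equiv e _ _ fun i => by rw [fShift_fShift]; exact he i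
  · rw [map_sum]
    exact Fintype.sum_equiv e _ _ fun i => by rw [fShift_fShift]; exact he i

/-- The norm to level `Γ(m)`. -/
def normOp : Fld₀ O E p m →*₀ Fld₀ O E p m where
  toFun x := ⟨∏ i, fShift E (cosRep p m i) (x : Fld E),
    mem_fld₀_self_iff.mpr fun _ hg => (fShift_sum_prod hpm x hg).1⟩
  map_zero' := Subtype.ext (by
    show ∏ i, fShift E (cosRep p m i) (0 : Fld E) = 0
    exact Finset.prod_eq_zero (Finset.mem_univ none) (map_zero _))
  map_one' := Subtype.ext (by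
    show ∏ i, fShift E (cosRep p m i) (1 : Fld E) = 1
    exact Finset.prod_eq_one fun i _ => map_one _)
  map_mul' x y := Subtype.ext (by simp [Finset.prod_mul_distrib])

theorem coe_normOp (x : Fld₀ O E p m) :
    (normOp hpm x : Fld E) = ∏ i, fShift E (cosRep p m i) (x : Fld E) := rfl

/-- The trace to level `Γ(m)`. -/
def trOp : Fld₀ O E p m →+ Fld₀ O E p m where
  toFun x := ⟨∑ i, fShift E (cosRep p m i) (x : Fld E),
    mem_fld₀_self_iff.mpr fun _ hg => (fShift_sum_prod hpm x hg).2⟩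
  map_zero' := Subtype.ext (by simp)
  map_add' x y := Subtype.ext (by simp [Finset.sum_add_distrib])

theorem coe_trOp (x : Fld₀ O E p m) :
    (trOp hpm x : Fld E) = ∑ i, fShift E (cosRep p m i) (x : Fld E) := rfl

theorem normOp_eq_prod {η : Option (Fin p) → SL(2, ℤ)} (hη : ∀ i, η i ∈ Gamma m)
    (hinj : ∀ i j, η i * (η j)⁻¹ ∈ levelG p m → i = j) (x : Fld₀ O E p m) :
    (normOp hpm x : Fld E) = ∏ i, fShift E (η i) (x : Fld E) := by
  obtain ⟨e, he⟩ := exists_coset_perm hpm hη hinj x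
  exact (Fintype.prod_equiv e _ _ he).symm

theorem trOp_eq_sum {η : Option (Fin p) → SL(2, ℤ)} (hη : ∀ i, η i ∈ Gamma m)
    (hinj : ∀ i j, η i * (η j)⁻¹ ∈ levelG p m → i = j) (x : Fld₀ O E p m) :
    (trOp hpm x : Fld E) = ∑ i, fShift E (η i) (x : Fld E) := by
  obtain ⟨e, he⟩ := exists_coset_perm hpm hη hinj x
  rw [coe_trOp]
  exact (Fintype.sum_equiv e _ (fun i => fShift E (cosRep p m i) (x : Fld E)) he).symm

/-! ## The axioms -/

theorem algebraMap_coe (a : O) :
    ((algebraMap O (Fld₀ O E p m) a : Fld₀ O E p m) : Fld E) = algebraMap O (Fld E) a :=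
  coe_algebraMap_fld₀ O E p m a

section Descend

variable {S : Subalgebra O (Fld E)} {S₀ : Subalgebra O (Fld₀ O E p m)}
  (hS₀ : ∀ x : Fld₀ O E p m, x ∈ S₀ ↔ (x : Fld E) ∈ S)
  (hshift : ∀ g, ∀ x ∈ S, fShift E g x ∈ S)

include hS₀ hshift

theorem normOp_mem {b : Fld₀ O E p m} (hb : b ∈ S₀) : normOp hpm b ∈ S₀ := by
  rw [hS₀, coe_normOp]
  exact prod_mem fun i _ => hshift _ _ ((hS₀ b).mp hb)

theorem trOp_mem {b : Fld₀ O E p m} (hb : b ∈ S₀) : trOp hpm b ∈ S₀ := by
  rw [hS₀, coe_trOp]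
  exact sum_mem fun i _ => hshift _ _ ((hS₀ b).mp hb)

theorem normOp_pert (hclosed : ∀ x, IsIntegral S x → x ∈ S) {π : O} (hπ : π ≠ 0) {n : ℕ}
    (hn : 0 < n) (f x y : Fld₀ O E p m) (l : ℕ) (hx : x ^ n / f ∈ S₀) (hy : y ^ n / f ∈ S₀) :
    ∃ z, z ^ n / normOp hpm f ∈ S₀ ∧
      normOp hpm (x + π ^ l • y) = normOp hpm x + π ^ l • z := by
  have hB : RootClosed S n := rootClosed_of_isIntegral hn hclosed
  have hroot : ∀ u : Fld₀ O E p m, u ^ n / f ∈ S₀ → ∀ i,
      fShift E (cosRep p m i) (u : Fld E) ∈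
        rootModule hB hn (fShift E (cosRep p m i) (f : Fld E)) := fun u hu i => by
    rw [mem_rootModule, ← map_pow, ← map_div₀]
    exact hshift _ _ ((hS₀ _).mp hu)
  obtain ⟨-, z, hz, hze⟩ := exists_prod_add (hB := hB) (hn := hn) Finset.univ
    (S.algebraMap_mem (π ^ l)) (hroot x hx) (hroot y hy)
  have hc : algebraMap O (Fld E) (π ^ l) ≠ 0 :=
    (map_ne_zero_iff _ (algebraMap_injective E)).mpr (pow_ne_zero l hπ)
  let z₀ : Fld₀ O E p m := (normOp hpm (x + π ^ l • y) - normOp hpm x) /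
    algebraMap O (Fld₀ O E p m) (π ^ l)
  have e1 : (normOp hpm (x + π ^ l • y) : Fld E) =
      (normOp hpm x : Fld E) + algebraMap O (Fld E) (π ^ l) * z := by
    rw [coe_normOp, coe_normOp, ← hze]
    refine Finset.prod_congr rfl fun i _ => ?_
    rw [Algebra.smul_def, Subfield.coe_add, Subfield.coe_mul, algebraMap_coe, map_add, map_mul,
      fShift_algebraMap]
  have e : (z₀ : Fld E) = z := by
    simp only [z₀, Subfield.coe_div, Subfield.coe_sub, e1, algebraMap_coe, add_sub_cancel_left]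
    exact mul_div_cancel_left₀ z hc
  refine ⟨z₀, (hS₀ _).mpr ?_, Subtype.ext ?_⟩
  · rw [Subfield.coe_div, SubmonoidClass.coe_pow, e, coe_normOp]
    exact hz
  · rw [Subfield.coe_add, show ((π ^ l • z₀ : Fld₀ O E p m) : Fld E) =
      algebraMap O (Fld E) (π ^ l) * z by rw [Algebra.smul_def, Subfield.coe_mul, algebraMap_coe, e]]
    exact e1

theorem normOp_main {π : O} (hπ : π ≠ 0) {k : ℕ} (hk : 0 < k) {z : Fld₀ O E p m} (hz : z ∈ S₀) :
    ∃ w ∈ S₀, normOp hpm (1 + π ^ k • z) = 1 + π ^ k • trOp hpm z + π ^ (k + 1) • w := by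
  obtain ⟨w, hw, he⟩ := exists_prod_one_add (a := fun i => fShift E (cosRep p m i) (z : Fld E))
    Finset.univ (S.algebraMap_mem (π ^ k)) fun i => hshift _ _ ((hS₀ z).mp hz)
  obtain ⟨j, rfl⟩ : ∃ j, k = j + 1 := ⟨k - 1, (Nat.sub_add_cancel hk).symm⟩
  have hc : algebraMap O (Fld E) (π ^ (j + 1 + 1)) ≠ 0 :=
    (map_ne_zero_iff _ (algebraMap_injective E)).mpr (pow_ne_zero _ hπ)
  let w₀ : Fld₀ O E p m :=
    (normOp hpm (1 + π ^ (j + 1) • z) - 1 - π ^ (j + 1) • trOp hpm z) /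
      algebraMap O (Fld₀ O E p m) (π ^ (j + 1 + 1))
  have e : (w₀ : Fld E) = algebraMap O (Fld E) (π ^ j) * w := by
    simp only [w₀, Algebra.smul_def, Subfield.coe_div, Subfield.coe_sub, Subfield.coe_mul,
      Subfield.coe_one, algebraMap_coe, coe_normOp, coe_trOp, Subfield.coe_add, map_add, map_one,
      map_mul, fShift_algebraMap]
    rw [div_eq_iff hc, he]
    simp only [map_pow]
    ring
  refine ⟨w₀, (hS₀ _).mpr ?_, ?_⟩
  · rw [e]; exact mul_mem (S.algebraMap_mem _) hw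
  · have hc' : algebraMap O (Fld₀ O E p m) (π ^ (j + 1 + 1)) ≠ 0 :=
      (map_ne_zero_iff _ algebraMap_fld₀_injective).mpr (pow_ne_zero _ hπ)
    simp only [w₀, Algebra.smul_def, mul_div_cancel₀ _ hc']
    ring

end Descend

theorem mem_B₀_iff {x : Fld₀ O E p m} :
    x ∈ chartRing O (jF₀ O E p m) ↔ (x : Fld E) ∈ chartRing O (jF E) :=
  mem_chart₀_iff'

theorem mem_B₁_iff {x : Fld₀ O E p m} :
    x ∈ chartRing O (jF₀ O E p m)⁻¹ ↔ (x : Fld E) ∈ chartRing O (jF E)⁻¹ :=
  mem_chart₀_iff'.trans (iff_of_eq (by rw [coe_inv_jF₀]))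

/-- The norm and the trace on the level model. -/
theorem isNormOp_normOp {π : O} (hπ : π ≠ 0) :
    IsNormOp (model₀ O E p m) π p (normOp hpm) (trOp hpm) := by
  have h₀ : ∀ g, ∀ x ∈ chartRing O (jF E), fShift E g x ∈ chartRing O (jF E) :=
    fun g _ => (fShift_mem_chartRing g).1
  have h₁ : ∀ g, ∀ x ∈ chartRing O (jF E)⁻¹, fShift E g x ∈ chartRing O (jF E)⁻¹ :=
    fun g _ => (fShift_mem_chartRing g).2
  have h₀₁ : ∀ g, ∀ x ∈ overlapRing O (jF E), fShift E g x ∈ overlapRing O (jF E) :=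
    fun g _ => fShift_mem_overlap g
  have i₀ : ∀ x : Fld₀ O E p m, x ∈ (model₀ O E p m).B₀ ↔ (x : Fld E) ∈ chartRing O (jF E) :=
    fun _ => mem_B₀_iff
  have i₁ : ∀ x : Fld₀ O E p m, x ∈ (model₀ O E p m).B₁ ↔ (x : Fld E) ∈ chartRing O (jF E)⁻¹ :=
    fun _ => mem_B₁_iff
  have i₀₁ : ∀ x : Fld₀ O E p m, x ∈ (model₀ O E p m).B₀₁ ↔ (x : Fld E) ∈ overlapRing O (jF E) :=
    fun _ => mem_overlap₀_iff
  exact
    { mem₀ := fun _ => normOp_mem hpm i₀ h₀
      mem₁ := fun _ => normOp_mem hpm i₁ h₁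
      mem₀₁ := fun _ => normOp_mem hpm i₀₁ h₀₁
      trace₀ := fun _ => trOp_mem hpm i₀ h₀
      trace₁ := fun _ => trOp_mem hpm i₁ h₁
      trace₀₁ := fun _ => trOp_mem hpm i₀₁ h₀₁
      trace_smul := fun a z => Subtype.ext (by
        simp only [Algebra.smul_def, Subfield.coe_mul, algebraMap_coe, coe_trOp, map_mul,
          fShift_algebraMap, Finset.mul_sum])
      pert₀ := normOp_pert hpm i₀ h₀ (fun _ => chartRing_closed _) hπ hp'.out.pos
      pert₁ := normOp_pert hpm i₁ h₁ (fun _ => chartRing_closed _) hπ hp'.out.pos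
      pert₀₁ := normOp_pert hpm i₀₁ h₀₁ (fun _ => overlapRing_closed _) hπ hp'.out.pos
      main := fun _ _ hk hz => normOp_main hpm i₀₁ h₀₁ hπ hk hz }

/-- The trace is congruent to the identity on the component over infinity. -/
theorem trOp_sub_self_mem (hp : (p : O) ∈ maximalIdeal O) (hM : M = p * m) {π : O}
    (hπ : Irreducible π) {z : Fld₀ O E p m} (hz : z ∈ (model₀ O E p m).B₀₁) :
    trOp hpm z - z ∈ (twoP O E p m hπ false).nonunits := by
  show trOp hpm z - z ∈ (comp hπ 1).nonunits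
  rw [comp, mem_nonunits_comap, map_sub]
  show (trOp hpm z : Fld E) - (z : Fld E) ∈ _
  rw [coe_trOp, Fintype.sum_option, show cosRep p m none = 1 from rfl, fShift_one,
    add_sub_cancel_left]
  have h := sum_translates_mem (E := E) hp hM hπ (y := fShift E (cosLow m) (z : Fld E))
    (overlap_le_gaussP hπ 1 (fShift_mem_overlap _ (mem_overlap₀_iff.mp hz)))
  convert h using 2 with s
  exact (fShift_fShift E _ _ _).symm

end Fermat.Agent.ModField
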