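/-
The Atkin-Lehner involution on the field of level `Γ₀(p) ∩ Γ(m)`: it exchanges the two components,
preserves the chart of `j` and the neighbourhood of the cusps.
-/
import Fermat.Agent.Models.Gamma0.OrdNorm
import Fermat.Agent.Models.Wild.Ordinary
import Fermat.Agent.GalRep.Semistable.BadOps

set_option autoImplicit false
set_option linter.style.haveILetI false
set_option linter.unusedSectionVars false

noncomputable section

namespace Fermat.Agent.Models

variable {O F : Type} [CommRing O] [Field F] [Algebra O F] {M : Model O F}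

/-- The neighbourhood is integrally closed. -/
theorem Model.nearSub_closed {x : F} (hx : IsIntegral M.nearSub x) : x ∈ M.nearSub := by
  classical
  obtain ⟨P, hP, hPx⟩ := hx
  have hB₁ : ∀ {z : F}, z ∈ M.nearOne → z ∈ M.B₁ := fun h => Model.mem_chart_of_nearOne h
  have hden : ∀ i, ∃ s ∈ M.nearOne, s * (P.coeff i : F) ∈ M.B₁ := fun i => (P.coeff i).2
  choose s hs hsc using hden
  set t := ∏ i ∈ Finset.range (P.natDegree + 1), s i
  have ht : t ∈ M.nearOne := prod_mem fun i _ => hs i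
  have htc : ∀ i ≤ P.natDegree, t * (P.coeff i : F) ∈ M.B₁ := fun i hi => by
    simp only [t]
    rw [← Finset.mul_prod_erase _ _ (Finset.mem_range.mpr (Nat.lt_succ_of_le hi)),
      mul_right_comm]
    exact mul_mem (hsc i) (prod_mem fun j _ => hB₁ (hs j))
  refine ⟨t, ht, M.closed₁ _ ?_⟩
  let p : Polynomial F := P.map M.nearSub.val.toRingHom
  have hp : p.Monic := hP.map _
  have hdeg : p.natDegree = P.natDegree := hP.natDegree_map _
  have hroot : (p.scaleRoots t).eval (t * x) = 0 := by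
    refine Polynomial.scaleRoots_eval₂_eq_zero (RingHom.id F) ?_
    rw [Polynomial.eval₂_id, Polynomial.eval_map]
    exact hPx
  have hcoef : ∀ i, (p.scaleRoots t).coeff i ∈ M.B₁.toSubring := fun i => by
    rw [Polynomial.coeff_scaleRoots]
    rcases lt_trichotomy i p.natDegree with hi | hi | hi
    · obtain ⟨d, hd⟩ : ∃ d, p.natDegree - i = d + 1 := ⟨_, (Nat.sub_add_cancel (by omega)).symm⟩
      rw [hd, mul_comm, pow_succ, mul_assoc, Polynomial.coeff_map]
      exact mul_mem (pow_mem (hB₁ ht) _) (htc i (by omega))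
    · subst hi
      rw [hp.coeff_natDegree, Nat.sub_self, pow_zero, mul_one]
      exact one_mem M.B₁
    · rw [Polynomial.coeff_eq_zero_of_natDegree_lt hi, zero_mul]
      exact zero_mem M.B₁
  have hl : (↑(p.scaleRoots t).coeffs : Set F) ⊆ M.B₁.toSubring := by
    intro c hc
    obtain ⟨i, -, rfl⟩ := Polynomial.mem_coeffs_iff.mp hc
    exact hcoef i
  refine ⟨(p.scaleRoots t).toSubring M.B₁.toSubring hl,
    (Polynomial.monic_toSubring _ _ hl).mpr ((Polynomial.monic_scaleRoots_iff _).mpr hp), ?_⟩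
  rw [← hroot, Polynomial.eval₂_eq_eval_map]
  exact congrArg (Polynomial.eval (t * x)) (Polynomial.map_toSubring _ _ hl)

/-- A map preserving the second chart and its coordinate preserves the neighbourhood. -/
theorem Model.nearSub_map_of_fix {σ : F →+* F} (h₁ : ∀ b ∈ M.B₁, σ b ∈ M.B₁)
    (hw : σ M.w = M.w) : ∀ z ∈ M.nearSub, σ z ∈ M.nearSub :=
  Model.nearSub_map (fun b hb => M.le_nearSub (h₁ b hb))
    ⟨1, 1, one_mem _, by rw [pow_one, map_inv₀, hw, mul_one]⟩

end Fermat.Agent.Models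

namespace Fermat.Agent.ModField

open Polynomial IsLocalRing CongruenceSubgroup UpperHalfPlane
open Fermat.Agent.GalRep
open Fermat.Agent.GalRep.Level
open Fermat.Agent.GalRep.Model (chartRing self_mem_chartRing SeriesField C_pi_prime)
open Fermat.Agent.GalRep.Semistable (dq dq_smul coe_dq hasSeriesAtCusps_smul hasQSeries_dq)
open Fermat.Agent.CuspPt (cuspInt wF wS serAt_wF exists_wS mem_chartRing_of_cuspInt)
open Fermat.Agent.Models (IsSwapAut)
open scoped MatrixGroups Manifold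

variable {O : Type} [CommRing O] [IsDomain O] [IsDiscreteValuationRing O] {M : ℕ} [NeZero M]
  {E : Emb O M} {p m : ℕ}

/-! ## Translations normalising the level -/

theorem levelG_normal {γ : SL(2, ℤ)} (hγ : γ ∈ Gamma0 p) {g : SL(2, ℤ)} (hg : g ∈ levelG p m) :
    γ * g * γ⁻¹ ∈ levelG p m :=
  mem_levelG.mpr ⟨mul_mem (mul_mem hγ (mem_levelG.mp hg).1) (inv_mem hγ),
    (Gamma_normal m).conj_mem g (mem_levelG.mp hg).2 γ⟩

theorem fShift_mem_fld₀ {γ : SL(2, ℤ)} (hγ : γ ∈ Gamma0 p) (x : Fld₀ O E p m) :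
    fShift E γ (x : Fld E) ∈ Fld₀ O E p m := by
  refine mem_fld₀_self_iff.mpr fun g hg => ?_
  rw [fShift_fShift]
  exact fShift_coset x (levelG_normal hγ hg)

/-- Translation by an element normalising the level. -/
def shiftOp {γ : SL(2, ℤ)} (hγ : γ ∈ Gamma0 p) : Fld₀ O E p m ≃+* Fld₀ O E p m where
  toFun x := ⟨fShift E γ (x : Fld E), fShift_mem_fld₀ hγ x⟩
  invFun x := ⟨fShift E γ⁻¹ (x : Fld E), fShift_mem_fld₀ (inv_mem hγ) x⟩
  left_inv x := Subtype.ext (by
    show fShift E γ⁻¹ (fShift E γ (x : Fld E)) = _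
    rw [fShift_fShift, mul_inv_cancel, fShift_one])
  right_inv x := Subtype.ext (by
    show fShift E γ (fShift E γ⁻¹ (x : Fld E)) = _
    rw [fShift_fShift, inv_mul_cancel, fShift_one])
  map_mul' x y := Subtype.ext (map_mul (fShift E γ) _ _)
  map_add' x y := Subtype.ext (map_add (fShift E γ) _ _)

theorem coe_shiftOp {γ : SL(2, ℤ)} (hγ : γ ∈ Gamma0 p) (x : Fld₀ O E p m) :
    (shiftOp hγ x : Fld E) = fShift E γ (x : Fld E) := rfl

theorem coe_shiftOp_symm {γ : SL(2, ℤ)} (hγ : γ ∈ Gamma0 p) (x : Fld₀ O E p m) :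
    ((shiftOp hγ).symm x : Fld E) = fShift E γ⁻¹ (x : Fld E) := rfl

theorem shiftOp_algebraMap {γ : SL(2, ℤ)} (hγ : γ ∈ Gamma0 p) (a : O) :
    shiftOp hγ (algebraMap O (Fld₀ O E p m) a) = algebraMap O (Fld₀ O E p m) a :=
  Subtype.ext (by rw [coe_shiftOp, coe_algebraMap_fld₀, fShift_algebraMap])

theorem shiftOp_jF₀ {γ : SL(2, ℤ)} (hγ : γ ∈ Gamma0 p) :
    shiftOp hγ (jF₀ O E p m) = jF₀ O E p m :=
  Subtype.ext (by rw [coe_shiftOp, coe_jF₀, fShift_jF])

/-- Maps fixing `j` and moving constants to constants preserve the charts and the neighbourhood. -/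
theorem keep_charts {f : Fld₀ O E p m →+* Fld₀ O E p m} (hw : f (jF₀ O E p m) = jF₀ O E p m)
    (hC : ∀ a, ∃ a', f (algebraMap O (Fld₀ O E p m) a) = algebraMap O (Fld₀ O E p m) a') :
    (∀ z ∈ (model₀ O E p m).B₀, f z ∈ (model₀ O E p m).B₀) ∧
      (∀ z ∈ (model₀ O E p m).B₁, f z ∈ (model₀ O E p m).B₁) ∧
      ∀ z ∈ (model₀ O E p m).nearSub, f z ∈ (model₀ O E p m).nearSub := by
  have h : ∀ w, f w = w → ∀ z ∈ chartRing O w, f z ∈ chartRing O w := fun w hw z hz =>
    map_mem_of_mem_chart (fun _ => chartRing_closed _) f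
      (fun a => by obtain ⟨a', ha⟩ := hC a; rw [ha]; exact (chartRing O w).algebraMap_mem a')
      (by rw [hw]; exact self_mem_chartRing _) hz
  have h₁ := h (jF₀ O E p m)⁻¹ (by rw [map_inv₀, hw])
  exact ⟨h _ hw, h₁, Models.Model.nearSub_map_of_fix (M := model₀ O E p m) h₁ hw⟩

theorem aut_keep_iff {f : Fld₀ O E p m ≃+* Fld₀ O E p m} (hw : f (jF₀ O E p m) = jF₀ O E p m)
    (hC : ∀ a, ∃ a', f (algebraMap O (Fld₀ O E p m) a) = algebraMap O (Fld₀ O E p m) a')
    (hC' : ∀ a, ∃ a', f.symm (algebraMap O (Fld₀ O E p m) a) = algebraMap O (Fld₀ O E p m) a') :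
    (∀ z, f z ∈ (model₀ O E p m).B₀ ↔ z ∈ (model₀ O E p m).B₀) ∧
      ∀ z, f z ∈ (model₀ O E p m).nearSub ↔ z ∈ (model₀ O E p m).nearSub := by
  obtain ⟨h0, -, hn⟩ := keep_charts (f := f.toRingHom) hw hC
  obtain ⟨h0', -, hn'⟩ := keep_charts (f := f.symm.toRingHom)
    (show f.symm (jF₀ O E p m) = jF₀ O E p m by conv_lhs => rw [← hw, f.symm_apply_apply]) hC'
  refine ⟨fun z => ⟨fun h => ?_, h0 z⟩, fun z => ⟨fun h => ?_, hn z⟩⟩
  · rw [← f.symm_apply_apply z]; exact h0' _ h
  · rw [← f.symm_apply_apply z]; exact hn' _ h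

/-! ## Functions of the level -/

/-- Invariance under `Γ₀(p) ∩ Γ(m)`. -/
def InvLev (p m : ℕ) (a : MF M) : Prop := ∀ g ∈ levelG p m, shift M g a = a

theorem invLev_smul {a : MF M} (ha : InvLev p m a) {g : SL(2, ℤ)} (hg : g ∈ levelG p m) (τ : ℍ) :
    (a : ℍ → ℂ) (g • τ) = (a : ℍ → ℂ) τ := by
  rw [← shift_apply, ha g hg]

theorem toFld_mem_fld₀ {a : bddMF E} (ha : InvLev p m (a : MF M)) :
    toFld E a ∈ Fld₀ O E p m := by
  refine mem_fld₀_self_iff.mpr fun g hg => ?_
  rw [fShift_toFld]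
  exact congrArg _ (Subtype.ext (ha g hg))

/-- An invariant function in the field. -/
def invEl {a : bddMF E} (ha : InvLev p m (a : MF M)) : Fld₀ O E p m :=
  ⟨toFld E a, toFld_mem_fld₀ ha⟩

/-- Elements are quotients of invariant functions. -/
theorem exists_inv_div (x : Fld₀ O E p m) : ∃ (a b : bddMF E) (ha : InvLev p m (a : MF M))
    (hb : InvLev p m (b : MF M)), x = invEl ha / invEl hb := by
  classical
  obtain ⟨a, b, hb, hx⟩ := exists_eq_div E (x : Fld E)
  let H : Subgroup SL(2, ZMod M) := (levelG p m).map (red M)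
  haveI : Fintype H := Fintype.ofFinite _
  let c : bddMF E := ∏ y ∈ (Finset.univ : Finset H).erase 1, shiftB E (Level.lift (y : SL(2, ZMod M))) b
  have e0 : b * c = ∏ y : H, shiftB E (Level.lift (y : SL(2, ZMod M))) b := by
    rw [← Finset.mul_prod_erase Finset.univ _ (Finset.mem_univ (1 : H))]
    congr 1
    refine Subtype.ext ?_
    show (b : MF M) = shift M (Level.lift ((1 : H) : SL(2, ZMod M))) b
    rw [shift_eq_of_red_eq (g := Level.lift ((1 : H) : SL(2, ZMod M))) (h := 1)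
      (by rw [red_lift, map_one, OneMemClass.coe_one]), shift_one]
  have hbc : InvLev p m ((b * c : bddMF E) : MF M) := fun g hg => by
    let g' : H := ⟨red M g, Subgroup.mem_map_of_mem _ hg⟩
    have e : ∀ y : H, shift M g ((shiftB E (Level.lift (y : SL(2, ZMod M))) b : bddMF E) : MF M) =
        ((shiftB E (Level.lift ((y * g' : H) : SL(2, ZMod M))) b : bddMF E) : MF M) := fun y => by
      show shift M g (shift M (Level.lift _) (b : MF M)) = shift M (Level.lift _) (b : MF M)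
      rw [shift_shift]
      exact shift_eq_of_red_eq (by rw [map_mul, red_lift, red_lift, Subgroup.coe_mul]) _
    rw [e0]
    simp only [SubmonoidClass.coe_finsetProd, map_prod, e]
    exact Fintype.prod_equiv (Equiv.mulRight g') _ _ fun y => rfl
  have hbc0 : toFld E (b * c) ≠ 0 := (map_ne_zero_iff _ (toFld_injective E)).mpr (by
    rw [e0]
    exact Finset.prod_ne_zero_iff.mpr fun y _ h0 =>
      hb ((shiftB E (Level.lift (y : SL(2, ZMod M)))).injective (h0.trans (map_zero _).symm)))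
  have hac : toFld E (a * c) = (x : Fld E) * toFld E (b * c) := by
    rw [hx, map_mul, map_mul, ← mul_assoc, div_mul_cancel₀]
    exact (map_ne_zero_iff _ (toFld_injective E)).mpr hb
  have hinva : InvLev p m ((a * c : bddMF E) : MF M) := fun g hg => by
    have h1 : fShift E g (toFld E (a * c)) = toFld E (a * c) := by
      rw [hac, map_mul, fld₀_fixed x hg, mem_fld₀_self_iff.mp (toFld_mem_fld₀ hbc) g hg]
    rw [fShift_toFld] at h1
    exact congrArg Subtype.val (toFld_injective E h1)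
  exact ⟨a * c, b * c, hinva, hbc, Subtype.ext (by
    rw [Subfield.coe_div]
    show (x : Fld E) = toFld E (a * c) / toFld E (b * c)
    rw [hac, mul_div_cancel_right₀ _ hbc0])⟩

theorem expand_mem_kSer {K : Subfield ℂ} {k : ℕ} (hk : k ≠ 0) {s : LaurentSeries ℂ}
    (hs : s ∈ kSer K) : GalRep.expand k hk s ∈ kSer K := mem_kSer.mpr fun i => by
  by_cases hi : (k : ℤ) ∣ i
  · obtain ⟨t, rfl⟩ := hi
    rw [expand_coeff_mul]; exact mem_kSer.mp hs t
  · rw [expand_coeff_of_not_dvd _ _ _ _ hi]; exact zero_mem _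

variable [hp' : Fact p.Prime] [NeZero m] (hM : M = p * m) (hpm : ¬ p ∣ m) {g : SL(2, ℤ)}
  (hg : g 1 0 = (m : ℤ) ∧ g 1 1 = (p : ℤ))

include hM hpm hg in
/-- The translate of an invariant function. -/
theorem exists_alFun {a : bddMF E} (ha : InvLev p m (a : MF M)) :
    ∃ b : bddMF E, InvLev p m (b : MF M) ∧
      (∀ τ, ((b : MF M) : ℍ → ℂ) τ = ((a : MF M) : ℍ → ℂ) (g • dq p τ)) ∧
      serAlg M (b : MF M) = GalRep.expand p (NeZero.ne p) (serAlg M (shift M g (a : MF M))) := by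
  set φ := (a : MF M)
  have hpm' : IsCoprime (p : ℤ) (m : ℤ) :=
    Nat.isCoprime_iff_coprime.mpr (hp'.out.coprime_iff_not_dvd.mpr hpm)
  have hinv : ∀ γ ∈ levelG p m, ∀ τ, (φ : ℍ → ℂ) (g • dq p (γ • τ)) = (φ : ℍ → ℂ) (g • dq p τ) := by
    intro γ hγ τ
    obtain ⟨h0, h1⟩ := mem_levelG.mp hγ
    obtain ⟨g00, g01, g10, g11⟩ := Gamma_mem.mp h1
    obtain ⟨t, ht⟩ := (ZMod.intCast_zmod_eq_zero_iff_dvd _ _).mp (Gamma0_mem.mp h0)
    have hmt : (m : ℤ) ∣ t := hpm'.symm.dvd_of_dvd_mul_left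
      (ht ▸ (ZMod.intCast_zmod_eq_zero_iff_dvd _ _).mp g10)
    let D : SL(2, ℤ) := ⟨!![γ 0 0, (p : ℤ) * γ 0 1; t, γ 1 1], by
      rw [Matrix.det_fin_two_of]
      have := γ.det_coe
      rw [Matrix.det_fin_two] at this
      linear_combination this + γ 0 1 * ht⟩
    have hD : D ∈ Gamma m := Gamma_mem.mpr ⟨by simpa [D] using g00, by simp [D, g01],
      by simpa [D] using (ZMod.intCast_zmod_eq_zero_iff_dvd _ _).mpr hmt, by simpa [D] using g11⟩
    rw [dq_smul (η := γ) (e := D) rfl rfl ht rfl τ, ← mul_smul,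
      show g * D = g * D * g⁻¹ * g by group, mul_smul]
    refine invLev_smul ha (mem_levelG.mpr ⟨?_, (Gamma_normal m).conj_mem D hD g⟩) _
    rw [mul_inv_mem_gamma0_iff]
    refine ⟨(g * D) 1 0 - (g 1 0 * γ 0 1 + γ 1 1) * g 1 0, ?_⟩
    rw [Matrix.SpecialLinearGroup.coe_mul]
    simp [D, Matrix.mul_apply, Fin.sum_univ_two, hg.1, hg.2]
    ring
  have hle : Gamma M ≤ levelG p m :=
    gamma_le_levelG (hM ▸ dvd_mul_right p m) (hM ▸ dvd_mul_left m p)
  let b : MF M := ⟨fun τ => (φ : ℍ → ℂ) (g • dq p τ),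
    ⟨mdifferentiable_comp_posMat (mdifferentiable_comp_smul φ.2.holo g) _ _,
      fun γ hγ τ => hinv γ (hle hγ) τ,
      hasSeriesAtCusps_comp_posMat (hasSeriesAtCusps_smul φ.2.cusps g) _ _⟩⟩
  have hser : serAlg M b = GalRep.expand p (NeZero.ne p) (serAlg M (shift M g φ)) :=
    (hasQSeries_serHom b).unique (NeZero.pos M)
      (hasQSeries_dq (NeZero.pos M) (hasQSeries_shift φ g))
  exact ⟨⟨b, bdd_of_kSer E (hser ▸ expand_mem_kSer _
    (kSer_of_bdd E (shift_mem_bddMF E a.2 g)))⟩,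
    fun γ hγ => Subtype.ext (funext fun τ => hinv γ hγ τ), fun τ => rfl, hser⟩

include hM hpm hg in
theorem exists_wOp_val (x : Fld₀ O E p m) : ∃ y : Fld₀ O E p m,
    toLS E (y : Fld E) = GalRep.expand p (NeZero.ne p) (toLS E (fShift E g (x : Fld E))) := by
  obtain ⟨a, b, ha, hb, rfl⟩ := exists_inv_div x
  obtain ⟨a', ha', -, ea⟩ := exists_alFun hM hpm hg ha
  obtain ⟨b', hb', -, eb⟩ := exists_alFun hM hpm hg hb
  refine ⟨invEl ha' / invEl hb', ?_⟩
  simp only [Subfield.coe_div, invEl, map_div₀, fShift_toFld, toLS_toFld, ea, eb]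

/-- The involution as a homomorphism. -/
def wHom : Fld₀ O E p m →+* Fld₀ O E p m :=
  { toFun := fun x => (exists_wOp_val hM hpm hg x).choose
    map_one' := Subtype.ext (toLS_injective E (by
      rw [(exists_wOp_val hM hpm hg 1).choose_spec]
      simp only [Subfield.coe_one, map_one]))
    map_mul' := fun x y => Subtype.ext (toLS_injective E (by
      rw [(exists_wOp_val hM hpm hg (x * y)).choose_spec]
      simp only [Subfield.coe_mul, map_mul, (exists_wOp_val hM hpm hg x).choose_spec,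
        (exists_wOp_val hM hpm hg y).choose_spec]))
    map_zero' := Subtype.ext (toLS_injective E (by
      rw [(exists_wOp_val hM hpm hg 0).choose_spec]
      simp only [Subfield.coe_zero, map_zero]))
    map_add' := fun x y => Subtype.ext (toLS_injective E (by
      rw [(exists_wOp_val hM hpm hg (x + y)).choose_spec]
      simp only [Subfield.coe_add, map_add, (exists_wOp_val hM hpm hg x).choose_spec,
        (exists_wOp_val hM hpm hg y).choose_spec])) }

theorem toLS_wHom (x : Fld₀ O E p m) : toLS E (wHom hM hpm hg x : Fld E) =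
    GalRep.expand p (NeZero.ne p) (toLS E (fShift E g (x : Fld E))) :=
  (exists_wOp_val hM hpm hg x).choose_spec

theorem wHom_invEl {a b : bddMF E} (ha : InvLev p m (a : MF M)) (hb : InvLev p m (b : MF M))
    (e : serAlg M (b : MF M) = GalRep.expand p (NeZero.ne p) (serAlg M (shift M g (a : MF M)))) :
    wHom hM hpm hg (invEl ha) = invEl hb := by
  refine Subtype.ext (toLS_injective E ?_)
  rw [toLS_wHom]
  simp only [invEl, fShift_toFld, toLS_toFld, e]

/-- The factor of the square of the involution. -/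
def alCorr (g : SL(2, ℤ)) (hg : g 1 0 = (m : ℤ) ∧ g 1 1 = (p : ℤ)) : SL(2, ℤ) :=
  ⟨!![(p : ℤ) * g 0 0, g 0 1; (m : ℤ), 1], by
    rw [Matrix.det_fin_two_of]
    have := g.det_coe
    rw [Matrix.det_fin_two, hg.1, hg.2] at this
    linear_combination this⟩

/-- The matrix of the square of the involution. -/
def alSq (g : SL(2, ℤ)) (hg : g 1 0 = (m : ℤ) ∧ g 1 1 = (p : ℤ)) : SL(2, ℤ) :=
  g * alCorr g hg

theorem alSq_mem : alSq g hg ∈ Gamma0 p := by
  rw [Gamma0_mem, ZMod.intCast_zmod_eq_zero_iff_dvd]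
  refine ⟨(m : ℤ) * (g 0 0 + 1), ?_⟩
  rw [alSq, Matrix.SpecialLinearGroup.coe_mul]
  simp [alCorr, Matrix.mul_apply, Fin.sum_univ_two, hg.1, hg.2]
  ring

theorem dq_smul_dq (τ : ℍ) : g • dq p (g • dq p τ) = alSq g hg • τ := by
  let h : SL(2, ℤ) := alCorr g hg
  have hd : 0 < (!![(1 : ℕ), (0 : ℤ); 0, (p : ℤ)] : Matrix (Fin 2) (Fin 2) ℤ).det :=
    det_upper_pos (a := 1) (d := p) 0 one_pos (NeZero.pos p)
  have e : ∀ z, dq p (g • z) = h • (posMat _ hd • z) := fun z => by
    refine posMat_smul_eq _ hd g h ?_ z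
    ext i j
    fin_cases i <;> fin_cases j <;>
      simp [h, alCorr, Matrix.mul_apply, Fin.sum_univ_two, hg.1, hg.2, mul_comm]
  rw [e, show posMat _ hd • dq p τ = τ from by
    ext
    rw [coe_posMat_upper, coe_dq]
    have : (p : ℂ) ≠ 0 := Nat.cast_ne_zero.mpr (NeZero.ne p)
    push_cast; field_simp; ring, ← mul_smul]
  rfl

theorem wHom_wHom (x : Fld₀ O E p m) :
    wHom hM hpm hg (wHom hM hpm hg x) = shiftOp (alSq_mem hg) x := by
  have key : ∀ {a : bddMF E} (ha : InvLev p m (a : MF M)),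
      wHom hM hpm hg (wHom hM hpm hg (invEl ha)) = shiftOp (alSq_mem hg) (invEl ha) := by
    intro a ha
    obtain ⟨b, hb, fb, eb⟩ := exists_alFun hM hpm hg ha
    obtain ⟨c, hc, fc, ec⟩ := exists_alFun hM hpm hg hb
    rw [wHom_invEl hM hpm hg ha hb eb, wHom_invEl hM hpm hg hb hc ec]
    refine Subtype.ext ?_
    rw [coe_shiftOp]
    simp only [invEl, fShift_toFld]
    refine congrArg _ (Subtype.ext (Subtype.ext (funext fun τ => ?_)))
    rw [fc, fb, dq_smul_dq hg, shift_apply]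
  obtain ⟨a, b, ha, hb, rfl⟩ := exists_inv_div x
  simp only [map_div₀, key]

theorem wHom_bijective : Function.Bijective (wHom (E := E) hM hpm hg) :=
  ⟨(wHom hM hpm hg).injective, fun y =>
    ⟨wHom hM hpm hg ((shiftOp (alSq_mem hg)).symm y), by
      rw [wHom_wHom, RingEquiv.apply_symm_apply]⟩⟩

/-- The Atkin-Lehner involution. -/
def wOp : Fld₀ O E p m ≃+* Fld₀ O E p m :=
  RingEquiv.ofBijective (wHom hM hpm hg) (wHom_bijective hM hpm hg)

theorem toLS_wOp (x : Fld₀ O E p m) : toLS E (wOp hM hpm hg x : Fld E) =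
    GalRep.expand p (NeZero.ne p) (toLS E (fShift E g (x : Fld E))) :=
  toLS_wHom hM hpm hg x

theorem wOp_wOp (x : Fld₀ O E p m) :
    wOp hM hpm hg (wOp hM hpm hg x) = shiftOp (alSq_mem hg) x :=
  wHom_wHom hM hpm hg x

theorem wOp_algebraMap (a : O) :
    wOp hM hpm hg (algebraMap O (Fld₀ O E p m) a) = algebraMap O (Fld₀ O E p m) a := by
  refine Subtype.ext (toLS_injective E ?_)
  rw [toLS_wOp, algebraMap_coe, fShift_algebraMap, toLS_algebraMap, HahnSeries.C_apply,
    expand_single', mul_zero]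

/-! ## The components -/

theorem gO_expand {k : ℕ} (hk : k ≠ 0) (P : PowerSeries O) :
    E.gO (PowerSeries.expand k hk P) = GalRep.expand k hk (E.gO P) := by
  rw [Emb.gO, RingHom.comp_apply, RingHom.comp_apply, PowerSeries.map_expand,
    expand_ofPowerSeries]

theorem not_dvd_expand {π : O} {k : ℕ} (hk : k ≠ 0) {b : PowerSeries O}
    (hb : ¬ PowerSeries.C π ∣ b) : ¬ PowerSeries.C π ∣ PowerSeries.expand k hk b := fun hd => hb (by
  rw [Model.C_dvd_series_iff] at hd ⊢
  intro i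
  have := hd (k * i)
  rwa [PowerSeries.coeff_expand_mul] at this)

theorem expand_gauss {π : O} (hπ : Irreducible π) {y y' : Fld E}
    (h : toLS E y' = GalRep.expand p (NeZero.ne p) (toLS E y)) :
    (y ∈ gaussP E hπ 1 → y' ∈ gaussP E hπ 1) ∧
      (y ∈ (gaussP E hπ 1).nonunits → y' ∈ (gaussP E hπ 1).nonunits) := by
  have key : ∀ a b : PowerSeries O,
      serAt E 1 y * algebraMap _ _ b = algebraMap (PowerSeries O) (SeriesField O) a →
      serAt E 1 y' * algebraMap _ _ (PowerSeries.expand p (NeZero.ne p) b) =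
        algebraMap (PowerSeries O) (SeriesField O) (PowerSeries.expand p (NeZero.ne p) a) := by
    intro a b hab
    refine E.toC_injective ?_
    have h1 := congrArg E.toC hab
    rw [map_mul, serAt_eq, fShift_one, toC_serF, E.toC_algebraMap, E.toC_algebraMap] at h1
    rw [map_mul, serAt_eq, fShift_one, toC_serF, E.toC_algebraMap, E.toC_algebraMap, gO_expand,
      gO_expand, h, ← map_mul, h1]
  constructor
  · intro hy
    rw [mem_gaussP, mem_gaussRing] at hy ⊢
    obtain ⟨a, b, hb, hab⟩ := hy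
    exact ⟨_, _, not_dvd_expand _ hb, key a b hab⟩
  · intro hy
    rw [mem_nonunits_gaussP, mem_nonunits_gaussRing] at hy ⊢
    obtain ⟨a, b, hb, ⟨c, hc⟩, hab⟩ := hy
    refine ⟨_, _, not_dvd_expand _ hb, ?_, key a b hab⟩
    rw [hc, map_mul, PowerSeries.expand_C]
    exact dvd_mul_right _ _

theorem mem_nonunits_comp {π : O} (hπ : Irreducible π) (δ : SL(2, ℤ)) (x : Fld₀ O E p m) :
    x ∈ (comp hπ δ).nonunits ↔ fShift E δ (x : Fld E) ∈ (gaussP E hπ 1).nonunits := by
  rw [comp, mem_nonunits_comap, mem_nonunits_gaussP, mem_nonunits_gaussP, serAt_fShift, mul_one]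
  rfl

theorem wOp_mem_false {π : O} (hπ : Irreducible π) (x : Fld₀ O E p m) :
    wOp hM hpm hg x ∈ (comp hπ 1).nonunits ↔ x ∈ (comp hπ g).nonunits := by
  rw [mem_nonunits_comp, mem_nonunits_comp, fShift_one]
  refine ⟨fun hW => ?_, (expand_gauss hπ (toLS_wOp hM hpm hg x)).2⟩
  set V := gaussP E hπ 1
  by_contra hx
  have hx0 : fShift E g (x : Fld E) ≠ 0 := fun h0 => hx (by
    rw [h0, ValuationSubring.mem_nonunits_iff, map_zero]; exact zero_lt_one)
  have h2 : fShift E g ((x⁻¹ : Fld₀ O E p m) : Fld E) ∈ V := by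
    rw [Subfield.coe_inv, map_inv₀, ← ValuationSubring.valuation_le_one_iff, map_inv₀]
    rw [ValuationSubring.mem_nonunits_iff, not_lt] at hx
    exact inv_le_one_of_one_le₀ hx
  have h3 := (expand_gauss hπ (toLS_wOp hM hpm hg x⁻¹)).1 h2
  rw [map_inv₀, Subfield.coe_inv, ← ValuationSubring.valuation_le_one_iff, map_inv₀] at h3
  rw [ValuationSubring.mem_nonunits_iff] at hW
  have hW0 : (wOp hM hpm hg x : Fld E) ≠ 0 := fun h0 => by
    have h4 : x = 0 := (wOp hM hpm hg).injective ((Subtype.ext h0).trans (map_zero _).symm)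
    exact hx0 (by rw [h4, Subfield.coe_zero, map_zero])
  exact absurd ((inv_le_one₀ (zero_lt_iff.mpr ((_root_.map_ne_zero _).mpr hW0))).mp h3) hW.not_ge

variable {π : O} (hπ : Irreducible π)
  (hcomp : ∀ δ, comp (W := O) (E := E) (q := p) (m := m) hπ δ =
    twoP O E p m hπ (!decide ((p : ℤ) ∣ δ 1 0)))

include hcomp hpm hg in
theorem comp_g : comp (W := O) (E := E) (q := p) (m := m) hπ g = twoP O E p m hπ true := by
  rw [hcomp, hg.1]
  congr
  simp [Int.natCast_dvd_natCast, hpm]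

include hcomp in
theorem comp_mul_gamma0 {γ : SL(2, ℤ)} (hγ : γ ∈ Gamma0 p) (i : Bool) :
    comp (W := O) (E := E) (q := p) (m := m) hπ (γ * if i then ModularGroup.S else 1) =
      twoP O E p m hπ i := by
  rw [show twoP O E p m hπ i = comp hπ (if i then ModularGroup.S else 1) from rfl, hcomp, hcomp]
  congr 2
  exact decide_eq_decide.mpr (dvd_mul_left_iff hγ _)

theorem mem_nonunits_shiftOp {γ : SL(2, ℤ)} (hγ : γ ∈ Gamma0 p) (δ : SL(2, ℤ))
    (x : Fld₀ O E p m) :
    shiftOp hγ x ∈ (comp hπ δ).nonunits ↔ x ∈ (comp hπ (γ * δ)).nonunits := by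
  rw [mem_nonunits_comp, mem_nonunits_comp, coe_shiftOp, fShift_fShift]

include hcomp in
theorem shiftOp_mem_iff {γ : SL(2, ℤ)} (hγ : γ ∈ Gamma0 p) (i : Bool) (x : Fld₀ O E p m) :
    shiftOp hγ x ∈ (twoP O E p m hπ i).nonunits ↔ x ∈ (twoP O E p m hπ i).nonunits := by
  rw [← comp_mul_gamma0 hπ hcomp hγ i]
  conv_lhs => rw [comp_mul_gamma0 hπ hcomp hγ i,
    show twoP O E p m hπ i = comp hπ (if i then ModularGroup.S else 1) from rfl,
    mem_nonunits_shiftOp]

include hcomp in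
theorem wOp_swap (i : Bool) (x : Fld₀ O E p m) :
    wOp hM hpm hg x ∈ (twoP O E p m hπ i).nonunits ↔ x ∈ (twoP O E p m hπ (!i)).nonunits := by
  have h1 : ∀ z, wOp hM hpm hg z ∈ (twoP O E p m hπ false).nonunits ↔
      z ∈ (twoP O E p m hπ true).nonunits := fun z => by
    rw [← comp_g hpm hg hπ hcomp]
    exact wOp_mem_false hM hpm hg hπ z
  cases i with
  | false => exact h1 x
  | true => rw [Bool.not_true, ← h1, wOp_wOp, shiftOp_mem_iff hπ hcomp]

/-! ## The image of `j` -/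

theorem jFun_dq (τ : ℍ) : Period.jFun (dq p τ) = jNFun p τ := by
  rw [jNFun]
  congr 1

/-- The series of `j (p τ)` at every cusp: a pole and a unit. -/
theorem exists_polar (δ : SL(2, ℤ)) : ∃ (a : ℕ) (U : (PowerSeries O)ˣ), 0 < a ∧
    serAt E δ (wOp hM hpm hg (jF₀ O E p m) : Fld E) *
        algebraMap (PowerSeries O) (SeriesField O) (PowerSeries.X ^ a) =
      algebraMap (PowerSeries O) (SeriesField O) (U : PowerSeries O) := by
  set j₁ : bddMF E := ⟨jMF (Gamma M), jMF_mem E⟩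
  have hj₁ : InvLev p m (j₁ : MF M) := fun γ _ => shift_jMF γ
  obtain ⟨b, hb, fb, eb⟩ := exists_alFun hM hpm hg hj₁
  have eJ : (wOp hM hpm hg (jF₀ O E p m) : Fld E) = toFld E b :=
    congrArg Subtype.val (wHom_invEl hM hpm hg hj₁ hb eb)
  obtain ⟨A, d, c, hA, hd, hAd, heq, -⟩ := jNFun_smul_eq (N := p) δ
  have hr : A * m ≠ 0 := mul_ne_zero hA.ne' (NeZero.ne m)
  have h1 := (hasQSeries_jq.comp_upper one_pos c hA hd).refine_width
    (by rw [one_mul]; exact hd) (A * m) hr
  rw [show 1 * d * (A * m) = M by rw [hM, ← hAd]; ring] at h1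
  set ζ : ℂˣ := Units.mk0 (Complex.exp (2 * Real.pi * Complex.I * c / (d * 1 : ℕ)))
    (Complex.exp_ne_zero _) with hζ
  have hζM : ζ ^ M = 1 := by
    ext
    simp only [hζ, Units.val_pow_eq_pow_val, Units.val_mk0, mul_one, Units.val_one]
    rw [← Complex.exp_nat_mul, show (M : ℂ) * (2 * Real.pi * Complex.I * c / d) =
      ((A * m : ℕ) * c : ℤ) * (2 * Real.pi * Complex.I) by
        have : (d : ℂ) ≠ 0 := Nat.cast_ne_zero.2 hd.ne'
        rw [hM, ← hAd]; push_cast; field_simp]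
    exact Complex.exp_int_mul_two_pi_mul_I _
  set s := GalRep.expand (A * m) hr (GalRep.expand A hA.ne' (GalRep.twist ζ jq)) with hs
  have hser : serAlg M (shift M δ (b : MF M)) = s := by
    refine ((hasQSeries_serHom (shift M δ (b : MF M))).congr (.of_forall fun τ => ?_)).unique
      (NeZero.pos M) h1
    show ((shift M δ (b : MF M) : MF M) : ℍ → ℂ) τ = _
    rw [shift_apply, fb, ← heq τ, ← jFun_dq]
    exact Period.jFun_smul g _
  have hgood : GoodSer E s := by
    refine ((GoodSer.twist ?_ hζM).expand hA.ne').expand hr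
    rw [jq_eq_jqModC, ModularCurve.jqModC]
    exact GoodSer.of_int (-1) ModularCurve.constantCoeff_jNum
  obtain ⟨n, U, hU, hn⟩ := hgood
  have hord : s.order = (A * m : ℕ) * ((A : ℤ) * -1) := by
    rw [hs, order_expand, order_expand, order_twist, order_jq]
  have hU0 : (E.gO U).coeff 0 ≠ 0 := by
    rw [Emb.gO, RingHom.comp_apply, show (0 : ℤ) = ((0 : ℕ) : ℤ) from rfl,
      HahnSeries.ofPowerSeries_apply_coeff, PowerSeries.coeff_map,
      PowerSeries.coeff_zero_eq_constantCoeff_apply]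
    exact (map_ne_zero_iff _ E.inj).mpr (PowerSeries.isUnit_constantCoeff _ hU).ne_zero
  have hn0 : n < 0 := by
    have hne : s.coeff n ≠ 0 := by
      rw [hn, HahnSeries.coeff_single_mul, sub_self, one_mul]
      exact hU0
    by_contra hn'
    have h0 : s.order < 0 := by
      rw [hord]
      have : (0 : ℤ) < (A * m : ℕ) * (A : ℤ) := mul_pos (by omega) (by omega)
      linarith
    refine (HahnSeries.coeff_order_eq_zero.not.mpr
      fun (e : s = 0) => hne (by rw [e, HahnSeries.coeff_zero])) ?_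
    generalize s.order = i at h0 ⊢
    rw [hn, HahnSeries.coeff_single_mul, one_mul, Emb.gO, RingHom.comp_apply,
      HahnSeries.ofPowerSeries_apply, HahnSeries.embDomain_of_notMem_range]
    rintro ⟨k, hk⟩
    change (k : ℤ) = i - n at hk
    omega
  refine ⟨(-n).toNat, hU.unit, by omega, E.toC_injective ?_⟩
  rw [map_mul, E.toC_algebraMap, E.toC_algebraMap, serAt_eq, toC_serF, eJ, fShift_toFld,
    toLS_toFld, IsUnit.unit_spec]
  show serAlg M (shift M δ (b : MF M)) * E.gO (PowerSeries.X ^ (-n).toNat) = E.gO U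
  rw [hser, hn, Emb.gO, RingHom.comp_apply, RingHom.comp_apply, map_pow, PowerSeries.map_X, map_pow,
    HahnSeries.ofPowerSeries_X, HahnSeries.single_pow, one_pow, nsmul_eq_mul, mul_one,
    mul_right_comm, HahnSeries.single_mul_single, one_mul,
    show n + ((-n).toNat : ℤ) = 0 by omega, HahnSeries.single_zero_one, one_mul]

theorem wOp_jF_mem_range : (wOp hM hpm hg (jF₀ O E p m) : Fld E) ∈ (toFld E).range := by
  set j₁ : bddMF E := ⟨jMF (Gamma M), jMF_mem E⟩
  have hj₁ : InvLev p m (j₁ : MF M) := fun γ _ => shift_jMF γ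
  obtain ⟨b, hb, -, eb⟩ := exists_alFun hM hpm hg hj₁
  exact ⟨b, (congrArg Subtype.val (wHom_invEl hM hpm hg hj₁ hb eb)).symm⟩

theorem wOp_jF_mem_B₀ : wOp hM hpm hg (jF₀ O E p m) ∈ (model₀ O E p m).B₀ := by
  refine (mem_B₀_iff (E := E)).mpr (PoleInt.mem_chartRing E ⟨wOp_jF_mem_range hM hpm hg, fun δ => ?_⟩)
  obtain ⟨a, U, -, h⟩ := exists_polar (E := E) hM hpm hg δ
  exact ⟨a, _, h⟩

theorem wOp_chart₀ (z : Fld₀ O E p m) :
    wOp hM hpm hg z ∈ (model₀ O E p m).B₀ ↔ z ∈ (model₀ O E p m).B₀ := by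
  have h1 : ∀ z ∈ (model₀ O E p m).B₀, wOp hM hpm hg z ∈ (model₀ O E p m).B₀ := fun z hz =>
    map_mem_of_mem_chart (model₀ O E p m).closed₀ (wOp hM hpm hg).toRingHom
      (fun a => by
        show wOp hM hpm hg (algebraMap O _ a) ∈ _
        rw [wOp_algebraMap]; exact (model₀ O E p m).B₀.algebraMap_mem a)
      (wOp_jF_mem_B₀ hM hpm hg) hz
  refine ⟨fun h => ?_, h1 z⟩
  have h2 := h1 _ h
  rw [wOp_wOp] at h2
  exact ((aut_keep_iff (shiftOp_jF₀ (alSq_mem hg)) (fun a => ⟨a, shiftOp_algebraMap _ a⟩)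
    (fun a => ⟨a, (shiftOp (alSq_mem hg)).symm_apply_eq.mpr (shiftOp_algebraMap _ a).symm⟩)).1 z).mp h2

/-! ## The neighbourhood of the cusps -/

theorem aeval_mem_of_mem {L : Type} [Field L] [Algebra O L] {S : Subalgebra O L} {v : L}
    (hv : v ∈ S) (R : O[X]) : aeval v R ∈ S := by
  induction R using Polynomial.induction_on' with
  | add x y hx hy => rw [map_add]; exact add_mem hx hy
  | monomial n c => rw [aeval_monomial]; exact mul_mem (S.algebraMap_mem c) (pow_mem hv n)

/-- The inverse of the image of `j` is topologically nilpotent near the cusps. -/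
theorem exists_near_wOp : ∃ s ∈ (model₀ O E p m).nearOne,
    s * wOp hM hpm hg (jF₀ O E p m)⁻¹ ∈ (model₀ O E p m).B₁ ∧
      ∃ c ∈ (model₀ O E p m).nearSub,
        wOp hM hpm hg (jF₀ O E p m)⁻¹ ^ M = (jF₀ O E p m)⁻¹ * c := by
  classical
  set al := algebraMap (PowerSeries O) (SeriesField O)
  set J : Fld E := (wOp hM hpm hg (jF₀ O E p m) : Fld E) with hJ
  have hJr : J ∈ (toFld E).range := wOp_jF_mem_range hM hpm hg
  choose a U ha hU using fun δ => exists_polar (E := E) hM hpm hg δ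
  have hJ0 : J ≠ 0 := fun h0 => jF₀_ne_zero O E p m
    ((wOp hM hpm hg).injective ((Subtype.ext h0).trans (map_zero _).symm))
  haveI : Fintype SL(2, ZMod M) := Fintype.ofFinite _
  set P : Fld E := ∏ y : SL(2, ZMod M), fShift E (Level.lift y) J with hP
  set P' : Fld E := ∏ y ∈ (Finset.univ : Finset SL(2, ZMod M)).erase 1, fShift E (Level.lift y) J
    with hP'
  have hJP : J * P' = P := by
    rw [hP, ← Finset.mul_prod_erase Finset.univ _ (Finset.mem_univ (1 : SL(2, ZMod M))), ← hP']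
    congr 1
    rw [fShift_congr E (g := Level.lift (1 : SL(2, ZMod M))) (h := 1) (by rw [red_lift, map_one]),
      fShift_one]
  have hPinv : ∀ γ, fShift E γ P = P := fun γ => by
    rw [hP, map_prod]
    refine Fintype.prod_equiv (Equiv.mulRight (red M γ)) _ _ fun y => ?_
    rw [fShift_fShift]
    exact fShift_congr E (by rw [map_mul, red_lift, Equiv.coe_mulRight, red_lift]) _
  have hshr : ∀ y, fShift E y J ∈ (toFld E).range := fun y => by
    obtain ⟨b, hb⟩ := hJr
    exact ⟨_, by rw [← hb, fShift_toFld]⟩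
  have hPr : P ∈ (toFld E).range := prod_mem fun y _ => hshr _
  have hP'r : P' ∈ (toFld E).range := prod_mem fun y _ => hshr _
  set A := ∑ y : SL(2, ZMod M), a (Level.lift y)
  set U' : PowerSeries O := ∏ y : SL(2, ZMod M), (U (Level.lift y) : PowerSeries O)
  have hPser : serF E P * al (PowerSeries.X ^ A) = al U' := by
    rw [hP, map_prod, ← Finset.prod_pow_eq_pow_sum, map_prod, ← Finset.prod_mul_distrib, map_prod]
    exact Finset.prod_congr rfl fun y _ => by rw [← serAt_eq]; exact hU _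
  obtain ⟨Uw, hUw⟩ := exists_wS (O := O) (M := M)
  set s₀ : Fld E := wF E ^ A * P ^ M with hs₀
  have hwinv : ∀ γ, fShift E γ (wF E) = wF E := fun γ => by
    rw [show wF E = (jF E)⁻¹ from rfl, map_inv₀, fShift_jF]
  have hs₀ser : ∀ δ, serAt E δ s₀ = al (U' ^ M * (Uw : PowerSeries O) ^ A) := fun δ => by
    rw [hs₀, map_mul, map_pow, map_pow, serAt_wF, serAt_eq δ P, hPinv, hUw, map_mul, map_mul,
      map_pow, map_pow al (Uw : PowerSeries O), mul_pow, map_pow, ← hPser, mul_pow,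
      map_pow al PowerSeries.X, ← pow_mul, ← pow_mul, mul_comm M A]
    ring
  have hjr : ∀ k : ℕ, jF E ^ k ∈ (toFld E).range := fun k =>
    pow_mem (show jF E ∈ (toFld E).range from ⟨_, rfl⟩) k
  have hjw : ∀ k : ℕ, jF E ^ k * wF E ^ k = 1 := fun k => by
    rw [← mul_pow, show wF E = (jF E)⁻¹ from rfl, mul_inv_cancel₀ (jF_ne_zero E), one_pow]
  have hs₀c : s₀ ∈ cuspInt E := ⟨fun δ => ⟨_, (hs₀ser δ).symm⟩, A, by
    rw [hs₀, ← mul_assoc, hjw, one_mul]; exact pow_mem hPr M⟩
  obtain ⟨R, hR⟩ := CuspPt.exists_aeval_of_invariant E hs₀c fun γ => by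
    rw [hs₀, map_mul, map_pow, map_pow, hwinv, hPinv]
  have hRser : serAt E 1 (aeval (wF E) R) = al (aeval (wS O M) R) := by
    clear hR
    induction R using Polynomial.induction_on' with
    | add x y hx hy => simp only [map_add, hx, hy]
    | monomial n c =>
      rw [aeval_monomial, aeval_monomial, map_mul, map_mul al, map_pow, map_pow al,
        serAt_algebraMap, serAt_wF, PowerSeries.algebraMap_apply, Algebra.algebraMap_self_apply]
  have hR0 : IsUnit (R.coeff 0) := by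
    have e : aeval (wS O M) R = U' ^ M * (Uw : PowerSeries O) ^ A :=
      IsFractionRing.injective (PowerSeries O) (SeriesField O)
        (hRser.symm.trans (hR ▸ hs₀ser 1))
    have e2 : (PowerSeries.constantCoeff).comp (aeval (wS O M)).toRingHom =
        Polynomial.evalRingHom (0 : O) := by
      refine Polynomial.ringHom_ext (fun c => ?_) ?_
      · simp
      · simp [hUw, zero_pow (NeZero.ne M)]
    have e3 := RingHom.congr_fun e2 R
    rw [RingHom.comp_apply, AlgHom.toRingHom_eq_coe, RingHom.coe_coe, e,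
      Polynomial.coe_evalRingHom, ← Polynomial.coeff_zero_eq_eval_zero] at e3
    rw [← e3]
    exact PowerSeries.isUnit_constantCoeff _
      (((IsUnit.prod_iff).mpr fun y _ => (U _).isUnit).pow M |>.mul (Uw.isUnit.pow A))
  obtain ⟨c, hc⟩ := hR0.exists_left_inv
  set v := (jF₀ O E p m)⁻¹ with hv
  have hvB : v ∈ (model₀ O E p m).B₁ := (model₀ O E p m).w_inv_mem
  let s : Fld₀ O E p m := aeval v (C c * R)
  have hs : (s : Fld E) = algebraMap O (Fld E) c * s₀ := by
    have e : (s : Fld E) = aeval (wF E) (C c * R) :=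
      (aeval_algHom_apply (IsScalarTower.toAlgHom O (Fld₀ O E p m) (Fld E)) v _).symm
    rw [e, map_mul, aeval_C, hR]
  have hsnear : s ∈ (model₀ O E p m).nearOne := by
    refine ⟨aeval v (C c * R.divX), aeval_mem_of_mem hvB _, ?_⟩
    show aeval v (C c * R) = 1 + v * _
    conv_lhs => rw [← R.X_mul_divX_add]
    simp only [map_add, map_mul, aeval_X, aeval_C, mul_add]
    rw [show algebraMap O (Fld₀ O E p m) c * algebraMap O (Fld₀ O E p m) (R.coeff 0) = 1 by
      rw [← map_mul, hc, map_one]]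
    ring
  set t : Fld₀ O E p m := s * wOp hM hpm hg v with ht
  have htE : (t : Fld E) = algebraMap O (Fld E) c * s₀ * J⁻¹ := by
    rw [ht, Subfield.coe_mul, hs, hv, map_inv₀, Subfield.coe_inv, hJ]
  have htser : ∀ δ, serAt E δ (t : Fld E) = al (PowerSeries.C c *
      (U' ^ M * (Uw : PowerSeries O) ^ A) * (((U δ)⁻¹ : (PowerSeries O)ˣ) : PowerSeries O) *
        PowerSeries.X ^ a δ) := fun δ => by
    have e : serAt E δ J⁻¹ =
        al ((((U δ)⁻¹ : (PowerSeries O)ˣ) : PowerSeries O) * PowerSeries.X ^ a δ) := by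
      rw [map_inv₀]
      refine inv_eq_of_mul_eq_one_right ?_
      rw [map_mul, ← mul_assoc, mul_right_comm, hU, ← map_mul, Units.mul_inv, map_one]
    rw [htE, map_mul, map_mul, serAt_algebraMap, hs₀ser, e, ← map_mul, ← map_mul, ← mul_assoc]
  have htr : jF E ^ A * (t : Fld E) ∈ (toFld E).range := by
    have e : jF E ^ A * (t : Fld E) = algebraMap O (Fld E) c * (P ^ (M - 1) * P') := by
      have e' : P ^ M = P ^ (M - 1) * P := by rw [← pow_succ, Nat.sub_add_cancel (NeZero.one_le (n := M))]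
      have hPJ : P * J⁻¹ = P' := by rw [← hJP, mul_comm J, mul_inv_cancel_right₀ hJ0]
      rw [htE, hs₀, e']
      linear_combination (algebraMap O (Fld E) c * P ^ (M - 1) * P * J⁻¹) * hjw A +
        (algebraMap O (Fld E) c * P ^ (M - 1)) * hPJ
    rw [e]
    exact mul_mem ⟨_, (algebraMap_eq E c).symm⟩ (mul_mem (pow_mem hPr _) hP'r)
  have htB : t ∈ (model₀ O E p m).B₁ := mem_B₁_iff.mpr
    (mem_chartRing_of_cuspInt E ⟨fun δ => ⟨_, (htser δ).symm⟩, A, htr⟩)
  have hjt : jF₀ O E p m * t ^ M ∈ (model₀ O E p m).B₁ := by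
    refine mem_B₁_iff.mpr (mem_chartRing_of_cuspInt E ⟨fun δ => ?_, A * M, ?_⟩)
    · refine ⟨jUnit (O := O) (M := M) * (PowerSeries.C c * (U' ^ M * (Uw : PowerSeries O) ^ A) *
        (((U δ)⁻¹ : (PowerSeries O)ˣ) : PowerSeries O)) ^ M * PowerSeries.X ^ (M * (a δ - 1)), ?_⟩
      rw [Subfield.coe_mul, SubmonoidClass.coe_pow, coe_jF₀, map_mul (serAt E δ),
        map_pow (serAt E δ), serAt_jF, htser, ← map_pow al,
        mul_pow _ (PowerSeries.X ^ a δ) M, ← pow_mul,
        show a δ * M = M + M * (a δ - 1) by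
          obtain ⟨k, hk⟩ : ∃ k, a δ = k + 1 := ⟨a δ - 1, by have := ha δ; omega⟩
          rw [hk, Nat.add_sub_cancel]; ring,
        pow_add, map_mul al, map_mul al, map_mul al, map_mul al, ← serF_jF E]
      ring
    · rw [Subfield.coe_mul, SubmonoidClass.coe_pow, coe_jF₀,
        show jF E ^ (A * M) * (jF E * (t : Fld E) ^ M) = jF E * (jF E ^ A * (t : Fld E)) ^ M by
          rw [mul_pow, ← pow_mul]; ring]
      exact mul_mem ⟨_, rfl⟩ (pow_mem htr M)
  refine ⟨s, hsnear, htB, wOp hM hpm hg v ^ M * jF₀ O E p m,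
    ⟨s ^ M, pow_mem hsnear M, ?_⟩, ?_⟩
  · rwa [← mul_assoc, ← mul_pow, mul_comm]
  · rw [hv, mul_comm _ (jF₀ O E p m), inv_mul_cancel_left₀ (jF₀_ne_zero O E p m)]

theorem wOp_near (z : Fld₀ O E p m) :
    wOp hM hpm hg z ∈ (model₀ O E p m).nearSub ↔ z ∈ (model₀ O E p m).nearSub := by
  obtain ⟨s, hs, hsu, c, hc, hpow⟩ := exists_near_wOp (E := E) hM hpm hg
  have h₁ : ∀ b ∈ (model₀ O E p m).B₁,
      (wOp hM hpm hg).toRingHom b ∈ (model₀ O E p m).nearSub := fun b hb =>
    map_mem_of_mem_chart (fun _ => Models.Model.nearSub_closed) (wOp hM hpm hg).toRingHom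
      (fun a => by
        show wOp hM hpm hg (algebraMap O _ a) ∈ _
        rw [wOp_algebraMap]; exact (model₀ O E p m).nearSub.algebraMap_mem a)
      (show wOp hM hpm hg (jF₀ O E p m)⁻¹ ∈ _ from ⟨s, hs, hsu⟩) hb
  have h1 := Models.Model.nearSub_map (M := model₀ O E p m) h₁ ⟨M, c, hc, hpow⟩
  refine ⟨fun h => ?_, h1 z⟩
  have h2 := h1 _ h
  change wOp hM hpm hg (wOp hM hpm hg z) ∈ _ at h2
  rw [wOp_wOp] at h2
  exact ((aut_keep_iff (shiftOp_jF₀ (alSq_mem hg)) (fun a => ⟨a, shiftOp_algebraMap _ a⟩)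
    (fun a => ⟨a, (shiftOp (alSq_mem hg)).symm_apply_eq.mpr (shiftOp_algebraMap _ a).symm⟩)).2 z).mp h2

include hcomp in
/-- The involution exchanges the components. -/
theorem isSwapAut_wOp : IsSwapAut (model₀ O E p m) (twoP O E p m hπ) (wOp hM hpm hg) where
  chart₀ := wOp_chart₀ hM hpm hg
  near := wOp_near hM hpm hg
  swap := wOp_swap hM hpm hg hπ hcomp

end Fermat.Agent.ModField
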