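/-
Frobenius conjugated by the involution: an automorphism exchanging the two components whose `p`-th
power is congruent to the trace to level `Γ(m)` on the component over zero.
-/
import Fermat.Agent.Models.Gamma0.OrdInvolution
import Fermat.Agent.Models.Gamma0.FrobConj
import Fermat.Agent.Models.Gamma0.LevelIrred
import Fermat.Agent.Models.Wild.Ordinary
import Mathlib.RingTheory.PowerSeries.Expand

set_option autoImplicit false
set_option linter.style.haveILetI false
set_option linter.unusedSectionVars false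

noncomputable section

namespace Fermat.Agent.ModField

open IsLocalRing CongruenceSubgroup
open Fermat.Agent.GalRep
open Fermat.Agent.GalRep.Level
open Fermat.Agent.GalRep.Model (chartRing SeriesField self_mem_chartRing C_pi_prime)
open Fermat.Agent.Models (IsSwapAut)
open scoped MatrixGroups

variable {O : Type} [CommRing O] [IsDomain O] [IsDiscreteValuationRing O] {M : ℕ} [NeZero M]
  {E : Emb O M} {p m : ℕ}

/-! ## Frobenius on series -/

theorem coeff_gO_nat (R : PowerSeries O) (k : ℕ) :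
    (E.gO R).coeff (k : ℤ) = E.φ (PowerSeries.coeff k R) := by
  rw [Emb.gO, RingHom.comp_apply, HahnSeries.ofPowerSeries_apply_coeff, PowerSeries.coeff_map]

theorem coeff_gO_neg (R : PowerSeries O) {i : ℤ} (hi : i < 0) : (E.gO R).coeff i = 0 := by
  rw [Emb.gO, RingHom.comp_apply, HahnSeries.ofPowerSeries_apply,
    HahnSeries.embDomain_of_notMem_range]
  rintro ⟨k, hk⟩
  simp at hk
  omega

theorem gO_X_pow (k : ℕ) : E.gO (PowerSeries.X ^ k) = HahnSeries.single (k : ℤ) (1 : ℂ) := by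
  rw [Emb.gO, RingHom.comp_apply, map_pow, PowerSeries.map_X, map_pow,
    HahnSeries.ofPowerSeries_X, HahnSeries.single_pow, one_pow, nsmul_eq_mul, mul_one]

/-- Elements of the overlap have series with bounded denominators. -/
theorem poleBound_overlap {x : Fld E} (hx : x ∈ overlapRing O (jF E)) : PoleBound (serF E x) := by
  obtain ⟨N, hN⟩ := (mem_overlap_iff (jF_ne_zero E)).mp hx
  have hinv : PoleBound (serF E (jF E)⁻¹) := by
    obtain ⟨U, hU⟩ := isUnit_jUnit (O := O) (M := M)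
    have h := congrArg (fun z => z * algebraMap (PowerSeries O) (SeriesField O)
      ((U⁻¹ : (PowerSeries O)ˣ) : PowerSeries O)) (serF_inv_jF E)
    simp only [mul_assoc, ← map_mul] at h
    rw [← hU, Units.mul_inv, map_one, mul_one] at h
    exact ⟨0, PowerSeries.X ^ M * ((U⁻¹ : (PowerSeries O)ˣ) : PowerSeries O),
      by rw [pow_zero, map_one, mul_one]; exact h⟩
  have hpow : ∀ n, PoleBound (serF E ((jF E)⁻¹ ^ n)) := fun n => by
    induction n with
    | zero => rw [pow_zero, map_one]; exact ⟨0, 1, by simp⟩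
    | succ n ih => rw [pow_succ, map_mul]; exact ih.mul hinv
  have := (hpow N).mul (poleBound_chart hN)
  rwa [← map_mul, ← mul_assoc, ← mul_pow, inv_mul_cancel₀ (jF_ne_zero E), one_pow, one_mul] at this

set_option maxHeartbeats 400000 in
/-- A function whose expanded series is carried to the series of `Z` by a Frobenius of the
constants has `p`-th power congruent to `Z` at infinity. -/
theorem pow_sub_mem_gaussP [hp' : Fact p.Prime] (hp : (p : O) ∈ maximalIdeal O) {π : O}
    (hπ : Irreducible π) {σ : ℂ ≃+* ℂ}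
    (hσ : ∀ o : O, ∃ o' : O, σ (E.φ o) = E.φ o' ∧ residue O o' = residue O o ^ p)
    (hσs : ∀ o : O, ∃ o' : O, σ (E.φ o') = E.φ o) {X Z : Fld E} (hZ : PoleBound (serF E Z))
    (h : lmap σ.toRingHom (GalRep.expand p hp'.out.ne_zero (toLS E X)) = toLS E Z) :
    X ^ p - Z ∈ (gaussP E hπ 1).nonunits := by
  haveI : CharP (ResidueField O) p := (CharP.charP_iff_prime_eq_zero hp'.out).mpr (by
    rw [← map_natCast (residue O), residue_eq_zero_iff]; exact hp)
  haveI : ExpChar (ResidueField O) p := ExpChar.prime hp'.out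
  obtain ⟨N, P₀, hP₀⟩ := hZ
  have hP₁ := PoleBound.of_le (Nat.le_mul_of_pos_left N hp'.out.pos) hP₀
  set P : PowerSeries O := P₀ * PowerSeries.X ^ (p * N - N)
  have hP : toLS E Z * HahnSeries.single ((p * N : ℕ) : ℤ) (1 : ℂ) = E.gO P := by
    have e := congrArg E.toC hP₁
    rwa [map_mul, toC_serF, E.toC_algebraMap, E.toC_algebraMap, gO_X_pow] at e
  set T : LaurentSeries ℂ := toLS E X * HahnSeries.single (N : ℤ) (1 : ℂ)
  have hT : lmap σ.toRingHom (GalRep.expand p hp'.out.ne_zero T) = E.gO P := by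
    have e : lmap σ.toRingHom (HahnSeries.single ((p : ℤ) * N) (1 : ℂ)) =
        HahnSeries.single ((p * N : ℕ) : ℤ) (1 : ℂ) := by
      ext i
      rw [lmap_coeff, Nat.cast_mul, HahnSeries.coeff_single]
      split_ifs <;> simp
    rw [map_mul, map_mul, expand_single', h, e, hP]
  choose o ho using hσs
  set Q : PowerSeries O := PowerSeries.mk fun k => o (PowerSeries.coeff (p * k) P) with hQdef
  have hTQ : T = E.gO Q := by
    ext i
    have e := congrArg (fun s : LaurentSeries ℂ => s.coeff ((p : ℤ) * i)) hT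
    simp only [lmap_coeff, expand_coeff_mul] at e
    rcases lt_or_ge i 0 with hi | hi
    · rw [coeff_gO_neg _ hi]
      rw [coeff_gO_neg _ (mul_neg_of_pos_of_neg (by exact_mod_cast hp'.out.pos) hi)] at e
      exact σ.injective (e.trans (map_zero σ).symm)
    · lift i to ℕ using hi
      rw [← Nat.cast_mul, coeff_gO_nat] at e
      rw [coeff_gO_nat, hQdef, PowerSeries.coeff_mk]
      exact σ.injective (e.trans (ho _).symm)
  -- the congruence
  have hres : P.map (residue O) = (Q.map (residue O)) ^ p := by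
    rw [← MvPowerSeries.map_frobenius_expand p hp'.out.ne_zero (f := Q.map (residue O))]
    ext n
    show _ = PowerSeries.coeff n (PowerSeries.map (frobenius (ResidueField O) p)
      (PowerSeries.expand p hp'.out.ne_zero (Q.map (residue O))))
    rw [PowerSeries.coeff_map, PowerSeries.coeff_map]
    by_cases hn : p ∣ n
    · obtain ⟨k, rfl⟩ := hn
      obtain ⟨o', ho', hres⟩ := hσ (PowerSeries.coeff k Q)
      rw [PowerSeries.coeff_expand_mul, PowerSeries.coeff_map, frobenius_def, ← hres]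
      refine congrArg (residue O) (E.inj ?_)
      rw [← ho', hQdef, PowerSeries.coeff_mk, ho]
    · rw [PowerSeries.coeff_expand_of_not_dvd _ _ _ hn, map_zero]
      have e := congrArg (fun s : LaurentSeries ℂ => s.coeff (n : ℤ)) hT
      simp only [lmap_coeff, coeff_gO_nat] at e
      rw [expand_coeff_of_not_dvd _ _ _ _ (fun hd => hn (Int.natCast_dvd_natCast.mp hd)),
        map_zero] at e
      rw [E.inj (e.symm.trans (map_zero E.φ).symm), map_zero]
  have hdvd : PowerSeries.C π ∣ Q ^ p - P := by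
    have hc : ∀ k, π ∣ PowerSeries.coeff k (Q ^ p - P) := fun k => by
      rw [← Ideal.mem_span_singleton, ← hπ.maximalIdeal_eq, ← residue_eq_zero_iff,
        ← PowerSeries.coeff_map, map_sub, map_pow, hres, sub_self, map_zero]
    choose c hc using hc
    exact ⟨PowerSeries.mk c, PowerSeries.ext fun k => by
      rw [PowerSeries.coeff_C_mul, PowerSeries.coeff_mk, ← hc]⟩
  rw [mem_nonunits_gaussP, serAt_eq, fShift_one, mem_nonunits_gaussRing]
  refine ⟨Q ^ p - P, PowerSeries.X ^ (p * N), ?_, hdvd, E.toC_injective ?_⟩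
  · rintro ⟨c, hc⟩
    have e := congrArg (PowerSeries.coeff (p * N)) hc
    rw [PowerSeries.coeff_X_pow_self, PowerSeries.coeff_C_mul] at e
    exact hπ.not_isUnit (IsUnit.of_mul_eq_one _ e.symm)
  · rw [map_mul, toC_serF, E.toC_algebraMap, E.toC_algebraMap, gO_X_pow, map_sub, map_pow, sub_mul,
      hP, map_sub, map_pow, ← hTQ, mul_pow, HahnSeries.single_pow, one_pow, nsmul_eq_mul,
      Nat.cast_mul]

/-- Conjugation keeps the nonunits at infinity. -/
theorem fConj_mem_nonunits_one [hp' : Fact p.Prime] (hp : (p : O) ∈ maximalIdeal O) {π : O}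
    (hπ : Irreducible π) (σ : stabK E)
    (hint : ∀ o : O, ∃ o' : O, σ.1 (E.φ o) = E.φ o') {x : Fld E}
    (hx : x ∈ (gaussP E hπ 1).nonunits) : fConj E σ x ∈ (gaussP E hπ 1).nonunits := by
  choose f hf using hint
  let ρ : O →+* O :=
    { toFun := f
      map_one' := E.inj (by rw [← hf, map_one, map_one])
      map_mul' := fun x y => E.inj (by rw [← hf, map_mul, map_mul, map_mul, hf, hf])
      map_zero' := E.inj (by rw [← hf, map_zero, map_zero])
      map_add' := fun x y => E.inj (by rw [← hf, map_add, map_add, map_add, hf, hf]) }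
  have hρ : ∀ o, ρ o ∈ maximalIdeal O → o ∈ maximalIdeal O := fun o ho => by
    by_contra hu
    rw [IsLocalRing.notMem_maximalIdeal] at hu
    exact (IsLocalRing.mem_maximalIdeal _).mp ho (hu.map ρ)
  have hρπ : π ∣ ρ π := by
    -- a ring endomorphism of the base keeps the uniformiser a nonunit
    by_contra hd
    have hu : IsUnit (ρ π) := notMem_maximalIdeal.mp (by
      rwa [hπ.maximalIdeal_eq, Ideal.mem_span_singleton])
    have hp0 : (p : O) ≠ 0 := fun h => by
      have e := congrArg E.φ h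
      rw [map_natCast, map_zero] at e
      exact hp'.out.ne_zero (Nat.cast_eq_zero.1 e)
    obtain ⟨n, v, hv⟩ := IsDiscreteValuationRing.eq_unit_mul_pow_irreducible hp0 hπ
    have hpu : IsUnit (p : O) := by
      rw [← map_natCast ρ, hv, map_mul, map_pow]
      exact (v.isUnit.map ρ).mul (hu.pow n)
    exact (IsLocalRing.mem_maximalIdeal _).mp hp hpu
  rw [mem_nonunits_gaussP, serAt_eq, fShift_one, mem_nonunits_gaussRing] at hx ⊢
  obtain ⟨a, b, hb, ⟨a', rfl⟩, e⟩ := hx
  have hgO : ∀ g : PowerSeries O, E.gO (g.map ρ) = lmap σ.1.toRingHom (E.gO g) := fun g => by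
    ext k
    rw [lmap_coeff]
    rcases lt_or_ge k 0 with hk | hk
    · rw [coeff_gO_neg _ hk, coeff_gO_neg _ hk, map_zero]
    · lift k to ℕ using hk
      rw [coeff_gO_nat, coeff_gO_nat, PowerSeries.coeff_map]
      exact (hf _).symm
  obtain ⟨r, hr⟩ := hρπ
  refine ⟨(PowerSeries.C π * a').map ρ, b.map ρ, fun hd => hb ?_, ?_, E.toC_injective ?_⟩
  · obtain ⟨c, hc⟩ := hd
    have hdv : ∀ i, π ∣ PowerSeries.coeff i b := fun i => by
      rw [← Ideal.mem_span_singleton, ← hπ.maximalIdeal_eq]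
      refine hρ _ ?_
      rw [hπ.maximalIdeal_eq, Ideal.mem_span_singleton]
      exact ⟨PowerSeries.coeff i c, by
        have := congrArg (PowerSeries.coeff i) hc
        rwa [PowerSeries.coeff_map, PowerSeries.coeff_C_mul] at this⟩
    choose d hd using hdv
    exact ⟨PowerSeries.mk d, PowerSeries.ext fun i => by
      rw [PowerSeries.coeff_C_mul, PowerSeries.coeff_mk, ← hd]⟩
  · rw [map_mul, PowerSeries.map_C, hr, map_mul, mul_assoc]
    exact dvd_mul_right _ _
  · have e' := congrArg E.toC e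
    rw [map_mul, toC_serF, E.toC_algebraMap, E.toC_algebraMap] at e'
    rw [map_mul, toC_serF, E.toC_algebraMap, E.toC_algebraMap, hgO, hgO, ← e', map_mul, toLS_fConj]

/-! ## Automorphisms of the level field fixing `j` -/

variable [hp' : Fact p.Prime]

/-- Conjugation of the constants. -/
def conjK (hpM : p ∣ M) (hmM : m ∣ M) (σ : stabK E) : Fld₀ O E p m ≃+* Fld₀ O E p m where
  toFun x := ⟨fConj E σ (x : Fld E), fConj_mem_levelFld hpM hmM σ (fun c hc => by
    rw [baseK_eq] at hc ⊢; exact (σ.2 c).mpr hc) x.2⟩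
  invFun x := ⟨fConj E σ⁻¹ (x : Fld E), fConj_mem_levelFld hpM hmM σ⁻¹ (fun c hc => by
    rw [baseK_eq] at hc ⊢; exact ((σ⁻¹ : stabK E).2 c).mpr hc) x.2⟩
  left_inv x := Subtype.ext (by
    show fConj E σ⁻¹ (fConj E σ (x : Fld E)) = x
    rw [fConj_fConj, inv_mul_cancel, fConj_one])
  right_inv x := Subtype.ext (by
    show fConj E σ (fConj E σ⁻¹ (x : Fld E)) = x
    rw [fConj_fConj, mul_inv_cancel, fConj_one])
  map_mul' x y := Subtype.ext (map_mul (fConj E σ) _ _)
  map_add' x y := Subtype.ext (map_add (fConj E σ) _ _)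

theorem coe_conjK (hpM : p ∣ M) (hmM : m ∣ M) (σ : stabK E) (x : Fld₀ O E p m) :
    (conjK hpM hmM σ x : Fld E) = fConj E σ (x : Fld E) := rfl

theorem conjK_const (hpM : p ∣ M) (hmM : m ∣ M) (σ : stabK E) {a a' : O}
    (h : σ.1 (E.φ a) = E.φ a') :
    conjK hpM hmM σ (algebraMap O (Fld₀ O E p m) a) = algebraMap O (Fld₀ O E p m) a' := by
  refine Subtype.ext (toLS_injective E ?_)
  rw [coe_conjK, toLS_fConj, algebraMap_coe, algebraMap_coe, toLS_algebraMap, toLS_algebraMap,
    lmap_C]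
  exact congrArg _ h

theorem stabK_inv_apply {σ : stabK E} {a a' : O} (h : σ.1 (E.φ a') = E.φ a) :
    (σ⁻¹).1 (E.φ a) = E.φ a' := by
  rw [← h]
  exact σ.1.symm_apply_apply _

/-! ## Frobenius conjugated by the involution -/

set_option maxHeartbeats 800000 in
/-- The automorphism with `p`-th power congruent to the trace on the component over zero. -/
theorem exists_frobOp (hpm : ¬ p ∣ m) (hM : M = p * m)
    (hp : (p : O) ∈ maximalIdeal O) {ϖ : O} (hϖ : Irreducible ϖ)
    (hcomp : ∀ δ : SL(2, ℤ), comp (W := O) (E := E) (q := p) (m := m) hϖ δ =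
      twoP O E p m hϖ (!decide ((p : ℤ) ∣ δ 1 0)))
    (σ : stabK E) (hσ : ∀ o : O, ∃ o' : O, σ.1 (E.φ o) = E.φ o' ∧ residue O o' = residue O o ^ p)
    (hσs : ∀ o : O, ∃ o' : O, σ.1 (E.φ o') = E.φ o) {g : SL(2, ℤ)}
    (hg : g 1 0 = m ∧ g 1 1 = p) (W : Fld₀ O E p m ≃+* Fld₀ O E p m)
    (hW : IsSwapAut (model₀ O E p m) (twoP O E p m hϖ) W)
    (hWc : ∀ a : O, W (algebraMap O (Fld₀ O E p m) a) = algebraMap O (Fld₀ O E p m) a)
    {γ : SL(2, ℤ)} (hγ : γ ∈ Gamma0 p)
    (hWg : ∀ y : Fld₀ O E p m,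
      GalRep.expand p hp'.out.ne_zero (toLS E (fShift E g (W y : Fld E))) =
        toLS E (fShift E γ (y : Fld E))) :
    ∃ φ : Fld₀ O E p m ≃+* Fld₀ O E p m,
      IsSwapAut (model₀ O E p m) (twoP O E p m hϖ) φ ∧
      (∀ a : O, ∃ a' : O, φ (algebraMap O (Fld₀ O E p m) a) = algebraMap O (Fld₀ O E p m) a') ∧
      (∀ a : O, ∃ a' : O,
        φ.symm (algebraMap O (Fld₀ O E p m) a) = algebraMap O (Fld₀ O E p m) a') ∧
      ∀ z ∈ (model₀ O E p m).B₀₁,
        trOp hpm z - φ z ^ p ∈ (twoP O E p m hϖ true).nonunits := by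
  classical
  have hpM : p ∣ M := hM ▸ dvd_mul_right p m
  have hmM : m ∣ M := hM ▸ dvd_mul_left m p
  haveI : NeZero m := ⟨fun h => NeZero.ne M (by rw [hM, h, mul_zero])⟩
  have hm0 : (m : ZMod p) ≠ 0 := fun h0 => hpm ((ZMod.natCast_eq_zero_iff _ _).mp h0)
  -- the coset of infinity type
  set s : ZMod p := (-1 - ((g 0 0 : ℤ) : ZMod p)) / ((m : ZMod p) * (m : ZMod p)) with hs
  set h : SL(2, ℤ) := cosRep p m (some ⟨s.val, ZMod.val_lt s⟩) with hh
  have hhm : h ∈ Gamma m := cosRep_mem _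
  set e : SL(2, ℤ) := h * g with he
  have he0 : e ∈ Gamma0 p := by
    rw [Gamma0_mem, he]
    simp only [Matrix.SpecialLinearGroup.coe_mul, Matrix.mul_apply, Fin.sum_univ_two, hh,
      cosRep_some_10, cosRep_some_11, hg.1]
    push_cast
    rw [ZMod.natCast_zmod_val, hs]
    field_simp
    ring
  have hγi : γ⁻¹ ∈ Gamma0 p := inv_mem hγ
  set ψ : Fld₀ O E p m ≃+* Fld₀ O E p m :=
    (shiftOp he0).trans ((conjK hpM hmM σ⁻¹).trans (shiftOp hγi)) with hψ
  have hψj : ψ (jF₀ O E p m) = jF₀ O E p m := Subtype.ext (by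
    show fShift E γ⁻¹ (fConj E σ⁻¹ (fShift E e (jF E))) = jF E
    rw [fShift_jF, fConj_jF, fShift_jF])
  have hψc : ∀ a : O, ∃ a' : O,
      ψ (algebraMap O (Fld₀ O E p m) a) = algebraMap O (Fld₀ O E p m) a' := fun a => by
    obtain ⟨a', ha⟩ := hσs a
    refine ⟨a', ?_⟩
    rw [hψ, RingEquiv.trans_apply, RingEquiv.trans_apply, shiftOp_algebraMap,
      conjK_const hpM hmM σ⁻¹ (stabK_inv_apply ha), shiftOp_algebraMap]
  have hψs : ∀ a : O, ∃ a' : O,
      ψ.symm (algebraMap O (Fld₀ O E p m) a) = algebraMap O (Fld₀ O E p m) a' := fun a => by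
    obtain ⟨a', ha, -⟩ := hσ a
    refine ⟨a', ?_⟩
    rw [RingEquiv.symm_apply_eq, hψ, RingEquiv.trans_apply, RingEquiv.trans_apply, shiftOp_algebraMap,
      conjK_const hpM hmM σ⁻¹ (stabK_inv_apply ha), shiftOp_algebraMap]
  obtain ⟨hψ₀, hψn⟩ := aut_keep_iff hψj hψc hψs
  -- the components
  set P := twoP O E p m hϖ
  have htest : ∀ (δ : SL(2, ℤ)) (x : Fld₀ O E p m),
      x ∈ (P (!decide ((p : ℤ) ∣ δ 1 0))).nonunits ↔
        fShift E δ (x : Fld E) ∈ (gaussP E hϖ 1).nonunits := fun δ x => by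
    rw [← hcomp, comp, mem_nonunits_comap, mem_nonunits_gaussP, mem_nonunits_gaussP, serAt_fShift,
      mul_one]
    rfl
  have hrep : ∀ i : Bool, ∃ δ : SL(2, ℤ), (!decide ((p : ℤ) ∣ δ 1 0)) = i := fun i => by
    cases i
    · exact ⟨1, by simp⟩
    · refine ⟨ModularGroup.S, ?_⟩
      have : ¬ (p : ℤ) ∣ 1 := fun hd =>
        hp'.out.ne_one (Nat.dvd_one.mp (Int.natCast_dvd_natCast.mp (by simpa using hd)))
      simp [ModularGroup.coe_S, this]
  have hshift : ∀ {f : SL(2, ℤ)} (hf : f ∈ Gamma0 p) (i : Bool) (x : Fld₀ O E p m),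
      shiftOp hf x ∈ (P i).nonunits ↔ x ∈ (P i).nonunits := fun {f} hf i x => by
    obtain ⟨δ, rfl⟩ := hrep i
    rw [htest, coe_shiftOp, fShift_fShift, ← htest]
    simp only [decide_eq_decide.mpr (dvd_mul_left_iff hf δ)]
  have hconj : ∀ (τ : stabK E), (∀ o : O, ∃ o' : O, τ.1 (E.φ o) = E.φ o') →
      (∀ o : O, ∃ o' : O, τ.1 (E.φ o') = E.φ o) → ∀ (i : Bool) (x : Fld₀ O E p m),
      conjK hpM hmM τ x ∈ (P i).nonunits ↔ x ∈ (P i).nonunits := fun τ hτ hτs i x => by
    obtain ⟨δ, rfl⟩ := hrep i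
    obtain ⟨δ', hδ'⟩ := exists_conjEq_symm (cycC M τ.1) δ
    have htype : (p : ℤ) ∣ δ 1 0 ↔ (p : ℤ) ∣ δ' 1 0 := by
      have h1 := congrArg (ZMod.castHom hpM (ZMod p)) (conjEq_iff.mp hδ').2.2.1
      rw [map_mul, map_intCast, map_intCast] at h1
      rw [← ZMod.intCast_zmod_eq_zero_iff_dvd, ← ZMod.intCast_zmod_eq_zero_iff_dvd, h1]
      exact (((cycC M τ.1)⁻¹).isUnit.map (ZMod.castHom hpM (ZMod p))).mul_right_eq_zero
    rw [htest, coe_conjK, ← fConj_fShift E τ hδ']
    have h2 : x ∈ (P (!decide ((p : ℤ) ∣ δ 1 0))).nonunits ↔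
        fShift E δ' (x : Fld E) ∈ (gaussP E hϖ 1).nonunits := by
      rw [← htest]; simp only [decide_eq_decide.mpr htype]
    rw [h2]
    refine ⟨fun hx => ?_, fConj_mem_nonunits_one hp hϖ τ hτ⟩
    have := fConj_mem_nonunits_one hp hϖ τ⁻¹ (fun o => ?_) hx
    · rwa [fConj_fConj, inv_mul_cancel, fConj_one] at this
    · obtain ⟨o', ho'⟩ := hτs o
      exact ⟨o', stabK_inv_apply ho'⟩
  have hψP : ∀ (i : Bool) (x : Fld₀ O E p m), ψ x ∈ (P i).nonunits ↔ x ∈ (P i).nonunits :=
    fun i x => by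
    rw [hψ, RingEquiv.trans_apply, RingEquiv.trans_apply, hshift hγi, hconj σ⁻¹ (fun o => ?_)
      (fun o => ?_), hshift he0]
    · obtain ⟨o', ho'⟩ := hσs o
      exact ⟨o', stabK_inv_apply ho'⟩
    · obtain ⟨o', ho', -⟩ := hσ o
      exact ⟨o', stabK_inv_apply ho'⟩
  refine ⟨ψ.trans W, ⟨fun z => (hW.chart₀ (ψ z)).trans (hψ₀ z),
    fun z => (hW.near (ψ z)).trans (hψn z), fun i z => (hW.swap i (ψ z)).trans (hψP (!i) z)⟩,
    fun a => ?_, fun a => ?_, fun z hz => ?_⟩
  · obtain ⟨a', ha⟩ := hψc a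
    exact ⟨a', by rw [RingEquiv.trans_apply, ha, hWc]⟩
  · obtain ⟨a', ha⟩ := hψs a
    refine ⟨a', ?_⟩
    show ψ.symm (W.symm _) = _
    rw [(RingEquiv.symm_apply_eq W).mpr (hWc a).symm, ha]
  -- the congruence
  have hzo : (z : Fld E) ∈ overlapRing O (jF E) := mem_overlap₀_iff.mp hz
  have hg0 : ¬ (p : ℤ) ∣ g 1 0 := by
    rw [hg.1]; exact fun hd => hpm (Int.natCast_dvd_natCast.mp hd)
  rw [show true = !decide ((p : ℤ) ∣ g 1 0) by simp [hg0], htest]
  set η : Option (Fin p) → SL(2, ℤ) := fun i => i.elim (e * g⁻¹)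
    fun t => g * ModularGroup.T ^ (((t : ℕ) * m : ℕ) : ℤ) * g⁻¹ with hη
  have hηm : ∀ i, η i ∈ Gamma m := fun i => by
    rcases i with _ | t
    · show e * g⁻¹ ∈ Gamma m
      rw [he, mul_inv_cancel_right]
      exact hhm
    · exact (Gamma_normal m).conj_mem _ (T_pow_mem _ m) g
  have hT0 : ∀ r : ℤ, ModularGroup.T ^ r ∈ Gamma0 p := fun r => by
    rw [Gamma0_mem, ModularGroup.coe_T_zpow]; simp
  have hne : ∀ r : ℤ, ¬ e * ModularGroup.T ^ r * g⁻¹ ∈ Gamma0 p := fun r hr => by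
    have h1 : g ∈ Gamma0 p := by
      have := mul_mem (inv_mem hr) (mul_mem he0 (hT0 r))
      rwa [mul_inv_rev, inv_inv, mul_assoc, inv_mul_cancel, mul_one] at this
    rw [Gamma0_mem, ZMod.intCast_zmod_eq_zero_iff_dvd] at h1
    exact hg0 h1
  have hinj : ∀ i j, η i * (η j)⁻¹ ∈ levelG p m → i = j := by
    intro i j hij
    rcases i with _ | t <;> rcases j with _ | u
    · rfl
    · refine absurd hij.1 ?_
      show ¬ e * g⁻¹ * (g * ModularGroup.T ^ (((u : ℕ) * m : ℕ) : ℤ) * g⁻¹)⁻¹ ∈ Gamma0 p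
      convert hne (-(((u : ℕ) * m : ℕ) : ℤ)) using 2
      rw [zpow_neg]
      group
    · refine absurd ((Gamma0 p).inv_mem hij.1) ?_
      show ¬ (g * ModularGroup.T ^ (((t : ℕ) * m : ℕ) : ℤ) * g⁻¹ * (e * g⁻¹)⁻¹)⁻¹ ∈ Gamma0 p
      convert hne (-(((t : ℕ) * m : ℕ) : ℤ)) using 2
      rw [zpow_neg]
      group
    · have h1 : g * ModularGroup.T ^ ((((t : ℕ) * m : ℕ) : ℤ) - (((u : ℕ) * m : ℕ) : ℤ)) * g⁻¹ ∈
          Gamma0 p := by
        have h0 : g * ModularGroup.T ^ ((((t : ℕ) * m : ℕ) : ℤ)) * g⁻¹ *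
            (g * ModularGroup.T ^ ((((u : ℕ) * m : ℕ) : ℤ)) * g⁻¹)⁻¹ ∈ Gamma0 p := hij.1
        convert h0 using 1
        rw [zpow_sub]
        group
      rw [Gamma0_mem] at h1
      simp [Matrix.SpecialLinearGroup.coe_mul, Matrix.SpecialLinearGroup.coe_inv,
        Matrix.adjugate_fin_two, Matrix.mul_apply, Fin.sum_univ_two, ModularGroup.coe_T_zpow,
        hg.1] at h1
      have h2 : ((t : ℕ) : ZMod p) = ((u : ℕ) : ZMod p) := by
        refine sub_eq_zero.mp ((mul_eq_zero.mp (?_ : (m : ZMod p) * (m : ZMod p) * (m : ZMod p) *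
          (((t : ℕ) : ZMod p) - ((u : ℕ) : ZMod p)) = 0)).resolve_left
            (mul_ne_zero (mul_ne_zero hm0 hm0) hm0))
        linear_combination -h1
      have h3 := congrArg ZMod.val h2
      rw [ZMod.val_natCast_of_lt t.isLt, ZMod.val_natCast_of_lt u.isLt] at h3
      exact congrArg some (Fin.ext h3)
  rw [AddSubgroupClass.coe_sub, SubmonoidClass.coe_pow, trOp_eq_sum hpm hηm hinj z, map_sub,
    map_pow, map_sum, Fintype.sum_option]
  have hsome : ∀ t : Fin p, fShift E g (fShift E (η (some t)) (z : Fld E)) =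
      fShift E (ModularGroup.T ^ (((t : ℕ) * m : ℕ) : ℤ)) (fShift E g (z : Fld E)) := fun t => by
    rw [fShift_fShift, fShift_fShift]
    show fShift E (g * _ * g⁻¹ * g) _ = _
    rw [inv_mul_cancel_right]
  have hnone : fShift E g (fShift E (η none) (z : Fld E)) = fShift E e (z : Fld E) := by
    rw [fShift_fShift]
    show fShift E (e * g⁻¹ * g) _ = _
    rw [inv_mul_cancel_right]
  simp only [hsome, hnone]
  set Z := fShift E e (z : Fld E)
  set X := fShift E g ((ψ.trans W) z : Fld E)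
  have hX : lmap σ.1.toRingHom (GalRep.expand p hp'.out.ne_zero (toLS E X)) = toLS E Z := by
    show lmap σ.1.toRingHom (GalRep.expand p hp'.out.ne_zero
      (toLS E (fShift E g (W (ψ z) : Fld E)))) = _
    rw [hWg, show ((ψ z : Fld₀ O E p m) : Fld E) = fShift E γ⁻¹ (fConj E σ⁻¹ Z) from rfl,
      fShift_fShift, inv_mul_cancel, fShift_one, toLS_fConj]
    ext k
    rw [lmap_coeff, lmap_coeff]
    exact σ.1.apply_symm_apply _
  have h1 := pow_sub_mem_gaussP hp hϖ hσ hσs (poleBound_overlap (fShift_mem_overlap e hzo)) hX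
  have h2 := sum_translates_mem hp hM hϖ (overlap_le_gaussP hϖ 1 (fShift_mem_overlap g hzo))
  rw [ValuationSubring.mem_nonunits_iff] at h1 h2 ⊢
  rw [show ∀ S : Fld E, Z + S - X ^ p = S - (X ^ p - Z) from fun S => by ring]
  exact (Valuation.map_sub _ _ _).trans_lt (max_lt h2 h1)

end Fermat.Agent.ModField
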