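/-
The norm, the involution and Frobenius conjugated by it on the level model.
-/
import Fermat.Agent.Models.Gamma0.OrdFrob

set_option autoImplicit false
set_option linter.style.haveILetI false
set_option linter.unusedSectionVars false

noncomputable section

namespace Fermat.Agent.ModField

open IsLocalRing CongruenceSubgroup
open Fermat.Agent.GalRep
open Fermat.Agent.GalRep.Level
open Fermat.Agent.Models (IsOrdOps)
open scoped MatrixGroups

variable {O : Type} [CommRing O] [IsDomain O] [IsDiscreteValuationRing O] {M : ℕ} [NeZero M]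
  {E : Emb O M} {p m : ℕ} [hp' : Fact p.Prime]

/-- The operators of the ordinary descent. -/
theorem exists_isOrdOps [NeZero p] [NeZero m] (hM : M = p * m) (hpm : ¬ p ∣ m)
    (hp : (p : O) ∈ maximalIdeal O) {ϖ : O} (hϖ : Irreducible ϖ)
    (hcomp : ∀ δ : SL(2, ℤ), comp (W := O) (E := E) (q := p) (m := m) hϖ δ =
      twoP O E p m hϖ (!decide ((p : ℤ) ∣ δ 1 0)))
    (σ : stabK E) (hσ : ∀ o : O, ∃ o' : O, σ.1 (E.φ o) = E.φ o' ∧ residue O o' = residue O o ^ p)
    (hσs : ∀ o : O, ∃ o' : O, σ.1 (E.φ o') = E.φ o) {g : SL(2, ℤ)}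
    (hg : g 1 0 = (m : ℤ) ∧ g 1 1 = (p : ℤ)) :
    ∃ φ : Fld₀ O E p m ≃+* Fld₀ O E p m,
      IsOrdOps (model₀ O E p m) ϖ p (twoP O E p m hϖ) (normOp hpm) (trOp hpm)
        (wOp hM hpm hg) φ := by
  obtain ⟨φ, hs, hc, hc', hz⟩ := exists_frobOp hpm hM hp hϖ hcomp σ hσ hσs hg (wOp hM hpm hg)
    (isSwapAut_wOp hM hpm hg hϖ hcomp) (wOp_algebraMap hM hpm hg) (alSq_mem hg) fun y => by
      rw [← coe_shiftOp (alSq_mem hg), ← wOp_wOp hM hpm hg y, toLS_wOp hM hpm hg]
  exact ⟨φ,
    { norm := isNormOp_normOp hpm hϖ.ne_zero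
      inf := fun z hz' => trOp_sub_self_mem hpm hp hM hϖ hz'
      zero := hz
      swap_W := isSwapAut_wOp hM hpm hg hϖ hcomp
      W_const := wOp_algebraMap hM hpm hg
      swap_φ := hs
      φ_const := hc
      φ_symm_const := hc' }⟩

end Fermat.Agent.ModField
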