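/-
Functions of the field of level `Γ(M)` invariant under `Γ(m)`, `M = p m`, as integral functions of
level `m` over a valuation ring of the algebraic numbers; reduction of series at the Gauss place.
-/
import Fermat.Agent.Models.Gamma0.CompPower
import Fermat.Agent.MCurve.Spec.RedField
import Fermat.Agent.MCurve.Spec.SeriesRed
import Fermat.Agent.GalRep.Level.Normal

set_option autoImplicit false
set_option linter.style.haveILetI false
set_option linter.unusedSectionVars false

noncomputable section

namespace Fermat.Agent.ModField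

open IsLocalRing CongruenceSubgroup
open Fermat.Agent.GalRep
open Fermat.Agent.GalRep.Level
open Fermat.Agent.GalRep.Model (SeriesField C_pi_prime Lev WFld wSer lvlField)
open Fermat.Agent.MCurve.Spec (LK intHol rS shiftA IntSer AC redC redC_mk rS_eq coe_shiftA mem_LK)
open ModularCurve (qExpand)
open scoped MatrixGroups

local notation "Q̄" => AlgebraicClosure ℚ

/-! ## Generalities -/

theorem lmap_qExp {R S : Type*} [CommRing R] [CommRing S] (f : R →+* S) (d : ℕ) [NeZero d]
    (x : LaurentSeries R) : lmap f (qExpand R d x) = qExpand S d (lmap f x) :=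
  MCurve.qExpand_coeffMap f d x

theorem ofPS_X_pow {R : Type*} [CommRing R] (N : ℕ) :
    HahnSeries.ofPowerSeries ℤ R (PowerSeries.X ^ N) = HahnSeries.single (N : ℤ) (1 : R) := by
  rw [map_pow, HahnSeries.ofPowerSeries_X, HahnSeries.single_pow, one_pow, nsmul_eq_mul, mul_one]

/-- A Laurent series times a power of the variable is a power series. -/
theorem exists_ofPS {R : Type*} [CommRing R] (s : LaurentSeries R) :
    ∃ (N : ℕ) (P : PowerSeries R),
      s * HahnSeries.ofPowerSeries ℤ R (PowerSeries.X ^ N) = HahnSeries.ofPowerSeries ℤ R P := by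
  refine ⟨(-s.order).toNat, PowerSeries.mk fun i => s.coeff ((i : ℤ) - (-s.order).toNat), ?_⟩
  rw [ofPS_X_pow]
  ext i
  rw [show i = (i - (-s.order).toNat) + (-s.order).toNat by ring, HahnSeries.coeff_mul_single_add,
    mul_one, sub_add_cancel]
  by_cases hi : 0 ≤ i
  · lift i to ℕ using hi
    rw [HahnSeries.ofPowerSeries_apply_coeff, PowerSeries.coeff_mk]
  · rw [HahnSeries.ofPowerSeries_apply, HahnSeries.embDomain_of_notMem_range,
      HahnSeries.coeff_eq_zero_of_lt_order (by omega)]
    rintro ⟨j, hj⟩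
    simp at hj
    omega

/-- A map of a ring extended to the fractions with denominators outside its kernel. -/
theorem exists_hom_div {R K L : Type*} [CommRing R] [Field K] [Field L] (f : R →+* K)
    (hf : Function.Injective f) (χ : R →+* L) (S : Subring K)
    (hS : ∀ x ∈ S, ∃ a b, χ b ≠ 0 ∧ x * f b = f a) :
    ∃ r : S →+* L, ∀ (x : S) (a b : R), (x : K) * f b = f a → r x * χ b = χ a := by
  choose num den hden hrel using fun x : S => hS x x.2
  have key : ∀ (x : S) (a b : R), (x : K) * f b = f a → χ (num x) / χ (den x) * χ b = χ a := by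
    intro x a b h
    have h1 : num x * b = a * den x := hf (by rw [map_mul, map_mul, ← hrel, ← h]; ring)
    rw [div_mul_eq_mul_div, div_eq_iff (hden x), ← map_mul, ← map_mul, h1]
  let r : S → L := fun x => χ (num x) / χ (den x)
  have hr : ∀ (x : S) (a b : R), χ b ≠ 0 → (x : K) * f b = f a → r x = χ a / χ b :=
    fun x a b hb h => by rw [eq_div_iff hb]; exact key x a b h
  have h1 : χ (1 : R) ≠ 0 := by rw [map_one]; exact one_ne_zero
  refine ⟨{ toFun := r
            map_one' := by rw [hr 1 1 1 h1 (by simp), div_self h1]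
            map_zero' := by rw [hr 0 0 1 h1 (by simp), map_zero, zero_div]
            map_mul' := fun x y => by
              rw [hr (x * y) (num x * num y) (den x * den y)
                (by rw [map_mul]; exact mul_ne_zero (hden x) (hden y))
                (by rw [map_mul, map_mul, ← hrel, ← hrel, MulMemClass.coe_mul]; ring)]
              simp only [r, map_mul, div_mul_div_comm]
            map_add' := fun x y => by
              rw [hr (x + y) (num x * den y + num y * den x) (den x * den y)
                (by rw [map_mul]; exact mul_ne_zero (hden x) (hden y))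
                (by rw [map_mul, map_add, map_mul, map_mul, ← hrel, ← hrel, AddMemClass.coe_add]; ring)]
              simp only [r, map_mul, map_add]
              rw [div_add_div _ _ (hden x) (hden y), mul_comm (χ (den x)) (χ (num y))] }, key⟩

variable {O : Type} [CommRing O] [IsDomain O] [IsDiscreteValuationRing O] {M : ℕ} [NeZero M]
  {E : Emb O M} {π : O} (A : ValuationSubring Q̄) (iA : O →+* A) [IsLocalHom iA]

theorem residue_iA_eq_zero_iff (hπ : Irreducible π) (o : O) :
    residue A (iA o) = 0 ↔ π ∣ o := by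
  rw [residue_eq_zero_iff, mem_maximalIdeal, mem_nonunits_iff, isUnit_map_iff, ← mem_nonunits_iff,
    ← mem_maximalIdeal, hπ.maximalIdeal_eq, Ideal.mem_span_singleton]

/-! ## Reduction at the Gauss place -/

/-- Reduced power series. -/
def chiPS : PowerSeries O →+* LaurentSeries (ResidueField A) :=
  (HahnSeries.ofPowerSeries ℤ (ResidueField A)).comp (PowerSeries.map ((residue A).comp iA))

theorem chiPS_eq_zero_iff (hπ : Irreducible π) (b : PowerSeries O) :
    chiPS A iA b = 0 ↔ PowerSeries.C π ∣ b := by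
  rw [chiPS, RingHom.comp_apply, map_eq_zero_iff _ HahnSeries.ofPowerSeries_injective]
  constructor
  · intro h
    have h' : ∀ i, π ∣ PowerSeries.coeff i b := fun i => by
      rw [← residue_iA_eq_zero_iff A iA hπ]
      have := congrArg (PowerSeries.coeff i) h
      rwa [PowerSeries.coeff_map, map_zero] at this
    choose c hc using h'
    exact ⟨PowerSeries.mk c, PowerSeries.ext fun i => (hc i).trans (by
      rw [PowerSeries.coeff_C_mul, PowerSeries.coeff_mk])⟩
  · rintro ⟨c, rfl⟩
    rw [map_mul, PowerSeries.map_C, RingHom.comp_apply,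
      (residue_iA_eq_zero_iff A iA hπ π).mpr dvd_rfl, map_zero, zero_mul]

/-- The reduction on the Gauss ring at infinity. -/
theorem exists_redSer (hπ : Irreducible π) :
    ∃ ρ : gaussP E hπ 1 →+* LaurentSeries (ResidueField A),
      (∀ x : gaussP E hπ 1, ρ x = 0 ↔ (x : Fld E) ∈ (gaussP E hπ 1).nonunits) ∧
      ∀ (x : gaussP E hπ 1) (s : LaurentSeries O), lmap E.φ s = toLS E (x : Fld E) →
        ρ x = lmap ((residue A).comp iA) s := by
  set al := algebraMap (PowerSeries O) (SeriesField O)
  have hS : ∀ x ∈ (gaussRing hπ).toSubring, ∃ a b, chiPS A iA b ≠ 0 ∧ x * al b = al a := by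
    intro x hx
    obtain ⟨a, b, hb, h⟩ := (mem_gaussRing hπ).mp hx
    exact ⟨a, b, (chiPS_eq_zero_iff A iA hπ b).not.mpr hb, h⟩
  obtain ⟨r, hr⟩ := exists_hom_div al (IsFractionRing.injective _ _) (chiPS A iA) _ hS
  let ι : gaussP E hπ 1 →+* (gaussRing hπ).toSubring :=
    ((serAt E 1).comp (gaussP E hπ 1).subtype).codRestrict _ fun x => (mem_gaussP E hπ 1).mp x.2
  refine ⟨r.comp ι, fun x => ?_, fun x s hs => ?_⟩
  · rw [mem_nonunits_gaussP, mem_nonunits_gaussRing hπ, RingHom.comp_apply]
    constructor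
    · intro h0
      obtain ⟨a, b, hb, h⟩ := hS _ (ι x).2
      refine ⟨a, b, (chiPS_eq_zero_iff A iA hπ b).not.mp hb, ?_, h⟩
      rw [← chiPS_eq_zero_iff A iA hπ, ← hr (ι x) a b h, h0, zero_mul]
    · rintro ⟨a, b, hb, ha, h⟩
      have h1 := hr (ι x) a b h
      rw [(chiPS_eq_zero_iff A iA hπ a).mpr ha, mul_eq_zero] at h1
      exact h1.resolve_right ((chiPS_eq_zero_iff A iA hπ b).not.mpr hb)
  · obtain ⟨N, P, hP⟩ := exists_ofPS s
    have h1 : ((ι x : (gaussRing hπ).toSubring) : SeriesField O) * al (PowerSeries.X ^ N) = al P := by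
      refine E.toC_injective ?_
      show E.toC (serAt E 1 (x : Fld E) * _) = _
      rw [serAt_eq, fShift_one, map_mul, toC_serF, E.toC_algebraMap, E.toC_algebraMap, ← hs]
      simp only [Emb.gO, RingHom.comp_apply]
      rw [← lmap_ofPowerSeries_eq, ← lmap_ofPowerSeries_eq, ← map_mul, hP]
    have h2 := congrArg (lmap ((residue A).comp iA)) hP
    rw [map_mul, lmap_ofPowerSeries_eq, lmap_ofPowerSeries_eq] at h2
    refine mul_right_cancel₀ (b := chiPS A iA (PowerSeries.X ^ N)) ?_ ?_
    · rw [Ne, chiPS_eq_zero_iff A iA hπ]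
      rintro ⟨c, hc⟩
      have := congrArg (PowerSeries.coeff N) hc
      rw [PowerSeries.coeff_X_pow_self, PowerSeries.coeff_C_mul] at this
      exact hπ.not_isUnit (IsUnit.of_mul_eq_one _ this.symm)
    · rw [RingHom.comp_apply, hr (ι x) P _ h1]
      exact h2.symm

/-! ## Functions of level `m` -/

variable {p m : ℕ} [hp : Fact p.Prime] [NeZero m] [hu : Fact (IsUnit (m : A))]

/-- A holomorphic invariant function with series over the base is integral of level `m`. -/
theorem exists_intHol (L : Lev m) (hM : M = p * m) (hπ : Irreducible π)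
    (hiA : ∀ o, qbarToC (iA o : Q̄) = E.φ o) (φ : bddMF E)
    (hpole : ∀ δ, PoleBound (serAt E δ (toFld E φ)))
    (hinv : ∀ g ∈ Gamma m, shift M g (φ : MF M) = φ) :
    ∃ (y : intHol m A) (g : LaurentSeries O),
      wSer ((y : LK m A) : WFld m) = lmap E.φ g ∧
      lmap E.φ (qExpand O p g) = toLS E (toFld E φ) ∧
      rS A y = lmap ((residue A).comp iA) g ∧
      ∀ δ, shift M δ (φ : MF M) = φ → shiftA m A δ⁻¹ (y : LK m A) = y := by
  classical
  let Φ : modFuns (Gamma m) := ⟨((φ : MF M) : UpperHalfPlane → ℂ), (φ : MF M).2.holo,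
    fun γ hγ τ => congrFun (congrArg Subtype.val (hinv γ hγ)) τ, (φ : MF M).2.cusps⟩
  have hkey : ∀ δ, ∃ P : ℤ → O, (∀ k, (serHom m (shift m δ Φ)).coeff k = E.φ (P k)) ∧
      expand p hp.out.ne_zero (serHom m (shift m δ Φ)) = serAlg M (shift M δ (φ : MF M)) := by
    intro δ
    obtain ⟨P, hP, -⟩ := exists_series_test hπ (hpole δ)
    have h := (hasQSeries_serHom (shift m δ Φ)).refine_width (NeZero.pos m) p hp.out.ne_zero
    rw [mul_comm, ← hM] at h
    have hexp : expand p hp.out.ne_zero (serHom m (shift m δ Φ)) = serAlg M (shift M δ (φ : MF M)) :=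
      h.unique (NeZero.pos M) (hasQSeries_serHom (shift M δ (φ : MF M)))
    refine ⟨fun k => P ((p : ℤ) * k), fun k => ?_, hexp⟩
    rw [← hP, ← hexp, expand_coeff_mul]
  have h1 : shift m 1 Φ = Φ := Subtype.ext (funext fun τ => congrArg _ (one_smul _ τ))
  obtain ⟨P, hP, hexp⟩ := hkey 1
  rw [h1] at hP hexp
  rw [shift_one] at hexp
  let g : LaurentSeries O :=
    { coeff := P
      isPWO_support' := (serHom m Φ).isPWO_support.mono fun k hk h0 => hk (E.inj (by
        rw [map_zero, ← hP]; exact h0)) }
  have hg : lmap E.φ g = serHom m Φ := HahnSeries.ext (funext fun k => (hP k).symm)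
  have hmem : algebraMap (modFuns (Gamma m)) (WFld m) Φ ∈ lvlField (MCurve.Spec.cyc m A) :=
    mem_LK A L Φ fun k => by rw [hP]; exact ⟨iA (P k), hiA _⟩
  let y : LK m A := ⟨_, hmem⟩
  have hy : y ∈ intHol m A := ⟨⟨Φ, rfl⟩, fun δ k => by
    obtain ⟨P', hP', -⟩ := hkey δ⁻¹
    rw [coe_shiftA A (Φ := Φ) rfl, Model.wSer_algebraMap, hP']
    exact ⟨iA (P' k), (iA _).2, hiA _⟩⟩
  have hw : wSer (y : WFld m) = lmap E.φ g := by
    rw [hg]; exact Model.wSer_algebraMap Φ
  refine ⟨⟨y, hy⟩, g, hw, ?_, ?_, fun δ hδ => ?_⟩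
  · rw [lmap_qExp, hg, MCurve.qExpand_eq_expand, hexp, toLS_toFld]
  · let iC : O →+* AC A := E.φ.codRestrict (AC A) fun o => ⟨iA o, (iA o).2, hiA o⟩
    rw [rS_eq A ⟨y, hy⟩ (t := lmap iC g) (by
      show lmap (AC A).subtype (lmap iC g) = _
      rw [lmap_lmap, hw]; rfl)]
    show lmap (redC A) (lmap iC g) = _
    rw [lmap_lmap]
    refine congrArg (fun f => lmap f g) (RingHom.ext fun o => ?_)
    rw [RingHom.comp_apply, RingHom.comp_apply, ← redC_mk]
    exact congrArg _ (Subtype.ext (hiA o).symm)
  · refine Subtype.ext ?_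
    rw [coe_shiftA A (Φ := Φ) rfl, inv_inv]
    refine congrArg (algebraMap (modFuns (Gamma m)) (WFld m)) (Subtype.ext (funext fun τ => ?_))
    exact congrFun (congrArg Subtype.val hδ) τ

open Fermat.Agent.MCurve.Spec (iotaBar incM serHom_incM iotaBar_algebraMap) in
open Fermat.Agent.MCurve (toMod hasQSeries_toMod isFractionRing_barAlg barAlg) in
open ModularCurve in
/-- The series of a function of `X₀(m₀)` at level `m`. -/
theorem wSer_iotaBar (L : Lev m) {m₀ : ℕ} [NeZero m₀] (hd : m₀ ∣ m) (hA : A.LiesOverPrime p)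
    (hpm : ¬ p ∣ m₀) (x : modularFunctionFieldBar m₀) :
    wSer ((iotaBar A L hd hA hpm x : LK m A) : WFld m) =
      expand m (NeZero.ne m) (seriesToC (x : LaurentSeries Q̄)) := by
  haveI := isFractionRing_barAlg m₀ hA hpm
  have hb : ∀ y : barAlg m₀,
      wSer ((iotaBar A L hd hA hpm (y : modularFunctionFieldBar m₀) : LK m A) : WFld m) =
        expand m (NeZero.ne m) (seriesToC ((y : modularFunctionFieldBar m₀) : LaurentSeries Q̄)) := by
    intro y
    rw [iotaBar_algebraMap]
    show wSer (algebraMap (modFuns (Gamma m)) (WFld m) (incM hd (toMod m₀ y))) = _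
    rw [Model.wSer_algebraMap, serHom_incM hd (hasQSeries_toMod m₀ y)]
  obtain ⟨a, b, -, rfl⟩ := IsFractionRing.div_surjective (A := barAlg m₀) x
  rw [show algebraMap (barAlg m₀) (modularFunctionFieldBar m₀) a = (a : modularFunctionFieldBar m₀)
    from rfl, show algebraMap (barAlg m₀) (modularFunctionFieldBar m₀) b =
    (b : modularFunctionFieldBar m₀) from rfl]
  have e : ∀ u v : modularFunctionFieldBar m₀,
      ((u / v : modularFunctionFieldBar m₀) : LaurentSeries Q̄) =
        (u : LaurentSeries Q̄) / (v : LaurentSeries Q̄) := fun u v => rfl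
  rw [map_div₀, Subfield.coe_div, map_div₀, hb, hb, e]
  simp only [MCurve.seriesToC_eq_coeffMap, map_div₀]

end Fermat.Agent.ModField
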