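/-
A function without poles on the upper half plane has a multiple by a power of the uniformiser in
the chart of `j`.
-/
import Fermat.Agent.Models.Gamma0.ChartCrit

set_option autoImplicit false
set_option linter.style.haveILetI false
set_option linter.unusedSectionVars false

noncomputable section

namespace Fermat.Agent.ModField

open Polynomial UpperHalfPlane CongruenceSubgroup IsLocalRing
open Fermat.Agent.GalRep
open Fermat.Agent.GalRep.Level
open Fermat.Agent.GalRep.Model (chartRing)
open scoped MatrixGroups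

variable {O : Type} [CommRing O] [IsDomain O] [IsDiscreteValuationRing O] {M : ℕ} [NeZero M]
  {E : Emb O M} {π : O}

/-- An invariant function has a multiple in `O[j]`. -/
theorem exists_pow_mul_mem_adjoin (hπ : Irreducible π) {c : bddMF E}
    (hc : ∀ g, shift M g (c : MF M) = c) :
    ∃ N : ℕ, algebraMap O (Fld E) π ^ N * toFld E c ∈ Algebra.adjoin O ({jF E} : Set (Fld E)) := by
  classical
  obtain ⟨P, hP⟩ := exists_eval_of_invariant E c.2 hc
  have hls : toLS E (toFld E c) = aeval (jqN M) (P.map E.K.subtype) := by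
    rw [toLS_toFld, hP, ← aeval_algHom_apply (serAlg M), serAlg_jMF]
  suffices h : ∀ Q : Polynomial E.K, ∃ (N : ℕ) (R : O[X]),
      aeval (jqN M) ((Polynomial.C (E.φ π) ^ N) * Q.map E.K.subtype) =
        aeval (jqN M) (R.map E.φ) by
    obtain ⟨N, R, hR⟩ := h P
    refine ⟨N, ?_⟩
    rw [show algebraMap O (Fld E) π ^ N * toFld E c = aeval (jF E) R from toLS_injective E (by
      rw [toFld_aeval, ← aeval_algHom_apply (serAlg M), serAlg_jMF, ← hR, map_mul, hls, map_pow,
        toLS_algebraMap, map_mul, map_pow, aeval_C, HahnSeries.algebraMap_apply']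
      simp)]
    exact aeval_mem_adjoin_singleton O _
  intro Q
  induction Q using Polynomial.induction_on' with
  | add Q₁ Q₂ h₁ h₂ =>
    obtain ⟨N₁, R₁, e₁⟩ := h₁
    obtain ⟨N₂, R₂, e₂⟩ := h₂
    refine ⟨N₁ + N₂, Polynomial.C π ^ N₂ * R₁ + Polynomial.C π ^ N₁ * R₂, ?_⟩
    simp only [map_mul, map_pow, map_add, Polynomial.map_add, Polynomial.map_mul,
      Polynomial.map_pow, Polynomial.map_C, pow_add] at e₁ e₂ ⊢
    rw [← e₁, ← e₂]
    ring
  | monomial n a =>
    obtain ⟨u, v, hv, huv⟩ := exists_frac_of_mem E a.2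
    obtain ⟨N, ε, hεv⟩ := IsDiscreteValuationRing.eq_unit_mul_pow_irreducible hv hπ
    refine ⟨N, monomial n (u * ((ε⁻¹ : Oˣ) : O)), ?_⟩
    rw [← map_pow, Polynomial.map_monomial, C_mul_monomial, Polynomial.map_monomial]
    congr 2
    have h1 : E.φ ((ε⁻¹ : Oˣ) : O) * E.φ (ε : O) = 1 := by rw [← map_mul, Units.inv_mul, map_one]
    show E.φ π ^ N * (a : ℂ) = _
    rw [huv, hεv, map_mul, map_mul, map_pow, mul_div_assoc', div_eq_iff (mul_ne_zero
      ((map_ne_zero_iff _ E.inj).mpr ε.ne_zero)
      (pow_ne_zero _ ((map_ne_zero_iff _ E.inj).mpr hπ.ne_zero)))]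
    linear_combination (-(E.φ π ^ N * E.φ u)) * h1

/-- A multiple of a function by a power of the uniformiser lies in the chart of `j`. -/
theorem exists_pow_mul_mem_chart (hπ : Irreducible π) (b : bddMF E) :
    ∃ N : ℕ, algebraMap O (Fld E) π ^ N * toFld E b ∈ chartRing O (jF E) := by
  classical
  haveI : Fintype SL(2, ZMod M) := Fintype.ofFinite _
  set p : (bddMF E)[X] := ∏ y : SL(2, ZMod M), (X - Polynomial.C (shiftB E (Level.lift y) b))
    with hp
  have hinv : ∀ g i, shift M g ((p.coeff i : bddMF E) : MF M) = ((p.coeff i : bddMF E) : MF M) := by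
    intro g i
    have e : p.map (shiftB E g).toRingHom = p := by
      rw [hp, Polynomial.map_prod]
      refine Fintype.prod_equiv (Equiv.mulRight (red M g)) _ _ fun y => ?_
      rw [Polynomial.map_sub, Polynomial.map_X, Polynomial.map_C]
      congr 2
      refine Subtype.ext ?_
      show shift M g (shift M (Level.lift y) (b : MF M)) = _
      rw [shift_shift]
      exact shift_eq_of_red_eq (by
        rw [map_mul, red_lift, red_lift]; rfl) _
    conv_rhs => rw [← e, coeff_map]
    rfl
  choose N hN using fun i => exists_pow_mul_mem_adjoin hπ (c := p.coeff i) (hinv · i)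
  set A := Algebra.adjoin O ({jF E} : Set (Fld E))
  set K := (Finset.range (p.natDegree + 1)).sup N
  set a : Fld E := algebraMap O (Fld E) π ^ K
  refine ⟨K, ?_⟩
  rw [Model.mem_chartRing_iff]
  have hpm : p.Monic := monic_prod_of_monic _ _ fun _ _ => monic_X_sub_C _
  set P := p.map (toFld E)
  have hP : P.Monic := hpm.map _
  have hdeg : P.natDegree = p.natDegree := natDegree_map_eq_of_injective (toFld_injective E) _
  have hroot : P.eval₂ (RingHom.id _) (toFld E b) = 0 := by
    rw [← eval, eval_map, eval₂_at_apply, hp, eval_prod, Finset.prod_eq_zero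
      (Finset.mem_univ (1 : SL(2, ZMod M))) ?_, map_zero]
    rw [eval_sub, eval_X, eval_C, sub_eq_zero]
    refine Subtype.ext ?_
    show (b : MF M) = shift M (Level.lift (1 : SL(2, ZMod M))) b
    rw [shift_eq_of_red_eq (g := Level.lift (1 : SL(2, ZMod M))) (h := 1)
      (by rw [red_lift, map_one]), shift_one]
  have hl : P.scaleRoots a ∈ Polynomial.lifts (algebraMap A (Fld E)) := by
    rw [lifts_iff_coeff_lifts]
    intro i
    rw [coeff_scaleRoots]
    rcases lt_trichotomy i P.natDegree with hi | rfl | hi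
    · obtain ⟨d, hd⟩ : ∃ d, P.natDegree - i = d + 1 := ⟨P.natDegree - i - 1, by omega⟩
      refine ⟨⟨P.coeff i * a ^ (P.natDegree - i), ?_⟩, rfl⟩
      have hNi : N i ≤ K := Finset.le_sup (Finset.mem_range.mpr (by omega))
      obtain ⟨r, hr⟩ := Nat.exists_eq_add_of_le hNi
      rw [coeff_map, hd, pow_succ', ← mul_assoc, mul_comm _ a,
        show a = algebraMap O (Fld E) π ^ N i * algebraMap O (Fld E) π ^ r by
          rw [← pow_add, ← hr],
        mul_right_comm _ _ (toFld E _), mul_assoc]
      refine mul_mem (hN i) (mul_mem (pow_mem (A.algebraMap_mem π) _) ?_)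
      rw [← pow_add]
      exact pow_mem (pow_mem (A.algebraMap_mem π) _) _
    · rw [Nat.sub_self, pow_zero, mul_one, hP.coeff_natDegree]
      exact ⟨1, map_one _⟩
    · rw [coeff_eq_zero_of_natDegree_lt hi, zero_mul]
      exact ⟨0, map_zero _⟩
  obtain ⟨Q, hQ, -, hQm⟩ := lifts_and_natDegree_eq_and_monic hl (monic_scaleRoots_iff a |>.mpr hP)
  refine ⟨Q, hQm, ?_⟩
  rw [← eval_map, hQ]
  exact scaleRoots_eval₂_eq_zero (RingHom.id _) hroot

end Fermat.Agent.ModField
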