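/-
The transfer by a prime `ℓ ≡ 1` modulo the level inside Laurent series: the conjugate embeddings
are integral over `j`, and roots everywhere on the finite chart pass to the transfer.
-/
import Fermat.Agent.Models.TransferRoot
import Fermat.Agent.Models.Gamma0.TwoCharts
import Fermat.Agent.Models.Gamma0.Fibre
import Fermat.Agent.NewVec.HeckeMid
import Fermat.Agent.Mazur3.AtEta.Roots

set_option autoImplicit false
set_option linter.style.haveILetI false
set_option linter.unusedSectionVars false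

noncomputable section

namespace Fermat.Agent.ModField

open Polynomial UpperHalfPlane CongruenceSubgroup IsLocalRing
open Fermat.Agent.GalRep
open Fermat.Agent.GalRep.Level
open Fermat.Agent.GalRep.Model (chartRing self_mem_chartRing)
open Fermat.Agent.Period (jFun)
open scoped MatrixGroups

/-- The root of unity of the transfer. -/
def zetaU (ℓ : ℕ) : ℂˣ :=
  Units.mk0 (Complex.exp (2 * Real.pi * Complex.I / ℓ)) (Complex.exp_ne_zero _)

variable (ℓ : ℕ) [NeZero ℓ]

/-- The series of the conjugates in terms of the series. -/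
def conjSer : Option (Fin ℓ) → LaurentSeries ℂ →+* LaurentSeries ℂ
  | none => (GalRep.expand ℓ (NeZero.ne ℓ)).comp (GalRep.expand ℓ (NeZero.ne ℓ))
  | some b => GalRep.twist (zetaU ℓ ^ (b : ℕ))

theorem conjSer_C (i : Option (Fin ℓ)) (c : ℂ) :
    conjSer ℓ i (HahnSeries.C c) = HahnSeries.C c := by
  cases i with
  | none =>
    simp only [conjSer, RingHom.comp_apply, HahnSeries.C_apply, expand_single', mul_zero]
  | some b =>
    ext k
    rw [conjSer, twist_coeff, HahnSeries.C_apply, HahnSeries.coeff_single]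
    split_ifs with h
    · subst h; simp
    · simp

variable {ℓ} {M : ℕ} [NeZero M]

/-- The expansions of the conjugates of a function of level `M`. -/
theorem hasQSeries_conj {F : ℍ → ℂ} {f : LaurentSeries ℂ} (hf : HasQSeries M F f)
    (hd : ∀ i, 0 < (heckeRepG M ℓ 1 i).det) (i : Option (Fin ℓ)) :
    HasQSeries (M * ℓ) (fun τ => F (posMat _ (hd i) • τ)) (conjSer ℓ i f) := by
  cases i with
  | none =>
    have h1 := hasQSeries_comp_of_eq (NeZero.pos M) (F := F) 1 (NeZero.pos ℓ) one_pos 0 (hd none)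
      (by simp [heckeRepG]) (h := f) (by simpa only [one_smul] using hf) (NeZero.ne ℓ)
    rw [mul_one] at h1
    convert h1 using 1
    rw [show Units.mk0 (Complex.exp (2 * Real.pi * Complex.I * ((0 : ℤ) : ℂ) / (1 * M : ℕ)))
      (Complex.exp_ne_zero _) = 1 from Units.ext (by simp), twist_one]
    rfl
  | some b =>
    have h1 := hasQSeries_comp_of_eq (NeZero.pos M) (F := F) 1 one_pos (NeZero.pos ℓ)
      ((b : ℤ) * M) (hd (some b)) (by simp [heckeRepG]) (h := f) (by simpa only [one_smul] using hf)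
      one_ne_zero
    rw [GalRep.expand_one, GalRep.expand_one, mul_one] at h1
    show HasQSeries _ _ (GalRep.twist (zetaU ℓ ^ (b : ℕ)) f)
    rw [show zetaU ℓ ^ (b : ℕ) = Units.mk0 (Complex.exp (2 * Real.pi * Complex.I *
      (((b : ℤ) * M : ℤ) : ℂ) / (ℓ * M : ℕ))) (Complex.exp_ne_zero _) from Units.ext ?_]
    · exact h1
    · rw [Units.val_pow_eq_pow_val, zetaU, Units.val_mk0, Units.val_mk0, ← Complex.exp_nat_mul]
      congr 1
      have h1 : (M : ℂ) ≠ 0 := Nat.cast_ne_zero.mpr (NeZero.ne M)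
      have h2 : (ℓ : ℂ) ≠ 0 := Nat.cast_ne_zero.mpr (NeZero.ne ℓ)
      push_cast
      field_simp

/-- The series of the transfer. -/
theorem expand_serAlg_transfer {φ ψ : MF M} (hd : ∀ i, 0 < (heckeRepG M ℓ 1 i).det)
    (hψ : (ψ : ℍ → ℂ) = transferProd (heckeRepG M ℓ 1) hd (φ : ℍ → ℂ)) :
    GalRep.expand ℓ (NeZero.ne ℓ) (serAlg M ψ) = ∏ i, conjSer ℓ i (serAlg M φ) := by
  refine ((hasQSeries_serHom ψ).refine_width (NeZero.pos M) ℓ (NeZero.ne ℓ)).unique
    (Nat.mul_pos (NeZero.pos M) (NeZero.pos ℓ)) ?_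
  rw [hψ, transferProd]
  exact HasQSeries.prod _ fun i _ => hasQSeries_conj (hasQSeries_serHom φ) hd i

/-- A two variable integral polynomial in series is the series of the values. -/
theorem hasQSeries_eval₂ {K : ℕ} {G H : ℍ → ℂ} {g h : LaurentSeries ℂ} (hg : HasQSeries K G g)
    (hh : HasQSeries K H h) (Q : ℤ[X][X]) :
    HasQSeries K (fun τ => Q.eval₂ (Polynomial.eval₂RingHom (Int.castRingHom ℂ) (G τ)) (H τ))
      (Q.eval₂ (Polynomial.eval₂RingHom (Int.castRingHom (LaurentSeries ℂ)) g) h) := by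
  have hin : ∀ R : ℤ[X], HasQSeries K (fun τ => R.eval₂ (Int.castRingHom ℂ) (G τ))
      (R.eval₂ (Int.castRingHom (LaurentSeries ℂ)) g) := fun R => by
    induction R using Polynomial.induction_on' with
    | add a b ha hb => simp only [eval₂_add]; exact ha.add hb
    | monomial n a =>
      simp only [eval₂_monomial, eq_intCast]
      have := (hg.pow n).smul (a : ℂ)
      rw [map_intCast] at this
      exact this
  induction Q using Polynomial.induction_on' with
  | add a b ha hb => simp only [eval₂_add]; exact ha.add hb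
  | monomial n a =>
    simp only [eval₂_monomial, coe_eval₂RingHom]
    exact (hin a).mul (hh.pow n)

variable {O : Type} [CommRing O] [IsDomain O] (E : Emb O M)

/-- The conjugates of `j` are integral over `O[j]`. -/
theorem isIntegralElem_conj_jF [Fact ℓ.Prime] (i : Option (Fin ℓ)) :
    (((GalRep.expand ℓ (NeZero.ne ℓ)).comp (toLS E)).comp
      (aeval (jF E) : O[X] →ₐ[O] Fld E).toRingHom).IsIntegralElem
        (conjSer ℓ i (toLS E (jF E))) := by
  have hℓ : ℓ.Prime := Fact.out
  have hd : ∀ i, 0 < (heckeRepG M ℓ 1 i).det := fun i => by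
    rw [det_heckeRepG]; exact_mod_cast hℓ.pos
  obtain ⟨PZ, hPZ⟩ := Mazur3.exists_modPolyInt (p := ℓ)
  have hm : PZ.Monic := by
    have hm : (modPoly ℓ).Monic := orbitPoly_monic _
    rw [← hPZ] at hm
    exact Polynomial.monic_of_injective
      (Polynomial.map_injective _ (Int.cast_injective (α := ℂ))) hm
  set φ : ℤ[X] →+* O[X] := Polynomial.mapRingHom (Int.castRingHom O)
  refine ⟨PZ.map φ, hm.map _, ?_⟩
  rw [eval₂_map, toLS_jF]
  have hg : HasQSeries (M * ℓ) (jFun) (GalRep.expand ℓ (NeZero.ne ℓ) (jqN M)) := by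
    have := (hasQSeries_serHom (jMF (Gamma M))).refine_width (NeZero.pos M) ℓ (NeZero.ne ℓ)
    rwa [show serHom M (jMF (Gamma M)) = jqN M from serAlg_jMF] at this
  have hh : HasQSeries (M * ℓ) (fun τ => jFun (posMat _ (hd i) • τ)) (conjSer ℓ i (jqN M)) := by
    have := hasQSeries_serHom (jMF (Gamma M))
    rw [show serHom M (jMF (Gamma M)) = jqN M from serAlg_jMF] at this
    exact hasQSeries_conj (F := jFun) this hd i
  have hcomp : (((GalRep.expand ℓ (NeZero.ne ℓ)).comp (toLS E)).comp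
      (aeval (jF E) : O[X] →ₐ[O] Fld E).toRingHom).comp φ =
      Polynomial.eval₂RingHom (Int.castRingHom (LaurentSeries ℂ))
        (GalRep.expand ℓ (NeZero.ne ℓ) (jqN M)) := by
    refine Polynomial.ringHom_ext (fun n => by simp [φ]) ?_
    simp [φ, toLS_jF]
  rw [hcomp]
  refine ((hasQSeries_eval₂ hg hh PZ).congr (.of_forall fun τ => ?_)).eq_zero
    (Nat.mul_pos (NeZero.pos M) (NeZero.pos ℓ))
  have hisog : (∃ b : ℕ, (ℓ : ℂ) * (posMat _ (hd i) • τ : ℍ) = τ + b) ∨
      ((posMat _ (hd i) • τ : ℍ) : ℂ) = ℓ * τ := by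
    cases i with
    | none =>
      exact Or.inr (by rw [coe_posMat_smul]; simp [heckeRepG])
    | some b =>
      refine Or.inl ⟨(b : ℕ) * M, ?_⟩
      rw [coe_posMat_smul]
      have h2 : (ℓ : ℂ) ≠ 0 := Nat.cast_ne_zero.mpr (NeZero.ne ℓ)
      simp [heckeRepG]
      field_simp
  have h0 := (Mazur3.AtEta.biEval_jFun_isog ℓ hisog).1
  rw [← hPZ, biEval, coe_eval₂RingHom, eval₂_map] at h0
  refine (Eq.trans ?_ h0)
  congr 1
  refine Polynomial.ringHom_ext (fun n => by simp) ?_
  simp

variable [IsDiscreteValuationRing O] {E} {q m : ℕ}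

/-- The transfer of an invariant function with coefficients in `K` is of the same kind. -/
theorem exists_transfer_mf (hℓ : ℓ.Prime) (hℓM : (ℓ : ZMod M) = 1) (hqM : q ∣ M) (hmM : m ∣ M)
    (hz : (zetaU ℓ : ℂ) ∈ E.K) {φ : MF M} (hφ : serAlg M φ ∈ kSer E.K)
    (hφG : ∀ g ∈ levelG q m, shift M g φ = φ) :
    ∃ (ψ : MF M), serAlg M ψ ∈ kSer E.K ∧ (∀ g ∈ levelG q m, shift M g ψ = ψ) ∧
      GalRep.expand ℓ (NeZero.ne ℓ) (serAlg M ψ) = ∏ i, conjSer ℓ i (serAlg M φ) ∧
      (ψ : ℍ → ℂ) = transferProd (heckeRepG M ℓ 1)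
        (fun i => by rw [det_heckeRepG]; exact_mod_cast hℓ.pos) (φ : ℍ → ℂ) := by
  have hd : ∀ i, 0 < (heckeRepG M ℓ 1 i).det := fun i => by
    rw [det_heckeRepG]; exact_mod_cast hℓ.pos
  set T := transferProd (heckeRepG M ℓ 1) hd (φ : ℍ → ℂ)
  have hinv : ∀ g ∈ levelG q m, ∀ τ, T (g • τ) = T τ := by
    intro g hg τ
    obtain ⟨e, he, hsh⟩ := NewVec.exists_perm_shift hℓ hℓM g
    simp only [T, transferProd, Finset.prod_apply]
    refine Fintype.prod_bijective e he _ _ fun i => ?_
    obtain ⟨γ, hγ, heq⟩ := hsh i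
    rw [posMat_smul_eq (hd i) (hd (e i)) g (γ * g) heq τ]
    have := hφG (γ * g) (mul_mem (gamma_le_levelG hqM hmM hγ) hg)
    exact congrFun (congrArg (fun x : MF M => (x : ℍ → ℂ)) this) _
  have hmem : T ∈ modFuns (Gamma M) := by
    refine ⟨?_, fun g hg τ => hinv g (gamma_le_levelG hqM hmM hg) τ,
      hasSeriesAtCusps_prod _ fun i _ => hasSeriesAtCusps_comp_posMat φ.2.cusps _ _⟩
    simp only [T, transferProd]
    induction (Finset.univ : Finset (Option (Fin ℓ))) using Finset.induction_on with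
    | empty => rw [Finset.prod_empty]; exact mdifferentiable_const
    | insert i s hi ih =>
      rw [Finset.prod_insert hi]
      exact (mdifferentiable_comp_posMat φ.2.holo _ _).mul ih
  let ψ : MF M := ⟨T, hmem⟩
  have hser := expand_serAlg_transfer (φ := φ) (ψ := ψ) hd rfl
  refine ⟨ψ, mem_kSer.mpr fun k => ?_,
    fun g hg => Subtype.ext (funext fun τ => hinv g hg τ), hser, rfl⟩
  have hK : ∀ i, conjSer ℓ i (serAlg M φ) ∈ kSer E.K := fun i => by
    refine mem_kSer.mpr fun j => ?_
    cases i with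
    | none =>
      rw [conjSer, RingHom.comp_apply]
      by_cases hj : (ℓ : ℤ) ∣ j
      · obtain ⟨t, rfl⟩ := hj
        rw [expand_coeff_mul]
        by_cases ht : (ℓ : ℤ) ∣ t
        · obtain ⟨t, rfl⟩ := ht
          rw [expand_coeff_mul]
          exact mem_kSer.mp hφ _
        · rw [expand_coeff_of_not_dvd _ _ _ _ ht]; exact zero_mem _
      · rw [expand_coeff_of_not_dvd _ _ _ _ hj]; exact zero_mem _
    | some b =>
      rw [conjSer, twist_coeff]
      refine mul_mem (mem_kSer.mp hφ _) ?_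
      rw [Units.val_zpow_eq_zpow_val, Units.val_pow_eq_pow_val]
      exact zpow_mem (pow_mem hz _) _
  have := mem_kSer.mp (prod_mem (t := Finset.univ) fun i _ => hK i) ((ℓ : ℤ) * k)
  rwa [← hser, expand_coeff_mul] at this

/-- Invariant elements with coefficients in `K` are quotients of invariant functions. -/
theorem exists_invariant_frac {x : Fld E} (hx : ∀ g ∈ levelG q m, fShift E g x = x) :
    ∃ φ₁ φ₂ : MF M, serAlg M φ₁ ∈ kSer E.K ∧ serAlg M φ₂ ∈ kSer E.K ∧
      (∀ g ∈ levelG q m, shift M g φ₁ = φ₁) ∧ (∀ g ∈ levelG q m, shift M g φ₂ = φ₂) ∧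
      serAlg M φ₂ ≠ 0 ∧ toLS E x = serAlg M φ₁ / serAlg M φ₂ := by
  classical
  obtain ⟨a, b, hb, rfl⟩ := exists_eq_div E x
  haveI : Fintype SL(2, ZMod M) := Fintype.ofFinite _
  let c : bddMF E := ∏ y ∈ (Finset.univ : Finset SL(2, ZMod M)).erase 1, shiftB E (Level.lift y) b
  have hbc : b * c = ∏ y : SL(2, ZMod M), shiftB E (Level.lift y) b := by
    rw [← Finset.mul_prod_erase Finset.univ _ (Finset.mem_univ (1 : SL(2, ZMod M)))]
    congr 1
    refine Subtype.ext ?_
    show (b : MF M) = shift M (Level.lift (1 : SL(2, ZMod M))) b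
    rw [shift_eq_of_red_eq (g := Level.lift (1 : SL(2, ZMod M))) (h := 1)
      (by rw [red_lift, map_one]), shift_one]
  have hN : ∀ g, shift M g ((b * c : bddMF E) : MF M) = ((b * c : bddMF E) : MF M) := fun g => by
    have e : ∀ y, shift M g ((shiftB E (Level.lift y) b : bddMF E) : MF M) =
        ((shiftB E (Level.lift (y * red M g)) b : bddMF E) : MF M) := fun y => by
      show shift M g (shift M (Level.lift y) (b : MF M)) = shift M (Level.lift (y * red M g)) b
      rw [shift_shift]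
      exact shift_eq_of_red_eq (by rw [map_mul, red_lift, red_lift]) _
    simp only [hbc, SubmonoidClass.coe_finsetProd, map_prod, e]
    exact Fintype.prod_equiv (Equiv.mulRight (red M g)) _ _ fun y => rfl
  have hN0 : b * c ≠ 0 := by
    rw [hbc]
    exact Finset.prod_ne_zero_iff.mpr fun y _ h0 =>
      hb ((shiftB E (Level.lift y)).injective (h0.trans (map_zero _).symm))
  refine ⟨(a * c : bddMF E), (b * c : bddMF E), kSer_of_bdd E (a * c : bddMF E).2,
    kSer_of_bdd E (b * c : bddMF E).2, fun g hg => ?_, fun g _ => hN g, ?_, ?_⟩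
  · have hxN : toFld E a / toFld E b * toFld E (b * c) = toFld E (a * c) := by
      rw [map_mul, map_mul, ← mul_assoc, div_mul_cancel₀]
      exact (map_ne_zero_iff _ (toFld_injective E)).mpr hb
    have h1 : fShift E g (toFld E (a * c)) = toFld E (a * c) := by
      rw [← hxN, map_mul, hx g hg, fShift_toFld]
      congr 2
      exact Subtype.ext (hN g)
    rw [fShift_toFld] at h1
    exact congrArg Subtype.val (toFld_injective E h1)
  · exact (map_ne_zero_iff _ (serAlg_injective M)).mpr fun h => hN0 (Subtype.ext h)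
  · rw [map_div₀, toLS_toFld, toLS_toFld, Subring.coe_mul, Subring.coe_mul, map_mul, map_mul,
      mul_div_mul_right]
    exact (map_ne_zero_iff _ (serAlg_injective M)).mpr fun h =>
      right_ne_zero_of_mul hN0 (Subtype.ext h)

local notation "F₁" => Fld₀ O E q m

set_option synthInstance.maxHeartbeats 200000 in
set_option maxHeartbeats 1000000 in
/-- The conjugates of chart elements are integral over the chart. -/
theorem isIntegralElem_conj_chart [Fact ℓ.Prime] (i : Option (Fin ℓ)) {b : F₁}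
    (hb : b ∈ chartRing O (jF₀ O E q m)) :
    ((((GalRep.expand ℓ (NeZero.ne ℓ)).comp (toLS E)).comp (Fld₀ O E q m).subtype).comp
      (chartRing O (jF₀ O E q m)).toSubring.subtype).IsIntegralElem
        (conjSer ℓ i (toLS E (b : Fld E))) := by
  classical
  letI : Algebra O (LaurentSeries ℂ) := ((HahnSeries.C : ℂ →+* LaurentSeries ℂ).comp E.φ).toAlgebra
  let i₀ : F₁ →+* Fld E := (Fld₀ O E q m).subtype
  let ι : F₁ →ₐ[O] LaurentSeries ℂ :=
    { ((GalRep.expand ℓ (NeZero.ne ℓ)).comp (toLS E)).comp i₀ with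
      commutes' := fun a => by
        show GalRep.expand ℓ (NeZero.ne ℓ) (toLS E (algebraMap O (Fld E) a)) = HahnSeries.C (E.φ a)
        rw [toLS_algebraMap, HahnSeries.C_apply, expand_single', mul_zero] }
  let κ : Option (Fin ℓ) → F₁ →ₐ[O] LaurentSeries ℂ := fun i =>
    { ((conjSer ℓ i).comp (toLS E)).comp i₀ with
      commutes' := fun a => by
        show conjSer ℓ i (toLS E (algebraMap O (Fld E) a)) = HahnSeries.C (E.φ a)
        rw [toLS_algebraMap, conjSer_C] }
  set B := chartRing O (jF₀ O E q m)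
  letI : Algebra B (LaurentSeries ℂ) :=
    ((ι.comp B.val : B →ₐ[O] LaurentSeries ℂ) : B →+* LaurentSeries ℂ).toAlgebra
  show IsIntegral B (κ i b)
  obtain ⟨P, hPm, hP⟩ := (isIntegral_adjoin_iff' _ _).mp (mem_chart_iff.mp hb)
  set C := integralClosure B (LaurentSeries ℂ)
  have hOj : ∀ R : O[X], κ i (aeval (jF₀ O E q m) R) ∈ C := by
    have hj : κ i (jF₀ O E q m) ∈ C := by
      obtain ⟨R, hRm, hR⟩ := isIntegralElem_conj_jF (E := E) (ℓ := ℓ) i
      let θ : O[X] →+* B := polyHom₀ (jF₀ O E q m)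
      refine ⟨R.map θ, hRm.map _, ?_⟩
      rw [eval₂_map]
      refine Eq.trans ?_ hR
      congr 1
      refine Polynomial.ringHom_ext (fun a => ?_) ?_
      · show ι ((θ (Polynomial.C a) : B) : F₁) = _
        rw [coe_polyHom₀, aeval_C, ι.commutes]
        show HahnSeries.C (E.φ a) = GalRep.expand ℓ (NeZero.ne ℓ) (toLS E (aeval (jF E) (Polynomial.C a)))
        rw [aeval_C, toLS_algebraMap, HahnSeries.C_apply, expand_single', mul_zero]
      · show ι ((θ Polynomial.X : B) : F₁) = _
        rw [coe_polyHom₀, aeval_X]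
        show GalRep.expand ℓ (NeZero.ne ℓ) (toLS E (jF E)) =
          GalRep.expand ℓ (NeZero.ne ℓ) (toLS E (aeval (jF E) Polynomial.X))
        rw [aeval_X]
    intro R
    rw [← aeval_algHom_apply (κ i)]
    induction R using Polynomial.induction_on' with
    | add a c ha hc => rw [map_add]; exact add_mem ha hc
    | monomial k a =>
      rw [aeval_monomial]
      refine mul_mem ?_ (pow_mem hj k)
      rw [show algebraMap O (LaurentSeries ℂ) a = algebraMap B (LaurentSeries ℂ) (algebraMap O B a)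
        from ((ι.comp B.val).commutes a).symm]
      exact C.algebraMap_mem _
  have hint : IsIntegral C (κ i b) := by
    refine ⟨P.map (((κ i : F₁ →+* LaurentSeries ℂ).comp (aeval (jF₀ O E q m)).toRingHom).codRestrict
      C fun R => hOj R), hPm.map _, ?_⟩
    rw [eval₂_map]
    have h0 := congrArg (κ i) hP
    rw [map_zero, show κ i (P.eval₂ (aeval (jF₀ O E q m)).toRingHom b) =
      P.eval₂ ((κ i : F₁ →+* LaurentSeries ℂ).comp (aeval (jF₀ O E q m)).toRingHom) (κ i b)
      from Polynomial.hom_eval₂ P _ (κ i : F₁ →+* LaurentSeries ℂ) b] at h0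
    exact h0
  exact isIntegral_trans (R := B) (A := C) (B := LaurentSeries ℂ) (κ i b) hint

/-- The transfer of a chart element is in the chart. -/
theorem transfer_mem_chart [Fact ℓ.Prime] {x y : F₁} (hx : x ∈ chartRing O (jF₀ O E q m))
    (hy : GalRep.expand ℓ (NeZero.ne ℓ) (toLS E (y : Fld E)) = ∏ i, conjSer ℓ i (toLS E (x : Fld E))) :
    y ∈ chartRing O (jF₀ O E q m) := by
  let B := chartRing O (jF₀ O E q m)
  let ι : F₁ →+* LaurentSeries ℂ :=
    ((GalRep.expand ℓ (NeZero.ne ℓ)).comp (toLS E)).comp (Fld₀ O E q m).subtype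
  letI : Algebra B (LaurentSeries ℂ) := (ι.comp B.toSubring.subtype).toAlgebra
  refine chart_closed ((isIntegral_algHom_iff (R := B)
    ({ ι with commutes' := fun _ => rfl } : F₁ →ₐ[B] LaurentSeries ℂ) ι.injective).mp ?_)
  show IsIntegral B (GalRep.expand ℓ (NeZero.ne ℓ) (toLS E (y : Fld E)))
  rw [hy]
  exact IsIntegral.prod _ fun i _ => isIntegralElem_conj_chart i hx

set_option synthInstance.maxHeartbeats 200000 in
set_option maxHeartbeats 1000000 in
/-- Roots of `f` everywhere on the finite chart give roots of its transfer. -/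
theorem hasRootAt_hecke [Fact ℓ.Prime] (hℓM : (ℓ : ZMod M) = 1) (hqM : q ∣ M) (hmM : m ∣ M)
    (hz : (zetaU ℓ : ℂ) ∈ E.K) (hbase : baseK O E = E.K) {n : ℕ} (hn : 0 < n) {f g : F₁}
    (hf : f ≠ 0)
    (hg : GalRep.expand ℓ (NeZero.ne ℓ) (toLS E (g : Fld E)) = ∏ i, conjSer ℓ i (toLS E (f : Fld E)))
    (hroots : ∀ Q : Ideal (chartRing O (jF₀ O E q m)), Q.IsMaximal →
      Models.HasRootAt (chartRing O (jF₀ O E q m)) n f Q)
    {mm : Ideal (chartRing O (jF₀ O E q m))} (hm : mm.IsMaximal) :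
    Models.HasRootAt (chartRing O (jF₀ O E q m)) n g mm := by
  classical
  letI : Algebra O (LaurentSeries ℂ) := ((HahnSeries.C : ℂ →+* LaurentSeries ℂ).comp E.φ).toAlgebra
  let i₀ : F₁ →+* Fld E := (Fld₀ O E q m).subtype
  let ι : F₁ →ₐ[O] LaurentSeries ℂ :=
    { ((GalRep.expand ℓ (NeZero.ne ℓ)).comp (toLS E)).comp i₀ with
      commutes' := fun a => by
        show GalRep.expand ℓ (NeZero.ne ℓ) (toLS E (algebraMap O (Fld E) a)) = HahnSeries.C (E.φ a)
        rw [toLS_algebraMap, HahnSeries.C_apply, expand_single', mul_zero] }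
  let κ : Option (Fin ℓ) → F₁ →ₐ[O] LaurentSeries ℂ := fun i =>
    { ((conjSer ℓ i).comp (toLS E)).comp i₀ with
      commutes' := fun a => by
        show conjSer ℓ i (toLS E (algebraMap O (Fld E) a)) = HahnSeries.C (E.φ a)
        rw [toLS_algebraMap, conjSer_C] }
  set B := chartRing O (jF₀ O E q m)
  have hfg : B.FG := by
    obtain ⟨k, gs, hgs, hgen⟩ := (model₀ O E q m).fg₀
    refine ⟨insert (jF₀ O E q m) (Finset.univ.image gs), le_antisymm (Algebra.adjoin_le ?_) ?_⟩
    · intro x hx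
      simp only [Finset.coe_insert, Finset.coe_image, Finset.coe_univ, Set.image_univ,
        Set.mem_insert_iff, Set.mem_range] at hx
      rcases hx with rfl | ⟨i, rfl⟩
      · exact self_mem_chartRing _
      · exact hgs i
    · intro b hb
      obtain ⟨P, hP⟩ := hgen b hb
      rw [hP]
      refine Subalgebra.sum_mem _ fun i _ => mul_mem ?_ (Algebra.subset_adjoin (by simp))
      exact Algebra.adjoin_mono (R := O) (s := {jF₀ O E q m}) (by simp)
        (Polynomial.aeval_mem_adjoin_singleton O _)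
  refine Models.hasRootAt_transfer_of_integral (ι := ι) (κ := κ) hn (fun x hx => chart_closed hx)
    (isFractionRing_chart₀ (G := transG E) (aeval_jF_injective E) (fixedRational_jF E))
    hfg (fun i b hb => ?_) (fun b _ => ?_) hf hg hroots hm
  · exact isIntegralElem_conj_chart (E := E) (ℓ := ℓ) i hb
  · obtain ⟨φ₁, φ₂, h1K, h2K, h1G, h2G, h2ne, hb⟩ :=
      exists_invariant_frac (E := E) (q := q) (m := m) (x := (b : Fld E)) b.2.1
    obtain ⟨ψ₁, e1K, e1G, e1, -⟩ := exists_transfer_mf Fact.out hℓM hqM hmM hz h1K h1G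
    obtain ⟨ψ₂, e2K, e2G, e2, -⟩ := exists_transfer_mf Fact.out hℓM hqM hmM hz h2K h2G
    have hmem : ∀ (ψ : MF M) (hK : serAlg M ψ ∈ kSer E.K),
        (∀ g ∈ levelG q m, shift M g ψ = ψ) → ofMF E ψ hK ∈ Fld₀ O E q m := by
      intro ψ hK hG
      refine mem_levelFld.mpr ⟨fun g hg => ?_, ?_⟩
      · rw [ofMF, fShift_toFld]
        exact congrArg _ (Subtype.ext (hG g hg))
      · rw [ofMF, toLS_toFld, hbase]; exact hK
    refine ⟨⟨_, hmem ψ₁ e1K e1G⟩ / ⟨_, hmem ψ₂ e2K e2G⟩, ?_⟩
    show GalRep.expand ℓ (NeZero.ne ℓ) (toLS E (ofMF E ψ₁ e1K / ofMF E ψ₂ e2K)) =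
      ∏ i, conjSer ℓ i (toLS E (b : Fld E))
    rw [map_div₀, map_div₀, ofMF, ofMF, toLS_toFld, toLS_toFld, e1, e2, ← Finset.prod_div_distrib]
    exact Finset.prod_congr rfl fun i _ => by rw [hb, map_div₀]

end Fermat.Agent.ModField
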