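/-
`u = q¹² Δ(qτ)/Δ(τ)` on the level model over a ramified base: a unit off the special fibre, with
exponent `-12` at every node.
-/
import Fermat.Agent.Models.Gamma0.WildInstance
import Fermat.Agent.Models.Wild.NodeBase

set_option autoImplicit false
set_option linter.style.haveILetI false
set_option linter.unusedSectionVars false

noncomputable section

namespace Fermat.Agent.ModField

open IsLocalRing
open Fermat.Agent.GalRep
open Fermat.Agent.GalRep.Level
open Fermat.Agent.GalRep.Model (chartRing)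
open Fermat.Agent.Models (SemiPoints ChartFibre center TotRam IsNodeParam IsNodeTwo extIncl)
open scoped MatrixGroups

variable {W : Type} [CommRing W] [IsDomain W] [IsDiscreteValuationRing W]
  [IsAlgClosed (ResidueField W)]
  {O : Type} [CommRing O] [IsDomain O] [IsDiscreteValuationRing O] [Algebra W O] [Module.Finite W O]
  [FaithfulSMul W O]
  {M : ℕ} [NeZero M] {E : Emb O M} {q m : ℕ} [hq' : Fact q.Prime] [NeZero m]
  [Algebra W (Fld E)] [IsScalarTower W O (Fld E)]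
  {O' : Type} [CommRing O'] [IsDomain O'] [IsDiscreteValuationRing O']
  [IsAlgClosed (ResidueField O')] {E' : Emb O' M}
  [Algebra W O'] [Algebra (Fld₀ W E q m) (Fld₀ O' E' q m)] [Algebra W (Fld₀ O' E' q m)]
  [IsScalarTower W (Fld₀ W E q m) (Fld₀ O' E' q m)] [IsScalarTower W O' (Fld₀ O' E' q m)]

local notation "F₀" => Fld₀ W E q m
local notation "F₁" => Fld₀ O' E' q m

variable (hq : maximalIdeal W = Ideal.span {(q : W)}) (hqM : q ∣ M) (hmM : m ∣ M) (hqm : ¬ q ∣ m)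
  (hpts₀ : SemiPoints (chartRing W (jF₀ W E q m)) (q : W))
  (hcompat : ∀ x : Fld₀ W E q m,
    toLS E' ((algebraMap (Fld₀ W E q m) (Fld₀ O' E' q m) x : Fld₀ O' E' q m) : Fld E') =
      toLS E (x : Fld E))
  (hK : E.K ≤ E'.K) (hO : ∀ a : O, ∃ a' : O', E'.φ a' = E.φ a)
  (X : TotRam W O' (Fld₀ W E q m) (Fld₀ O' E' q m)) (hXπ : X.π = (q : W))

include hcompat in
theorem algebraMap_uF₀ : algebraMap F₀ F₁ (uF₀ W hqM m) = uF₀ O' hqM m :=
  Subtype.ext (toLS_injective E' (by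
    rw [hcompat]
    show toLS E (uF E q hqM) = toLS E' (uF E' q hqM)
    rw [uF, uF, toLS_toFld, toLS_toFld]))

set_option maxHeartbeats 800000 in
include hq hqM hmM hqm hpts₀ hcompat hK hO hXπ in
/-- The unit with exponent `-12` at every node, on the finite chart. -/
theorem exists_nodeUnit (hϖ : Irreducible X.ϖ) :
    ∃ (u v : (model₀ O' E' q m).B₀) (N : ℕ) (c₀ : O'ˣ),
      ((u : F₁) : Fld E') = uF E' q hqM ∧
      u * v = algebraMap O' (model₀ O' E' q m).B₀ ((c₀ : O') * X.ϖ ^ N) ∧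
      ∀ (mm : Ideal (model₀ O' E' q m).B₀) (x y w : (model₀ O' E' q m).B₀), mm.IsMaximal →
        IsNodeParam (model₀ O' E' q m).B₀ X.ϖ (twoP O' E' q m hϖ) X.e
          (algebraMap F₀ F₁).fieldRange mm x y w →
        ∃ c d : (model₀ O' E' q m).B₀, c ∉ mm ∧ d ∉ mm ∧
          c * u * x ^ 12 = d * algebraMap O' (model₀ O' E' q m).B₀ X.ϖ ^ (12 * X.e) := by
  obtain ⟨c₀, hc₀⟩ := natCast_eq_unif X hXπ
  refine ⟨⟨uF₀ O' hqM m, uF₀_mem hqM⟩, ⟨vF₀ O' E' q m hqM, vF₀_mem hqM⟩, 12 * X.e, c₀ ^ 12,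
    rfl, Subtype.ext ?_, ?_⟩
  · show uF₀ O' hqM m * vF₀ O' E' q m hqM = algebraMap O' F₁ _
    rw [vF₀, mul_left_comm, mul_inv_cancel₀ (uF₀_ne_zero hqM), mul_one,
      ← map_natCast (algebraMap O' F₁) q, ← map_pow, hc₀, mul_pow, Units.val_pow_eq_pow_val,
      ← pow_mul, mul_comm X.e]
  obtain ⟨π, hπ⟩ := IsDiscreteValuationRing.exists_irreducible O
  set w₀ := jF₀ W E q m
  set B := chartRing W w₀
  have hw : Coord hπ w₀ := coord_jF hπ
  obtain ⟨hpts', hf, hu, hmax, hc, hπ0, hnode⟩ : SemiPoints B X.π ∧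
      ∃ hf : ChartFibre B X.π (twoP W E q m hπ),
        (∀ i, algebraMap W F₀ X.π ∈ (twoP W E q m hπ i).nonunits) ∧
        (∀ i, ¬ (center hf i).IsMaximal) ∧ Function.Injective (center hf) ∧
        algebraMap W F₀ X.π ≠ 0 ∧
        ∀ (m₀ : Ideal B) (x₀ y₀ u₀ : B), m₀.IsMaximal → IsNodeTwo hf m₀ x₀ y₀ u₀ →
          ∃ c d : B, c ∉ m₀ ∧ d ∉ m₀ ∧
            c * (⟨uF₀ W hqM m, uF₀_mem hqM⟩ : B) = d * y₀ ^ 12 := by
    rw [hXπ]
    refine ⟨hpts₀, chartFibre_two hq hqM hmM hqm hpts₀ hw hpts₀, natCast_mem_twoP hq,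
      center_two_not_isMaximal hq hqM hmM hqm hpts₀ hw hpts₀,
      center_two_injective hq hqM hmM hqm hpts₀ hw hpts₀, natCast_fld₀_ne_zero hq,
      fun m₀ x₀ y₀ u₀ hm₀ hn => ?_⟩
    haveI := hm₀.isPrime
    exact uF₀_monomial hq hqM hmM hqm hpts₀ hn
  have hj : algebraMap F₀ F₁ w₀ = jF₀ O' E' q m := algebraMap_jF₀ hcompat
  have he : X.extend B = (model₀ O' E' q m).B₀ :=
    (extend_chart X hw.tr hw.rat hpts').trans (congrArg (chartRing O') hj)
  have hP := algebraMap_mem_twoP_iff hq hcompat hK hO X hXπ hπ hϖ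
  have hgen : ∀ i, X.gen ∈ (twoP O' E' q m hϖ i).nonunits := fun i => (uniformizer_twoP hϖ i).1
  have key : ∀ (B' : Subalgebra O' F₁), X.extend B = B' → ∀ (u' : B'),
      (u' : F₁) = algebraMap F₀ F₁ (uF₀ W hqM m) →
      ∀ (mm : Ideal B') (x y w : B'), mm.IsMaximal →
        IsNodeParam B' X.ϖ (twoP O' E' q m hϖ) X.e (algebraMap F₀ F₁).fieldRange mm x y w →
        ∃ c d : B', c ∉ mm ∧ d ∉ mm ∧
          c * u' * x ^ 12 = d * algebraMap O' B' X.ϖ ^ (12 * X.e) := by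
    rintro B' rfl u' hu' mm x y w hmm hn
    obtain rfl : u' = extIncl X B ⟨uF₀ W hqM m, uF₀_mem hqM⟩ := Subtype.ext hu'
    exact Models.extend_monomial X hP hgen hf hpts' hu hmax hπ0 hc hnode hmm hn
  exact key _ he _ (algebraMap_uF₀ hqM hcompat).symm

end Fermat.Agent.ModField
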