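/-
The transfer of `u = q¹² Δ(qτ)/Δ(τ)`: a unit off the special fibre, of order `12 (ℓ + 1)` along the
component over infinity and `0` along the component over zero.
-/
import Fermat.Agent.Models.Gamma0.TransferSeries
import Fermat.Agent.Models.Gamma0.TwoComps
import Fermat.Agent.Models.Gamma0.DeltaInv
import Fermat.Agent.NewVec.HeckeMid

set_option autoImplicit false
set_option linter.style.haveILetI false
set_option linter.unusedSectionVars false

noncomputable section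

namespace Fermat.Agent.ModField

open Polynomial UpperHalfPlane CongruenceSubgroup IsLocalRing
open Fermat.Agent.GalRep
open Fermat.Agent.GalRep.Level
open Fermat.Agent.GalRep.Model (chartRing SeriesField C_pi_prime)
open Fermat.Agent.NewVec (HasOrd exists_hasOrd)
open Fermat.Agent.Models (IsU)
open scoped MatrixGroups

variable {O : Type} [CommRing O] [IsDomain O] [IsDiscreteValuationRing O] {M : ℕ} [NeZero M]
  {E : Emb O M} {π : O} {ℓ : ℕ} [NeZero ℓ]

theorem HasOrd.of_goodSer (hπ : Irreducible π) {s : LaurentSeries ℂ} (hs : GoodSer E s) :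
    HasOrd E π s 0 := by
  obtain ⟨n, U, hU, rfl⟩ := hs
  obtain ⟨a, b, hn⟩ : ∃ a b : ℕ, n + a = b := ⟨(-n).toNat, n.toNat, by omega⟩
  have hX : ∀ k : ℕ, E.gO (PowerSeries.X ^ k) = HahnSeries.single (k : ℤ) (1 : ℂ) := fun k => by
    rw [Emb.gO, RingHom.comp_apply, map_pow, PowerSeries.map_X, map_pow,
      HahnSeries.ofPowerSeries_X, HahnSeries.single_pow, one_pow, nsmul_eq_mul, mul_one]
  have hnd : ∀ k, ¬ PowerSeries.C π ∣ (PowerSeries.X ^ k : PowerSeries O) := fun k => by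
    rintro ⟨c, hc⟩
    have := congrArg (PowerSeries.coeff k) hc
    rw [PowerSeries.coeff_X_pow_self, PowerSeries.coeff_C_mul] at this
    exact hπ.not_isUnit (IsUnit.of_mul_eq_one _ this.symm)
  refine ⟨U * PowerSeries.X ^ b, PowerSeries.X ^ a, fun h => hnd b ((hU.dvd_mul_left).mp h),
    hnd a, ?_⟩
  rw [zpow_zero, one_mul, map_mul, hX, hX, ← hn, ← mul_one (1 : ℂ),
    ← HahnSeries.single_mul_single, mul_one]
  ring

/-- Order zero at a cusp gives a unit of the Gauss place. -/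
theorem isU_gaussP_of_ord (hπ : Irreducible π) {δ : SL(2, ℤ)} {x : Fld E}
    (h : HasOrd E π (toLS E (fShift E δ x)) 0) : IsU (gaussP E hπ δ) x := by
  obtain ⟨a, b, ha, hb, he⟩ := h
  rw [zpow_zero, one_mul] at he
  have he' : serAt E δ x * algebraMap (PowerSeries O) (SeriesField O) b =
      algebraMap (PowerSeries O) (SeriesField O) a := E.toC_injective (by
    rw [map_mul, serAt_eq, toC_serF, E.toC_algebraMap, E.toC_algebraMap, he])
  have hane : algebraMap (PowerSeries O) (SeriesField O) a ≠ 0 :=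
    (map_ne_zero_iff _ (IsFractionRing.injective _ _)).mpr fun h0 => ha (h0 ▸ dvd_zero _)
  have hx0 : serAt E δ x ≠ 0 := fun h0 => hane (by rw [← he', h0, zero_mul])
  refine Models.isU_iff.mpr ⟨fun h0 => hx0 (by rw [h0, map_zero]), ?_, ?_⟩
  · rw [mem_gaussP, mem_gaussRing]
    exact ⟨a, b, hb, he'⟩
  · rw [mem_gaussP, mem_gaussRing, map_inv₀]
    exact ⟨b, a, ha, by rw [← he', inv_mul_cancel_left₀ hx0]⟩

/-- The expansion at a cusp of the transfer of a constant times a unit series. -/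
theorem exists_ord_transfer (hℓ : ℓ.Prime) (hℓM : (ℓ : ZMod M) = 1) (hπ : Irreducible π) {z : O}
    (hz : E.φ z = (zetaU ℓ : ℂ)) (hzu : IsUnit z) {φ ψ : MF M}
    (hψT : (ψ : ℍ → ℂ) = transferProd (heckeRepG M ℓ 1)
      (fun i => by rw [det_heckeRepG]; exact_mod_cast hℓ.pos) (φ : ℍ → ℂ))
    (hψ : ψ ∈ bddMF E) (δ : SL(2, ℤ)) {c : ℂ} (hc0 : c ≠ 0) (hcK : c ∈ E.K)
    {s : LaurentSeries ℂ} (hs : GoodSer E s) (e : serAlg M (shift M δ φ) = HahnSeries.C c * s) :
    ∃ t, HasOrd E π t 0 ∧ serAlg M (shift M δ ψ) = HahnSeries.C (c ^ (ℓ + 1)) * t := by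
  have h1 := NewVec.serAlg_shift_transfer hℓ hℓM (φ := φ) (ψ := ψ)
    (fun i => by rw [det_heckeRepG]; exact_mod_cast hℓ.pos) hψT (zetaU ℓ) rfl δ
  rw [e] at h1
  set s' : LaurentSeries ℂ := HahnSeries.C (c ^ (ℓ + 1))⁻¹ * serAlg M (shift M δ ψ) with hs'
  have hexpC : ∀ (x : ℂ), GalRep.expand ℓ (NeZero.ne ℓ) (HahnSeries.C x) = HahnSeries.C x :=
    fun x => by rw [HahnSeries.C_apply, expand_single', mul_zero]
  have htwC : ∀ (w : ℂˣ) (x : ℂ), GalRep.twist w (HahnSeries.C x) = HahnSeries.C x := by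
    intro w x
    ext k
    rw [twist_coeff, HahnSeries.C_apply, HahnSeries.coeff_single]
    split_ifs with h
    · subst h; simp
    · simp
  set A := GalRep.expand ℓ (NeZero.ne ℓ) (GalRep.expand ℓ (NeZero.ne ℓ) s)
  set T := ∏ b : Fin ℓ, GalRep.twist (zetaU ℓ ^ (b : ℕ)) s
  have hC : (HahnSeries.C (c ^ (ℓ + 1))⁻¹ : LaurentSeries ℂ) *
      HahnSeries.C (c ^ (ℓ + 1)) = 1 := by
    rw [← map_mul, inv_mul_cancel₀ (pow_ne_zero _ hc0), map_one]
  have hexp : GalRep.expand ℓ (NeZero.ne ℓ) s' = A * T := by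
    rw [hs', map_mul, h1, hexpC, map_mul, map_mul, hexpC, hexpC]
    simp only [map_mul, htwC, Finset.prod_mul_distrib, Finset.prod_const, Finset.card_univ,
      Fintype.card_fin]
    rw [pow_succ, map_mul, map_pow] at hC
    calc _ = (HahnSeries.C (c ^ (ℓ + 1))⁻¹ * (HahnSeries.C c ^ ℓ * HahnSeries.C c)) * (A * T) := by
          ring
      _ = A * T := by rw [pow_succ, hC, one_mul]
  have hord : HasOrd E π (GalRep.expand ℓ (NeZero.ne ℓ) s') 0 := by
    rw [hexp]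
    have h0 := HasOrd.of_goodSer hπ hs
    have htw : ∀ b : Fin ℓ, HasOrd E π (GalRep.twist (zetaU ℓ ^ (b : ℕ)) s) 0 := fun b => by
      have hzb : E.φ (z ^ (b : ℕ)) = ((zetaU ℓ ^ (b : ℕ) : ℂˣ) : ℂ) := by
        rw [map_pow, hz, Units.val_pow_eq_pow_val]
      exact NewVec.HasOrd.twist (E := E) (π := π) (s := s) (e := 0) h0
        (u := zetaU ℓ ^ (b : ℕ)) (z := z ^ (b : ℕ)) hzb (hzu.pow _)
    have hp := NewVec.HasOrd.prod (E := E) hπ
      (fun b : Fin ℓ => GalRep.twist (zetaU ℓ ^ (b : ℕ)) s) 0 htw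
    rw [mul_zero] at hp
    have h2 : HasOrd E π A 0 :=
      NewVec.HasOrd.expand (E := E) (NewVec.HasOrd.expand (E := E) h0 (NeZero.ne ℓ)) (NeZero.ne ℓ)
    have := h2.mul hπ hp
    rwa [zero_add] at this
  have hs'F : s' ∈ E.sFld :=
    mul_mem (E.C_mem (inv_mem (pow_mem hcK _))) ((mem_bddMF E).mp hψ δ)
  have hs'0 : s' ≠ 0 := fun h0 => by
    have := hord.ne_zero hπ
    rw [h0, map_zero] at this
    exact this rfl
  obtain ⟨d, hd⟩ := exists_hasOrd E hπ hs'F hs'0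
  have hd0 : d = 0 := (NewVec.HasOrd.expand (E := E) hd (NeZero.ne ℓ)).unique hπ hord
  refine ⟨s', hd0 ▸ hd, ?_⟩
  rw [hs', ← mul_assoc, ← map_mul, mul_inv_cancel₀ (pow_ne_zero _ hc0), map_one, one_mul]

variable {q m : ℕ} [hq' : Fact q.Prime]

/-- `u` and `q¹² / u` in the chart of the descended field. -/
theorem exists_uv_chart (hqM : q ∣ M) :
    ∃ v : Fld₀ O E q m, (uF₀ O hqM m : Fld₀ O E q m) ∈ chartRing O (jF₀ O E q m) ∧
      v ∈ chartRing O (jF₀ O E q m) ∧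
      ((uF₀ O hqM m : Fld₀ O E q m) : Fld E) * (v : Fld E) = (q : Fld E) ^ 12 := by
  have hv : vF E q hqM ∈ Fld₀ O E q m := by
    have e : vF E q hqM = (q : Fld E) ^ 12 / ((uF₀ O hqM m : Fld₀ O E q m) : Fld E) := by
      show vF E q hqM = (q : Fld E) ^ 12 / uF E q hqM
      rw [eq_div_iff (uF_ne_zero hqM), mul_comm]
      exact uF_mul_vF hqM
    rw [e]
    exact div_mem (pow_mem (natCast_mem _ q) _) (SetLike.coe_mem _)
  exact ⟨⟨_, hv⟩, mem_chart₀_iff'.2 (uF_mem_chart hqM), mem_chart₀_iff'.2 (vF_mem_chart hqM),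
    uF_mul_vF hqM⟩

set_option synthInstance.maxHeartbeats 200000 in
set_option maxHeartbeats 1000000 in
/-- The transfers of `u` and of `q¹² / u`. -/
theorem exists_unit_transfer [Fact ℓ.Prime] (hℓM : (ℓ : ZMod M) = 1) (hqM : q ∣ M) (hmM : m ∣ M)
    (hbase : baseK O E = E.K) (hπ : Irreducible π) {z : O} (hz : E.φ z = (zetaU ℓ : ℂ))
    (hzu : IsUnit z) :
    ∃ X Y : Fld₀ O E q m, X ∈ chartRing O (jF₀ O E q m) ∧ Y ∈ chartRing O (jF₀ O E q m) ∧
      X * Y = (q : Fld₀ O E q m) ^ (12 * (ℓ + 1)) ∧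
      IsU (twoP O E q m hπ true) X ∧ IsU (twoP O E q m hπ false) Y ∧
      GalRep.expand ℓ (NeZero.ne ℓ) (toLS E (X : Fld E)) =
        ∏ i, conjSer ℓ i (toLS E ((uF₀ O hqM m : Fld₀ O E q m) : Fld E)) := by
  classical
  set φ := uM q hqM
  have hℓ : ℓ.Prime := Fact.out
  have hzK : (zetaU ℓ : ℂ) ∈ E.K := hz ▸ E.φ_mem z
  have hφK : serAlg M φ ∈ kSer E.K := kSer_of_bdd E (uM_mem hqM)
  have hφG : ∀ g ∈ levelG q m, shift M g φ = φ := fun g hg =>
    shift_uM_of_mem hqM (mem_levelG.mp hg).1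
  obtain ⟨ψ, hψK, hψG, hψ, hψT⟩ := exists_transfer_mf hℓ hℓM hqM hmM hzK hφK hφG
  have hXmem : ofMF E ψ hψK ∈ Fld₀ O E q m := by
    refine mem_levelFld.mpr ⟨fun g hg => ?_, ?_⟩
    · rw [ofMF, fShift_toFld]
      exact congrArg _ (Subtype.ext (hψG g hg))
    · rw [ofMF, toLS_toFld, hbase]; exact hψK
  set X : Fld₀ O E q m := ⟨_, hXmem⟩
  have hu : toLS E ((uF₀ O hqM m : Fld₀ O E q m) : Fld E) = serAlg M φ := by
    show toLS E (uF E q hqM) = _
    rw [uF, toLS_toFld]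
  have hXser : GalRep.expand ℓ (NeZero.ne ℓ) (toLS E (X : Fld E)) =
      ∏ i, conjSer ℓ i (toLS E ((uF₀ O hqM m : Fld₀ O E q m) : Fld E)) := by
    rw [hu, ← hψ]
    exact congrArg _ (toLS_toFld E _)
  -- the series at every cusp
  have hser : ∀ δ : SL(2, ℤ), ∃ t, HasOrd E π t 0 ∧ serAlg M (shift M δ ψ) =
      HahnSeries.C ((if (q : ℤ) ∣ δ 1 0 then (q : ℂ) ^ 12 else 1) ^ (ℓ + 1)) * t := fun δ => by
    obtain ⟨s, hs, e⟩ := exists_ser_uM (E := E) hqM δ
    have hcK : (if (q : ℤ) ∣ δ 1 0 then (q : ℂ) ^ 12 else 1) ∈ E.K := by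
      split_ifs
      · exact pow_mem (natCast_mem _ q) _
      · exact one_mem _
    have hc0 : (if (q : ℤ) ∣ δ 1 0 then (q : ℂ) ^ 12 else 1) ≠ 0 := by
      split_ifs
      · exact pow_ne_zero _ (Nat.cast_ne_zero.mpr hq'.out.ne_zero)
      · exact one_ne_zero
    exact exists_ord_transfer (E := E) hℓ hℓM hπ hz hzu hψT (bdd_of_kSer E hψK) δ hc0 hcK hs e
  have hX0 : X ≠ 0 := fun h0 => by
    obtain ⟨t, ht, e⟩ := hser ModularGroup.S
    rw [if_neg (by simp [ModularGroup.coe_S, Int.natCast_dvd, hq'.out.ne_one]), one_pow, map_one,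
      one_mul] at e
    have h1 : toFld E ⟨ψ, bdd_of_kSer E hψK⟩ = 0 := congrArg Subtype.val h0
    have h2 : ψ = 0 := congrArg Subtype.val (toFld_injective E (h1.trans (map_zero _).symm))
    rw [h2, map_zero, map_zero] at e
    exact ht.ne_zero hπ e.symm
  obtain ⟨v, huB, hvB, huv⟩ := exists_uv_chart (O := O) (E := E) (q := q) (m := m) hqM
  have hXB : X ∈ chartRing O (jF₀ O E q m) := transfer_mem_chart (ℓ := ℓ) huB hXser
  have hX0' : (X : Fld E) ≠ 0 := fun h => hX0 (Subtype.ext h)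
  obtain ⟨Y, hY⟩ : ∃ Y : Fld₀ O E q m, (Y : Fld E) = (q : Fld E) ^ (12 * (ℓ + 1)) / (X : Fld E) :=
    ⟨⟨_, div_mem (pow_mem (natCast_mem _ q) _) X.2⟩, rfl⟩
  have hYB : Y ∈ chartRing O (jF₀ O E q m) := by
    refine transfer_mem_chart (ℓ := ℓ) (x := v) hvB ?_
    have hprod : GalRep.expand ℓ (NeZero.ne ℓ) (toLS E ((q : Fld E) ^ (12 * (ℓ + 1)))) =
        ∏ i, conjSer ℓ i (toLS E ((q : Fld E) ^ 12)) := by
      simp only [map_pow, map_natCast, Finset.prod_const, Finset.card_univ, Fintype.card_option,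
        Fintype.card_fin, ← pow_mul]
    have hv' : (v : Fld E) = (q : Fld E) ^ 12 / ((uF₀ O hqM m : Fld₀ O E q m) : Fld E) := by
      show (v : Fld E) = (q : Fld E) ^ 12 / uF E q hqM
      rw [eq_div_iff (uF_ne_zero hqM), mul_comm]
      exact huv
    rw [hY, hv', map_div₀, map_div₀, hXser, hprod, ← Finset.prod_div_distrib]
    exact Finset.prod_congr rfl fun i _ => by rw [map_div₀, map_div₀]
  have hXY : X * Y = (q : Fld₀ O E q m) ^ (12 * (ℓ + 1)) := Subtype.ext (by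
    rw [Subfield.coe_mul, hY, mul_div_cancel₀ _ hX0', SubmonoidClass.coe_pow]
    congr 1)
  have hshift : ∀ δ, toLS E (fShift E δ (X : Fld E)) = serAlg M (shift M δ ψ) := fun δ => by
    show toLS E (fShift E δ (ofMF E ψ hψK)) = _
    rw [ofMF, fShift_toFld, toLS_toFld]
  refine ⟨X, Y, hXB, hYB, hXY, ?_, ?_, hXser⟩
  · rw [twoP, comp, isU_comap_iff]
    refine isU_gaussP_of_ord hπ ?_
    obtain ⟨t, ht, e⟩ := hser ModularGroup.S
    rw [if_neg (by simp [ModularGroup.coe_S, Int.natCast_dvd, hq'.out.ne_one]), one_pow, map_one,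
      one_mul] at e
    show HasOrd E π (toLS E (fShift E ModularGroup.S (X : Fld E))) 0
    rw [hshift, e]
    exact ht
  · rw [twoP, comp, isU_comap_iff]
    show IsU (gaussP E hπ 1) (Y : Fld E)
    refine isU_gaussP_of_ord hπ ?_
    obtain ⟨t, ht, e⟩ := hser 1
    rw [if_pos (by simp), ← pow_mul] at e
    have e2 : toLS E (fShift E 1 (Y : Fld E)) = t⁻¹ := by
      rw [hY, map_div₀, map_div₀, hshift, e, map_pow, map_pow, map_natCast, map_natCast,
        map_pow HahnSeries.C, map_natCast, div_mul_cancel_left₀]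
      exact pow_ne_zero _ (by
        rw [← map_natCast HahnSeries.C]
        exact (_root_.map_ne_zero _).mpr (Nat.cast_ne_zero.mpr hq'.out.ne_zero))
    rw [e2]
    obtain ⟨a, b, ha, hb, he⟩ := ht
    rw [zpow_zero, one_mul] at he
    have ht0 : t ≠ 0 := fun h0 => NewVec.gO_ne_zero E ha (by rw [← he, h0, zero_mul])
    exact ⟨b, a, hb, ha, by rw [zpow_zero, one_mul, ← he, inv_mul_cancel_left₀ ht0]⟩

end Fermat.Agent.ModField
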